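/-
S16 library (item 16, architect helper18): interface definitions.

`T := heckeLatticeAlgebra p ∅`, `I :=` image of the Eisenstein ideal.  The theorem S16 says
`|T/I| = n := (p - 1) / gcd (p - 1, 12)`.  Blueprint: NOTES/S16_blueprint.md.
-/
import Mathlib
import Fermat.Prelude.Def_CuspForm_HeckeLocal
import Fermat.Prelude.Def_CuspForm_HeckeEvalForms
import Fermat.Prelude.Def_HeckeGalois_EichlerShimura
import Fermat.Prelude.Def_ModularCurve_ModularUnit

set_option autoImplicit false

noncomputable section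

namespace Fermat.Agent.S16lib

open ModularCurve CuspForm CongruenceSubgroup
open scoped MatrixGroups

/-- Evaluation of the abstract Hecke algebra at the Eisenstein system
(`X_ℓ ↦ 1 + ℓ` for `ℓ ≠ p`, `X_p ↦ 1`).  Its kernel is `eisensteinIdeal p`. -/
def eisEval (p : ℕ) : HeckeAlg →+* ℤ :=
  (MvPolynomial.aeval (R := ℤ) (eisensteinSystem p)).toRingHom

theorem ker_eisEval (p : ℕ) : RingHom.ker (eisEval p) = eisensteinIdeal p := rfl

/-- The structure map of the lattice Hecke algebra of level `p`. -/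
def heckePhi (p : ℕ) [NeZero p] : HeckeAlg →+* ↥(heckeLatticeAlgebra p ∅) :=
  (latticeRestrictHom p ∅).toRingHom.comp (heckeEvalForms p 2)

/-- The `k`-th coefficient of the Eisenstein series of weight `2` and level `p`:
`σ(k) - p σ(k/p)`, the sum of the divisors of `k` prime to `p`. -/
def eisCoeff (p k : ℕ) : ℤ :=
  (ArithmeticFunction.sigma 1 k : ℤ) - p * (if p ∣ k then (ArithmeticFunction.sigma 1 (k / p) : ℤ) else 0)

/-- **Lower bound** (block L): a Hecke polynomial killing `S₂(Γ₀(p))` has Eisenstein value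
divisible by `n`. -/
def LowerBound (p : ℕ) [NeZero p] : Prop :=
  ∀ P : HeckeAlg, heckeEvalForms p 2 P = 0 → ((eisensteinNumerator p : ℤ) ∣ eisEval p P)

/-- A cusp form with integral `q`-expansion congruent to the Eisenstein series modulo `m`. -/
def EisCong (p m : ℕ) : Prop :=
  ∃ f : CuspForm (Gamma0 p) 2, ∀ k : ℕ, 0 < k →
    ∃ a : ℤ, ModularFormClass.qCoeff f k = (a : ℂ) ∧ (m : ℤ) ∣ a - eisCoeff p k

/-- **Upper bound**, first form. -/
def UpperBound (p : ℕ) : Prop :=
  ∀ m : ℕ, 0 < m → EisCong p m → m ∣ eisensteinNumerator p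

/-- A modular form of weight `2` on `Γ₀(p)` with integral `q`-expansion which is congruent modulo
`M` to a constant prime to `M`. -/
def ConstCong (p M : ℕ) : Prop :=
  ∃ (G : ModularForm (Gamma0 p) 2) (c : ℤ), IsCoprime c (M : ℤ) ∧
    ModularFormClass.qCoeff G 0 = (c : ℂ) ∧
    ∀ k : ℕ, 0 < k → ∃ a : ℤ, ModularFormClass.qCoeff G k = (M : ℂ) * (a : ℂ)

/-- **Upper bound**, second form (block U): `M ∣ 24 / gcd (p - 1, 12)`. -/
def UpperBoundForm (p : ℕ) : Prop :=
  ∀ M : ℕ, 0 < M → ConstCong p M → M ∣ 24 / Nat.gcd (p - 1) 12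

theorem ConstCong.of_dvd {p M M' : ℕ} (h : ConstCong p M) (hd : M' ∣ M) : ConstCong p M' := by
  obtain ⟨G, c, hc, h0, hk⟩ := h
  obtain ⟨e, rfl⟩ := hd
  refine ⟨G, c, ?_, h0, fun k hk0 => ?_⟩
  · have : IsCoprime c ((M' : ℤ) * (e : ℤ)) := by exact_mod_cast hc
    exact this.of_mul_right_left
  · obtain ⟨a, ha⟩ := hk k hk0
    exact ⟨e * a, by rw [ha]; push_cast; ring⟩

end Fermat.Agent.S16lib

end
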