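/-
Item 16 (S16), piece U-E/UE2 (helper1): the `q`-series facts in characteristic `2`.

* `ue2_theta_etaProd` (char-free): `θ ν = - (Σ σ(n) q^n) ν` for `ν = ∏ (1 - q^n)`, `θ = q d/dq`.
* in characteristic `2`, `p` odd: `S̄ := Σ eisCoeff p k q^k = σ̄ + σ̄(q^p)`, and for odd integers
  `a`, `b` the unit `χ = ν̄^a ν̄(q^p)^b` satisfies `θ χ = S̄ χ`.
* `j̄ = q⁻¹ ν̄^(-24)` in characteristic `2`.
-/
import Mathlib
import Fermat.Agent.S16lib.Defs
import Fermat.Prelude.Def_ModularCurve_JqCoeff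
import Fermat.Agent.S24lib.FFLaurentDeriv

set_option autoImplicit false

noncomputable section

namespace Fermat.Agent.S16lib

open PowerSeries ModularCurve
open scoped PowerSeries.WithPiTopology

/-! ### `θ = q d/dq` -/

/-- `θ = q d/dq` on power series. -/
def ue2Theta (R : Type*) [CommRing R] : Derivation R R⟦X⟧ R⟦X⟧ :=
  (X : R⟦X⟧) • PowerSeries.derivative R

theorem ue2Theta_apply {R : Type*} [CommRing R] (f : R⟦X⟧) :
    ue2Theta R f = X * PowerSeries.derivative R f := rfl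

theorem coeff_ue2Theta {R : Type*} [CommRing R] (f : R⟦X⟧) (n : ℕ) :
    coeff n (ue2Theta R f) = (n : R) * coeff n f := by
  rw [ue2Theta_apply]
  rcases n with _ | n
  · simp
  · rw [coeff_succ_X_mul, PowerSeries.coeff_derivative]
    push_cast
    ring

theorem ue2Theta_map {R S : Type*} [CommRing R] [CommRing S] (φ : R →+* S) (f : R⟦X⟧) :
    ue2Theta S (f.map φ) = (ue2Theta R f).map φ := by
  ext n
  rw [coeff_ue2Theta, coeff_map, coeff_map, coeff_ue2Theta, map_mul, map_natCast]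

theorem ue2Theta_expand {R : Type*} [CommRing R] (p : ℕ) (hp : p ≠ 0) (f : R⟦X⟧) :
    ue2Theta R (expand p hp f) = (p : R⟦X⟧) * expand p hp (ue2Theta R f) := by
  ext n
  have hC : ((p : R⟦X⟧)) = C (p : R) := by simp
  rw [coeff_ue2Theta, hC, coeff_C_mul]
  by_cases h : p ∣ n
  · obtain ⟨m, rfl⟩ := h
    rw [coeff_expand_mul, coeff_expand_mul, coeff_ue2Theta]
    push_cast
    ring
  · rw [coeff_expand_of_not_dvd p hp _ h, coeff_expand_of_not_dvd p hp _ h]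
    simp

/-! ### the logarithmic derivative of `∏ (1 - q^n)` -/

/-- `Σ σ(n) q^n` -/
def ue2Sigma : ℤ⟦X⟧ := PowerSeries.mk fun n => (ArithmeticFunction.sigma 1 n : ℤ)

theorem coeff_ue2Sigma (n : ℕ) : coeff n ue2Sigma = (ArithmeticFunction.sigma 1 n : ℤ) :=
  coeff_mk _ _

/-- `L_m = Σ_{j ≥ 1} m q^{m j}` -/
def ue2L (m : ℕ) : ℤ⟦X⟧ := PowerSeries.mk fun k => if k ≠ 0 ∧ m ∣ k then (m : ℤ) else 0

theorem coeff_ue2L (m k : ℕ) : coeff k (ue2L m) = if k ≠ 0 ∧ m ∣ k then (m : ℤ) else 0 :=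
  coeff_mk _ _

theorem ue2L_mul (m : ℕ) (hm : 0 < m) : ue2L m * (1 - X ^ m) = C (m : ℤ) * X ^ m := by
  ext k
  rw [mul_sub, mul_one, map_sub, coeff_mul_X_pow', coeff_C_mul, coeff_X_pow, coeff_ue2L]
  by_cases hk0 : k = 0
  · subst hk0
    have : ¬ m ≤ 0 := by omega
    have h2 : (0 : ℕ) ≠ m := by omega
    simp [this, h2]
  by_cases hmk : m ∣ k
  · have hle : m ≤ k := Nat.le_of_dvd (Nat.pos_of_ne_zero hk0) hmk
    rw [if_pos ⟨hk0, hmk⟩, if_pos hle, coeff_ue2L]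
    by_cases hkm : k = m
    · subst hkm
      simp
    · have h1 : k - m ≠ 0 := by omega
      have h2 : m ∣ k - m := Nat.dvd_sub hmk (dvd_refl m)
      rw [if_pos ⟨h1, h2⟩, if_neg hkm]
      simp
  · have hkm : k ≠ m := fun h => hmk (h ▸ dvd_refl _)
    rw [if_neg (fun h => hmk h.2), if_neg hkm]
    by_cases hle : m ≤ k
    · have h2 : ¬ m ∣ k - m := fun h => hmk (by
        have := Nat.dvd_add h (dvd_refl m)
        rwa [Nat.sub_add_cancel hle] at this)
      rw [if_pos hle, coeff_ue2L, if_neg (fun h => h2 h.2)]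
      simp
    · rw [if_neg hle]
      simp

theorem ue2Theta_one_sub_X_pow (m : ℕ) (hm : 0 < m) :
    ue2Theta ℤ (1 - X ^ m) = -(ue2L m * (1 - X ^ m)) := by
  rw [ue2L_mul m hm]
  ext k
  rw [coeff_ue2Theta, map_neg, coeff_C_mul, map_sub, coeff_one, coeff_X_pow]
  by_cases hk0 : k = 0
  · subst hk0
    have h2 : (0 : ℕ) ≠ m := by omega
    simp [h2]
  · by_cases hkm : k = m
    · subst hkm
      simp [hk0]
    · simp [hk0, hkm]

/-- the partial products of `ν`. -/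
def ue2P (N : ℕ) : ℤ⟦X⟧ := ∏ n ∈ Finset.range N, (1 - X ^ (n + 1))

/-- the partial sums of `Σ L_m`. -/
def ue2A (N : ℕ) : ℤ⟦X⟧ := ∑ n ∈ Finset.range N, ue2L (n + 1)

theorem ue2Theta_P (N : ℕ) : ue2Theta ℤ (ue2P N) = -(ue2A N * ue2P N) := by
  induction N with
  | zero => simp [ue2P, ue2A]
  | succ N ih =>
    have hP : ue2P (N + 1) = ue2P N * (1 - X ^ (N + 1)) := Finset.prod_range_succ _ _
    have hA : ue2A (N + 1) = ue2A N + ue2L (N + 1) := Finset.sum_range_succ _ _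
    rw [hP, hA, Derivation.leibniz, ih, ue2Theta_one_sub_X_pow (N + 1) (Nat.succ_pos N),
      smul_eq_mul, smul_eq_mul]
    ring

theorem ue2_tendsto_P : Filter.Tendsto ue2P Filter.atTop (nhds etaProd) :=
  (PowerSeries.WithPiTopology.multipliable_one_sub_X_pow ℤ).hasProd.tendsto_prod_nat

theorem coeff_ue2A (N k : ℕ) (hk : k < N) : coeff k (ue2A N) = coeff k ue2Sigma := by
  rw [ue2A, map_sum, coeff_ue2Sigma]
  simp only [coeff_ue2L]
  by_cases hk0 : k = 0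
  · subst hk0
    simp
  rw [ArithmeticFunction.sigma_one_apply]
  push_cast
  rw [← Finset.sum_filter]
  have hset : (Finset.range N).filter (fun n => k ≠ 0 ∧ n + 1 ∣ k)
      = (k.divisors).image (fun d => d - 1) := by
    ext n
    simp only [Finset.mem_filter, Finset.mem_range, Finset.mem_image, Nat.mem_divisors]
    constructor
    · rintro ⟨_, _, hd⟩
      exact ⟨n + 1, ⟨hd, hk0⟩, by omega⟩
    · rintro ⟨d, ⟨hd, _⟩, rfl⟩
      have hdpos : 0 < d := Nat.pos_of_dvd_of_pos hd (Nat.pos_of_ne_zero hk0)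
      have hdle : d ≤ k := Nat.le_of_dvd (Nat.pos_of_ne_zero hk0) hd
      refine ⟨by omega, hk0, ?_⟩
      rwa [Nat.sub_add_cancel hdpos]
  rw [hset, Finset.sum_image]
  · refine Finset.sum_congr rfl fun d hd => ?_
    have hdpos : 0 < d := Nat.pos_of_mem_divisors hd
    have : d - 1 + 1 = d := Nat.sub_add_cancel hdpos
    exact_mod_cast this
  · intro a ha b hb hab
    have ha' : 0 < a := Nat.pos_of_mem_divisors ha
    have hb' : 0 < b := Nat.pos_of_mem_divisors hb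
    simp only at hab
    omega

theorem ue2_tendsto_A : Filter.Tendsto ue2A Filter.atTop (nhds ue2Sigma) := by
  rw [PowerSeries.WithPiTopology.tendsto_iff_coeff_tendsto]
  intro d
  refine tendsto_const_nhds.congr' ?_
  filter_upwards [Filter.eventually_gt_atTop d] with N hN
  exact (coeff_ue2A N d hN).symm

theorem ue2_continuous_theta : Continuous (ue2Theta ℤ : ℤ⟦X⟧ → ℤ⟦X⟧) := by
  rw [continuous_iff_continuousAt]
  intro f
  rw [ContinuousAt, PowerSeries.WithPiTopology.tendsto_iff_coeff_tendsto]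
  intro d
  simp only [coeff_ue2Theta]
  exact tendsto_const_nhds.mul
    ((PowerSeries.WithPiTopology.continuous_coeff ℤ d).tendsto f)

/-- **Euler**: `θ ν = - (Σ σ(n) q^n) ν`. -/
theorem ue2_theta_etaProd : ue2Theta ℤ etaProd = -(ue2Sigma * etaProd) := by
  have h1 : Filter.Tendsto (fun N => ue2Theta ℤ (ue2P N)) Filter.atTop
      (nhds (ue2Theta ℤ etaProd)) :=
    (ue2_continuous_theta.tendsto etaProd).comp ue2_tendsto_P
  have h2 : Filter.Tendsto (fun N => -(ue2A N * ue2P N)) Filter.atTop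
      (nhds (-(ue2Sigma * etaProd))) :=
    (ue2_tendsto_A.mul ue2_tendsto_P).neg
  have h3 : (fun N => ue2Theta ℤ (ue2P N)) = fun N => -(ue2A N * ue2P N) :=
    funext ue2Theta_P
  rw [h3] at h1
  exact tendsto_nhds_unique h1 h2

/-! ### derivations and powers of units -/

theorem ue2_deriv_zpow {R A : Type*} [CommRing R] [CommRing A] [Algebra R A]
    (D : Derivation R A A) (u : Aˣ) (c : A) (h : D (u : A) = c * u) (z : ℤ) :
    D ((u ^ z : Aˣ) : A) = (z : A) * c * ((u ^ z : Aˣ) : A) := by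
  induction z using Int.induction_on with
  | zero => simp
  | succ n ih =>
    rw [zpow_add_one, Units.val_mul, Derivation.leibniz, ih, h, smul_eq_mul, smul_eq_mul]
    push_cast
    ring
  | pred n ih =>
    have h1 : ((u ^ (-(n : ℤ)) : Aˣ) : A) = ((u ^ (-(n : ℤ) - 1) : Aˣ) : A) * (u : A) := by
      rw [← Units.val_mul, ← zpow_add_one, sub_add_cancel]
    have h2 := ih
    rw [h1, Derivation.leibniz, h, smul_eq_mul, smul_eq_mul] at h2
    have h3 : (u : A) * (D ((u ^ (-(n : ℤ) - 1) : Aˣ) : A)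
        - ((-(n : ℤ) - 1 : ℤ) : A) * c * ((u ^ (-(n : ℤ) - 1) : Aˣ) : A)) = 0 := by
      have h4 : (u : A) * D ((u ^ (-(n : ℤ) - 1) : Aˣ) : A)
          = ((-(n : ℤ) : ℤ) : A) * c * (((u ^ (-(n : ℤ) - 1) : Aˣ) : A) * (u : A))
            - ((u ^ (-(n : ℤ) - 1) : Aˣ) : A) * (c * (u : A)) := by
        rw [← h2]; ring
      rw [mul_sub, h4]
      push_cast
      ring
    have h5 := (Units.mul_right_eq_zero u).mp (by rwa [mul_comm] at h3)
    exact sub_eq_zero.mp h5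

/-! ### characteristic `2` -/

section CharTwo

variable (k : Type*) [CommRing k]

theorem ue2_two_eq_zero [CharP k 2] : (2 : k) = 0 := by
  have := CharP.cast_eq_zero k 2
  exact_mod_cast this

theorem ue2_intCast_of_odd {A : Type*} [CommRing A] (h2 : (2 : A) = 0) {a : ℤ} (ha : Odd a) :
    (a : A) = 1 := by
  obtain ⟨m, rfl⟩ := ha
  push_cast
  rw [h2, zero_mul, zero_add]

theorem ue2_natCast_of_odd {A : Type*} [CommRing A] (h2 : (2 : A) = 0) {a : ℕ} (ha : Odd a) :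
    (a : A) = 1 := by
  obtain ⟨m, rfl⟩ := ha
  push_cast
  rw [h2, zero_mul, zero_add]

theorem ue2_neg_eq {A : Type*} [CommRing A] (h2 : (2 : A) = 0) (x : A) : -x = x := by
  have : x + x = 0 := by rw [← two_mul, h2, zero_mul]
  exact neg_eq_of_add_eq_zero_left this

theorem ue2_two_eq_zero_ps [CharP k 2] : (2 : k⟦X⟧) = 0 := by
  have h : (2 : k⟦X⟧) = C (2 : k) := (map_ofNat (C (R := k)) 2).symm
  rw [h, ue2_two_eq_zero k, map_zero]

/-- `ν̄ = ∏ (1 - q^n)` over `k` -/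
def ue2Nu : k⟦X⟧ := etaProd.map (Int.castRingHom k)

/-- `σ̄ = Σ σ(n) q^n` over `k` -/
def ue2SigmaBar : k⟦X⟧ := ue2Sigma.map (Int.castRingHom k)

/-- `S̄ = Σ eisCoeff p n q^n` over `k` -/
def ue2Sbar (p : ℕ) : k⟦X⟧ := PowerSeries.mk fun n => ((eisCoeff p n : ℤ) : k)

theorem coeff_ue2Sbar (p n : ℕ) : coeff n (ue2Sbar k p) = ((eisCoeff p n : ℤ) : k) :=
  coeff_mk _ _

theorem coeff_ue2SigmaBar (n : ℕ) :
    coeff n (ue2SigmaBar k) = ((ArithmeticFunction.sigma 1 n : ℕ) : k) := by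
  rw [ue2SigmaBar, coeff_map, coeff_ue2Sigma]
  simp

theorem constantCoeff_ue2Nu : constantCoeff (ue2Nu k) = 1 := by
  rw [ue2Nu, ← coeff_zero_eq_constantCoeff_apply, coeff_map, coeff_zero_eq_constantCoeff_apply,
    constantCoeff_etaProd, map_one]

theorem ue2_theta_nu [CharP k 2] : ue2Theta k (ue2Nu k) = ue2SigmaBar k * ue2Nu k := by
  rw [ue2Nu, ue2Theta_map, ue2_theta_etaProd, map_neg, map_mul,
    ue2_neg_eq (ue2_two_eq_zero_ps k)]
  rfl

theorem ue2_Sbar_eq [CharP k 2] (p : ℕ) (hp : Odd p) (hp0 : p ≠ 0) :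
    ue2Sbar k p = ue2SigmaBar k + expand p hp0 (ue2SigmaBar k) := by
  ext n
  rw [coeff_ue2Sbar, map_add, coeff_ue2SigmaBar, eisCoeff]
  have hpk : (p : k) = 1 := ue2_natCast_of_odd (ue2_two_eq_zero k) hp
  by_cases h : p ∣ n
  · obtain ⟨m, rfl⟩ := h
    rw [coeff_expand_mul, coeff_ue2SigmaBar, if_pos (dvd_mul_right p m),
      Nat.mul_div_cancel_left m (Nat.pos_of_ne_zero hp0)]
    push_cast
    rw [hpk, one_mul, sub_eq_add_neg, ue2_neg_eq (ue2_two_eq_zero k)]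
  · rw [coeff_expand_of_not_dvd p hp0 _ h, if_neg h]
    push_cast
    simp

/-- `ν̄` as a unit -/
def ue2NuU : (k⟦X⟧)ˣ :=
  (PowerSeries.isUnit_iff_constantCoeff.mpr
    (by rw [constantCoeff_ue2Nu]; exact isUnit_one) : IsUnit (ue2Nu k)).unit

@[simp] theorem coe_ue2NuU : ((ue2NuU k : (k⟦X⟧)ˣ) : k⟦X⟧) = ue2Nu k := rfl

/-- `ν̄(q^p)` as a unit -/
def ue2NuPU (p : ℕ) (hp0 : p ≠ 0) : (k⟦X⟧)ˣ :=
  Units.map ((expand p hp0 : k⟦X⟧ →ₐ[k] k⟦X⟧) : k⟦X⟧ →* k⟦X⟧) (ue2NuU k)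

@[simp] theorem coe_ue2NuPU (p : ℕ) (hp0 : p ≠ 0) :
    ((ue2NuPU k p hp0 : (k⟦X⟧)ˣ) : k⟦X⟧) = expand p hp0 (ue2Nu k) := rfl

theorem ue2_theta_nuP [CharP k 2] (p : ℕ) (hp : Odd p) (hp0 : p ≠ 0) :
    ue2Theta k (expand p hp0 (ue2Nu k))
      = expand p hp0 (ue2SigmaBar k) * expand p hp0 (ue2Nu k) := by
  rw [ue2Theta_expand, ue2_theta_nu, map_mul,
    ue2_natCast_of_odd (ue2_two_eq_zero_ps k) hp, one_mul]

/-- the unit `χ = ν̄^a ν̄(q^p)^b` -/
def ue2Chi (p : ℕ) (hp0 : p ≠ 0) (a b : ℤ) : (k⟦X⟧)ˣ := ue2NuU k ^ a * ue2NuPU k p hp0 ^ b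

/-- **UE2, logarithmic derivative**: for `p`, `a`, `b` odd, `θ χ = S̄ χ` in characteristic `2`. -/
theorem ue2_theta_chi [CharP k 2] (p : ℕ) (hp : Odd p) (hp0 : p ≠ 0) (a b : ℤ) (ha : Odd a)
    (hb : Odd b) :
    ue2Theta k ((ue2Chi k p hp0 a b : (k⟦X⟧)ˣ) : k⟦X⟧)
      = ue2Sbar k p * ((ue2Chi k p hp0 a b : (k⟦X⟧)ˣ) : k⟦X⟧) := by
  have h1 := ue2_deriv_zpow (ue2Theta k) (ue2NuU k) (ue2SigmaBar k) (ue2_theta_nu k) a
  have h2 := ue2_deriv_zpow (ue2Theta k) (ue2NuPU k p hp0) (expand p hp0 (ue2SigmaBar k))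
    (ue2_theta_nuP k p hp hp0) b
  rw [ue2_intCast_of_odd (ue2_two_eq_zero_ps k) ha, one_mul] at h1
  rw [ue2_intCast_of_odd (ue2_two_eq_zero_ps k) hb, one_mul] at h2
  rw [ue2Chi, Units.val_mul, Derivation.leibniz, h1, h2, smul_eq_mul, smul_eq_mul,
    ue2_Sbar_eq k p hp hp0]
  ring

end CharTwo

/-! ### the Laurent series `j̄` and `j̄(q^p)` in characteristic `2` -/

section Laurent

open HahnSeries

variable (k : Type*) [CommRing k]

theorem ue2_qExpand_ofPowerSeries (p : ℕ) [NeZero p] (f : k⟦X⟧) :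
    qExpand k p (HahnSeries.ofPowerSeries ℤ k f)
      = HahnSeries.ofPowerSeries ℤ k (expand p (NeZero.ne p) f) := by
  ext n
  by_cases h : (p : ℤ) ∣ n
  · obtain ⟨m, rfl⟩ := h
    rw [qExpand_coeff_mul]
    rcases le_or_gt 0 m with hm | hm
    · lift m to ℕ using hm
      rw [HahnSeries.ofPowerSeries_apply_coeff,
        show (p : ℤ) * (m : ℤ) = ((p * m : ℕ) : ℤ) by push_cast; rfl,
        HahnSeries.ofPowerSeries_apply_coeff, coeff_expand_mul]
    · have hp : (0 : ℤ) < p := by exact_mod_cast Nat.pos_of_ne_zero (NeZero.ne p)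
      rw [ModularCurve.ofPowerSeries_coeff_of_neg _ hm,
        ModularCurve.ofPowerSeries_coeff_of_neg _ (mul_neg_of_pos_of_neg hp hm)]
  · rw [qExpand_coeff_of_not_dvd p _ h]
    rcases le_or_gt 0 n with hn | hn
    · lift n to ℕ using hn
      rw [HahnSeries.ofPowerSeries_apply_coeff, coeff_expand_of_not_dvd]
      exact fun h' => h (by exact_mod_cast h')
    · rw [ModularCurve.ofPowerSeries_coeff_of_neg _ hn]

theorem ue2_eisenstein4_map [CharP k 2] : eisenstein4.map (Int.castRingHom k) = 1 := by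
  ext n
  rw [coeff_map, eisenstein4, coeff_mk, PowerSeries.coeff_one]
  by_cases hn : n = 0
  · simp [hn]
  · rw [if_neg hn, if_neg hn]
    have h240 : ((240 : ℤ) : k) = 0 := by
      have : ((240 : ℤ) : k) = (2 : k) * 120 := by push_cast; norm_num
      rw [this, ue2_two_eq_zero k, zero_mul]
    rw [map_mul, eq_intCast, h240, zero_mul]

theorem ue2_jNum_map [CharP k 2] :
    jNum.map (Int.castRingHom k) = ((ue2NuU k ^ (-24 : ℤ) : (k⟦X⟧)ˣ) : k⟦X⟧) := by
  have h1 : dedekindEtaUnit.map (Int.castRingHom k) * dedekindEtaUnitInv.map (Int.castRingHom k)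
      = 1 := by
    rw [← map_mul, dedekindEtaUnit_mul_inv, map_one]
  have h2 : dedekindEtaUnit.map (Int.castRingHom k) = ((ue2NuU k ^ (24 : ℤ) : (k⟦X⟧)ˣ) : k⟦X⟧) := by
    rw [dedekindEtaUnit, map_pow]
    rfl
  rw [jNum, map_mul, map_pow, ue2_eisenstein4_map, one_pow, one_mul]
  rw [h2] at h1
  have h3 : dedekindEtaUnitInv.map (Int.castRingHom k)
      = ((ue2NuU k ^ (24 : ℤ) : (k⟦X⟧)ˣ)⁻¹ : (k⟦X⟧)ˣ) := by
    rw [← one_mul (dedekindEtaUnitInv.map (Int.castRingHom k)),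
      ← Units.inv_mul (ue2NuU k ^ (24 : ℤ)), mul_assoc, h1, mul_one]
  rw [h3, ← zpow_neg]

theorem ue2_jqModC [CharP k 2] :
    jqModC k = HahnSeries.single (-1 : ℤ) (1 : k)
      * HahnSeries.ofPowerSeries ℤ k ((ue2NuU k ^ (-24 : ℤ) : (k⟦X⟧)ˣ) : k⟦X⟧) := by
  rw [jqModC, ue2_jNum_map]

theorem ue2_jqNModC [CharP k 2] (p : ℕ) [NeZero p] :
    jqNModC k p = HahnSeries.single (-(p : ℤ)) (1 : k)
      * HahnSeries.ofPowerSeries ℤ k
          ((ue2NuPU k p (NeZero.ne p) ^ (-24 : ℤ) : (k⟦X⟧)ˣ) : k⟦X⟧) := by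
  rw [jqNModC, ue2_jqModC, map_mul, qExpand_single, mul_neg, mul_one,
    ue2_qExpand_ofPowerSeries]
  congr 2
  rw [ue2NuPU, ← map_zpow]
  rfl

theorem ue2_jqModC_pow [CharP k 2] (m : ℕ) :
    jqModC k ^ m = HahnSeries.single (-(m : ℤ)) (1 : k)
      * HahnSeries.ofPowerSeries ℤ k ((ue2NuU k ^ (-24 * (m : ℤ)) : (k⟦X⟧)ˣ) : k⟦X⟧) := by
  rw [ue2_jqModC, mul_pow, HahnSeries.single_pow, one_pow, ← map_pow, ← Units.val_pow_eq_pow_val,
    ← zpow_natCast, ← zpow_mul]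
  simp

/-- **UE2, the eighth root**: `χ₈ := ν̄^(-3p) ν̄(q^p)^3` satisfies `χ₈^8 · j̄(q^p) = j̄^p`. -/
theorem ue2_chi_pow_eight [CharP k 2] (p : ℕ) [NeZero p] :
    HahnSeries.ofPowerSeries ℤ k
        ((ue2Chi k p (NeZero.ne p) (-3 * (p : ℤ)) 3 : (k⟦X⟧)ˣ) : k⟦X⟧) ^ 8 * jqNModC k p
      = jqModC k ^ p := by
  rw [ue2_jqModC_pow, ue2_jqNModC, ← map_pow, mul_left_comm, ← map_mul]
  congr 2
  rw [← Units.val_pow_eq_pow_val, ← Units.val_mul]
  congr 1
  rw [ue2Chi, mul_pow, ← zpow_natCast, ← zpow_natCast, ← zpow_mul, ← zpow_mul, mul_assoc,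
    ← zpow_add]
  norm_num
  congr 1
  ring

end Laurent

/-! ### `θ = q d/dq` on Laurent series over a field -/

section LaurentTheta

open HahnSeries

variable (k : Type*) [Field k]

theorem ue2_algebraMap_eq_C (c : k) :
    algebraMap k (LaurentSeries k) c = HahnSeries.C c := by
  have h1 : algebraMap k (PowerSeries k) c = PowerSeries.C c := by simp
  rw [HahnSeries.algebraMap_apply', h1, HahnSeries.ofPowerSeries_C]

/-- `θ = q d/dq` on Laurent series, as a derivation. -/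
def ue2ThetaL : Derivation k (LaurentSeries k) (LaurentSeries k) where
  toFun f := HahnSeries.single (1 : ℤ) (1 : k) * LaurentSeries.derivative k f
  map_add' f g := by rw [map_add, mul_add]
  map_smul' c f := by
    rw [RingHom.id_apply, Algebra.smul_def, ue2_algebraMap_eq_C,
      Fermat.Agent.S24lib.lsDerivative_mul, Fermat.Agent.S24lib.lsDerivative_C, mul_zero,
      add_zero, ← HahnSeries.C_mul_eq_smul]
    ring
  map_one_eq_zero' := by
    show HahnSeries.single (1 : ℤ) (1 : k) * LaurentSeries.derivative k 1 = 0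
    have : (1 : LaurentSeries k) = HahnSeries.C (1 : k) := (map_one _).symm
    rw [this, Fermat.Agent.S24lib.lsDerivative_C, mul_zero]
  leibniz' f g := by
    show HahnSeries.single (1 : ℤ) (1 : k) * LaurentSeries.derivative k (f * g)
      = f • (HahnSeries.single (1 : ℤ) (1 : k) * LaurentSeries.derivative k g)
        + g • (HahnSeries.single (1 : ℤ) (1 : k) * LaurentSeries.derivative k f)
    rw [Fermat.Agent.S24lib.lsDerivative_mul, smul_eq_mul, smul_eq_mul]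
    ring

theorem ue2ThetaL_apply (f : LaurentSeries k) :
    ue2ThetaL k f = HahnSeries.single (1 : ℤ) (1 : k) * LaurentSeries.derivative k f := rfl

theorem coeff_ue2ThetaL (f : LaurentSeries k) (n : ℤ) :
    (ue2ThetaL k f).coeff n = (n : k) * f.coeff n := by
  rw [ue2ThetaL_apply, HahnSeries.coeff_single_mul, one_mul,
    Fermat.Agent.S24lib.lsCoeff_derivative, sub_add_cancel]

theorem ue2ThetaL_ofPowerSeries (f : k⟦X⟧) :
    ue2ThetaL k (HahnSeries.ofPowerSeries ℤ k f)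
      = HahnSeries.ofPowerSeries ℤ k (ue2Theta k f) := by
  ext n
  rw [coeff_ue2ThetaL]
  rcases le_or_gt 0 n with hn | hn
  · lift n to ℕ using hn
    rw [HahnSeries.ofPowerSeries_apply_coeff, HahnSeries.ofPowerSeries_apply_coeff,
      coeff_ue2Theta]
    simp
  · rw [ModularCurve.ofPowerSeries_coeff_of_neg _ hn,
      ModularCurve.ofPowerSeries_coeff_of_neg _ hn, mul_zero]

theorem ue2ThetaL_single (a : ℤ) (c : k) :
    ue2ThetaL k (HahnSeries.single a c) = (a : k) • HahnSeries.single a c := by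
  ext n
  rw [coeff_ue2ThetaL, HahnSeries.coeff_smul, smul_eq_mul]
  by_cases h : n = a
  · subst h; rfl
  · rw [HahnSeries.coeff_single_of_ne h, mul_zero, mul_zero]

/-- in characteristic `2`, `θ j̄ = j̄`. -/
theorem ue2ThetaL_jqModC [CharP k 2] : ue2ThetaL k (jqModC k) = jqModC k := by
  have h24 : (((-24 : ℤ) : ℤ) : k⟦X⟧) = 0 := by
    have : (((-24 : ℤ) : ℤ) : k⟦X⟧) = (2 : k⟦X⟧) * (-12) := by push_cast; norm_num
    rw [this, ue2_two_eq_zero_ps k, zero_mul]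
  have h1 := ue2_deriv_zpow (ue2Theta k) (ue2NuU k) (ue2SigmaBar k) (ue2_theta_nu k) (-24)
  rw [h24, zero_mul, zero_mul] at h1
  have hm1 : ((-1 : ℤ) : k) = 1 := by
    push_cast
    exact ue2_neg_eq (ue2_two_eq_zero k) 1
  rw [ue2_jqModC, Derivation.leibniz, ue2ThetaL_ofPowerSeries, h1, map_zero, smul_zero,
    zero_add, ue2ThetaL_single, hm1, one_smul, smul_eq_mul, mul_comm]

/-- **UE2 on Laurent series**: `θ χ = S̄ χ` for `χ = ν̄^a ν̄(q^p)^b`, `p`, `a`, `b` odd. -/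
theorem ue2ThetaL_chi [CharP k 2] (p : ℕ) (hp : Odd p) (hp0 : p ≠ 0) (a b : ℤ) (ha : Odd a)
    (hb : Odd b) :
    ue2ThetaL k (HahnSeries.ofPowerSeries ℤ k ((ue2Chi k p hp0 a b : (k⟦X⟧)ˣ) : k⟦X⟧))
      = HahnSeries.ofPowerSeries ℤ k (ue2Sbar k p)
        * HahnSeries.ofPowerSeries ℤ k ((ue2Chi k p hp0 a b : (k⟦X⟧)ˣ) : k⟦X⟧) := by
  rw [ue2ThetaL_ofPowerSeries, ue2_theta_chi k p hp hp0 a b ha hb, map_mul]

end LaurentTheta

end Fermat.Agent.S16lib
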