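/-
Item 16 (S16), piece U-E, UE-D (a) (helper11): derivations of a function field inside `K((q))`.
For a field `F ⊇ K` with a `K`-embedding `ι : F → K((q))` whose module of differentials is generated
by one element: if `d(ι y)/dq = ι a · d(ι t)/dq` in `K((q))` and `d(ι t)/dq ≠ 0`, then
`D y = a • D t` in `Ω[F/K]`.  (The same with `θ = q d/dq`.)  Any characteristic.
For an intermediate field `F ⊆ K((q))` take `ι = F.val`.
-/
import Mathlib
import Fermat.Agent.S24lib.FFLaurentDeriv
import Fermat.Prelude.Def_ModularCurve_CanonicalDivisor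

set_option autoImplicit false

noncomputable section

namespace Fermat.Agent.S16lib

open KaehlerDifferential Fermat.Agent.S24lib

variable {K F : Type*} [Field K] [Field F] [Algebra K F] (ι : F →ₐ[K] LaurentSeries K)

/-- the `F`-module structure on `K((q))` given by `ι`. -/
@[reducible] def uedaModule : Module F (LaurentSeries K) :=
  Module.compHom (LaurentSeries K) ι.toRingHom

theorem ueda_smul_const (c : K) (x : LaurentSeries K) : c • x = HahnSeries.C c * x := by
  ext n
  rw [HahnSeries.coeff_smul, HahnSeries.C_apply, HahnSeries.coeff_single_zero_mul, smul_eq_mul]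

theorem ueda_algebraMap (c : K) : algebraMap K (LaurentSeries K) c = HahnSeries.C c := by
  have h1 : algebraMap K (PowerSeries K) c = PowerSeries.C c := by simp
  rw [HahnSeries.algebraMap_apply', h1, HahnSeries.ofPowerSeries_C]

theorem ueda_map_smul (c : K) (a : F) : ι (c • a) = HahnSeries.C c * ι a := by
  rw [Algebra.smul_def, map_mul, AlgHom.commutes, ueda_algebraMap]

theorem ueda_isScalarTower :
    letI := uedaModule ι
    IsScalarTower K F (LaurentSeries K) := by
  let _ := uedaModule ι
  refine ⟨fun c a x => ?_⟩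
  show ι (c • a) * x = c • (ι a * x)
  rw [ueda_map_smul, ueda_smul_const, mul_assoc]

/-- `d/dq ∘ ι` as a `K`-derivation `F → K((q))`. -/
def uedaDeriv :
    letI := uedaModule ι
    Derivation K F (LaurentSeries K) :=
  letI := uedaModule ι
  Derivation.mk'
    { toFun := fun a => LaurentSeries.derivative K (ι a)
      map_add' := fun a b => by
        rw [map_add, map_add]
      map_smul' := fun c a => by
        rw [RingHom.id_apply, ueda_smul_const, ueda_map_smul, lsDerivative_mul, lsDerivative_C,
          mul_zero, add_zero] }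
    (fun a b => by
      show LaurentSeries.derivative K (ι (a * b)) =
        ι a * LaurentSeries.derivative K (ι b) + ι b * LaurentSeries.derivative K (ι a)
      rw [map_mul, lsDerivative_mul])

/-- the `F`-linear map `Ω[F/K] → K((q))`, `D a ↦ d(ι a)/dq`. -/
def uedaLift :
    letI := uedaModule ι
    Ω[F⁄K] →ₗ[F] LaurentSeries K :=
  letI := uedaModule ι
  haveI := ueda_isScalarTower ι
  (uedaDeriv ι).liftKaehlerDifferential

theorem uedaLift_D (a : F) :
    letI := uedaModule ι
    uedaLift ι (D K F a) = LaurentSeries.derivative K (ι a) := by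
  let _ := uedaModule ι
  have := ueda_isScalarTower ι
  exact Derivation.liftKaehlerDifferential_comp_D (uedaDeriv ι) a

theorem uedaLift_smul (c : F) (ω : Ω[F⁄K]) :
    letI := uedaModule ι
    uedaLift ι (c • ω) = ι c * uedaLift ι ω := by
  let _ := uedaModule ι
  rw [map_smul]
  rfl

/-- `D t ≠ 0` if `d(ι t)/dq ≠ 0`. -/
theorem ueda_D_ne_zero {t : F} (ht : LaurentSeries.derivative K (ι t) ≠ 0) :
    D K F t ≠ 0 := by
  intro h0
  apply ht
  have := uedaLift_D ι t
  rw [h0] at this
  rw [← this]
  let _ := uedaModule ι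
  exact map_zero _

/-- **UE-D (a)**: `D y = a • D t` whenever `d(ι y)/dq = ι a · d(ι t)/dq` and `d(ι t)/dq ≠ 0`. -/
theorem ueda_D_eq_smul (hspan : ∃ ω₀ : Ω[F⁄K], Submodule.span F {ω₀} = ⊤) {y t a : F}
    (ht : LaurentSeries.derivative K (ι t) ≠ 0)
    (h : LaurentSeries.derivative K (ι y) = ι a * LaurentSeries.derivative K (ι t)) :
    D K F y = a • D K F t := by
  obtain ⟨ω₀, hω₀⟩ := hspan
  have hmem : ∀ ω : Ω[F⁄K], ∃ c : F, c • ω₀ = ω := fun ω => by
    have : ω ∈ Submodule.span F {ω₀} := by rw [hω₀]; exact Submodule.mem_top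
    exact Submodule.mem_span_singleton.1 this
  obtain ⟨ct, hct⟩ := hmem (D K F t)
  obtain ⟨cy, hcy⟩ := hmem (D K F y)
  have hDt := ueda_D_ne_zero ι ht
  have hct0 : ct ≠ 0 := by
    rintro rfl
    rw [zero_smul] at hct
    exact hDt hct.symm
  have hy : D K F y = (cy / ct) • D K F t := by
    rw [← hct, ← hcy, smul_smul, div_mul_cancel₀ cy hct0]
  have h1 : LaurentSeries.derivative K (ι y) =
      ι (cy / ct) * LaurentSeries.derivative K (ι t) := by
    have e1 := uedaLift_D ι y
    rw [hy, uedaLift_smul, uedaLift_D] at e1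
    exact e1.symm
  have h2 : ι (cy / ct) = ι a := mul_right_cancel₀ ht (h1.symm.trans h)
  have h3 : cy / ct = a := ι.toRingHom.injective h2
  rw [hy, h3]

/-- `θ = q d/dq` on Laurent series. -/
def uedaTheta (f : LaurentSeries K) : LaurentSeries K :=
  HahnSeries.single (1 : ℤ) (1 : K) * LaurentSeries.derivative K f

theorem ueda_single_ne_zero : HahnSeries.single (1 : ℤ) (1 : K) ≠ 0 :=
  HahnSeries.single_ne_zero one_ne_zero

/-- **UE-D (a)**, `θ`-form. -/
theorem ueda_D_eq_smul_theta (hspan : ∃ ω₀ : Ω[F⁄K], Submodule.span F {ω₀} = ⊤) {y t a : F}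
    (ht : uedaTheta (ι t) ≠ 0)
    (h : uedaTheta (ι y) = ι a * uedaTheta (ι t)) :
    D K F y = a • D K F t := by
  apply ueda_D_eq_smul ι hspan
  · intro h0
    apply ht
    rw [uedaTheta, h0, mul_zero]
  · unfold uedaTheta at h
    have : HahnSeries.single (1 : ℤ) (1 : K) * LaurentSeries.derivative K (ι y) =
        HahnSeries.single (1 : ℤ) (1 : K) * (ι a * LaurentSeries.derivative K (ι t)) := by
      rw [h]; ring
    exact mul_left_cancel₀ ueda_single_ne_zero this

/-- the hypothesis `hspan` from `DCoordGenerates` at one place. -/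
theorem ueda_hspan_of_place (v : AlgebraicCurve.Place K F) [v.DCoordGenerates] :
    ∃ ω₀ : Ω[F⁄K], Submodule.span F {ω₀} = ⊤ :=
  ⟨v.dCoord, AlgebraicCurve.Place.DCoordGenerates.span_eq_top⟩

end Fermat.Agent.S16lib

end
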