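/-
Item 16 (S16), piece U-E, UE-D (a) (helper11), EXACT interface of NOTES/S16_UE_signatures.md:
in `Fk k N ⊆ k((q))` (any characteristic): `θ ŷ = â · θ ĵ ⟹ D y = a • D j̄`.
-/
import Mathlib
import Fermat.Agent.S16lib.UEDa
import Fermat.Agent.S16lib.UE2
import Fermat.Agent.GM.Defs
import Fermat.Agent.GoodRed.ModRR

set_option autoImplicit false

noncomputable section

namespace Fermat.Agent.S16lib

open KaehlerDifferential ModularCurve AlgebraicCurve
open Fermat.Agent.S24lib Fermat.Agent.FFlib Fermat.Agent.RRlib Fermat.Agent.GoodRed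
open Fermat.Agent.GM

set_option synthInstance.maxHeartbeats 400000 in
/-- **UE-D (a)** in `Fk k N`, `d/dq`-form with a general `t`. -/
theorem ued_D_eq_smul_of (k : Type) [Field k] [IsAlgClosed k] (N : ℕ) [NeZero N]
    {y t a : Fk k N}
    (ht : LaurentSeries.derivative k (t : LaurentSeries k) ≠ 0)
    (h : LaurentSeries.derivative k (y : LaurentSeries k) =
      (a : LaurentSeries k) * LaurentSeries.derivative k (t : LaurentSeries k)) :
    D k (Fk k N) y = a • D k (Fk k N) t := by
  have := mr_ffSep k N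
  have hspan : ∃ ω₀ : Ω[Fk k N⁄k], Submodule.span (Fk k N) {ω₀} = ⊤ :=
    ⟨D k (Fk k N) (jbarC k N), fsSpan_D_eq_top (K := k) (x := jbarC k N)⟩
  exact ueda_D_eq_smul (modularFunctionFieldFullC k N).val hspan ht h

set_option synthInstance.maxHeartbeats 400000 in
/-- **UE-D (a)**, exact interface. -/
theorem ued_D_eq_smul (k : Type) [Field k] [IsAlgClosed k] (N : ℕ) [NeZero N] (y a : Fk k N)
    (h : ue2ThetaL k (y : LaurentSeries k) = (a : LaurentSeries k) * ue2ThetaL k (jqModC k)) :
    D k (Fk k N) y = a • D k (Fk k N) (jk k N) := by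
  have hq : HahnSeries.single (1 : ℤ) (1 : k) ≠ 0 := HahnSeries.single_ne_zero one_ne_zero
  apply ued_D_eq_smul_of k N (t := jk k N)
  · exact mr_derivative_jqModC_ne_zero k
  · rw [ue2ThetaL_apply, ue2ThetaL_apply] at h
    have h' : HahnSeries.single (1 : ℤ) (1 : k) * LaurentSeries.derivative k (y : LaurentSeries k) =
        HahnSeries.single (1 : ℤ) (1 : k) *
          ((a : LaurentSeries k) * LaurentSeries.derivative k (jqModC k)) := by
      rw [h]; ring
    exact mul_left_cancel₀ hq h'

end Fermat.Agent.S16lib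

end
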