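/-
Item 16 (S16), piece U-E, UE-D (a) (helper11), characteristic-zero analogue in `FF N ⊆ ℚ̄((q))`.
-/
import Mathlib
import Fermat.Agent.S16lib.UEDa
import Fermat.Agent.RRlib.Modular

set_option autoImplicit false

noncomputable section

namespace Fermat.Agent.S16lib

open KaehlerDifferential ModularCurve AlgebraicCurve
open Fermat.Agent.S24lib Fermat.Agent.RRlib

set_option synthInstance.maxHeartbeats 400000 in
/-- **UE-D (a)** in `FF N`: `dŷ/dq = â · dt̂/dq ⟹ D y = a • D t`. -/
theorem ued_D_eq_smul_FF (N : ℕ) [NeZero N] {y t a : FF N}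
    (ht : LaurentSeries.derivative Kbar (t : LaurentSeries Kbar) ≠ 0)
    (h : LaurentSeries.derivative Kbar (y : LaurentSeries Kbar) =
      (a : LaurentSeries Kbar) * LaurentSeries.derivative Kbar (t : LaurentSeries Kbar)) :
    D Kbar (FF N) y = a • D Kbar (FF N) t := by
  have := mod_rrHyp N
  obtain ⟨v⟩ := RRBase.nonempty_place (K := Kbar) (F := FF N)
  have := mod_dCoordGenerates N v
  exact ueda_D_eq_smul (modularFunctionFieldBar N).val (ueda_hspan_of_place v) ht h

end Fermat.Agent.S16lib

end
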