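/-
Item 16 (S16), block U-E, piece UE-D (b) (helper1; sub-architect helper13).

For the constant reduction datum `R` of the modular function field `FF N` along a valuation ring
`A ≠ ⊤` of `ℚ̄` (output of `GoodRed.exists_modConstRed`): every `t ∈ R.O` has a derivative
`t' = dt/dj ∈ R.O`, and `d(red t)/dj̄ = red t'`.
-/
import Mathlib
import Fermat.Agent.GoodRed.ModDatum
import Fermat.Agent.GoodRed.ModRR
import Fermat.Agent.GM.Defs
import Fermat.Agent.S24lib.Final
import Fermat.Agent.FFlib.Bridge
import Fermat.Agent.FFlib.FSDiff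
import Fermat.Agent.S16lib.UED
import Fermat.Agent.S16lib.UEDFF

set_option autoImplicit false
set_option synthInstance.maxHeartbeats 400000

noncomputable section

namespace Fermat.Agent.S16lib

open ModularCurve HahnSeries AlgebraicCurve KaehlerDifferential IntermediateField
open Fermat.Agent.S24lib Fermat.Agent.FFlib Fermat.Agent.GoodRed Fermat.Agent.GM

/-! ### part A: `d/dq` on an intermediate field of `K((q))` -/

section General

variable {K : Type*} [Field K] (F : IntermediateField K (LaurentSeries K))

theorem uedb_coe_algebraMap (c : K) :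
    ((algebraMap K F c : F) : LaurentSeries K) = HahnSeries.C c := by
  show algebraMap K (LaurentSeries K) c = _
  rw [algebraMap_laurentSeries_eq_single]
  rfl

/-- the lift of `d/dq` to Kähler differentials. -/
theorem uedb_lift :
    ∃ φ : Ω[F⁄K] →+ LaurentSeries K,
      (∀ (f : F) (ω : Ω[F⁄K]), φ (f • ω) = (f : LaurentSeries K) * φ ω) ∧
      ∀ f : F, φ (D K F f) = LaurentSeries.derivative K (f : LaurentSeries K) := by
  obtain ⟨φ, h1, h2⟩ := ffDiff_lift (K := K) (F := F) (L := K) (algebraMap F (LaurentSeries K))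
    (fun c => by
      rw [Algebra.algebraMap_self, RingHom.id_apply]
      exact uedb_coe_algebraMap F c)
  exact ⟨φ, h1, h2⟩

variable {F}

/-- if `Ω = F · dx`, every `y` has a derivative `s = dy/dx ∈ F`. -/
theorem uedb_exists_deriv_F (x y : F) (hspan : Submodule.span F {D K F x} = ⊤) :
    ∃ s : F, D K F y = s • D K F x ∧
      LaurentSeries.derivative K (y : LaurentSeries K)
        = (s : LaurentSeries K) * LaurentSeries.derivative K (x : LaurentSeries K) := by
  have hy : D K F y ∈ Submodule.span F {D K F x} := by rw [hspan]; exact Submodule.mem_top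
  obtain ⟨s, hs⟩ := Submodule.mem_span_singleton.mp hy
  obtain ⟨φ, h1, h2⟩ := uedb_lift F
  refine ⟨s, hs.symm, ?_⟩
  rw [← h2, ← hs, h1, h2]

/-- if `Ω = F · dx` and `dx/dq ≠ 0`, the derivative `dy/dx` is detected by `q`-expansions. -/
theorem uedb_D_eq_smul_of_deriv (x y a : F) (hspan : Submodule.span F {D K F x} = ⊤)
    (hx : LaurentSeries.derivative K (x : LaurentSeries K) ≠ 0)
    (h : LaurentSeries.derivative K (y : LaurentSeries K)
      = (a : LaurentSeries K) * LaurentSeries.derivative K (x : LaurentSeries K)) :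
    D K F y = a • D K F x := by
  obtain ⟨s, hs, hs'⟩ := uedb_exists_deriv_F x y hspan
  rw [h] at hs'
  have : (a : LaurentSeries K) = (s : LaurentSeries K) := mul_right_cancel₀ hx hs'
  rw [hs, Subtype.ext this]

end General

/-! ### part B: coefficient maps and `d/dq` -/

section CoeffMap

theorem uedb_coeff_derivative {R : Type*} [CommRing R] (a : LaurentSeries R) (n : ℤ) :
    (LaurentSeries.derivative R a).coeff n = ((n + 1 : ℤ) : R) * a.coeff (n + 1) := by
  rw [LaurentSeries.derivative_apply, LaurentSeries.hasseDeriv_coeff]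
  simp [zsmul_eq_mul]

theorem uedb_coeffMap_derivative {R S : Type*} [CommRing R] [CommRing S] (f : R →+* S)
    (a : LaurentSeries R) :
    coeffMap f (LaurentSeries.derivative R a) = LaurentSeries.derivative S (coeffMap f a) := by
  ext n
  rw [coeffMap_coeff, uedb_coeff_derivative, uedb_coeff_derivative, coeffMap_coeff, map_mul,
    map_intCast]

end CoeffMap

/-! ### part C: the two formal computations -/

section Formal

/-- the quotient rule, in the form used twice. -/
theorem uedb_quotient_rule {L : Type*} [CommRing L] (a b a' b' t u dj da db dt : L)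
    (h1 : a' * dj = da) (h2 : b' * dj = db) (h3 : t * b = a) (h4 : da = t * db + b * dt)
    (h5 : u * b = 1) : (a' * b - a * b') * u ^ 2 * dj = dt := by
  linear_combination (b * u ^ 2) * h1 - (a * u ^ 2) * h2 + (b * u ^ 2) * h4
    + (u ^ 2 * db) * h3 + (dt * (u * b + 1)) * h5

end Formal


/-- the division rule, in the form used twice. -/
theorem uedb_div_rule {L : Type*} [CommRing L] (a b u dj dy : L)
    (h1 : dy * b = a * dj) (h2 : u * b = 1) : a * u * dj = dy := by
  linear_combination (-u) * h1 + dy * h2

/-! ### part D: units and constants of a constant reduction -/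

section ConstRedFacts

variable {K F Fk : Type*} [Field K] [Field F] [Algebra K F] [Field Fk]
variable {A : ValuationSubring K}

theorem uedb_residue_inv_eq_zero {c : K} (hc : c ∉ A) :
    ∃ h : c⁻¹ ∈ A, IsLocalRing.residue A ⟨c⁻¹, h⟩ = 0 := by
  have hinv : c⁻¹ ∈ A := (A.mem_or_inv_mem c).resolve_left hc
  refine ⟨hinv, ?_⟩
  have h1 : 1 < A.valuation c := by
    by_contra h
    push Not at h
    exact hc ((A.valuation_le_one_iff c).mp h)
  have h2 : A.valuation c⁻¹ < 1 := by
    rw [map_inv₀]
    exact inv_lt_one_of_one_lt₀ h1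
  have hmem : (⟨c⁻¹, hinv⟩ : A) ∈ IsLocalRing.maximalIdeal A :=
    (A.valuation_lt_one_iff _).mpr h2
  exact (IsLocalRing.residue_eq_zero_iff _).mpr hmem

variable [Algebra (IsLocalRing.ResidueField A) Fk]
variable (R : ConstRed A (IsLocalRing.residue A) Fk F)

theorem uedb_isUnit_of_red_ne_zero (x : R.O) (hx : R.red x ≠ 0) : IsUnit x := by
  have hmax : (RingHom.ker R.red).IsMaximal :=
    RingHom.ker_isMaximal_of_surjective R.red R.red_surjective
  have hker : RingHom.ker R.red = IsLocalRing.maximalIdeal R.O :=
    IsLocalRing.eq_maximalIdeal hmax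
  by_contra hu
  have hmem : x ∈ IsLocalRing.maximalIdeal R.O := (IsLocalRing.mem_maximalIdeal x).mpr hu
  rw [← hker] at hmem
  exact hx hmem

theorem uedb_exists_inv (x : R.O) (hx : R.red x ≠ 0) : ∃ u : R.O, u * x = 1 := by
  obtain ⟨v, hv⟩ := uedb_isUnit_of_red_ne_zero R x hx
  exact ⟨↑v⁻¹, by rw [← hv]; exact v.inv_mul⟩

theorem uedb_mem_of_algebraMap_mem (c : K) (hc : algebraMap K F c ∈ R.O) : c ∈ A := by
  by_contra hcA
  have hc0 : c ≠ 0 := fun h => hcA (h ▸ A.zero_mem)
  obtain ⟨hinv, hres⟩ := uedb_residue_inv_eq_zero hcA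
  have hred := R.red_algebraMap ⟨c⁻¹, hinv⟩
  rw [hres, map_zero] at hred
  have hmul : (⟨algebraMap K F c⁻¹, R.algebraMap_mem ⟨c⁻¹, hinv⟩⟩ : R.O) *
      ⟨algebraMap K F c, hc⟩ = 1 := by
    apply Subtype.ext
    show algebraMap K F c⁻¹ * algebraMap K F c = 1
    rw [← map_mul, inv_mul_cancel₀ hc0, map_one]
  have h := congrArg R.red hmul
  rw [map_mul, hred, zero_mul, map_one] at h
  exact zero_ne_one h

end ConstRedFacts


/-! ### part E: the modular function field -/

section Modular

variable (N : ℕ) [NeZero N] (A : ValuationSubring Kbar)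

omit [NeZero N] in
theorem uedb_coe_jF : ((jF N : FF N) : LaurentSeries Kbar) = jqModC Kbar := by
  have h := coeffEmb_jqd_eq' (K := Kbar) 1
  rw [qExpand_one_apply, qExpand_one_apply] at h
  rw [coe_jF, h]

omit [NeZero N] in
theorem uedb_coe_jF' :
    ((jF N : FF N) : LaurentSeries Kbar) = coeffMap A.subtype (jqModC A) := by
  rw [uedb_coe_jF, coeffMap_jqModC]

omit [NeZero N] in
theorem uedb_hasPrimFrac (hA : A ≠ ⊤) : HasPrimFrac A (modularFunctionFieldBar N) := by
  have halg : ∀ c : Kbar, IsIntegral ℚ c := fun c =>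
    ((AlgebraicClosure.isAlgebraic ℚ).isAlgebraic c).isIntegral
  obtain ⟨ℓ, hℓ, hlt⟩ := exists_prime_valuation_lt_one halg hA
  have hfracNF : ∀ f ∈ modularFunctionFieldBar N,
      IsFracNF A (modularFunctionFieldBar N) f := fun f hf => isFracNF_of_mem halg hf
  exact hasPrimFrac_of_isFracNF hℓ hlt hfracNF

variable {A}

/-- the derivative `dy/dj` of an integral element is a fraction with primitive denominator. -/
theorem uedb_integral_deriv (hA : A ≠ ⊤) (y : LaurentSeries A)
    (hy : coeffMap A.subtype y ∈ modularFunctionFieldBar N) :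
    ∃ a b : LaurentSeries A, coeffMap A.subtype a ∈ modularFunctionFieldBar N ∧
      coeffMap A.subtype b ∈ modularFunctionFieldBar N ∧
      coeffMap (IsLocalRing.residue A) b ≠ 0 ∧
      LaurentSeries.derivative A y * b = a * LaurentSeries.derivative A (jqModC A) := by
  have hfrac := uedb_hasPrimFrac N A hA
  have := fin_ffData N
  have hsep : FFSep Kbar (jF N) := FFSep.of_ffData
  have hspan : Submodule.span (FF N) {D Kbar (FF N) (jF N)} = ⊤ :=
    fsSpan_D_eq_top (K := Kbar) (x := jF N)
  obtain ⟨s, -, hs⟩ := uedb_exists_deriv_F (F := modularFunctionFieldBar N) (jF N)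
    ⟨coeffMap A.subtype y, hy⟩ hspan
  rw [uedb_coe_jF' N A] at hs
  change LaurentSeries.derivative Kbar (coeffMap A.subtype y) = _ at hs
  rw [← uedb_coeffMap_derivative, ← uedb_coeffMap_derivative] at hs
  by_cases hs0 : s = 0
  · refine ⟨0, 1, ?_, ?_, ?_, ?_⟩
    · rw [map_zero]; exact zero_mem _
    · rw [map_one]; exact one_mem _
    · rw [map_one]; exact one_ne_zero
    · rw [hs0] at hs
      have h0 : LaurentSeries.derivative A y = 0 := by
        apply coeffMap_valSubtype_injective A
        rw [hs, map_zero]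
        exact zero_mul _
      rw [h0, zero_mul, zero_mul]
  · obtain ⟨a1, b1, ha1, hb1, hpa1, hpb1, e, he, h⟩ :=
      hfrac s s.2 (fun h => hs0 (Subtype.ext h))
    have heA : e ∈ A := by
      by_contra heA
      obtain ⟨hinv, hres⟩ := uedb_residue_inv_eq_zero heA
      have key : HahnSeries.C (⟨e⁻¹, hinv⟩ : A) * LaurentSeries.derivative A y * b1
          = a1 * LaurentSeries.derivative A (jqModC A) := by
        apply coeffMap_valSubtype_injective A
        rw [map_mul, map_mul, map_mul, coeffMap_C, hs]
        have hC : (HahnSeries.C (A.subtype ⟨e⁻¹, hinv⟩) : LaurentSeries Kbar) * HahnSeries.C e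
            = 1 := by
          rw [← map_mul]
          show HahnSeries.C (e⁻¹ * e) = 1
          rw [inv_mul_cancel₀ he, map_one]
        linear_combination
          (HahnSeries.C (A.subtype ⟨e⁻¹, hinv⟩) *
            coeffMap A.subtype (LaurentSeries.derivative A (jqModC A))) * h
          + (coeffMap A.subtype a1 *
            coeffMap A.subtype (LaurentSeries.derivative A (jqModC A))) * hC
      have key2 := congrArg (coeffMap (IsLocalRing.residue A)) key
      rw [map_mul, map_mul, map_mul, coeffMap_C, hres, map_zero, zero_mul, zero_mul,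
        uedb_coeffMap_derivative, coeffMap_jqModC] at key2
      rcases mul_eq_zero.mp key2.symm with h1 | h1
      · exact hpa1 h1
      · exact mr_derivative_jqModC_ne_zero _ h1
    refine ⟨HahnSeries.C ⟨e, heA⟩ * a1, b1, ?_, hb1, hpb1, ?_⟩
    · rw [map_mul, coeffMap_C]
      exact mul_mem (C_mem_intermediateField _ e) ha1
    · apply coeffMap_valSubtype_injective A
      rw [map_mul, map_mul, map_mul, coeffMap_C, hs]
      show _ = HahnSeries.C e * _ * _
      linear_combination
        (coeffMap A.subtype (LaurentSeries.derivative A (jqModC A))) * h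


variable (R : ConstRed A (IsLocalRing.residue A) (Fk (IsLocalRing.ResidueField A) N) (FF N))
variable (hR : ∀ (y : LaurentSeries A) (hy : coeffMap A.subtype y ∈ modularFunctionFieldBar N),
        ∃ h : (⟨coeffMap A.subtype y, hy⟩ : FF N) ∈ R.O,
          ((R.red ⟨_, h⟩ : Fk (IsLocalRing.ResidueField A) N) :
              LaurentSeries (IsLocalRing.ResidueField A))
            = coeffMap (IsLocalRing.residue A) y)

include hR

omit [NeZero N] in
/-- every element of `R.O` is a fraction of integral series with primitive denominator. -/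
theorem uedb_exists_rep (hA : A ≠ ⊤) (t : R.O) :
    ∃ a b : LaurentSeries A, coeffMap A.subtype a ∈ modularFunctionFieldBar N ∧
      coeffMap A.subtype b ∈ modularFunctionFieldBar N ∧
      coeffMap (IsLocalRing.residue A) b ≠ 0 ∧
      (((t : R.O) : FF N) : LaurentSeries Kbar) * coeffMap A.subtype b = coeffMap A.subtype a := by
  by_cases ht : ((t : R.O) : FF N) = 0
  · refine ⟨0, 1, ?_, ?_, ?_, ?_⟩
    · rw [map_zero]; exact zero_mem _
    · rw [map_one]; exact one_mem _
    · rw [map_one]; exact one_ne_zero
    · rw [ht, map_zero, map_one, mul_one]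
      rfl
  · obtain ⟨a0, b0, ha0, hb0, hpa0, hpb0, c, hc, h⟩ :=
      uedb_hasPrimFrac N A hA _ ((t : R.O) : FF N).2 (fun h => ht (Subtype.ext h))
    obtain ⟨haO, hra⟩ := hR a0 ha0
    obtain ⟨hbO, hrb⟩ := hR b0 hb0
    have hane : R.red ⟨⟨coeffMap A.subtype a0, ha0⟩, haO⟩ ≠ 0 := by
      intro h0
      apply hpa0
      rw [← hra, h0]
      rfl
    obtain ⟨u, hu⟩ := uedb_exists_inv R _ hane
    have hu' : (((u : R.O) : FF N) : LaurentSeries Kbar) * coeffMap A.subtype a0 = 1 :=
      congrArg (fun x : R.O => (((x : R.O) : FF N) : LaurentSeries Kbar)) hu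
    obtain ⟨w, hw⟩ : ∃ w : R.O, w = t * ⟨⟨coeffMap A.subtype b0, hb0⟩, hbO⟩ * u := ⟨_, rfl⟩
    have hw' : (((w : R.O) : FF N) : LaurentSeries Kbar)
        = (((t : R.O) : FF N) : LaurentSeries Kbar) * coeffMap A.subtype b0
            * (((u : R.O) : FF N) : LaurentSeries Kbar) := by
      rw [hw]
      rfl
    have e : ((w : R.O) : FF N) = algebraMap Kbar (FF N) c := by
      apply Subtype.ext
      rw [hw', uedb_coe_algebraMap, h]
      linear_combination (HahnSeries.C c : LaurentSeries Kbar) * hu'
    have hcO : algebraMap Kbar (FF N) c ∈ R.O := e ▸ SetLike.coe_mem w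
    have hcA : c ∈ A := uedb_mem_of_algebraMap_mem R c hcO
    refine ⟨HahnSeries.C ⟨c, hcA⟩ * a0, b0, ?_, hb0, hpb0, ?_⟩
    · rw [map_mul, coeffMap_C]
      exact mul_mem (C_mem_intermediateField _ c) ha0
    · rw [map_mul, coeffMap_C]
      exact h

/-- the derivative `dy/dj` of an integral element, as an element of `R.O`. -/
theorem uedb_integral_deriv_O (hA : A ≠ ⊤) (y : LaurentSeries A)
    (hy : coeffMap A.subtype y ∈ modularFunctionFieldBar N) :
    ∃ y' : R.O,
      (((y' : R.O) : FF N) : LaurentSeries Kbar) * LaurentSeries.derivative Kbar (jqModC Kbar)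
        = LaurentSeries.derivative Kbar (coeffMap A.subtype y) ∧
      ((R.red y' : Fk (IsLocalRing.ResidueField A) N) :
          LaurentSeries (IsLocalRing.ResidueField A))
          * LaurentSeries.derivative (IsLocalRing.ResidueField A)
              (jqModC (IsLocalRing.ResidueField A))
        = LaurentSeries.derivative (IsLocalRing.ResidueField A)
            (coeffMap (IsLocalRing.residue A) y) := by
  obtain ⟨a, b, ha, hb, hpb, hab⟩ := uedb_integral_deriv N hA y hy
  obtain ⟨haO, hra⟩ := hR a ha
  obtain ⟨hbO, hrb⟩ := hR b hb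
  have hbne : R.red ⟨⟨coeffMap A.subtype b, hb⟩, hbO⟩ ≠ 0 := by
    intro h0
    apply hpb
    rw [← hrb, h0]
    rfl
  obtain ⟨u, hu⟩ := uedb_exists_inv R _ hbne
  refine ⟨⟨⟨coeffMap A.subtype a, ha⟩, haO⟩ * u, ?_, ?_⟩
  · have hu' : (((u : R.O) : FF N) : LaurentSeries Kbar) * coeffMap A.subtype b = 1 :=
      congrArg (fun x : R.O => (((x : R.O) : FF N) : LaurentSeries Kbar)) hu
    have h1 := congrArg (coeffMap A.subtype) hab
    rw [map_mul, map_mul, uedb_coeffMap_derivative, uedb_coeffMap_derivative,
      coeffMap_jqModC] at h1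
    exact uedb_div_rule _ _ _ _ _ h1 hu'
  · have hu' : ((R.red u : Fk (IsLocalRing.ResidueField A) N) :
          LaurentSeries (IsLocalRing.ResidueField A)) * coeffMap (IsLocalRing.residue A) b
        = 1 := by
      have h2 := congrArg (fun x : Fk (IsLocalRing.ResidueField A) N =>
        (x : LaurentSeries (IsLocalRing.ResidueField A))) (congrArg R.red hu)
      rw [map_mul, map_one] at h2
      rw [← hrb]
      exact h2
    have h1 := congrArg (coeffMap (IsLocalRing.residue A)) hab
    rw [map_mul, map_mul, uedb_coeffMap_derivative, uedb_coeffMap_derivative,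
      coeffMap_jqModC] at h1
    rw [map_mul]
    show ((R.red ⟨⟨coeffMap A.subtype a, ha⟩, haO⟩ : Fk (IsLocalRing.ResidueField A) N) :
          LaurentSeries (IsLocalRing.ResidueField A))
        * ((R.red u : Fk (IsLocalRing.ResidueField A) N) :
          LaurentSeries (IsLocalRing.ResidueField A)) * _ = _
    rw [hra]
    exact uedb_div_rule _ _ _ _ _ h1 hu'

end Modular

set_option maxHeartbeats 2000000 in
/-- **UE-D (b)**: every `t ∈ R.O` has a derivative `t' = dt/dj ∈ R.O`, and
`d(red t)/dj̄ = red t'`. -/
theorem ued_exists_deriv (N : ℕ) [NeZero N] (A : ValuationSubring Kbar) (hA : A ≠ ⊤)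
    (R : ConstRed A (IsLocalRing.residue A) (Fk (IsLocalRing.ResidueField A) N) (FF N))
    (hR : ∀ (y : LaurentSeries A) (hy : coeffMap A.subtype y ∈ modularFunctionFieldBar N),
        ∃ h : (⟨coeffMap A.subtype y, hy⟩ : FF N) ∈ R.O,
          ((R.red ⟨_, h⟩ : Fk (IsLocalRing.ResidueField A) N) :
              LaurentSeries (IsLocalRing.ResidueField A))
            = coeffMap (IsLocalRing.residue A) y)
    (t : R.O) :
    ∃ t' : R.O, D Kbar (FF N) ((t : R.O) : FF N) = ((t' : R.O) : FF N) • D Kbar (FF N) (jF N) ∧
      D (IsLocalRing.ResidueField A) (Fk (IsLocalRing.ResidueField A) N) (R.red t)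
        = R.red t' • D (IsLocalRing.ResidueField A) (Fk (IsLocalRing.ResidueField A) N)
            (jk (IsLocalRing.ResidueField A) N) := by
  have : IsAlgClosed (IsLocalRing.ResidueField A) := isAlgClosed_residueField A
  obtain ⟨a, b, ha, hb, hpb, hab⟩ := uedb_exists_rep N R hR hA t
  obtain ⟨haO, hra⟩ := hR a ha
  obtain ⟨hbO, hrb⟩ := hR b hb
  have hbne : R.red ⟨⟨coeffMap A.subtype b, hb⟩, hbO⟩ ≠ 0 := by
    intro h0
    apply hpb
    rw [← hrb, h0]
    rfl
  obtain ⟨u, hu⟩ := uedb_exists_inv R _ hbne
  obtain ⟨a', ha'1, ha'2⟩ := uedb_integral_deriv_O N R hR hA a ha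
  obtain ⟨b', hb'1, hb'2⟩ := uedb_integral_deriv_O N R hR hA b hb
  obtain ⟨aO, haOdef⟩ : ∃ aO : R.O, aO = ⟨⟨coeffMap A.subtype a, ha⟩, haO⟩ := ⟨_, rfl⟩
  obtain ⟨bO, hbOdef⟩ : ∃ bO : R.O, bO = ⟨⟨coeffMap A.subtype b, hb⟩, hbO⟩ := ⟨_, rfl⟩
  rw [← haOdef] at hra
  rw [← hbOdef] at hrb hu
  have haOc : (((aO : R.O) : FF N) : LaurentSeries Kbar) = coeffMap A.subtype a := by
    rw [haOdef]
  have hbOc : (((bO : R.O) : FF N) : LaurentSeries Kbar) = coeffMap A.subtype b := by
    rw [hbOdef]
  obtain ⟨t', ht'⟩ : ∃ t' : R.O, t' = (a' * bO - aO * b') * u ^ 2 := ⟨_, rfl⟩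
  have htb : t * bO = aO := by
    apply Subtype.ext
    apply Subtype.ext
    show (((t : R.O) : FF N) : LaurentSeries Kbar) * (((bO : R.O) : FF N) : LaurentSeries Kbar)
      = (((aO : R.O) : FF N) : LaurentSeries Kbar)
    rw [haOc, hbOc, hab]
  refine ⟨t', ?_, ?_⟩
  · apply ued_D_eq_smul_FF N (y := (t : FF N)) (t := jF N) (a := (t' : FF N))
    · rw [uedb_coe_jF]
      exact mr_derivative_jqModC_ne_zero Kbar
    · rw [uedb_coe_jF]
      have hu' : (((u : R.O) : FF N) : LaurentSeries Kbar) * coeffMap A.subtype b = 1 := by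
        rw [← hbOc]
        exact congrArg (fun x : R.O => (((x : R.O) : FF N) : LaurentSeries Kbar)) hu
      have h4 : LaurentSeries.derivative Kbar (coeffMap A.subtype a)
          = (((t : R.O) : FF N) : LaurentSeries Kbar)
              * LaurentSeries.derivative Kbar (coeffMap A.subtype b)
            + coeffMap A.subtype b
              * LaurentSeries.derivative Kbar (((t : R.O) : FF N) : LaurentSeries Kbar) := by
        rw [← hab, lsDerivative_mul]
      have hq := uedb_quotient_rule _ _ _ _ _ _ _ _ _ _ ha'1 hb'1 hab h4 hu'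
      rw [← hq, ht']
      show _ = ((((a' : R.O) : FF N) : LaurentSeries Kbar)
            * (((bO : R.O) : FF N) : LaurentSeries Kbar)
          - (((aO : R.O) : FF N) : LaurentSeries Kbar)
            * (((b' : R.O) : FF N) : LaurentSeries Kbar))
        * (((u : R.O) : FF N) : LaurentSeries Kbar) ^ 2 * _
      rw [haOc, hbOc]
  · apply ued_D_eq_smul_of (IsLocalRing.ResidueField A) N (y := R.red t)
      (t := jk (IsLocalRing.ResidueField A) N) (a := R.red t')
    · rw [coe_jk]
      exact mr_derivative_jqModC_ne_zero _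
    · rw [coe_jk]
      have hu' : ((R.red u : Fk (IsLocalRing.ResidueField A) N) :
            LaurentSeries (IsLocalRing.ResidueField A)) * coeffMap (IsLocalRing.residue A) b
          = 1 := by
        have h2 := congrArg (fun x : Fk (IsLocalRing.ResidueField A) N =>
          (x : LaurentSeries (IsLocalRing.ResidueField A))) (congrArg R.red hu)
        rw [map_mul, map_one] at h2
        rw [← hrb]
        exact h2
      have h3 : ((R.red t : Fk (IsLocalRing.ResidueField A) N) :
            LaurentSeries (IsLocalRing.ResidueField A)) * coeffMap (IsLocalRing.residue A) b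
          = coeffMap (IsLocalRing.residue A) a := by
        have h2 := congrArg (fun x : Fk (IsLocalRing.ResidueField A) N =>
          (x : LaurentSeries (IsLocalRing.ResidueField A))) (congrArg R.red htb)
        rw [map_mul] at h2
        rw [← hrb, ← hra]
        exact h2
      have h4 : LaurentSeries.derivative (IsLocalRing.ResidueField A)
            (coeffMap (IsLocalRing.residue A) a)
          = ((R.red t : Fk (IsLocalRing.ResidueField A) N) :
              LaurentSeries (IsLocalRing.ResidueField A))
              * LaurentSeries.derivative (IsLocalRing.ResidueField A)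
                  (coeffMap (IsLocalRing.residue A) b)
            + coeffMap (IsLocalRing.residue A) b
              * LaurentSeries.derivative (IsLocalRing.ResidueField A)
                  ((R.red t : Fk (IsLocalRing.ResidueField A) N) :
                    LaurentSeries (IsLocalRing.ResidueField A)) := by
        rw [← h3, lsDerivative_mul]
      have hq := uedb_quotient_rule _ _ _ _ _ _ _ _ _ _ ha'2 hb'2 h3 h4 hu'
      rw [← hq, ht', map_mul, map_pow, map_sub, map_mul, map_mul]
      show _ = (((R.red a' : Fk (IsLocalRing.ResidueField A) N) :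
              LaurentSeries (IsLocalRing.ResidueField A))
            * ((R.red bO : Fk (IsLocalRing.ResidueField A) N) :
              LaurentSeries (IsLocalRing.ResidueField A))
          - ((R.red aO : Fk (IsLocalRing.ResidueField A) N) :
              LaurentSeries (IsLocalRing.ResidueField A))
            * ((R.red b' : Fk (IsLocalRing.ResidueField A) N) :
              LaurentSeries (IsLocalRing.ResidueField A)))
        * ((R.red u : Fk (IsLocalRing.ResidueField A) N) :
              LaurentSeries (IsLocalRing.ResidueField A)) ^ 2 * _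
      rw [hra, hrb]

end Fermat.Agent.S16lib
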