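/-
S16 library, piece U-E / G3 (a) (helper18): divisibility of ramification indices is inherited by
a constant reduction.  If every zero `P` of `x − c` (characteristic zero) has order divisible by
`d`, then every zero `Q` of `red x − π c` has order divisible by `d`.
Pure consequence of 75a/DS2 (`IsPlaceRed.mapDomain_zeros`).
-/
import Mathlib
import Fermat.Agent.GoodRed.DescZeros

set_option autoImplicit false

noncomputable section

namespace Fermat.Agent.S16lib

open AlgebraicCurve Fermat.Agent.RRlib Fermat.Agent.GoodRed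

variable {K F' k Fk' : Type*} [Field K] [Field F'] [Algebra K F'] [Field k] [Field Fk']
  [Algebra k Fk']
variable {A : ValuationSubring K} {π : A →+* k} {R' : ConstRed A π Fk' F'}

/-- a sum over a fibre of `r` of multiples of `d` is a multiple of `d` -/
theorem ue_dvd_mapDomain {α β : Type*} (r : α → β) (D : α →₀ ℤ) (d : ℤ) (hD : ∀ a, d ∣ D a)
    (b : β) : d ∣ Finsupp.mapDomain r D b := by
  classical
  rw [dz_mapDomain_apply]
  refine Finset.dvd_sum fun a _ => ?_
  split_ifs
  · exact hD a
  · exact dvd_zero d

/-- **G3 (a)**: if `d` divides the order of every zero of `x − c`, then `d` divides the order of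
every zero of `red x − π c`. -/
theorem ue_dvd_ord_red [RRBase K F'] [RRBase k Fk']
    {r' : Place K F' → Place k Fk'} (hr' : R'.IsPlaceRed r') (x : R'.O)
    (hx : R'.red x ∉ Set.range (algebraMap k Fk'))
    {D : Divisor K F'} (hD : ∀ v : Place K F', D v = max 0 (-(v.ord ((x : R'.O) : F'))))
    {X : Divisor k Fk'} (hX : ∀ w : Place k Fk', X w = max 0 (-(w.ord (R'.red x))))
    (hdeg : Divisor.degree D ≤ Divisor.degree X) (c : A) (d : ℤ)
    (hd : ∀ v : Place K F', 0 < v.ord (((x : R'.O) : F') - algebraMap K F' (c : K)) →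
      d ∣ v.ord (((x : R'.O) : F') - algebraMap K F' (c : K)))
    (Q : Place k Fk') (hQ : 0 < Q.ord (R'.red x - algebraMap k Fk' (π c))) :
    d ∣ Q.ord (R'.red x - algebraMap k Fk' (π c)) := by
  classical
  set Z : Divisor K F' :=
    divOf (K := K) (((x : R'.O) : F') - algebraMap K F' (c : K)) ⊔ 0 with hZdef
  set Zb : Divisor k Fk' :=
    divOf (K := k) (R'.red x - algebraMap k Fk' (π c)) ⊔ 0 with hZbdef
  have hZ : ∀ v : Place K F',
      Z v = max 0 (v.ord (((x : R'.O) : F') - algebraMap K F' (c : K))) := by
    intro v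
    rw [hZdef, Finsupp.sup_apply, divOf_apply', Finsupp.coe_zero, Pi.zero_apply, max_comm]
  have hZb : ∀ w : Place k Fk',
      Zb w = max 0 (w.ord (R'.red x - algebraMap k Fk' (π c))) := by
    intro w
    rw [hZbdef, Finsupp.sup_apply, divOf_apply', Finsupp.coe_zero, Pi.zero_apply, max_comm]
  have h := hr'.mapDomain_zeros x hx hD hX hdeg c hZ hZb
  have hZd : ∀ v : Place K F', d ∣ Z v := by
    intro v
    rw [hZ]
    rcases le_or_gt (v.ord (((x : R'.O) : F') - algebraMap K F' (c : K))) 0 with h0 | h0
    · rw [max_eq_left h0]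
      exact dvd_zero d
    · rw [max_eq_right h0.le]
      exact hd v h0
  have h1 := ue_dvd_mapDomain r' Z d hZd Q
  rw [h, hZb, max_eq_right hQ.le] at h1
  exact h1

end Fermat.Agent.S16lib

end
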