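/-
S16 library, piece U-E / G3 (b) (helper18): in characteristic zero, at a level `N` divisible by `9`
every zero of `j` in the function field of `X₀(N)` has order exactly `3` (no elliptic points of
order three).  From the S24 library (fibre over `j = 0`, orbit count) and the fundamental equality.
-/
import Mathlib
import Fermat.Agent.S24lib.Final
import Fermat.Agent.GM.Numerics

set_option autoImplicit false

open scoped MatrixGroups
open AlgebraicCurve IntermediateField CongruenceSubgroup ModularCurve UpperHalfPlane ModularGroup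

noncomputable section

namespace Fermat.Agent.S16lib

open Fermat.Agent.S24lib

/-- the orbit of a fixed point is a point -/
theorem ue_card_orbit_of_fixed {G X : Type*} [Group G] [MulAction G X] (g : G) (x : X)
    (h : g • x = x) : Nat.card (MulAction.orbit (Subgroup.zpowers g) x) ≤ 1 := by
  have hle : Subgroup.zpowers g ≤ MulAction.stabilizer G x := by
    rw [Subgroup.zpowers_le]
    exact h
  have hsub : Subsingleton (MulAction.orbit (Subgroup.zpowers g) x) := by
    constructor
    rintro ⟨a, ⟨⟨ha, ha'⟩, rfl⟩⟩ ⟨b, ⟨⟨hb, hb'⟩, rfl⟩⟩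
    apply Subtype.ext
    show ha • x = hb • x
    rw [MulAction.mem_stabilizer_iff.1 (hle ha'), MulAction.mem_stabilizer_iff.1 (hle hb')]
  exact Finite.card_le_one_iff_subsingleton.2 hsub

variable (N : ℕ) [NeZero N]

/-- every zero of `j` has order at most `3` -/
theorem ue_ord_j_le_three (v : Place Kbar (FF N))
    (hv : 0 < v.ord (jF N - algebraMap Kbar (FF N) 0)) :
    v.ord (jF N - algebraMap Kbar (FF N) 0) ≤ 3 := by
  letI : Algebra Kbar ℂ := ιC.toAlgebra
  obtain ⟨i, m, hm, h⟩ := (fiberRho N).exists_index v hv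
  have hpl := (fiberRho N).place_eq_of_index hm h
  have hle := (fiberRho N).place_ord_u_le i
  rw [hpl] at hle
  refine hle.trans ?_
  rcases fib_orbit_card N (S * T) Nat.prime_three i
      (by rw [fib_ST_pow_three]; exact fib_neg_one_smul N i) with h1 | h1
  · have := ue_card_orbit_of_fixed (S * T : SL(2, ℤ)) i h1
    exact_mod_cast this.trans (by norm_num)
  · exact le_of_eq (by exact_mod_cast h1)

/-- **G3 (b)**: at a level divisible by `9`, every zero of `j - 0` has order exactly `3`. -/
theorem ue_ord_j_sub_eq_three (h9 : 9 ∣ N) (v : Place Kbar (FF N))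
    (hv : 0 < v.ord (jF N - algebraMap Kbar (FF N) 0)) :
    v.ord (jF N - algebraMap Kbar (FF N) 0) = 3 := by
  classical
  letI : Algebra Kbar ℂ := ιC.toAlgebra
  have hFF : FFData Kbar (jF N - algebraMap Kbar (FF N) 0) := (fiberRho N).ffData
  have hcard : 3 * (ffZeros Kbar (jF N - algebraMap Kbar (FF N) 0)).card = dedekindPsi N := by
    have h1 := fin_card_rho_fibre N
    rw [Fermat.Agent.GM.nuThree_eq_zero_of_aux (Or.inr h9), mul_zero, add_zero] at h1
    rw [← h1]
    congr 1
    rw [← Nat.card_eq_finsetCard]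
    apply Nat.card_congr
    exact Equiv.subtypeEquivRight (fun w => ffMem_zeros_iff w)
  have hsum : ∑ w ∈ ffZeros Kbar (jF N - algebraMap Kbar (FF N) 0),
      w.ord (jF N - algebraMap Kbar (FF N) 0) = (dedekindPsi N : ℤ) := by
    rw [ffSum_ord_zeros (K := Kbar) (x := jF N - algebraMap Kbar (FF N) 0),
      (fiberRho N).finrank_eq, fin_card_I]
  have hzero : ∑ w ∈ ffZeros Kbar (jF N - algebraMap Kbar (FF N) 0),
      (3 - w.ord (jF N - algebraMap Kbar (FF N) 0)) = 0 := by
    rw [Finset.sum_sub_distrib, hsum, Finset.sum_const, ← hcard]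
    simp
    ring
  have hnn : ∀ w ∈ ffZeros Kbar (jF N - algebraMap Kbar (FF N) 0),
      0 ≤ 3 - w.ord (jF N - algebraMap Kbar (FF N) 0) := by
    intro w hw
    have := ue_ord_j_le_three N w ((ffMem_zeros_iff w).1 hw)
    omega
  have := (Finset.sum_eq_zero_iff_of_nonneg hnn).1 hzero v ((ffMem_zeros_iff v).2 hv)
  omega

/-- **G3 (b)**, stated for `j`. -/
theorem ue_ord_j_eq_three (h9 : 9 ∣ N) (v : Place Kbar (FF N)) (hv : 0 < v.ord (jF N)) :
    v.ord (jF N) = 3 := by
  have h := ue_ord_j_sub_eq_three N h9 v (by rwa [map_zero, sub_zero])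
  rwa [map_zero, sub_zero] at h

end Fermat.Agent.S16lib

end
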