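/-
Item 16 (S16), piece U-E, UE-R algebraic tail (helper11): pure function-field algebra (RRlib).
In characteristic `0`: if `ψ₀, ψ₁, ψ₂` are regular at a finite place `v` of the `j`-line cover and
`ψ₀² = ψ₁ (j - a)`, `ψ₀³ = ψ₂ j` (`a = 1728`), then the differential
`φ • dj`, `φ = -ψ₀ / (j (j - a))`, is regular at `v`.
-/
import Mathlib
import Fermat.Agent.RRlib.Hurwitz

set_option autoImplicit false

noncomputable section

namespace Fermat.Agent.S16lib

open AlgebraicCurve Fermat.Agent.S24lib Fermat.Agent.RRlib KaehlerDifferential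

variable {K F : Type*} [Field K] [Field F] [Algebra K F]

/-- `ord_v (x + c) = 0` for a constant `c ≠ 0` if `x` vanishes at `v`. -/
theorem uert_ord_add_const (v : Place K F) {x : F} (hx : 0 < v.ord x) {c : K} (hc : c ≠ 0) :
    v.ord (x + algebraMap K F c) = 0 := by
  have hc0 : algebraMap K F c ≠ 0 := by
    rw [Ne, map_eq_zero]; exact hc
  have hx0 : x ≠ 0 := by
    rintro rfl
    rw [v.ord_zero] at hx
    exact lt_irrefl _ hx
  rw [add_comm, hw_ord_add_eq_of_lt v hc0 hx0 (by rw [ffOrd_algebraMap]; exact hx),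
    ffOrd_algebraMap]

/-- the order of `j - a` at a place with centre `c`. -/
theorem uert_ord_sub_const (v : Place K F) {j : F} {c : K}
    (hc : 0 < v.ord (j - algebraMap K F c)) (a : K) (hac : a ≠ c) :
    v.ord (j - algebraMap K F a) = 0 := by
  have h : j - algebraMap K F a = (j - algebraMap K F c) + algebraMap K F (c - a) := by
    rw [map_sub]; ring
  rw [h]
  exact uert_ord_add_const v hc (sub_ne_zero.mpr (Ne.symm hac))

variable [CharZero K] [RRBase K F]

/-- tame Hurwitz at a place with centre `c`: `ord_v (dj) = ord_v (j - c) - 1`. -/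
theorem uert_ordDifferential_D (v : Place K F) [v.DCoordGenerates] [Nontrivial Ω[F⁄K]] {j : F}
    {c : K} (hc : 0 < v.ord (j - algebraMap K F c)) :
    v.ordDifferential (D K F j) = v.ord (j - algebraMap K F c) - 1 := by
  have h : D K F (j - algebraMap K F c) = D K F j := by
    rw [map_sub, Derivation.map_algebraMap, sub_zero]
  rw [← h]
  exact hw_ordDifferential_D_eq v (by exact_mod_cast hc.ne')

/-- **UE-R, algebraic tail (local form)**. -/
theorem uert_local (v : Place K F) [v.DCoordGenerates] [Nontrivial Ω[F⁄K]]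
    {j ψ₀ ψ₁ ψ₂ : F} (a : K) (ha : a ≠ 0) {c : K}
    (hc : 0 < v.ord (j - algebraMap K F c)) (hdj : D K F j ≠ 0)
    (h1 : 0 ≤ v.ord ψ₁) (h2 : 0 ≤ v.ord ψ₂) (h0 : 0 ≤ v.ord ψ₀)
    (hr1 : ψ₀ ^ 2 = ψ₁ * (j - algebraMap K F a)) (hr2 : ψ₀ ^ 3 = ψ₂ * j) :
    0 ≤ v.ordDifferential ((-ψ₀ / (j * (j - algebraMap K F a))) • D K F j) := by
  rcases eq_or_ne ψ₀ 0 with rfl | hψ
  · rw [neg_zero, zero_div, zero_smul, Place.ordDifferential, Place.differentialCoeff_zero,
      v.ord_zero]
  have hj0 : j ≠ 0 := by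
    rintro rfl
    rw [mul_zero] at hr2
    exact hψ (pow_eq_zero_iff (by norm_num) |>.mp hr2)
  have hja : j - algebraMap K F a ≠ 0 := by
    intro h
    rw [h, mul_zero] at hr1
    exact hψ (pow_eq_zero_iff (by norm_num) |>.mp hr1)
  have hψ1 : ψ₁ ≠ 0 := by
    rintro rfl
    rw [zero_mul] at hr1
    exact hψ (pow_eq_zero_iff (by norm_num) |>.mp hr1)
  have hψ2 : ψ₂ ≠ 0 := by
    rintro rfl
    rw [zero_mul] at hr2
    exact hψ (pow_eq_zero_iff (by norm_num) |>.mp hr2)
  have hφ : -ψ₀ / (j * (j - algebraMap K F a)) ≠ 0 :=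
    div_ne_zero (neg_ne_zero.mpr hψ) (mul_ne_zero hj0 hja)
  have hordφ : v.ord (-ψ₀ / (j * (j - algebraMap K F a))) =
      v.ord ψ₀ - v.ord j - v.ord (j - algebraMap K F a) := by
    rw [div_eq_mul_inv, v.ord_mul (neg_ne_zero.mpr hψ) (inv_ne_zero (mul_ne_zero hj0 hja)),
      v.ord_inv, v.ord_mul hj0 hja, ffOrd_neg]
    ring
  have e2 : 2 * v.ord ψ₀ = v.ord ψ₁ + v.ord (j - algebraMap K F a) := by
    have := congrArg v.ord hr1
    rw [v.ord_mul hψ1 hja, ← zpow_natCast, v.ord_zpow] at this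
    simpa using this
  have e3 : 3 * v.ord ψ₀ = v.ord ψ₂ + v.ord j := by
    have := congrArg v.ord hr2
    rw [v.ord_mul hψ2 hj0, ← zpow_natCast, v.ord_zpow] at this
    simpa using this
  rw [kl_ordDifferential_smul v hdj hφ, hordφ, uert_ordDifferential_D v hc]
  by_cases hc0 : c = 0
  · subst hc0
    rw [map_zero, sub_zero] at hc ⊢
    have hja0 : v.ord (j - algebraMap K F a) = 0 := by
      rw [sub_eq_add_neg, ← map_neg]
      exact uert_ord_add_const v hc (neg_ne_zero.mpr ha)
    rw [hja0]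
    omega
  · by_cases hca : a = c
    · subst hca
      have hj : v.ord j = 0 := by
        have h : j = (j - algebraMap K F a) + algebraMap K F a := by ring
        rw [h]
        exact uert_ord_add_const v hc ha
      rw [hj]
      omega
    · have hj : v.ord j = 0 := by
        have h : j = (j - algebraMap K F c) + algebraMap K F c := by ring
        rw [h]
        exact uert_ord_add_const v hc hc0
      have hja0 := uert_ord_sub_const v hc a hca
      rw [hj, hja0]
      omega

omit [CharZero K] [RRBase K F] in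
/-- an element integral over `K[j]` is regular at every place where `j` is regular. -/
theorem uert_ord_nonneg_of_isIntegral (v : Place K F) {j ψ : F} (hj : 0 ≤ v.ord j)
    (hψ : IsIntegral (Algebra.adjoin K {j}) ψ) : 0 ≤ v.ord ψ := by
  have hjm : j ∈ v.toValuationSubring := ffMem_of_ord_nonneg v hj
  have hle : ∀ x ∈ Algebra.adjoin K {j}, x ∈ v.toValuationSubring := by
    intro x hx
    induction hx using Algebra.adjoin_induction with
    | mem y hy =>
      rw [Set.mem_singleton_iff] at hy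
      rw [hy]; exact hjm
    | algebraMap c => exact v.algebraMap_mem' c
    | add x y _ _ hx hy => exact add_mem hx hy
    | mul x y _ _ hx hy => exact mul_mem hx hy
  obtain ⟨p, hpm, hp⟩ := hψ
  apply ffOrd_nonneg_of_mem v
  let ι : Algebra.adjoin K {j} →+* v.toValuationSubring :=
    { toFun := fun x => ⟨x.1, hle x.1 x.2⟩
      map_one' := rfl
      map_mul' := fun _ _ => rfl
      map_zero' := rfl
      map_add' := fun _ _ => rfl }
  have hint : IsIntegral v.toValuationSubring ψ := by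
    refine ⟨p.map ι, hpm.map ι, ?_⟩
    rw [Polynomial.eval₂_map]
    have hcomp : (algebraMap v.toValuationSubring F).comp ι =
        algebraMap (Algebra.adjoin K {j}) F := by
      ext x
      rfl
    rw [hcomp]
    exact hp
  have hic : IsIntegrallyClosed v.toValuationSubring := inferInstance
  obtain ⟨y, hy⟩ := (IsIntegrallyClosed.isIntegral_iff (R := v.toValuationSubring) (K := F)).mp hint
  rw [← hy]
  exact y.2

/-- **UE-R, algebraic tail**: for `ψ₀, ψ₁, ψ₂` integral over `K[j]` with `ψ₀² = ψ₁ (j - a)`,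
`ψ₀³ = ψ₂ j`, `a ≠ 0`, the differential `(-ψ₀ / (j (j - a))) • dj` is regular at every place where
`j` is regular. -/
theorem uert_main (v : Place K F) [v.DCoordGenerates] [Nontrivial Ω[F⁄K]]
    {j ψ₀ ψ₁ ψ₂ : F} (a : K) (ha : a ≠ 0) (hj : 0 ≤ v.ord j)
    (hcen : ∃ c : K, 0 < v.ord (j - algebraMap K F c)) (hdj : D K F j ≠ 0)
    (h0 : IsIntegral (Algebra.adjoin K {j}) ψ₀) (h1 : IsIntegral (Algebra.adjoin K {j}) ψ₁)
    (h2 : IsIntegral (Algebra.adjoin K {j}) ψ₂)
    (hr1 : ψ₀ ^ 2 = ψ₁ * (j - algebraMap K F a)) (hr2 : ψ₀ ^ 3 = ψ₂ * j) :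
    0 ≤ v.ordDifferential ((-ψ₀ / (j * (j - algebraMap K F a))) • D K F j) := by
  obtain ⟨c, hc⟩ := hcen
  exact uert_local v a ha hc hdj (uert_ord_nonneg_of_isIntegral v hj h1)
    (uert_ord_nonneg_of_isIntegral v hj h2) (uert_ord_nonneg_of_isIntegral v hj h0) hr1 hr2

/-- the same with the centre supplied by `ffExists_center`. -/
theorem uert_main' [IsAlgClosed K] (v : Place K F) [v.DCoordGenerates] [Nontrivial Ω[F⁄K]]
    {j ψ₀ ψ₁ ψ₂ : F} (hjt : Transcendental K j) [Algebra.IsAlgebraic (IntermediateField.adjoin K {j}) F]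
    (a : K) (ha : a ≠ 0) (hj : 0 ≤ v.ord j) (hdj : D K F j ≠ 0)
    (h0 : IsIntegral (Algebra.adjoin K {j}) ψ₀) (h1 : IsIntegral (Algebra.adjoin K {j}) ψ₁)
    (h2 : IsIntegral (Algebra.adjoin K {j}) ψ₂)
    (hr1 : ψ₀ ^ 2 = ψ₁ * (j - algebraMap K F a)) (hr2 : ψ₀ ^ 3 = ψ₂ * j) :
    0 ≤ v.ordDifferential ((-ψ₀ / (j * (j - algebraMap K F a))) • D K F j) :=
  uert_main v a ha hj (ffExists_center v hjt hj) hdj h0 h1 h2 hr1 hr2

end Fermat.Agent.S16lib

end
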