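/-
S16 library, piece U-E (helper18): the interface to item 75 at a level `M` with `9 ∣ M`, `2 ∤ M`
(for U-E: `M = 9 p`).  Constant reduction `R` of `F_M` along a valuation ring `A` over `2`, its
compatibility with `q`-expansions, the place reduction `r` with (Ax) and the lifting property (F3),
and the genus equality.
Everything is assembled from landed results of items 66/75 (no new mathematics).
-/
import Mathlib
import Fermat.Agent.GoodRed.DescWiring
import Fermat.Agent.GoodRed.Genus
import Fermat.Agent.GM.MainFinal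

set_option autoImplicit false
set_option linter.style.haveILetI false
set_option synthInstance.maxHeartbeats 400000

noncomputable section

namespace Fermat.Agent.S16lib

open AlgebraicCurve ModularCurve IntermediateField CongruenceSubgroup
open Fermat.Agent.S24lib Fermat.Agent.FFlib Fermat.Agent.RRlib Fermat.Agent.GoodRed
  Fermat.Agent.GM
open scoped MatrixGroups

/-- `M` is an auxiliary level for `ℓ = 2` -/
theorem ue_isAuxLevel {M : ℕ} (h9 : 9 ∣ M) (h2 : ¬ 2 ∣ M) : IsAuxLevel 2 M :=
  ⟨h2, Or.inr ⟨rfl, h9⟩⟩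

variable (M : ℕ) [NeZero M] (A : ValuationSubring Kbar)

/-- the fibre data over the cusps in characteristic `2` -/
theorem ue_fiberData (h2 : ¬ 2 ∣ M) (hA : A.LiesOverPrime 2) :
    Nonempty (FiberData (IsLocalRing.ResidueField A) (Fk (IsLocalRing.ResidueField A) M)
      (IsLocalRing.ResidueField A) ((jk (IsLocalRing.ResidueField A) M)⁻¹)
      (SL(2, ℤ) ⧸ Gamma0 M) ModularGroup.T) :=
  haveI : Fact (Nat.Prime 2) := ⟨Nat.prime_two⟩
  exists_fiberData_modL' M h2 A hA

/-- **the setting of U-E**: the constant reduction of `F_M` at a valuation ring over `2`, with its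
place reduction, (Ax), (F3) and the genus equality. -/
theorem ue_exists_red (h9 : 9 ∣ M) (h2 : ¬ 2 ∣ M) (hA : A.LiesOverPrime 2) :
    haveI : IsAlgClosed (IsLocalRing.ResidueField A) := isAlgClosed_residueField A
    haveI : RRHyp Kbar (FF M) := mod_rrHyp M
    haveI : RRHyp (IsLocalRing.ResidueField A) (Fk (IsLocalRing.ResidueField A) M) :=
      mr_rrHyp (IsLocalRing.ResidueField A) M
    ∃ (R : ConstRed A (IsLocalRing.residue A) (Fk (IsLocalRing.ResidueField A) M) (FF M))
      (r : Place Kbar (FF M) →
        Place (IsLocalRing.ResidueField A) (Fk (IsLocalRing.ResidueField A) M)),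
      IsSeriesRed R ∧ R.IsPlaceRed r ∧
      (∀ D : Divisor Kbar (FF M), 2 * (genusFF Kbar (FF M) : ℤ) - 2 < Divisor.degree D →
        R.W D = riemannRochSpace (K := IsLocalRing.ResidueField A) (Finsupp.mapDomain r D)) ∧
      genusFF (IsLocalRing.ResidueField A) (Fk (IsLocalRing.ResidueField A) M)
        = genusFF Kbar (FF M) := by
  haveI : Fact (Nat.Prime 2) := ⟨Nat.prime_two⟩
  haveI : IsAlgClosed (IsLocalRing.ResidueField A) := isAlgClosed_residueField A
  haveI : Infinite (IsLocalRing.ResidueField A) := IsAlgClosed.instInfinite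
  haveI : RRHyp Kbar (FF M) := mod_rrHyp M
  haveI : RRHyp (IsLocalRing.ResidueField A) (Fk (IsLocalRing.ResidueField A) M) :=
    mr_rrHyp (IsLocalRing.ResidueField A) M
  have hne : A ≠ ⊤ := dw_ne_top Nat.prime_two hA
  obtain ⟨R, hR⟩ := exists_modConstRed M A hne (hred_modL M h2 A hA)
  have hg := genusFF_le_modL M (ue_isAuxLevel h9 h2) A hA
  obtain ⟨r, hr, hW⟩ := R.exists_isPlaceRed hg
  exact ⟨R, r, hR, hr, hW, le_antisymm (R.genusFF_le) hg⟩

end Fermat.Agent.S16lib

end
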