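/-
S16 library, piece U-E / G3 (c), formal part (helper18): the modular unit `Δ(q^p)/Δ(q)` as a
Laurent series over an arbitrary commutative ring; over `ℚ` it is S28lib's `udq p`, and in
characteristic `2` (where `E₄ ≡ 1`, so `j̄ = 1/Δ̄`) it is `j̄ / j̄(q^p)`.
-/
import Mathlib
import Fermat.Agent.S28lib.UnitDefs
import Fermat.Agent.S16lib.UE2
import Fermat.Prelude.Def_ModularCurve_X0ModL

set_option autoImplicit false

noncomputable section

namespace Fermat.Agent.S16lib

open ModularCurve Fermat.Agent.S28lib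

section Generic

variable (R : Type*) [CommRing R]

/-- `Δ = q ∏ (1 - q^n)^24` over `R` -/
def ueuDelta : LaurentSeries R :=
  HahnSeries.single (1 : ℤ) (1 : R) *
    HahnSeries.ofPowerSeries ℤ R (dedekindEtaUnit.map (Int.castRingHom R))

/-- `Δ⁻¹` over `R` -/
def ueuDeltaInv : LaurentSeries R :=
  HahnSeries.single (-1 : ℤ) (1 : R) *
    HahnSeries.ofPowerSeries ℤ R (dedekindEtaUnitInv.map (Int.castRingHom R))

theorem ueuDelta_mul_inv : ueuDelta R * ueuDeltaInv R = 1 := by
  have h1 : (HahnSeries.single (1 : ℤ) (1 : R)) * HahnSeries.single (-1 : ℤ) (1 : R) = 1 := by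
    rw [HahnSeries.single_mul_single]
    simp
  have h2 : HahnSeries.ofPowerSeries ℤ R (dedekindEtaUnit.map (Int.castRingHom R)) *
      HahnSeries.ofPowerSeries ℤ R (dedekindEtaUnitInv.map (Int.castRingHom R)) = 1 := by
    rw [← map_mul, ← map_mul, dedekindEtaUnit_mul_inv, map_one, map_one]
  calc ueuDelta R * ueuDeltaInv R
      = (HahnSeries.single (1 : ℤ) (1 : R) * HahnSeries.single (-1 : ℤ) (1 : R)) *
        (HahnSeries.ofPowerSeries ℤ R (dedekindEtaUnit.map (Int.castRingHom R)) *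
          HahnSeries.ofPowerSeries ℤ R (dedekindEtaUnitInv.map (Int.castRingHom R))) := by
        unfold ueuDelta ueuDeltaInv
        ring
    _ = 1 := by rw [h1, h2, one_mul]

/-- the modular unit `Δ(q^p)/Δ(q)` over `R` -/
def ueuU (p : ℕ) [NeZero p] : LaurentSeries R := qExpand R p (ueuDelta R) * ueuDeltaInv R

theorem ueuU_mul_delta (p : ℕ) [NeZero p] : ueuU R p * ueuDelta R = qExpand R p (ueuDelta R) := by
  rw [ueuU, mul_assoc, mul_comm (ueuDeltaInv R), ueuDelta_mul_inv, mul_one]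

variable {R} {S : Type*} [CommRing S]

theorem ueu_map_map (f : R →+* S) (x : PowerSeries ℤ) :
    (x.map (Int.castRingHom R)).map f = x.map (Int.castRingHom S) := by
  rw [← RingHom.comp_apply (PowerSeries.map f) (PowerSeries.map (Int.castRingHom R)),
    ← PowerSeries.map_comp, RingHom.ext_int (f.comp (Int.castRingHom R)) (Int.castRingHom S)]

theorem coeffMap_ueuDelta (f : R →+* S) : coeffMap f (ueuDelta R) = ueuDelta S := by
  rw [ueuDelta, map_mul, coeffMap_single, map_one, coeffMap_ofPowerSeries, ueu_map_map]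
  rfl

theorem coeffMap_ueuDeltaInv (f : R →+* S) : coeffMap f (ueuDeltaInv R) = ueuDeltaInv S := by
  rw [ueuDeltaInv, map_mul, coeffMap_single, map_one, coeffMap_ofPowerSeries, ueu_map_map]
  rfl

theorem coeffMap_ueuU (f : R →+* S) (p : ℕ) [NeZero p] :
    coeffMap f (ueuU R p) = ueuU S p := by
  rw [ueuU, map_mul, coeffMap_qExpand, coeffMap_ueuDelta, coeffMap_ueuDeltaInv]
  rfl

end Generic

/-- over `ℚ` the series `Δ` is S28lib's `deltaQ` -/
theorem ueuDelta_rat : ueuDelta ℚ = deltaQ := deltaQ_eq.symm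

/-- over `ℚ` the unit is S28lib's `udq p` -/
theorem ueuU_rat (p : ℕ) [NeZero p] : ueuU ℚ p = udq p := by
  have h := ueuU_mul_delta ℚ p
  rw [ueuDelta_rat] at h
  rw [udq, eq_div_iff deltaQ_ne_zero, h]

section CharTwo

variable (k : Type*) [Field k] [CharP k 2]

/-- in characteristic `2`: `j̄ = 1/Δ̄` -/
theorem ueu_jqModC : jqModC k = ueuDeltaInv k := by
  rw [jqModC, ueuDeltaInv, jNum, map_mul, map_pow, ue2_eisenstein4_map, one_pow, one_mul]

theorem ueu_jqModC_mul_delta : jqModC k * ueuDelta k = 1 := by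
  rw [ueu_jqModC, mul_comm, ueuDelta_mul_inv]

/-- in characteristic `2`: `ū · j̄(q^p) = j̄` -/
theorem ueuU_mul_jqNModC (p : ℕ) [NeZero p] : ueuU k p * jqNModC k p = jqModC k := by
  rw [jqNModC, ueuU, mul_right_comm, ← map_mul, mul_comm (ueuDelta k), ueu_jqModC_mul_delta,
    map_one, one_mul, ueu_jqModC]

theorem ueuU_ne_zero (p : ℕ) [NeZero p] : ueuU k p ≠ 0 := by
  intro h
  have h1 := ueuU_mul_jqNModC k p
  rw [h, zero_mul] at h1
  exact jqModC_ne_zero_of_nontrivial k h1.symm

end CharTwo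

end Fermat.Agent.S16lib

end
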