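/-
S16 library, piece U-E / G3 (c) (helper18): the modular unit `u = Δ(q^p)/Δ(q)` in the function
field of `X₀(M)` (`p ∣ M`): it has neither zeros nor poles outside the cusps (S28lib, piece U), and
the same holds for its reduction modulo `2` (by (Ax) of the place reduction).
-/
import Mathlib
import Fermat.Agent.S16lib.UEUnitF
import Fermat.Agent.S16lib.UERed
import Fermat.Agent.S16lib.UERTail
import Fermat.Agent.S16lib.UEDvd
import Fermat.Agent.S16lib.UEFib
import Fermat.Agent.S28lib.Unit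
import Fermat.Agent.GM.RedInstSym

set_option autoImplicit false
set_option linter.style.haveILetI false
set_option synthInstance.maxHeartbeats 400000

noncomputable section

namespace Fermat.Agent.S16lib

open AlgebraicCurve ModularCurve ModularCurve.IgusaScheme IntermediateField CongruenceSubgroup
open Fermat.Agent.S24lib Fermat.Agent.S28lib Fermat.Agent.FFlib Fermat.Agent.RRlib
  Fermat.Agent.GoodRed Fermat.Agent.GM
open scoped MatrixGroups

/-! ### characteristic zero -/

section CharZero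

variable (M : ℕ) [NeZero M] (p : ℕ) [NeZero p]

theorem ueu_udq_mem (hpM : p ∣ M) : udq p ∈ modularFunctionFieldFull M :=
  udq_mem_of M p (uWH M p hpM) (fun γ hγ => smul_uWH hpM γ hγ) (expInf_uWH M p hpM)

/-- the modular unit over `ℚ` -/
def ueuQ (hpM : p ∣ M) : ↥(modularFunctionFieldFull M) := ⟨udq p, ueu_udq_mem M p hpM⟩

/-- the modular unit in `FF M` -/
def ueuF (hpM : p ∣ M) : FF M := toFF M (ueuQ M p hpM)

theorem coe_ueuF (hpM : p ∣ M) :
    ((ueuF M p hpM : FF M) : LaurentSeries Kbar) = ueuU Kbar p := by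
  rw [ueuF, coe_toFF]
  show coeffEmb Kbar (udq p) = _
  rw [← ueuU_rat, coeffEmb, coeffMap_ueuU]

theorem ueuQ_isIntegral (hpM : p ∣ M) :
    IsIntegral ↥(Algebra.adjoin ℚ {jFull M}) (ueuQ M p hpM) :=
  isIntegral_of_WH M ⟨udq p, ueu_udq_mem M p hpM⟩ (uWH M p hpM) (uWH_mem_KRat M p hpM)
    (fun γ hγ => smul_uWH hpM γ hγ) (expInf_uWH M p hpM)

theorem ueuQ_inv_isIntegral (hpM : p ∣ M) :
    IsIntegral ↥(Algebra.adjoin ℚ {jFull M}) (ueuQ M p hpM)⁻¹ :=
  isIntegral_of_WH M (⟨udq p, ueu_udq_mem M p hpM⟩)⁻¹ (uWHinv M p hpM) (uWHinv_mem_KRat M p hpM)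
    (fun γ hγ => smul_uWHinv hpM γ hγ) (expInf_uWHinv M p hpM)

/-- integrality over `ℚ[j]` passes to `FF M` over `ℚ̄[j]` -/
theorem ueu_toFF_isIntegral {x : ↥(modularFunctionFieldFull M)}
    (h : IsIntegral ↥(Algebra.adjoin ℚ {jFull M}) x) :
    IsIntegral ↥(Algebra.adjoin Kbar {jF M}) (toFF M x) := by
  rw [isIntegral_adjoin_singleton_iff (R := Kbar) (jF M) (toFF M x)]
  have h1 : (phiQ M).IsIntegralElem x := (isIntegral_adjoin_rat_iff _).mp h
  have h2 := isIntegralElem_map_of (toFF M) h1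
  rw [toFF_comp_phiQ] at h2
  exact isIntegralElem_of_comp _ _ h2

/-- **the modular unit has no zeros and no poles outside the cusps** -/
theorem ueuF_ord_eq_zero (hpM : p ∣ M) (P : Place Kbar (FF M)) (hP : 0 ≤ P.ord (jF M)) :
    P.ord (ueuF M p hpM) = 0 := by
  have h1 : 0 ≤ P.ord (ueuF M p hpM) :=
    uert_ord_nonneg_of_isIntegral P hP (ueu_toFF_isIntegral M (ueuQ_isIntegral M p hpM))
  have h2 : 0 ≤ P.ord (ueuF M p hpM)⁻¹ := by
    have := uert_ord_nonneg_of_isIntegral P hP
      (ueu_toFF_isIntegral M (ueuQ_inv_isIntegral M p hpM))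
    rwa [map_inv₀] at this
  rw [P.ord_inv] at h2
  omega

end CharZero

/-! ### reduction -/

section Red

variable {M : ℕ} [NeZero M] {A : ValuationSubring Kbar}
variable {R : ConstRed A (IsLocalRing.residue A) (Fk (IsLocalRing.ResidueField A) M) (FF M)}

/-- the pole divisors of `j` and `j̄` have the same degree -/
theorem ue_exists_poles (hR : IsSeriesRed R)
    (hD : Nonempty (FiberData (IsLocalRing.ResidueField A) (Fk (IsLocalRing.ResidueField A) M)
      (IsLocalRing.ResidueField A) ((jk (IsLocalRing.ResidueField A) M)⁻¹)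
      (SL(2, ℤ) ⧸ Gamma0 M) ModularGroup.T)) :
    haveI : IsAlgClosed (IsLocalRing.ResidueField A) := isAlgClosed_residueField A
    haveI : RRHyp Kbar (FF M) := mod_rrHyp M
    haveI : RRHyp (IsLocalRing.ResidueField A) (Fk (IsLocalRing.ResidueField A) M) :=
      mr_rrHyp (IsLocalRing.ResidueField A) M
    ∃ (D : Divisor Kbar (FF M))
      (X : Divisor (IsLocalRing.ResidueField A) (Fk (IsLocalRing.ResidueField A) M)),
      (∀ v : Place Kbar (FF M),
        D v = max 0 (-(v.ord (((⟨jF M, dw_jF_mem hR⟩ : R.O) : R.O) : FF M)))) ∧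
      (∀ w : Place (IsLocalRing.ResidueField A) (Fk (IsLocalRing.ResidueField A) M),
        X w = max 0 (-(w.ord (R.red ⟨jF M, dw_jF_mem hR⟩)))) ∧
      Divisor.degree D ≤ Divisor.degree X := by
  classical
  haveI : IsAlgClosed (IsLocalRing.ResidueField A) := isAlgClosed_residueField A
  haveI : RRHyp Kbar (FF M) := mod_rrHyp M
  haveI : RRHyp (IsLocalRing.ResidueField A) (Fk (IsLocalRing.ResidueField A) M) :=
    mr_rrHyp (IsLocalRing.ResidueField A) M
  set D : Divisor Kbar (FF M) := (-divOf (K := Kbar) (jF M)) ⊔ 0 with hDdef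
  set X : Divisor (IsLocalRing.ResidueField A) (Fk (IsLocalRing.ResidueField A) M) :=
    (-divOf (K := IsLocalRing.ResidueField A) (jk (IsLocalRing.ResidueField A) M)) ⊔ 0
    with hXdef
  have hD' : ∀ v : Place Kbar (FF M), D v = max 0 (-(v.ord (jF M))) := by
    intro v
    rw [hDdef, Finsupp.sup_apply, Finsupp.neg_apply, divOf_apply', Finsupp.coe_zero,
      Pi.zero_apply, max_comm]
  have hX' : ∀ w : Place (IsLocalRing.ResidueField A) (Fk (IsLocalRing.ResidueField A) M),
      X w = max 0 (-(w.ord (jk (IsLocalRing.ResidueField A) M))) := by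
    intro w
    rw [hXdef, Finsupp.sup_apply, Finsupp.neg_apply, divOf_apply', Finsupp.coe_zero,
      Pi.zero_apply, max_comm]
  refine ⟨D, X, hD', ?_, ?_⟩
  · intro w
    rw [dw_red_jF hR]
    exact hX' w
  · rw [dd_degree_poles_jF M D hD', dd_degree_poles_jk M hD X hX']

end Red

end Fermat.Agent.S16lib

end
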