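/-
S16 library, piece U-E / G3 (c), reduction part (helper18): the reduction `ū` of the modular unit
`Δ(q^p)/Δ(q)` modulo `2` has no zeros or poles outside the cusps; consequently
`8 · ord_x Θ = (p − 1) · ord_x j̄` at every non-cuspidal place `x`, for `Θ` with `Θ⁸ j̄(q^p) = j̄^p`;
and `3 ∣ ord_x j̄` at every zero of `j̄` (level divisible by `9`).
-/
import Mathlib
import Fermat.Agent.S16lib.UEUnit
import Fermat.Agent.GM.RedInstDefs

set_option autoImplicit false
set_option linter.style.haveILetI false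
set_option synthInstance.maxHeartbeats 400000

noncomputable section

namespace Fermat.Agent.S16lib

open AlgebraicCurve ModularCurve ModularCurve.IgusaScheme IntermediateField CongruenceSubgroup
open Fermat.Agent.S24lib Fermat.Agent.S28lib Fermat.Agent.FFlib Fermat.Agent.RRlib
  Fermat.Agent.GoodRed Fermat.Agent.GM
open scoped MatrixGroups

variable {M : ℕ} [NeZero M] {A : ValuationSubring Kbar}
variable {R : ConstRed A (IsLocalRing.residue A) (Fk (IsLocalRing.ResidueField A) M) (FF M)}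
variable (p : ℕ) [NeZero p]

theorem ueu_series_mem (hpM : p ∣ M) :
    coeffMap A.subtype (ueuU A p) ∈ modularFunctionFieldBar M := by
  rw [coeffMap_ueuU, ← coe_ueuF M p hpM]
  exact (ueuF M p hpM).2

theorem ueuF_mem (hR : IsSeriesRed R) (hpM : p ∣ M) : ueuF M p hpM ∈ R.O := by
  have h := hR.mem (ueuU A p) (ueu_series_mem p hpM)
  have e : ueuF M p hpM = ⟨coeffMap A.subtype (ueuU A p), ueu_series_mem p hpM⟩ :=
    Subtype.ext ((coe_ueuF M p hpM).trans (coeffMap_ueuU A.subtype p).symm)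
  rw [e]
  exact h

theorem coe_red_ueuF (hR : IsSeriesRed R) (hpM : p ∣ M) :
    ((R.red ⟨ueuF M p hpM, ueuF_mem p hR hpM⟩ : Fk (IsLocalRing.ResidueField A) M) :
      LaurentSeries (IsLocalRing.ResidueField A)) = ueuU (IsLocalRing.ResidueField A) p := by
  have h := hR.red (ueuU A p) (ueu_series_mem p hpM)
  have e : (⟨ueuF M p hpM, ueuF_mem p hR hpM⟩ : R.O)
      = ⟨⟨coeffMap A.subtype (ueuU A p), ueu_series_mem p hpM⟩,
          hR.mem (ueuU A p) (ueu_series_mem p hpM)⟩ :=
    Subtype.ext (Subtype.ext ((coe_ueuF M p hpM).trans (coeffMap_ueuU A.subtype p).symm))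
  rw [e, h, coeffMap_ueuU]

section Places

variable [CharP (IsLocalRing.ResidueField A) 2]
variable [IsAlgClosed (IsLocalRing.ResidueField A)]
variable [RRHyp Kbar (FF M)] [RRHyp (IsLocalRing.ResidueField A) (Fk (IsLocalRing.ResidueField A) M)]

theorem red_ueuF_ne_zero (hR : IsSeriesRed R) (hpM : p ∣ M) :
    R.red ⟨ueuF M p hpM, ueuF_mem p hR hpM⟩ ≠ 0 := by
  intro h
  have h1 := coe_red_ueuF p hR hpM
  rw [h] at h1
  exact ueuU_ne_zero (IsLocalRing.ResidueField A) p h1.symm

/-- a place over a non-cuspidal place is non-cuspidal -/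
theorem ue_ord_jF_nonneg (hR : IsSeriesRed R)
    (hD : Nonempty (FiberData (IsLocalRing.ResidueField A) (Fk (IsLocalRing.ResidueField A) M)
      (IsLocalRing.ResidueField A) ((jk (IsLocalRing.ResidueField A) M)⁻¹)
      (SL(2, ℤ) ⧸ Gamma0 M) ModularGroup.T))
    {r : Place Kbar (FF M) →
      Place (IsLocalRing.ResidueField A) (Fk (IsLocalRing.ResidueField A) M)}
    (hr : R.IsPlaceRed r) (P : Place Kbar (FF M))
    (hP : 0 ≤ (r P).ord (jk (IsLocalRing.ResidueField A) M)) : 0 ≤ P.ord (jF M) := by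
  by_contra hneg
  obtain ⟨D, X, hD', hX', hdeg⟩ := ue_exists_poles hR hD
  have hnc : R.red ⟨jF M, dw_jF_mem hR⟩ ∉
      Set.range (algebraMap (IsLocalRing.ResidueField A)
        (Fk (IsLocalRing.ResidueField A) M)) := by
    rw [dw_red_jF hR]
    exact dd_jk_nonconst M
  have h := hr.ord_red_neg ⟨jF M, dw_jF_mem hR⟩ hnc hD' hX' hdeg P (not_le.mp hneg)
  rw [dw_red_jF hR] at h
  omega

/-- **the reduction of the modular unit has no zeros or poles outside the cusps** -/
theorem ue_ord_red_ueuF (hR : IsSeriesRed R) (hpM : p ∣ M)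
    (hD : Nonempty (FiberData (IsLocalRing.ResidueField A) (Fk (IsLocalRing.ResidueField A) M)
      (IsLocalRing.ResidueField A) ((jk (IsLocalRing.ResidueField A) M)⁻¹)
      (SL(2, ℤ) ⧸ Gamma0 M) ModularGroup.T))
    {r : Place Kbar (FF M) →
      Place (IsLocalRing.ResidueField A) (Fk (IsLocalRing.ResidueField A) M)}
    (hr : R.IsPlaceRed r)
    (Q : Place (IsLocalRing.ResidueField A) (Fk (IsLocalRing.ResidueField A) M))
    (hQ : 0 ≤ Q.ord (jk (IsLocalRing.ResidueField A) M)) :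
    Q.ord (R.red ⟨ueuF M p hpM, ueuF_mem p hR hpM⟩) = 0 := by
  classical
  rw [← hr.2 ⟨ueuF M p hpM, ueuF_mem p hR hpM⟩ (red_ueuF_ne_zero p hR hpM) Q,
    dz_mapDomain_apply]
  refine Finset.sum_eq_zero fun P _ => ?_
  split_ifs with h
  · rw [divOf_apply']
    refine ueuF_ord_eq_zero M p hpM P (ue_ord_jF_nonneg hR hD hr P ?_)
    rw [h]
    exact hQ
  · rfl

/-- **G3 (a) at level `M`**: `3` divides the order of every zero of `j̄`. -/
theorem ue_three_dvd_ord_jk (h9 : 9 ∣ M) (hR : IsSeriesRed R)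
    (hD : Nonempty (FiberData (IsLocalRing.ResidueField A) (Fk (IsLocalRing.ResidueField A) M)
      (IsLocalRing.ResidueField A) ((jk (IsLocalRing.ResidueField A) M)⁻¹)
      (SL(2, ℤ) ⧸ Gamma0 M) ModularGroup.T))
    {r : Place Kbar (FF M) →
      Place (IsLocalRing.ResidueField A) (Fk (IsLocalRing.ResidueField A) M)}
    (hr : R.IsPlaceRed r)
    (Q : Place (IsLocalRing.ResidueField A) (Fk (IsLocalRing.ResidueField A) M))
    (hQ : 0 < Q.ord (jk (IsLocalRing.ResidueField A) M)) :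
    (3 : ℤ) ∣ Q.ord (jk (IsLocalRing.ResidueField A) M) := by
  obtain ⟨D, X, hD', hX', hdeg⟩ := ue_exists_poles hR hD
  have hnc : R.red ⟨jF M, dw_jF_mem hR⟩ ∉
      Set.range (algebraMap (IsLocalRing.ResidueField A)
        (Fk (IsLocalRing.ResidueField A) M)) := by
    rw [dw_red_jF hR]
    exact dd_jk_nonconst M
  have h := ue_dvd_ord_red hr ⟨jF M, dw_jF_mem hR⟩ hnc hD' hX' hdeg (0 : A) 3
    (fun v hv => by
      have h3 := ue_ord_j_sub_eq_three M h9 v hv
      exact ⟨1, by rw [mul_one]; exact h3⟩) Q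
    (by rw [dw_red_jF hR, map_zero, map_zero, sub_zero]; exact hQ)
  rwa [dw_red_jF hR, map_zero, map_zero, sub_zero] at h

/-- **the order of `Θ`**: `8 · ord_x Θ = (p − 1) · ord_x j̄` at every non-cuspidal place. -/
theorem ue_eight_mul_ord (hR : IsSeriesRed R) (hpM : p ∣ M)
    (hD : Nonempty (FiberData (IsLocalRing.ResidueField A) (Fk (IsLocalRing.ResidueField A) M)
      (IsLocalRing.ResidueField A) ((jk (IsLocalRing.ResidueField A) M)⁻¹)
      (SL(2, ℤ) ⧸ Gamma0 M) ModularGroup.T))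
    {r : Place Kbar (FF M) →
      Place (IsLocalRing.ResidueField A) (Fk (IsLocalRing.ResidueField A) M)}
    (hr : R.IsPlaceRed r)
    (Θ : Fk (IsLocalRing.ResidueField A) M)
    (hΘ : (Θ : LaurentSeries (IsLocalRing.ResidueField A)) ^ 8
        * jqNModC (IsLocalRing.ResidueField A) p = jqModC (IsLocalRing.ResidueField A) ^ p)
    (Q : Place (IsLocalRing.ResidueField A) (Fk (IsLocalRing.ResidueField A) M))
    (hQ : 0 ≤ Q.ord (jk (IsLocalRing.ResidueField A) M)) :
    8 * Q.ord Θ = ((p : ℤ) - 1) * Q.ord (jk (IsLocalRing.ResidueField A) M) := by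
  set k := IsLocalRing.ResidueField A with hk
  set u : Fk k M := R.red ⟨ueuF M p hpM, ueuF_mem p hR hpM⟩ with hu
  have hu0 : u ≠ 0 := red_ueuF_ne_zero p hR hpM
  have hj0 : jk k M ≠ 0 := by
    intro h
    have h1 := congrArg (fun x : Fk k M => (x : LaurentSeries k)) h
    simp only [coe_jk, ZeroMemClass.coe_zero] at h1
    exact jqModC_ne_zero_of_nontrivial k h1
  have hΘ0 : Θ ≠ 0 := by
    rintro rfl
    simp only [ZeroMemClass.coe_zero, ne_eq, OfNat.ofNat_ne_zero, not_false_eq_true, zero_pow,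
      zero_mul] at hΘ
    exact pow_ne_zero p (jqModC_ne_zero_of_nontrivial k) hΘ.symm
  have hord : Q.ord u = 0 := ue_ord_red_ueuF p hR hpM hD hr Q hQ
  -- the relation in `F̄_M`
  have hrel : Θ ^ 8 * jk k M = jk k M ^ p * u := by
    apply Subtype.ext
    have hcu : (u : LaurentSeries k) = ueuU k p := coe_red_ueuF p hR hpM
    have h1 := ueuU_mul_jqNModC k p
    have hjN0 : jqNModC k p ≠ 0 := by
      intro h
      rw [h, mul_zero] at h1
      exact jqModC_ne_zero_of_nontrivial k h1.symm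
    rw [MulMemClass.coe_mul, MulMemClass.coe_mul, SubmonoidClass.coe_pow, SubmonoidClass.coe_pow,
      coe_jk, hcu]
    apply mul_right_cancel₀ hjN0
    calc (Θ : LaurentSeries k) ^ 8 * jqModC k * jqNModC k p
        = ((Θ : LaurentSeries k) ^ 8 * jqNModC k p) * jqModC k := by ring
      _ = jqModC k ^ p * jqModC k := by rw [hΘ]
      _ = jqModC k ^ p * (ueuU k p * jqNModC k p) := by rw [h1]
      _ = jqModC k ^ p * ueuU k p * jqNModC k p := by ring
  have h2 := congrArg Q.ord hrel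
  rw [Q.ord_mul (pow_ne_zero 8 hΘ0) hj0, Q.ord_mul (pow_ne_zero p hj0) hu0, hord,
    ← zpow_natCast, ← zpow_natCast, Q.ord_zpow, Q.ord_zpow] at h2
  push_cast at h2
  linarith

end Places

end Fermat.Agent.S16lib

end
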