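/-
S16 library, piece U-E / G3 (b) (helper18): in any characteristic, if the genus of `F_{M,k}` is at
most the classical one, then `F_{M,k} / F_{M₀,k}` is UNRAMIFIED outside the cusps (`M₀ ∣ M` a base
level, `ψ(M₀)/6 = c(M₀) − 2`, no elliptic points at level `M`).  Consequently a zero of `j̄` at
level `M` has order at most `ψ(M₀)`.
Proof: helper12's relative Hurwitz inequality with `T = cusps ∪ {y}` and the fundamental identity.
-/
import Mathlib
import Fermat.Agent.GM.Main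

set_option autoImplicit false
set_option linter.style.haveILetI false
set_option synthInstance.maxHeartbeats 400000

noncomputable section

namespace Fermat.Agent.S16lib

open AlgebraicCurve ModularCurve IntermediateField CongruenceSubgroup
open Fermat.Agent.S24lib Fermat.Agent.FFlib Fermat.Agent.RRlib Fermat.Agent.GoodRed
  Fermat.Agent.GM
open scoped MatrixGroups

variable {k : Type} [Field k] [IsAlgClosed k] {M₀ M : ℕ} [NeZero M₀] [NeZero M]

/-- **relative Hurwitz with one extra point**: the fibre over a non-cuspidal place is full. -/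
theorem ue_finrank_le_card_fiber (h : M₀ ∣ M)
    (hD₀ : Nonempty (FiberData k (Fk k M₀) k ((jk k M₀)⁻¹) (SL(2, ℤ) ⧸ Gamma0 M₀) ModularGroup.T))
    (hD : Nonempty (FiberData k (Fk k M) k ((jk k M)⁻¹) (SL(2, ℤ) ⧸ Gamma0 M) ModularGroup.T))
    (hbase : (dedekindPsi M₀ : ℚ) / 6 = (cuspCount M₀ : ℚ) - 2)
    (haux : 4 ∣ M ∨ 9 ∣ M)
    (hg : genusFF k (Fk k M) ≤ genusFF Kbar (FF M))
    (y : Place k (Fk k M₀)) (hy : 0 ≤ y.ord (jk k M₀)) :
    letI := algK k h
    haveI := isScalarTower_algK k h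
    haveI := gmw_finite (k := k) h
    haveI := gmw_hasPrincipalDivisors k M
    Module.finrank (Fk k M₀) (Fk k M) ≤ (y.fiber (Fk k M)).card := by
  classical
  letI := algK k h
  haveI := isScalarTower_algK k h
  haveI := gmw_finite (k := k) h
  haveI : Algebra.IsIntegral (Fk k M₀) (Fk k M) := Algebra.IsIntegral.of_finite _ _
  haveI := gmw_hasPrincipalDivisors k M
  haveI := gmw_ffSep k M₀
  haveI := gmw_ffSep' (k := k) h
  haveI : FundamentalIdentity k (Fk k M₀) (Fk k M) :=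
    fundamentalIdentity_of_ffSep (K := k) (x := jk k M₀)
  obtain ⟨T, hT, hTc⟩ := gmw_exists_cusps k M₀ hD₀
  obtain ⟨T', hT', hTc'⟩ := gmw_exists_cusps k M hD
  have hyT : y ∉ T := by
    rw [hT]
    omega
  have hH := fsHurwitz_rel_le (K := k) (F := Fk k M₀) (F' := Fk k M) (x := jk k M₀)
    (insert y T)
  have hsum := gmw_sum_card_fiber (k := k) h T hT T' hT'
  rw [Finset.sum_insert hyT, Finset.sum_sub_distrib, Finset.sum_const, hsum, hTc, hTc',
    nsmul_eq_mul] at hH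
  have h2 := gmw_dedekindPsi_mul_finrank (k := k) h hD₀ hD
  have h3 := genusFormula_of_aux haux
  have h4 := mod_genusFF M
  -- numerics over `ℚ`
  have hHq : ((Module.finrank (Fk k M₀) (Fk k M) : ℤ) : ℚ) * (2 * (genusFF k (Fk k M₀) : ℚ) - 2)
      + ((Module.finrank (Fk k M₀) (Fk k M) : ℚ) - ((y.fiber (Fk k M)).card : ℚ)
        + ((cuspCount M₀ : ℚ) * (Module.finrank (Fk k M₀) (Fk k M) : ℚ) - (cuspCount M : ℚ)))
      ≤ 2 * (genusFF k (Fk k M) : ℚ) - 2 := by
    have := (Int.cast_le (R := ℚ)).2 hH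
    push_cast at this
    exact this
  have h2q : (dedekindPsi M₀ : ℚ) * (Module.finrank (Fk k M₀) (Fk k M) : ℚ)
      = (dedekindPsi M : ℚ) := by
    exact_mod_cast h2
  have hgq : (genusFF k (Fk k M) : ℚ) ≤ genusFormula M := by
    rw [← h4]
    exact_mod_cast hg
  have hg0 : (0 : ℚ) ≤ (Module.finrank (Fk k M₀) (Fk k M) : ℚ) *
      (2 * (genusFF k (Fk k M₀) : ℚ)) := by positivity
  have hd6 : (dedekindPsi M : ℚ) / 6 = (Module.finrank (Fk k M₀) (Fk k M) : ℚ) *
      ((cuspCount M₀ : ℚ) - 2) := by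
    rw [← h2q, ← hbase]
    ring
  have hfin : (Module.finrank (Fk k M₀) (Fk k M) : ℚ) ≤ ((y.fiber (Fk k M)).card : ℚ) := by
    push_cast at hHq
    nlinarith [hHq, h3, hgq, hg0, hd6]
  exact_mod_cast hfin

/-- **unramified outside the cusps** -/
theorem ue_ramificationIndex_eq_one (h : M₀ ∣ M)
    (hD₀ : Nonempty (FiberData k (Fk k M₀) k ((jk k M₀)⁻¹) (SL(2, ℤ) ⧸ Gamma0 M₀) ModularGroup.T))
    (hD : Nonempty (FiberData k (Fk k M) k ((jk k M)⁻¹) (SL(2, ℤ) ⧸ Gamma0 M) ModularGroup.T))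
    (hbase : (dedekindPsi M₀ : ℚ) / 6 = (cuspCount M₀ : ℚ) - 2)
    (haux : 4 ∣ M ∨ 9 ∣ M)
    (hg : genusFF k (Fk k M) ≤ genusFF Kbar (FF M))
    (w : Place k (Fk k M)) (hw : 0 ≤ w.ord (jk k M)) :
    letI := algK k h
    w.ramificationIndex (Fk k M₀) = 1 := by
  classical
  letI := algK k h
  haveI := isScalarTower_algK k h
  haveI := gmw_finite (k := k) h
  haveI : Algebra.IsIntegral (Fk k M₀) (Fk k M) := Algebra.IsIntegral.of_finite _ _
  haveI := gmw_hasPrincipalDivisors k M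
  haveI := gmw_ffSep k M₀
  haveI := gmw_ffSep k M
  haveI := gmw_ffSep' (k := k) h
  haveI : FundamentalIdentity k (Fk k M₀) (Fk k M) :=
    fundamentalIdentity_of_ffSep (K := k) (x := jk k M₀)
  haveI : RRBase k (Fk k M₀) := rrBase_of_ffSep (jk k M₀)
  haveI : RRBase k (Fk k M) := rrBase_of_ffSep (jk k M)
  set y : Place k (Fk k M₀) := w.restrict (Fk k M₀) with hydef
  have hpos : ∀ w' : Place k (Fk k M), 0 < w'.ramificationIndex (Fk k M₀) :=
    fun w' => w'.ramificationIndex_pos (F := Fk k M₀)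
  have hy : 0 ≤ y.ord (jk k M₀) := by
    have h1 := w.ord_restrict (F := Fk k M₀) (jk k M₀)
    rw [gmw_algebraMap_jk h] at h1
    rw [h1] at hw
    by_contra hneg
    have : (w.ramificationIndex (Fk k M₀) : ℤ) * (w.restrict (Fk k M₀)).ord (jk k M₀) < 0 :=
      mul_neg_of_pos_of_neg (by exact_mod_cast hpos w) (not_le.mp hneg)
    omega
  have hcard := ue_finrank_le_card_fiber (k := k) h hD₀ hD hbase haux hg y hy
  have hfi := FundamentalIdentity.sum_ramificationIndex_mul_deg (K := k) (F := Fk k M₀)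
    (F' := Fk k M) y
  rw [deg_eq_one y] at hfi
  have hfi' : ∑ w' ∈ y.fiber (Fk k M), (w'.ramificationIndex (Fk k M₀) : ℤ)
      = (Module.finrank (Fk k M₀) (Fk k M) : ℤ) := by
    rw [← mul_one ((Module.finrank (Fk k M₀) (Fk k M) : ℤ)), ← Nat.cast_one (R := ℤ), ← hfi]
    refine Finset.sum_congr rfl fun w' _ => ?_
    rw [deg_eq_one w']
    simp
  have hzero : ∑ w' ∈ y.fiber (Fk k M), ((w'.ramificationIndex (Fk k M₀) : ℤ) - 1) ≤ 0 := by
    rw [Finset.sum_sub_distrib, hfi', Finset.sum_const, nsmul_eq_mul, mul_one]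
    have : (Module.finrank (Fk k M₀) (Fk k M) : ℤ) ≤ ((y.fiber (Fk k M)).card : ℤ) := by
      exact_mod_cast hcard
    omega
  have hnn : ∀ w' ∈ y.fiber (Fk k M), (0 : ℤ) ≤ (w'.ramificationIndex (Fk k M₀) : ℤ) - 1 := by
    intro w' _
    have := hpos w'
    omega
  have hz := (Finset.sum_eq_zero_iff_of_nonneg hnn).1
    (le_antisymm hzero (Finset.sum_nonneg hnn)) w (Place.restrict_mem_fiber w)
  omega

/-- a zero of `j̄` has order at most `[F_{M₀,k} : k(j̄)] = ψ(M₀)` -/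
theorem ue_ord_jk_le (h : M₀ ∣ M)
    (hD₀ : Nonempty (FiberData k (Fk k M₀) k ((jk k M₀)⁻¹) (SL(2, ℤ) ⧸ Gamma0 M₀) ModularGroup.T))
    (hD : Nonempty (FiberData k (Fk k M) k ((jk k M)⁻¹) (SL(2, ℤ) ⧸ Gamma0 M) ModularGroup.T))
    (hbase : (dedekindPsi M₀ : ℚ) / 6 = (cuspCount M₀ : ℚ) - 2)
    (haux : 4 ∣ M ∨ 9 ∣ M)
    (hg : genusFF k (Fk k M) ≤ genusFF Kbar (FF M))
    (w : Place k (Fk k M)) (hw : 0 < w.ord (jk k M)) :
    w.ord (jk k M) ≤ (dedekindPsi M₀ : ℤ) := by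
  classical
  letI := algK k h
  haveI := isScalarTower_algK k h
  haveI := gmw_finite (k := k) h
  haveI : Algebra.IsIntegral (Fk k M₀) (Fk k M) := Algebra.IsIntegral.of_finite _ _
  haveI := gmw_ffSep k M₀
  have he := ue_ramificationIndex_eq_one (k := k) h hD₀ hD hbase haux hg w hw.le
  have h1 := w.ord_restrict (F := Fk k M₀) (jk k M₀)
  rw [gmw_algebraMap_jk h, he, Nat.cast_one, one_mul] at h1
  rw [h1] at hw ⊢
  obtain ⟨s, hs, hsum⟩ := fsExists_zeros (K := k) (x := jk k M₀) (0 : k)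
  simp only [map_zero, sub_zero] at hs hsum
  have hfr : Module.finrank k⟮jk k M₀⟯ (Fk k M₀) = dedekindPsi M₀ := by
    rw [← fsFinrank_of_adjoin_eq (fsAdjoin_inv (K := k) (jk k M₀)),
      finrank_Fk_of_fiberData M₀ hD₀]
  rw [hfr] at hsum
  rw [← hsum]
  exact Finset.single_le_sum (f := fun v : Place k (Fk k M₀) => v.ord (jk k M₀))
    (fun v hv => ((hs v).1 hv).le) ((hs _).2 hw)

/-- `j̄` has a zero -/
theorem ue_exists_zero_jk (k : Type) [Field k] [IsAlgClosed k] (M : ℕ) [NeZero M] :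
    ∃ x : Place k (Fk k M), 0 < x.ord (jk k M) := by
  classical
  haveI := gmw_ffSep k M
  obtain ⟨s, hs, hsum⟩ := fsExists_zeros (K := k) (x := jk k M) (0 : k)
  simp only [map_zero, sub_zero] at hs hsum
  have hpos : 0 < Module.finrank k⟮jk k M⟯ (Fk k M) := by
    haveI : FiniteDimensional k⟮jk k M⟯ (Fk k M) := (gmw_ffSep k M).fin
    exact Module.finrank_pos
  have hne : s.Nonempty := by
    by_contra hcon
    rw [Finset.not_nonempty_iff_eq_empty] at hcon
    rw [hcon, Finset.sum_empty] at hsum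
    have : (0 : ℤ) < (Module.finrank k⟮jk k M⟯ (Fk k M) : ℤ) := by exact_mod_cast hpos
    omega
  obtain ⟨x, hx⟩ := hne
  exact ⟨x, (hs x).1 hx⟩

end Fermat.Agent.S16lib

end
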