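/-
S16 library, piece U-E / G3 (helper18): THE SUPERSINGULAR PLACES.
Level `M` with `9 ∣ M`, `p ∣ M`, `2 ∤ M` (for U-E: `M = 9 p`), `A` a valuation ring of `ℚ̄` over
`2`, `k` its residue field, `F̄_M = k(j̄(q^d) : d ∣ M)`, `p ≡ 7 mod 8`.

`ue_ord_jk_eq_twelve` : every zero `x` of `j̄` in `F̄_M` has `ord_x j̄ = 12`;
`ue_g3`               : if `Θ ∈ F̄_M` satisfies `Θ⁸ · j̄(q^p) = j̄^p`, then `ord_x Θ = 3 (p − 1) / 2` is
                        ODD at every zero `x` of `j̄`;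
`ue_exists_zero_jk`   : such zeros exist (file `UEUnram.lean`).

Proof: (a) `3 ∣ ord_x j̄` ((Ax) for `j`; in characteristic `0` every zero of `j` has order `3` as
`9 ∣ M`); (b) `ord_x j̄ ≤ ψ(9) = 12` (`F̄_M / F̄_9` is unramified outside the cusps, by the relative
Hurwitz inequality and the genus equality); (c) `8 ord_x Θ = (p − 1) ord_x j̄` (the modular unit
`Δ(q^p)/Δ(q)` and its reduction have no zeros outside the cusps, and `j̄ = 1/Δ̄` in char. `2`).
-/
import Mathlib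
import Fermat.Agent.S16lib.UEUnitRed
import Fermat.Agent.S16lib.UEUnram

set_option autoImplicit false
set_option linter.style.haveILetI false
set_option synthInstance.maxHeartbeats 400000

noncomputable section

namespace Fermat.Agent.S16lib

open AlgebraicCurve ModularCurve ModularCurve.IgusaScheme IntermediateField CongruenceSubgroup
open Fermat.Agent.S24lib Fermat.Agent.S28lib Fermat.Agent.FFlib Fermat.Agent.RRlib
  Fermat.Agent.GoodRed Fermat.Agent.GM
open scoped MatrixGroups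

theorem ue_hbase_nine : (dedekindPsi 9 : ℚ) / 6 = (cuspCount 9 : ℚ) - 2 := by
  rw [dedekindPsi_nine, cuspCount_nine]
  norm_num

/-- the three facts about a zero `x` of `j̄` and `Θ` -/
theorem ue_g3_facts (p : ℕ) [NeZero p] (M : ℕ) [NeZero M] (h9 : 9 ∣ M)
    (h2M : ¬ 2 ∣ M) (A : ValuationSubring Kbar) (hA : A.LiesOverPrime 2)
    (x : Place (IsLocalRing.ResidueField A) (Fk (IsLocalRing.ResidueField A) M))
    (hx : 0 < x.ord (jk (IsLocalRing.ResidueField A) M)) :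
    (3 : ℤ) ∣ x.ord (jk (IsLocalRing.ResidueField A) M) ∧
    x.ord (jk (IsLocalRing.ResidueField A) M) ≤ 12 ∧
    (p ∣ M → ∀ Θ : Fk (IsLocalRing.ResidueField A) M,
      (Θ : LaurentSeries (IsLocalRing.ResidueField A)) ^ 8
        * jqNModC (IsLocalRing.ResidueField A) p = jqModC (IsLocalRing.ResidueField A) ^ p →
      8 * x.ord Θ = ((p : ℤ) - 1) * x.ord (jk (IsLocalRing.ResidueField A) M)) := by
  haveI : Fact (Nat.Prime 2) := ⟨Nat.prime_two⟩
  haveI : IsAlgClosed (IsLocalRing.ResidueField A) := isAlgClosed_residueField A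
  haveI : RRHyp Kbar (FF M) := mod_rrHyp M
  haveI : RRHyp (IsLocalRing.ResidueField A) (Fk (IsLocalRing.ResidueField A) M) :=
    mr_rrHyp (IsLocalRing.ResidueField A) M
  haveI : CharP (IsLocalRing.ResidueField A) 2 := charP_residueField hA
  obtain ⟨R, r, hR, hr, -, hg⟩ := ue_exists_red M A h9 h2M hA
  have hD := ue_fiberData M A h2M hA
  have hD₀ := ue_fiberData 9 A (by norm_num) hA
  refine ⟨ue_three_dvd_ord_jk h9 hR hD hr x hx, ?_, ?_⟩
  · have h12 := ue_ord_jk_le (k := IsLocalRing.ResidueField A) (M₀ := 9) (M := M) h9 hD₀ hD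
      ue_hbase_nine (Or.inr h9) hg.le x hx
    rw [dedekindPsi_nine] at h12
    exact_mod_cast h12
  · intro hpM Θ hΘ
    exact ue_eight_mul_ord p hR hpM hD hr Θ hΘ x hx.le

/-- every zero of `j̄` at level `M` (`9 ∣ M`, `p ∣ M` for some `p ≡ 7 mod 8` with a `Θ`) has
order `12`, and `Θ` has odd order `3 (p − 1) / 2` there. -/
theorem ue_g3_ord (p : ℕ) [NeZero p] (hp : p % 8 = 7) (M : ℕ) [NeZero M] (h9 : 9 ∣ M)
    (hpM : p ∣ M) (h2M : ¬ 2 ∣ M) (A : ValuationSubring Kbar) (hA : A.LiesOverPrime 2)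
    (Θ : Fk (IsLocalRing.ResidueField A) M)
    (hΘ : (Θ : LaurentSeries (IsLocalRing.ResidueField A)) ^ 8
        * jqNModC (IsLocalRing.ResidueField A) p = jqModC (IsLocalRing.ResidueField A) ^ p)
    (x : Place (IsLocalRing.ResidueField A) (Fk (IsLocalRing.ResidueField A) M))
    (hx : 0 < x.ord (jk (IsLocalRing.ResidueField A) M)) :
    x.ord (jk (IsLocalRing.ResidueField A) M) = 12 ∧ 2 * x.ord Θ = 3 * ((p : ℤ) - 1) := by
  obtain ⟨h3, h12, h8⟩ := ue_g3_facts p M h9 h2M A hA x hx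
  have h8' := h8 hpM Θ hΘ
  obtain ⟨m, hm⟩ : ∃ m : ℕ, p = 8 * m + 7 := ⟨p / 8, by omega⟩
  obtain ⟨c, hc⟩ := h3
  have hpz : (p : ℤ) = 8 * (m : ℤ) + 7 := by exact_mod_cast hm
  rw [hpz] at h8' ⊢
  rw [hc] at h8' h12 hx ⊢
  have hc1 : 1 ≤ c := by omega
  have hc4 : c ≤ 4 := by omega
  interval_cases c
  · exfalso; omega
  · exfalso; omega
  · exfalso; omega
  · constructor
    · norm_num
    · omega

/-- **G3**: at every zero `x` of `j̄`, the order of `Θ` is odd. -/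
theorem ue_g3 (p : ℕ) [NeZero p] (hp : p % 8 = 7) (M : ℕ) [NeZero M] (h9 : 9 ∣ M)
    (hpM : p ∣ M) (h2M : ¬ 2 ∣ M) (A : ValuationSubring Kbar) (hA : A.LiesOverPrime 2)
    (Θ : Fk (IsLocalRing.ResidueField A) M)
    (hΘ : (Θ : LaurentSeries (IsLocalRing.ResidueField A)) ^ 8
        * jqNModC (IsLocalRing.ResidueField A) p = jqModC (IsLocalRing.ResidueField A) ^ p)
    (x : Place (IsLocalRing.ResidueField A) (Fk (IsLocalRing.ResidueField A) M))
    (hx : 0 < x.ord (jk (IsLocalRing.ResidueField A) M)) :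
    Odd (x.ord Θ) := by
  obtain ⟨-, h2⟩ := ue_g3_ord p hp M h9 hpM h2M A hA Θ hΘ x hx
  obtain ⟨m, hm⟩ : ∃ m : ℕ, p = 8 * m + 7 := ⟨p / 8, by omega⟩
  have hpz : (p : ℤ) = 8 * (m : ℤ) + 7 := by exact_mod_cast hm
  rw [hpz] at h2
  exact ⟨6 * (m : ℤ) + 4, by omega⟩

end Fermat.Agent.S16lib

end
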