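import Mathlib
import Fermat.Agent.S16lib.Defs
import Fermat.Prelude.Def_ModularForm_HeckeOperator
import Fermat.Prelude.Thm_ModularFormClass_isBoundedAt_heckeT

/-!
# Item 16 (S16), block E: the Eisenstein series of weight `2` and level `p`

`eisForm p = (p E₂(p z) - E₂(z)) / 24 ∈ M₂(Γ₀(p))` (any `p ≠ 0`), built from Mathlib's `E2` and its
transformation law `E2_slash_action`, with `q`-expansion
`(p - 1)/24 + ∑_{k ≥ 1} (σ(k) - p σ(k/p)) q^k`.

* `eisRaw_slash`: `Γ₀(p)`-invariance of `E₂ ∣ diag(p,1) - E₂`.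
* `eis_E2_isBoundedAt`: `E₂` is bounded at every cusp of `SL(2, ℤ)`.
* `eisForm`, `eisForm_apply`, `eisForm_hasSum`, `eisForm_qCoeff`.
* `exists_eisForm`: the blueprint statement.
-/

set_option autoImplicit false

noncomputable section

namespace Fermat.Agent.S16lib

open ModularForm EisensteinSeries UpperHalfPlane CongruenceSubgroup Matrix.SpecialLinearGroup
open scoped MatrixGroups ModularForm Manifold

/-- conjugate of `γ ∈ Γ₀(p)` by `diag(p, 1)` -/
def eis_conj (p : ℕ) (γ : SL(2, ℤ)) (c' : ℤ) (hc : γ 1 0 = p * c') : SL(2, ℤ) :=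
  ⟨!![γ 0 0, p * γ 0 1; c', γ 1 1], by
    have h := γ.det_coe
    rw [Matrix.det_fin_two] at h
    rw [Matrix.det_fin_two_of]
    rw [hc] at h
    linarith⟩

theorem eis_conj_mul (p : ℕ) (hp : p ≠ 0) (γ : SL(2, ℤ)) (c' : ℤ) (hc : γ 1 0 = p * c') :
    heckeDiagMatrix p * (γ : GL (Fin 2) ℝ)
      = ((eis_conj p γ c' hc : SL(2, ℤ)) : GL (Fin 2) ℝ) * heckeDiagMatrix p := by
  ext i j
  simp only [Units.val_mul, val_heckeDiagMatrix hp, eis_conj]
  fin_cases i <;> fin_cases j <;> simp [Matrix.mul_apply, Fin.sum_univ_two, hc] <;> ring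

theorem eis_D2_slash (p : ℕ) (hp : p ≠ 0) (γ : SL(2, ℤ)) (c' : ℤ) (hc : γ 1 0 = p * c') :
    (D2 (eis_conj p γ c' hc)) ∣[(2 : ℤ)] heckeDiagMatrix p = D2 γ := by
  ext z
  rw [slash_heckeDiagMatrix_apply 2 hp]
  have hp' : (p : ℂ) ≠ 0 := by exact_mod_cast hp
  have hden : denom (eis_conj p γ c' hc) ((heckeDiagMatrix p • z : ℍ) : ℂ) = denom γ z := by
    rw [ModularGroup.denom_apply, ModularGroup.denom_apply, coe_heckeDiagMatrix_smul hp, hc]
    simp only [eis_conj]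
    simp
    ring
  simp only [D2, hden]
  have h10 : ((eis_conj p γ c' hc) 1 0 : ℤ) = c' := by simp [eis_conj]
  rw [h10, hc]
  push_cast
  field_simp

/-- the function `p E₂(p z) - E₂(z)` -/
def eisRaw (p : ℕ) : ℍ → ℂ := E2 ∣[(2 : ℤ)] heckeDiagMatrix p - E2

theorem eisRaw_slash (p : ℕ) (hp : p ≠ 0) (γ : SL(2, ℤ)) (hγ : γ ∈ Gamma0 p) :
    eisRaw p ∣[(2 : ℤ)] γ = eisRaw p := by
  have hc : ∃ c' : ℤ, γ 1 0 = p * c' := by
    rw [Gamma0_mem] at hγ
    have := (ZMod.intCast_zmod_eq_zero_iff_dvd (γ 1 0) p).mp hγ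
    exact this
  obtain ⟨c', hc⟩ := hc
  have h1 : (E2 ∣[(2 : ℤ)] heckeDiagMatrix p) ∣[(2 : ℤ)] γ
      = E2 ∣[(2 : ℤ)] heckeDiagMatrix p - (1 / (2 * riemannZeta 2)) • D2 γ := by
    rw [SL_slash, ← SlashAction.slash_mul, eis_conj_mul p hp γ c' hc, SlashAction.slash_mul,
      ← SL_slash, E2_slash_action, sub_eq_add_neg, SlashAction.add_slash, SlashAction.neg_slash,
      smul_slash, eis_D2_slash p hp γ c' hc, σ_heckeDiagMatrix]
    simp [sub_eq_add_neg]
  rw [eisRaw, sub_eq_add_neg, SlashAction.add_slash, SlashAction.neg_slash, h1, E2_slash_action]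
  abel

/-- `D2 γ` is bounded at `i∞`. -/
theorem eis_D2_isBoundedAtImInfty (γ : SL(2, ℤ)) : IsBoundedAtImInfty (D2 γ) := by
  rw [isBoundedAtImInfty_iff]
  refine ⟨2 * Real.pi, 1, fun z hz => ?_⟩
  simp only [D2]
  by_cases hc : γ 1 0 = 0
  · simp [hc]
    positivity
  · have hcR : (0 : ℝ) < |((γ 1 0 : ℤ) : ℝ)| := by
      rw [abs_pos]
      exact_mod_cast hc
    have hden : |((γ 1 0 : ℤ) : ℝ)| ≤ ‖denom γ z‖ := by
      have h1 : (denom γ z).im = ((γ 1 0 : ℤ) : ℝ) * z.im := by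
        rw [ModularGroup.denom_apply]
        simp
      calc |((γ 1 0 : ℤ) : ℝ)| ≤ |((γ 1 0 : ℤ) : ℝ)| * z.im := by
            nlinarith [hcR]
        _ = |(denom γ z).im| := by
            rw [h1, abs_mul, abs_of_pos z.im_pos]
        _ ≤ ‖denom γ z‖ := Complex.abs_im_le_norm _
    have hdpos : 0 < ‖denom γ z‖ := lt_of_lt_of_le hcR hden
    rw [norm_div, div_le_iff₀ hdpos]
    have h2 : ‖(2 * (Real.pi : ℂ) * Complex.I * ((γ 1 0 : ℤ) : ℂ))‖ = 2 * Real.pi * |((γ 1 0 : ℤ) : ℝ)| := by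
      simp [abs_of_pos Real.pi_pos]
    rw [h2]
    have := Real.pi_pos
    nlinarith

/-- `E2` is bounded at every cusp of `SL(2, ℤ)`. -/
theorem eis_E2_isBoundedAt {c : OnePoint ℝ} (hc : IsCusp c 𝒮ℒ) : c.IsBoundedAt E2 2 := by
  rw [OnePoint.isBoundedAt_iff_forall_SL2Z hc]
  intro γ _
  rw [E2_slash_action]
  exact isBoundedAtImInfty_E2.sub ((eis_D2_isBoundedAtImInfty γ).const_smul_left _)

theorem eisRaw_isBoundedAt (p : ℕ) {c : OnePoint ℝ} (hc : IsCusp c 𝒮ℒ) :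
    c.IsBoundedAt (eisRaw p) 2 := by
  obtain ⟨g, hg⟩ :=
    P2MW.S_ModularFormClass_isBoundedAt_heckeT.ModularForm.S06W2.exists_heckeDiagMatrix_eq_map p
  have h1 : c.IsBoundedAt (E2 ∣[(2 : ℤ)] heckeDiagMatrix p) 2 := by
    rw [← OnePoint.IsBoundedAt.smul_iff, hg]
    exact eis_E2_isBoundedAt
      (P2MW.S_ModularFormClass_isBoundedAt_heckeT.ModularForm.S06W2.isCusp_ratCast_smul hc g)
  have h2 : c.IsBoundedAt (-E2) 2 := by
    intro γ hγ
    rw [SlashAction.neg_slash]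
    exact (eis_E2_isBoundedAt hc γ hγ).neg
  rw [eisRaw, sub_eq_add_neg]
  exact h1.add h2

/-- The Eisenstein series of weight `2` and level `p`. -/
def eisForm (p : ℕ) [NeZero p] : ModularForm (Gamma0 p) 2 where
  toFun := (1 / 24 : ℂ) • eisRaw p
  slash_action_eq' := by
    rintro _ ⟨γ, hγ, rfl⟩
    show ((1 / 24 : ℂ) • eisRaw p) ∣[(2 : ℤ)] γ = _
    rw [SL_smul_slash, eisRaw_slash p (NeZero.ne p) γ hγ]
  holo' := by
    show MDiff ((1 / 24 : ℂ) • eisRaw p)
    have h1 : MDiff (eisRaw p) := (E2_mdifferentiable.slash 2 _).sub E2_mdifferentiable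
    exact h1.const_smul _
  bdd_at_cusps' := by
    intro c hc
    have hc' : IsCusp c 𝒮ℒ := (Subgroup.IsArithmetic.isCusp_iff_isCusp_SL2Z _).mp hc
    intro γ hγ
    show IsBoundedAtImInfty (((1 / 24 : ℂ) • eisRaw p) ∣[(2 : ℤ)] γ)
    rw [smul_slash]
    exact (eisRaw_isBoundedAt p hc' γ hγ).const_smul_left _

theorem eisForm_apply (p : ℕ) [NeZero p] (z : ℍ) :
    eisForm p z = (1 / 24 : ℂ) * (p * E2 (heckeDiagMatrix p • z) - E2 z) := by
  show ((1 / 24 : ℂ) • eisRaw p) z = _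
  rw [Pi.smul_apply, eisRaw, Pi.sub_apply, slash_heckeDiagMatrix_apply 2 (NeZero.ne p)]
  simp

/-- coefficients of `E₂` -/
def eisA (m : ℕ) : ℂ := if m = 0 then 1 else -24 * (ArithmeticFunction.sigma 1 m : ℂ)

/-- coefficients of `(p E₂(p z) - E₂(z)) / 24` -/
def eisC (p : ℕ) (n : ℕ) : ℂ := (1 / 24 : ℂ) * (p * (if p ∣ n then eisA (n / p) else 0) - eisA n)

theorem eis_hasSum_E2 (z : ℍ) :
    HasSum (fun m : ℕ => eisA m • Function.Periodic.qParam 1 z ^ m) (E2 z) := by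
  have h := hasSum_qExpansion_E2 (z := z)
  simpa only [Function.Periodic.qParam, Complex.ofReal_one, div_one, eisA] using h

theorem eis_qParam_scale (p : ℕ) (hp : p ≠ 0) (z : ℍ) :
    Function.Periodic.qParam 1 ((heckeDiagMatrix p • z : ℍ) : ℂ)
      = Function.Periodic.qParam 1 (z : ℂ) ^ p := by
  rw [coe_heckeDiagMatrix_smul hp]
  simp only [Function.Periodic.qParam, Complex.ofReal_one, div_one]
  rw [← Complex.exp_nat_mul]
  congr 1
  ring

theorem eis_hasSum_E2_scale (p : ℕ) (hp : p ≠ 0) (z : ℍ) :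
    HasSum (fun n : ℕ => (if p ∣ n then eisA (n / p) else 0) • Function.Periodic.qParam 1 z ^ n)
      (E2 (heckeDiagMatrix p • z)) := by
  have h := eis_hasSum_E2 (heckeDiagMatrix p • z)
  rw [eis_qParam_scale p hp] at h
  have hinj : Function.Injective (fun m : ℕ => p * m) :=
    fun a b hab => Nat.eq_of_mul_eq_mul_left (Nat.pos_of_ne_zero hp) hab
  refine (Function.Injective.hasSum_iff hinj ?_).mp ?_
  · intro n hn
    have : ¬ p ∣ n := fun ⟨m, hm⟩ => hn ⟨m, hm.symm⟩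
    simp [this]
  · convert h using 2 with m
    simp only [Function.comp_apply, dvd_mul_right, if_true,
      Nat.mul_div_cancel_left _ (Nat.pos_of_ne_zero hp), pow_mul]

theorem eisForm_hasSum (p : ℕ) [NeZero p] (z : ℍ) :
    HasSum (fun n : ℕ => eisC p n • Function.Periodic.qParam 1 z ^ n) (eisForm p z) := by
  have h1 := (eis_hasSum_E2_scale p (NeZero.ne p) z).mul_left (p : ℂ)
  have h2 := eis_hasSum_E2 z
  have h3 := (h1.sub h2).mul_left (1 / 24 : ℂ)
  have h4 : (fun n : ℕ => eisC p n • Function.Periodic.qParam 1 z ^ n)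
      = fun i : ℕ => 1 / 24 *
        (↑p * (if p ∣ i then eisA (i / p) else 0) • Function.Periodic.qParam 1 ↑z ^ i -
          eisA i • Function.Periodic.qParam 1 ↑z ^ i) := by
    funext n
    unfold eisC
    rw [smul_eq_mul, smul_eq_mul, smul_eq_mul]
    ring
  rw [eisForm_apply, h4]
  exact h3

theorem eisForm_qCoeff (p : ℕ) [NeZero p] (n : ℕ) :
    ModularFormClass.qCoeff (eisForm p) n = eisC p n := by
  have h1 : (1 : ℝ) ∈ ((Gamma0 p : Subgroup (GL (Fin 2) ℝ))).strictPeriods := by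
    rw [CongruenceSubgroup.strictPeriods_Gamma0]
    exact AddSubgroup.mem_zmultiples 1
  exact (ModularFormClass.qExpansion_coeff_unique one_pos h1 (eisForm_hasSum p) n).symm

theorem exists_eisForm (p : ℕ) [Fact p.Prime] :
    ∃ E : ModularForm (Gamma0 p) 2, ModularFormClass.qCoeff E 0 = ((p : ℂ) - 1) / 24 ∧
      ∀ k : ℕ, 0 < k → ModularFormClass.qCoeff E k = (eisCoeff p k : ℂ) := by
  have : NeZero p := ⟨(Fact.out : p.Prime).ne_zero⟩
  refine ⟨eisForm p, ?_, fun k hk => ?_⟩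
  · rw [eisForm_qCoeff]
    simp [eisC, eisA]
    ring
  · rw [eisForm_qCoeff]
    have hk0 : k ≠ 0 := hk.ne'
    by_cases hpk : p ∣ k
    · have hkp : k / p ≠ 0 := by
        intro h
        have := Nat.div_mul_cancel hpk
        rw [h, zero_mul] at this
        exact hk0 this.symm
      simp [eisC, eisA, eisCoeff, hpk, hk0, hkp]
      ring
    · simp [eisC, eisA, eisCoeff, hpk, hk0]

end Fermat.Agent.S16lib

end
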