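/-
S16 library, piece U-E / UE0 (helper13): from `ConstCong p 8` to a modular form of weight `2` on
`Γ₀(p)` with integral `q`-expansion, zero constant term, congruent to the Eisenstein series
`Σ eisCoeff p n q^n` modulo `2`:  `f = 3 c E − ((p − 1)/8) G`.
Helper lemmas are prefixed `ue0_`.
-/
import Mathlib
import Fermat.Agent.S16lib.Defs
import Fermat.Agent.S16lib.Eis
import Fermat.Prelude.Thm_CongruenceSubgroup_one_mem_strictPeriods_Gamma0

set_option autoImplicit false

noncomputable section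

namespace Fermat.Agent.S16lib

open ModularCurve CuspForm CongruenceSubgroup ModularFormClass

/-- A modular form of weight `2` on `Γ₀(p)` with integral `q`-expansion `Σ a_n q^n`, `a_0 = 0`,
congruent to the Eisenstein series modulo `2`. -/
def EisCongMF (p : ℕ) : Prop :=
  ∃ (f : ModularForm (Gamma0 p) 2) (a : ℕ → ℤ), (∀ n : ℕ, qCoeff f n = (a n : ℂ)) ∧ a 0 = 0 ∧
    ∀ n : ℕ, 0 < n → (2 : ℤ) ∣ a n - eisCoeff p n

/-- The `n`-th `q`-coefficient as a `ℂ`-linear functional on modular forms. -/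
def ue0_qCoeffLin (N : ℕ) (k : ℤ) (n : ℕ) : ModularForm (Gamma0 N) k →ₗ[ℂ] ℂ where
  toFun f := qCoeff f n
  map_add' f g := by
    simp only [qCoeff]
    have h1 : ⇑(f + g) = ⇑f + ⇑g := rfl
    rw [h1, ModularForm.qExpansion_add one_pos (CongruenceSubgroup.one_mem_strictPeriods_Gamma0 N) f g, map_add]
  map_smul' c f := by
    have h1 : ⇑(c • f) = c • ⇑f := rfl
    simp only [qCoeff, h1]
    rw [ModularForm.qExpansion_smul one_pos (CongruenceSubgroup.one_mem_strictPeriods_Gamma0 N) c f]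
    simp

theorem ue0_qCoeffLin_apply (N : ℕ) (k : ℤ) (n : ℕ) (f : ModularForm (Gamma0 N) k) :
    ue0_qCoeffLin N k n f = qCoeff f n := rfl

/-- **UE0** -/
theorem eisCongMF_of_constCong_eight (p : ℕ) [Fact p.Prime] (hodd : p % 2 = 1)
    (h : ConstCong p 8) : EisCongMF p := by
  obtain ⟨G, c, hc, h0, hk⟩ := h
  obtain ⟨E, hE0, hEk⟩ := exists_eisForm p
  -- `c` is odd
  have hcodd : (2 : ℤ) ∣ 3 * c - 1 := by
    have h8 : IsCoprime c (2 * 4 : ℤ) := by
      have : ((8 : ℕ) : ℤ) = 2 * 4 := by norm_num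
      rw [this] at hc
      exact hc
    have h2 : IsCoprime c (2 : ℤ) := h8.of_mul_right_left
    have hodd : ¬ (2 : ℤ) ∣ c := by
      intro hd
      have := h2.symm.isUnit_of_dvd' (dvd_refl (2 : ℤ)) hd
      rw [Int.isUnit_iff] at this
      omega
    have h3 : c % 2 = 1 := by
      rcases Int.emod_two_eq_zero_or_one c with h | h
      · exact absurd (Int.dvd_of_emod_eq_zero h) hodd
      · exact h
    omega
  -- the coefficients of `G`
  have hk' : ∀ n : ℕ, ∃ b : ℤ, 0 < n → qCoeff G n = (8 : ℂ) * (b : ℂ) := by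
    intro n
    by_cases hn : 0 < n
    · obtain ⟨b, hb⟩ := hk n hn
      exact ⟨b, fun _ => by rw [hb]; norm_num⟩
    · exact ⟨0, fun h => absurd h hn⟩
  choose b hb using hk'
  -- `p - 1 = 2 r`
  obtain ⟨r, hr⟩ : ∃ r : ℤ, (p : ℤ) - 1 = 2 * r := ⟨((p : ℤ) - 1) / 2, by omega⟩
  have hrC : (p : ℂ) - 1 = 2 * (r : ℂ) := by exact_mod_cast congrArg (Int.cast : ℤ → ℂ) hr
  refine ⟨((3 * c : ℤ) : ℂ) • E - (((r : ℤ) : ℂ) / 4) • G,
    fun n => if n = 0 then 0 else 3 * c * eisCoeff p n - 2 * r * b n, ?_, ?_, ?_⟩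
  · intro n
    have h1 : qCoeff (⇑(((3 * c : ℤ) : ℂ) • E - (((r : ℤ) : ℂ) / 4) • G)) n
        = ((3 * c : ℤ) : ℂ) * qCoeff E n - (((r : ℤ) : ℂ) / 4) * qCoeff G n := by
      have := (ue0_qCoeffLin p 2 n).map_sub (((3 * c : ℤ) : ℂ) • E) ((((r : ℤ) : ℂ) / 4) • G)
      rw [map_smul, map_smul, ue0_qCoeffLin_apply, ue0_qCoeffLin_apply, ue0_qCoeffLin_apply,
        smul_eq_mul, smul_eq_mul] at this
      exact this
    rw [h1]
    dsimp only
    by_cases hn : n = 0
    · subst hn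
      rw [if_pos rfl, hE0, h0, hrC]
      push_cast
      ring
    · rw [if_neg hn, hEk n (Nat.pos_of_ne_zero hn), hb n (Nat.pos_of_ne_zero hn)]
      push_cast
      ring
  · simp
  · intro n hn
    dsimp only
    rw [if_neg hn.ne']
    obtain ⟨e, he⟩ := hcodd
    refine ⟨e * eisCoeff p n - r * b n, ?_⟩
    have : 3 * c * eisCoeff p n - 2 * r * b n - eisCoeff p n
        = (3 * c - 1) * eisCoeff p n - 2 * (r * b n) := by ring
    rw [this, he]
    ring

end Fermat.Agent.S16lib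

end
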