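/-
Item 16 (S16), piece U-E/UE3a (helper1): square roots in the function field in characteristic `2`.

* abstract: `F/K(x)` separable, `K` perfect of characteristic `2`: `F = F² + F² x`;
  hence an element of `F` whose image in a field `L` is a square is a square in `F`, provided the
  image of `x` is not a square in `L`.
* concrete: `F̄_M = k(j̄(q^d) : d ∣ M) ⊂ k((q))`: if `f ∈ F̄_M` is a square in `k((q))`, its square
  root lies in `F̄_M`.  Consequently `χ₈ = ν̄^(-3p) ν̄(q^p)^3 ∈ F̄_p` (`χ₈^8 = j̄^p / j̄(q^p)`).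
-/
import Mathlib
import Fermat.Agent.S16lib.UE2
import Fermat.Agent.GM.Defs
import Fermat.Agent.FFlib.FSPrimes
import Fermat.Prelude.Def_ModularCurve_X0ModL

set_option autoImplicit false

noncomputable section

namespace Fermat.Agent.S16lib

open IntermediateField ModularCurve

/-! ### abstract part -/

section Abstract

variable {K F : Type*} [Field K] [Field F] [Algebra K F]

/-- the subfield `F² + F² x` of a field of characteristic `2`. -/
def ue3S (h2 : (2 : F) = 0) (x : F) : Subfield F where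
  carrier := {f | ∃ a b : F, f = a ^ 2 + b ^ 2 * x}
  mul_mem' := by
    rintro _ _ ⟨a, b, rfl⟩ ⟨c, d, rfl⟩
    exact ⟨a * c + b * d * x, a * d + b * c, by
      linear_combination (-(a * c * b * d * x) - a * d * b * c * x) * h2⟩
  one_mem' := ⟨1, 0, by ring⟩
  add_mem' := by
    rintro _ _ ⟨a, b, rfl⟩ ⟨c, d, rfl⟩
    exact ⟨a + c, b + d, by linear_combination (-(a * c) - b * d * x) * h2⟩
  zero_mem' := ⟨0, 0, by ring⟩
  neg_mem' := by
    rintro _ ⟨a, b, rfl⟩
    exact ⟨a, b, by linear_combination (-(a ^ 2) - b ^ 2 * x) * h2⟩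
  inv_mem' := by
    rintro _ ⟨a, b, rfl⟩
    by_cases hs : a ^ 2 + b ^ 2 * x = 0
    · exact ⟨0, 0, by rw [hs]; simp⟩
    · refine ⟨a / (a ^ 2 + b ^ 2 * x), b / (a ^ 2 + b ^ 2 * x), ?_⟩
      field_simp

theorem mem_ue3S (h2 : (2 : F) = 0) (x f : F) :
    f ∈ ue3S h2 x ↔ ∃ a b : F, f = a ^ 2 + b ^ 2 * x := Iff.rfl

/-- `F = F² + F² x` when `F / K(x)` is separable and `K` is perfect of characteristic `2`. -/
theorem ue3_exists_sq_add (h2 : (2 : F) = 0) (hK : ∀ c : K, ∃ z : K, z ^ 2 = c) (x : F)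
    [Algebra.IsSeparable K⟮x⟯ F] (f : F) : ∃ a b : F, f = a ^ 2 + b ^ 2 * x := by
  classical
  let S' : IntermediateField K F :=
    (ue3S h2 x).toIntermediateField (fun c => by
        obtain ⟨z, hz⟩ := hK c
        exact ⟨algebraMap K F z, 0, by rw [← map_pow, hz]; ring⟩)
  have hxS : x ∈ S' := ⟨0, 1, by ring⟩
  have hle : K⟮x⟯ ≤ S' := by
    rw [IntermediateField.adjoin_le_iff]
    rintro _ rfl
    exact hxS
  let E' : IntermediateField K⟮x⟯ F := IntermediateField.extendScalars hle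
  have hsep : IsSeparable E' f :=
    (Algebra.IsSeparable.isSeparable K⟮x⟯ f).tower_top (L := E')
  have hF2 : CharP F 2 := CharTwo.of_one_ne_zero_of_two_eq_zero one_ne_zero h2
  have : CharP E' 2 := RingHom.charP (algebraMap E' F) (algebraMap E' F).injective 2
  have : ExpChar E' 2 := ExpChar.prime Nat.prime_two
  have h1 := IntermediateField.adjoin_simple_eq_adjoin_pow_expChar_of_isSeparable (F := E')
    (E := F) hsep 2
  have hf2 : f ^ 2 ∈ (⊥ : IntermediateField E' F) := by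
    rw [IntermediateField.mem_bot]
    have : f ^ 2 ∈ S' := ⟨f, 0, by ring⟩
    exact ⟨⟨f ^ 2, this⟩, rfl⟩
  rw [IntermediateField.adjoin_simple_eq_bot_iff.mpr hf2,
    IntermediateField.adjoin_simple_eq_bot_iff, IntermediateField.mem_bot] at h1
  obtain ⟨⟨y, hy⟩, rfl⟩ := h1
  exact (mem_ue3S h2 x y).mp hy

/-- **square roots**: if the image of `f ∈ F` in `L` is a square and the image of `x` is not,
then `f` is a square in `F`. -/
theorem ue3_sqrt_abstract {L : Type*} [Field L] (ι : F →+* L) (h2 : (2 : F) = 0)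
    (hK : ∀ c : K, ∃ z : K, z ^ 2 = c) (x : F) [Algebra.IsSeparable K⟮x⟯ F]
    (hx : ¬ ∃ y : L, y ^ 2 = ι x) (f : F) (g : L) (hg : g ^ 2 = ι f) : ∃ a : F, ι a = g := by
  obtain ⟨a, b, rfl⟩ := ue3_exists_sq_add h2 hK x f
  have h2L : (2 : L) = 0 := by
    have := congrArg ι h2
    rwa [map_ofNat, map_zero] at this
  have h3 : (g - ι a) ^ 2 = ι b ^ 2 * ι x := by
    rw [map_add, map_mul, map_pow, map_pow] at hg
    linear_combination hg + (-(g * ι a) + ι a ^ 2) * h2L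
  refine ⟨a, ?_⟩
  by_cases hb : ι b = 0
  · rw [hb] at h3
    have : g - ι a = 0 := by
      have h4 : (g - ι a) ^ 2 = 0 := by rw [h3]; ring
      exact pow_eq_zero_iff (two_ne_zero) |>.mp h4
    exact (sub_eq_zero.mp this).symm
  · exact absurd ⟨(g - ι a) / ι b, by rw [div_pow, h3]; field_simp⟩ hx

end Abstract

/-! ### the function field `F̄_M ⊂ k((q))` -/

section Concrete

open Fermat.Agent.GM Fermat.Agent.FFlib HahnSeries

variable (k : Type) [Field k]

theorem ue3_order_jqModC : (jqModC k).order = -1 := by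
  have hc : (jqModC k).coeff (-1 : ℤ) ≠ 0 := by
    rw [coeff_jqModC_neg_one]; exact one_ne_zero
  have hne : jqModC k ≠ 0 := HahnSeries.ne_zero_of_coeff_ne_zero hc
  refine le_antisymm (HahnSeries.order_le_of_coeff_ne_zero hc) ?_
  by_contra hlt
  rw [not_le] at hlt
  exact hne (HahnSeries.coeff_order_eq_zero.mp (coeff_jqModC_of_lt k hlt))

theorem ue3_not_sq_jqModC_inv : ¬ ∃ y : LaurentSeries k, y ^ 2 = (jqModC k)⁻¹ := by
  rintro ⟨y, hy⟩
  have hj : jqModC k ≠ 0 := jqModC_ne_zero_of_nontrivial k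
  have hy0 : y ≠ 0 := by
    rintro rfl
    rw [zero_pow two_ne_zero] at hy
    exact inv_ne_zero hj hy.symm
  have h1 : y⁻¹ * y⁻¹ = jqModC k := by
    rw [← mul_inv, ← sq, hy, inv_inv]
  have h2 := congrArg HahnSeries.order h1
  rw [HahnSeries.order_mul (inv_ne_zero hy0) (inv_ne_zero hy0), ue3_order_jqModC] at h2
  omega

variable [CharP k 2] [PerfectField k] (M : ℕ)

/-- **UE3a**: an element of `F̄_M` which is a square in `k((q))` is a square in `F̄_M`. -/
theorem ue3_exists_sqrt [hsep : FFSep k ((jk k M)⁻¹)] (f : Fk k M) (g : LaurentSeries k)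
    (hg : g ^ 2 = (f : LaurentSeries k)) : ∃ f' : Fk k M, (f' : LaurentSeries k) = g := by
  have h2k : (2 : k) = 0 := ue2_two_eq_zero k
  have h2 : (2 : Fk k M) = 0 := by
    have : (2 : Fk k M) = algebraMap k (Fk k M) 2 := (map_ofNat _ 2).symm
    rw [this, h2k, map_zero]
  have hK : ∀ c : k, ∃ z : k, z ^ 2 = c := fun c => by
    obtain ⟨z, hz⟩ := surjective_frobenius k 2 c
    exact ⟨z, by rwa [frobenius_def] at hz⟩
  have := hsep.sep
  refine ue3_sqrt_abstract (K := k) (algebraMap (Fk k M) (LaurentSeries k)) h2 hK ((jk k M)⁻¹)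
    ?_ f g hg
  rintro ⟨y, hy⟩
  refine ue3_not_sq_jqModC_inv k ⟨y, ?_⟩
  rw [hy, map_inv₀]
  rfl

/-- eighth roots. -/
theorem ue3_exists_root_eight [hsep : FFSep k ((jk k M)⁻¹)] (f : Fk k M) (g : LaurentSeries k)
    (hg : g ^ 8 = (f : LaurentSeries k)) : ∃ f' : Fk k M, (f' : LaurentSeries k) = g := by
  obtain ⟨f1, h1⟩ := ue3_exists_sqrt k M f (g ^ 4) (by rw [← hg]; ring)
  obtain ⟨f2, h2⟩ := ue3_exists_sqrt k M f1 (g ^ 2) (by rw [h1]; ring)
  exact ue3_exists_sqrt k M f2 g h2.symm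

/-- **UE3**: `χ₈ = ν̄^(-3p) ν̄(q^p)^3` lies in `F̄_M` for `p ∣ M`. -/
theorem ue3_chi_mem [NeZero M] [hsep : FFSep k ((jk k M)⁻¹)] (p : ℕ) [NeZero p] (hpM : p ∣ M) :
    ∃ Θ : Fk k M, (Θ : LaurentSeries k)
      = HahnSeries.ofPowerSeries ℤ k
          ((ue2Chi k p (NeZero.ne p) (-3 * (p : ℤ)) 3 : (PowerSeries k)ˣ) : PowerSeries k) := by
  have hmem : jqNModC k p ∈ modularFunctionFieldFullC k M := jqModCd_mem_full k M hpM
  have hne : jqNModC k p ≠ 0 := by
    intro h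
    have h1 := ue2_chi_pow_eight k p
    rw [h, mul_zero] at h1
    exact pow_ne_zero p (jqModC_ne_zero_of_nontrivial k) h1.symm
  refine ue3_exists_root_eight k M ((jk k M) ^ p * (⟨jqNModC k p, hmem⟩ : Fk k M)⁻¹) _ ?_
  have h1 := ue2_chi_pow_eight k p
  have h2 : (((jk k M) ^ p * (⟨jqNModC k p, hmem⟩ : Fk k M)⁻¹ : Fk k M) : LaurentSeries k)
      = jqModC k ^ p * (jqNModC k p)⁻¹ := by
    push_cast
    rfl
  rw [h2, ← h1, mul_assoc, mul_inv_cancel₀ hne, mul_one]

/-- **UE3, packaged**: `Θ ∈ F̄_M` with `Θ^8 · j̄(q^p) = j̄^p` and `θ Θ = S̄ Θ` (`p` odd, `p ∣ M`). -/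
theorem ue3_exists_theta [NeZero M] [hsep : FFSep k ((jk k M)⁻¹)] (p : ℕ) [NeZero p]
    (hp : Odd p) (hpM : p ∣ M) :
    ∃ Θ : Fk k M, (Θ : LaurentSeries k)
        = HahnSeries.ofPowerSeries ℤ k
          ((ue2Chi k p (NeZero.ne p) (-3 * (p : ℤ)) 3 : (PowerSeries k)ˣ) : PowerSeries k) ∧
      (Θ : LaurentSeries k) ^ 8 * jqNModC k p = jqModC k ^ p ∧
      ue2ThetaL k (Θ : LaurentSeries k)
        = HahnSeries.ofPowerSeries ℤ k (ue2Sbar k p) * (Θ : LaurentSeries k) ∧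
      Θ ≠ 0 := by
  obtain ⟨Θ, hΘ⟩ := ue3_chi_mem k M p hpM
  refine ⟨Θ, hΘ, ?_, ?_, ?_⟩
  · rw [hΘ]
    exact ue2_chi_pow_eight k p
  · rw [hΘ]
    refine ue2ThetaL_chi k p hp (NeZero.ne p) _ _ ?_ (by decide)
    have : Odd (-3 : ℤ) := by decide
    exact this.mul (by exact_mod_cast hp)
  · rintro rfl
    have h1 := ue2_chi_pow_eight k p
    rw [← hΘ] at h1
    simp only [ZeroMemClass.coe_zero, ne_eq, OfNat.ofNat_ne_zero, not_false_eq_true, zero_pow,
      zero_mul] at h1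
    exact pow_ne_zero p (jqModC_ne_zero_of_nontrivial k) h1.symm

end Concrete

end Fermat.Agent.S16lib
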