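/-
S16 library (item 16), piece S (helper11), part 1: the INTEGER `q`-expansions of `E₄`, `E₆`, `Δ`
and the relation `E₄³ - E₆² = 1728 Δ` in `ℤ[[q]]`.
(`sd_qExpansion_Delta` is helper13's `S28lib.qExpansion_discriminant_eq`, re-proved here to keep the
import closure small.)   No sorry.
-/
import Mathlib
import Fermat.Prelude.Def_ModularCurve_X0
import Fermat.Prelude.Def_FLTPrelim_Modularity
import Fermat.Agent.S24lib.JqAnalytic

set_option autoImplicit false

open UpperHalfPlane ModularForm ModularFormClass EisensteinSeries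
open scoped MatrixGroups ModularForm Topology

namespace Fermat.Agent.S16lib

open Fermat.Agent.S24lib

noncomputable section

/-- the integer `q`-expansion of `E₄` -/
def sdE4 : PowerSeries ℤ := ModularCurve.eisenstein4

/-- the integer `q`-expansion of `E₆` -/
def sdE6 : PowerSeries ℤ :=
  PowerSeries.mk fun n => if n = 0 then 1 else -504 * ∑ d ∈ n.divisors, (d : ℤ) ^ 5

/-- the integer `q`-expansion of `Δ` -/
def sdDelta : PowerSeries ℤ := PowerSeries.X * ModularCurve.dedekindEtaUnit

/-- `ℤ[[q]] → ℂ[[q]]` -/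
abbrev sdι : PowerSeries ℤ →+* PowerSeries ℂ := PowerSeries.map (Int.castRingHom ℂ)

theorem sdι_injective : Function.Injective sdι := by
  intro a b h
  ext n
  have := congrArg (PowerSeries.coeff n) h
  simpa using this

theorem sd_qExpansion_E4 : qExpansion 1 E₄ = sdι sdE4 := qExpansion_E₄_eq_eisenstein4

theorem sd_qExpansion_E6 : qExpansion 1 E₆ = sdι sdE6 := by
  ext m
  have h := EisensteinSeries.E_qExpansion_coeff (k := 6) (by norm_num) ⟨3, rfl⟩ m
  rw [PowerSeries.coeff_map, sdE6, PowerSeries.coeff_mk]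
  by_cases hm : m = 0
  · rw [if_pos hm]
    rw [h, if_pos hm]
    simp
  · rw [if_neg hm]
    rw [h, if_neg hm]
    have hb : bernoulli 6 = 1 / 42 := by decide +kernel
    rw [hb, ArithmeticFunction.sigma_apply]
    push_cast
    norm_num

theorem sd_qExpansion_Delta : qExpansion 1 discriminant = sdι sdDelta := by
  have h0 : (0 : ℂ) ∈ Metric.ball (0 : ℂ) 1 := Metric.mem_ball_self one_pos
  have hnhds : Metric.ball (0 : ℂ) 1 ∈ 𝓝 (0 : ℂ) := Metric.isOpen_ball.mem_nhds h0
  have hη : AnalyticAt ℂ etaFun 0 := differentiableOn_etaFun.analyticAt hnhds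
  have h1 : qExpansion 1 discriminant = taylorPS (cuspFunction 1 discriminant) := rfl
  have h2 : taylorPS (cuspFunction 1 discriminant) =
      taylorPS ((fun q : ℂ => q ^ 1) * etaFun ^ 24) := by
    apply taylorPS_congr
    filter_upwards [hnhds] with q hq
    rw [discriminant_cuspFunction_eqOn hq]
    have hq' : ‖q‖ < 1 := by simpa using hq
    simp only [Pi.mul_apply, Pi.pow_apply, pow_one, etaFun]
    rw [← (ModularForm.multipliable_one_sub_pow hq').tprod_pow 24]
  rw [h1, h2, taylorPS_mul (by fun_prop) (hη.pow 24), taylorPS_pow_id, taylorPS_pow hη,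
    taylorPS_etaFun, sdDelta, ModularCurve.dedekindEtaUnit, map_mul, map_pow, PowerSeries.map_X,
    pow_one]

theorem sd_coeff_zero_E4 : PowerSeries.constantCoeff sdE4 = 1 :=
  ModularCurve.constantCoeff_eisenstein4

theorem sd_coeff_zero_E6 : PowerSeries.constantCoeff sdE6 = 1 := by
  rw [← PowerSeries.coeff_zero_eq_constantCoeff]
  simp [sdE6]

/-- `E₄³ - E₆²` as a modular form of weight `12`. -/
def sdCubeSq : ModularForm 𝒮ℒ 12 :=
  ModularForm.mcast (by decide) (E₄.pow 3) - ModularForm.mcast (by decide) (E₆.pow 2)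

theorem sdCubeSq_qExpansion :
    qExpansion 1 sdCubeSq = qExpansion 1 E₄ ^ 3 - qExpansion 1 E₆ ^ 2 := by
  simp only [sdCubeSq, FunLike.coe_sub, coe_mcast,
    ModularForm.qExpansion_sub one_pos one_mem_strictPeriods_SL,
    ModularForm.qExpansion_pow one_pos one_mem_strictPeriods_SL]

theorem sdCubeSq_eq : (⇑sdCubeSq : ℍ → ℂ) = (1728 : ℂ) • (discriminant : ℍ → ℂ) := by
  funext z
  have h := ModularForm.discriminant_eq_E₄_cube_sub_E₆_sq z
  simp only [sdCubeSq, sub_apply, coe_mcast, coe_pow, Pi.pow_apply, Pi.smul_apply, smul_eq_mul]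
  rw [h]
  ring

/-- `E₄³ - E₆² = 1728 Δ` in `ℤ[[q]]`. -/
theorem sd_relation : sdE4 ^ 3 - sdE6 ^ 2 = (1728 : PowerSeries ℤ) * sdDelta := by
  apply sdι_injective
  rw [map_sub, map_pow, map_pow, map_mul, ← sd_qExpansion_E4, ← sd_qExpansion_E6,
    ← sd_qExpansion_Delta, ← sdCubeSq_qExpansion, sdCubeSq_eq]
  have h := ModularForm.qExpansion_smul one_pos one_mem_strictPeriods_SL (1728 : ℂ)
    CuspForm.discriminant
  rw [CuspForm.coe_discriminant] at h
  rw [h]
  have e : sdι (1728 : PowerSeries ℤ) = PowerSeries.C (1728 : ℂ) := by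
    rw [map_ofNat]
    exact (map_ofNat (PowerSeries.C (R := ℂ)) 1728).symm
  rw [e, PowerSeries.smul_eq_C_mul]

end

end Fermat.Agent.S16lib
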