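/-
S16 library, piece U-E / UE-W part 2 (helper13): the `q`-series bookkeeping of the wiring.

* `ueq_red_mul_jq` : if `y · E₄² E₆ = − f · Δ` in `ℤ[[q]]` with `f ≡ Σ eisCoeff p n q^n mod 2`,
  `f(0) = 0`, then in characteristic `2`:  `ȳ · j̄ = S̄`  (`E₄ ≡ E₆ ≡ 1`, `Δ̄ j̄ = 1`).
Helper lemmas are prefixed `ueq_`.
-/
import Mathlib
import Fermat.Agent.S16lib.UE2
import Fermat.Agent.S16lib.SwDInt

set_option autoImplicit false

noncomputable section

namespace Fermat.Agent.S16lib

open PowerSeries ModularCurve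

variable (k : Type*) [Field k] [CharP k 2]

theorem ueq_sdE4_map : sdE4.map (Int.castRingHom k) = 1 := ue2_eisenstein4_map k

theorem ueq_sdE6_map : sdE6.map (Int.castRingHom k) = 1 := by
  ext n
  rw [coeff_map, sdE6, coeff_mk, PowerSeries.coeff_one]
  by_cases hn : n = 0
  · simp [hn]
  · rw [if_neg hn, if_neg hn]
    have h504 : ((-504 : ℤ) : k) = 0 := by
      have : ((-504 : ℤ) : k) = (2 : k) * (-252) := by push_cast; norm_num
      rw [this, ue2_two_eq_zero k, zero_mul]
    rw [map_mul, eq_intCast, h504, zero_mul]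

/-- `Δ̄ · j̄ = 1` in characteristic `2` -/
theorem ueq_sdDelta_mul_jq :
    HahnSeries.ofPowerSeries ℤ k (sdDelta.map (Int.castRingHom k)) * jqModC k = 1 := by
  have h1 : dedekindEtaUnit.map (Int.castRingHom k) * jNum.map (Int.castRingHom k) = 1 := by
    rw [jNum, map_mul, map_pow, ue2_eisenstein4_map, one_pow, one_mul, ← map_mul,
      dedekindEtaUnit_mul_inv, map_one]
  rw [sdDelta, map_mul, PowerSeries.map_X, jqModC, map_mul, HahnSeries.ofPowerSeries_X]
  calc HahnSeries.single (1 : ℤ) (1 : k)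
        * HahnSeries.ofPowerSeries ℤ k (dedekindEtaUnit.map (Int.castRingHom k))
        * (HahnSeries.single (-1 : ℤ) (1 : k)
          * HahnSeries.ofPowerSeries ℤ k (jNum.map (Int.castRingHom k)))
      = (HahnSeries.single (1 : ℤ) (1 : k) * HahnSeries.single (-1 : ℤ) (1 : k))
        * HahnSeries.ofPowerSeries ℤ k
          (dedekindEtaUnit.map (Int.castRingHom k) * jNum.map (Int.castRingHom k)) := by
        rw [map_mul]; ring
    _ = 1 := by
        rw [h1, (HahnSeries.ofPowerSeries ℤ k).map_one, mul_one, HahnSeries.single_mul_single]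
        simp

/-- the reduction of an integral form congruent to the Eisenstein series -/
theorem ueq_map_mk (p : ℕ) (a : ℕ → ℤ) (ha0 : a 0 = 0)
    (ha : ∀ n : ℕ, 0 < n → (2 : ℤ) ∣ a n - eisCoeff p n) :
    (PowerSeries.mk a).map (Int.castRingHom k) = ue2Sbar k p := by
  ext n
  rw [coeff_map, coeff_mk, coeff_ue2Sbar, eq_intCast]
  rcases Nat.eq_zero_or_pos n with rfl | hn
  · rw [ha0]
    simp [eisCoeff]
  · obtain ⟨e, he⟩ := ha n hn
    have h1 : a n = eisCoeff p n + 2 * e := by omega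
    rw [h1]
    push_cast
    rw [ue2_two_eq_zero k, zero_mul, add_zero]

/-- **the reduction of `φ = − f Δ / (E₄² E₆)`**: `ȳ · j̄ = S̄`. -/
theorem ueq_red_mul_jq (p : ℕ) (y : PowerSeries ℤ) (a : ℕ → ℤ) (ha0 : a 0 = 0)
    (ha : ∀ n : ℕ, 0 < n → (2 : ℤ) ∣ a n - eisCoeff p n)
    (hy : y * (sdE4 ^ 2 * sdE6) = -(PowerSeries.mk a * sdDelta)) :
    HahnSeries.ofPowerSeries ℤ k (y.map (Int.castRingHom k)) * jqModC k
      = HahnSeries.ofPowerSeries ℤ k (ue2Sbar k p) := by
  have h1 := congrArg (PowerSeries.map (Int.castRingHom k)) hy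
  rw [map_mul, map_mul, map_pow, ueq_sdE4_map, ueq_sdE6_map, one_pow, mul_one, mul_one, map_neg,
    map_mul, ueq_map_mk k p a ha0 ha] at h1
  have h2 : -(ue2Sbar k p * sdDelta.map (Int.castRingHom k))
      = ue2Sbar k p * sdDelta.map (Int.castRingHom k) :=
    ue2_neg_eq (ue2_two_eq_zero_ps k) _
  rw [h1, h2, map_mul, mul_assoc, ueq_sdDelta_mul_jq, mul_one]

end Fermat.Agent.S16lib

end
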