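/-
S16 library, piece U-E / UE-W part 1 (helper13): the abstract local contradiction of the
"local route" (NOTES/S16_UE_blueprint.md).

Setting: a constant reduction `R` of `F/K` to `Fk/k`, `char k = 2`, with a place reduction `r`.
If `Θ ∈ Fk` has odd order at a place `x₀`, `t, g ∈ R.O` with `red t` a uniformizer at `x₀`,
`g` regular at every place of the fibre `r⁻¹ x₀`, then `dΘ ≠ (Θ · red g) d(red t)`.
Helper lemmas are prefixed `uew_`.
-/
import Mathlib
import Fermat.Agent.GoodRed.PlaceRed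
import Fermat.Agent.RRlib.Hurwitz

set_option autoImplicit false

noncomputable section

namespace Fermat.Agent.S16lib

open AlgebraicCurve Fermat.Agent.RRlib Fermat.Agent.GoodRed KaehlerDifferential
open Fermat.Agent.S24lib Fermat.Agent.FFlib

variable {K F k Fk : Type*} [Field K] [Field F] [Algebra K F] [Field k] [Field Fk] [Algebra k Fk]
variable {A : ValuationSubring K} {π : A →+* k}

/-- `du ≠ 0` if `ord_v u ≠ 0` in `K`. -/
theorem uew_D_ne_zero [RRBase K F] (v : Place K F) [v.DCoordGenerates] [Nontrivial Ω[F⁄K]]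
    {u : F} (hm : ((v.ord u : ℤ) : K) ≠ 0) : D K F u ≠ 0 := by
  intro h0
  have hu : u ≠ 0 := by
    rintro rfl
    rw [v.ord_zero] at hm
    exact hm Int.cast_zero
  obtain ⟨t, w, a, ht, hw0, hwo, hao, hc⟩ := hw_exists_coeff v hu
  have ht0 : t ≠ 0 := by
    rintro rfl
    simp at ht
  have hmF : ((v.ord u : ℤ) : F) ≠ 0 := by
    have : ((v.ord u : ℤ) : F) = algebraMap K F ((v.ord u : ℤ) : K) := (map_intCast _ _).symm
    rw [this, Ne, map_eq_zero]
    exact hm
  have hmo : v.ord ((v.ord u : ℤ) : F) = 0 := by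
    have : ((v.ord u : ℤ) : F) = algebraMap K F ((v.ord u : ℤ) : K) := (map_intCast _ _).symm
    rw [this, ffOrd_algebraMap]
  have h1 : w * (((v.ord u : ℤ) : F) * t ^ (v.ord u - 1)) ≠ 0 :=
    mul_ne_zero hw0 (mul_ne_zero hmF (zpow_ne_zero _ ht0))
  have h1o : v.ord (w * (((v.ord u : ℤ) : F) * t ^ (v.ord u - 1))) = v.ord u - 1 := by
    rw [v.ord_mul hw0 (mul_ne_zero hmF (zpow_ne_zero _ ht0)),
      v.ord_mul hmF (zpow_ne_zero _ ht0), v.ord_zpow, ht, hwo, hmo]
    ring
  rw [h0, v.differentialCoeff_zero] at hc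
  rcases eq_or_ne a 0 with rfl | ha0
  · rw [mul_zero, add_zero] at hc
    exact h1 hc.symm
  · have hao' : 0 ≤ v.ord a := hao.resolve_left ha0
    have h2 : t ^ (v.ord u) * a ≠ 0 := mul_ne_zero (zpow_ne_zero _ ht0) ha0
    have h2o : v.ord (t ^ (v.ord u) * a) = v.ord u + v.ord a := by
      rw [v.ord_mul (zpow_ne_zero _ ht0) ha0, v.ord_zpow, ht]
      ring
    have h3 : w * (((v.ord u : ℤ) : F) * t ^ (v.ord u - 1)) = -(t ^ (v.ord u) * a) :=
      eq_neg_of_add_eq_zero_left hc.symm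
    have h4 := congrArg v.ord h3
    rw [ffOrd_neg, h1o, h2o] at h4
    omega

/-- a nonzero differential has a nonzero coefficient -/
theorem uew_differentialCoeff_ne_zero (v : Place K F) [v.DCoordGenerates] {ω : Ω[F⁄K]}
    (hω : ω ≠ 0) : v.differentialCoeff ω ≠ 0 := by
  intro h
  apply hω
  rw [← v.differentialCoeff_smul_dCoord ω, h, zero_smul]

/-- the fibre sum is nonnegative if all its terms are -/
theorem uew_mapDomain_nonneg {α β : Type*} (r : α → β) (D : α →₀ ℤ) (b : β)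
    (h : ∀ a, r a = b → 0 ≤ D a) : 0 ≤ Finsupp.mapDomain r D b := by
  classical
  rw [Finsupp.mapDomain, Finsupp.sum_apply, Finsupp.sum]
  refine Finset.sum_nonneg fun a _ => ?_
  rw [Finsupp.single_apply]
  split_ifs with hab
  · exact h a hab
  · exact le_refl _

/-- **the abstract local contradiction** -/
theorem uew_core [RRBase K F] [RRBase k Fk] [CharP k 2]
    (hgen : ∀ v : Place k Fk, v.DCoordGenerates) [Nontrivial Ω[Fk⁄k]]
    (R : ConstRed A π Fk F) {r : Place K F → Place k Fk} (hr : R.IsPlaceRed r)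
    (x₀ : Place k Fk) (Θ : Fk) (hΘ : Odd (x₀.ord Θ))
    (t g : R.O) (ht : x₀.ord (R.red t) = 1)
    (hg : ∀ P : Place K F, r P = x₀ → 0 ≤ P.ord ((g : R.O) : F))
    (hD : D k Fk Θ = (Θ * R.red g) • D k Fk (R.red t)) : False := by
  have := hgen x₀
  have h2 : (2 : k) = 0 := by
    have := CharP.cast_eq_zero k 2
    exact_mod_cast this
  -- odd integers are `1` in `k`
  have hoddk : ∀ m : ℤ, Odd m → ((m : ℤ) : k) ≠ 0 := by
    rintro m ⟨e, rfl⟩
    push_cast
    rw [h2, zero_mul, zero_add]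
    exact one_ne_zero
  have hmk : ((x₀.ord Θ : ℤ) : k) ≠ 0 := hoddk _ hΘ
  have h1k : ((x₀.ord (R.red t) : ℤ) : k) ≠ 0 := by
    rw [ht]; exact hoddk 1 odd_one
  have hDΘ : D k Fk Θ ≠ 0 := uew_D_ne_zero x₀ hmk
  have hDt : D k Fk (R.red t) ≠ 0 := uew_D_ne_zero x₀ h1k
  have hc0 : Θ * R.red g ≠ 0 := by
    intro h
    rw [h, zero_smul] at hD
    exact hDΘ hD
  have hg0 : R.red g ≠ 0 := right_ne_zero_of_mul hc0
  have hΘ0 : Θ ≠ 0 := left_ne_zero_of_mul hc0
  have e1 : x₀.ordDifferential (D k Fk Θ) = x₀.ord Θ - 1 := hw_ordDifferential_D_eq x₀ hmk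
  have e2 : x₀.ordDifferential (D k Fk (R.red t)) = 0 := by
    rw [hw_ordDifferential_D_eq x₀ h1k, ht]; ring
  have e3 : x₀.ordDifferential ((Θ * R.red g) • D k Fk (R.red t))
      = x₀.ord (Θ * R.red g) + x₀.ordDifferential (D k Fk (R.red t)) :=
    Place.ordDifferential_smul x₀ hc0 (uew_differentialCoeff_ne_zero x₀ hDt)
  rw [← hD, e1, e2, x₀.ord_mul hΘ0 hg0] at e3
  have hord : x₀.ord (R.red g) = -1 := by omega
  have hax := hr.2 g hg0 x₀
  have hnn : 0 ≤ Finsupp.mapDomain r (divOf (K := K) ((g : R.O) : F)) x₀ :=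
    uew_mapDomain_nonneg r _ x₀ fun P hP => by
      rw [divOf_apply']
      exact hg P hP
  rw [hax, hord] at hnn
  omega

/-- char `0`, local: `φ dj = g dt` is regular at `P` and `t − c` is a uniformizer at `P`
⇒ `g` is regular at `P`. -/
theorem uew_ord_nonneg [RRBase K F] [CharZero K] (P : Place K F) [P.DCoordGenerates]
    [Nontrivial Ω[F⁄K]] (φ g t j : F) (c : K)
    (hφ : 0 ≤ P.ordDifferential (φ • D K F j)) (hgt : φ • D K F j = g • D K F t)
    (ht : P.ord (t - algebraMap K F c) = 1) : 0 ≤ P.ord g := by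
  rcases eq_or_ne g 0 with rfl | hg0
  · rw [P.ord_zero]
  have h1K : ((P.ord (t - algebraMap K F c) : ℤ) : K) ≠ 0 := by
    rw [ht]; norm_num
  have hDeq : D K F (t - algebraMap K F c) = D K F t := by
    rw [map_sub, Derivation.map_algebraMap, sub_zero]
  have hDt : D K F t ≠ 0 := by
    rw [← hDeq]; exact uew_D_ne_zero P h1K
  have e2 : P.ordDifferential (D K F t) = 0 := by
    rw [← hDeq, hw_ordDifferential_D_eq P h1K, ht]; ring
  have e3 : P.ordDifferential (g • D K F t) = P.ord g + P.ordDifferential (D K F t) :=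
    Place.ordDifferential_smul P hg0 (uew_differentialCoeff_ne_zero P hDt)
  rw [hgt, e3, e2] at hφ
  omega

end Fermat.Agent.S16lib

end
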