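/-
S16 library, piece U-E / UE-W part 3 (helper13): the final wiring of the "local route"
(NOTES/S16_UE_blueprint.md), conditional on the pieces G3 (helper18), UE-R (helper17) and
UE-D (b) (helper1), which enter as hypotheses with their exact signatures
(NOTES/S16_UE_signatures.md).
Helper lemmas are prefixed `uem_`.
-/
import Mathlib
import Fermat.Agent.S16lib.UE0
import Fermat.Agent.S16lib.UEW
import Fermat.Agent.S16lib.UEQ
import Fermat.Agent.S16lib.UE3
import Fermat.Agent.S16lib.UEA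
import Fermat.Agent.S16lib.UED
import Fermat.Agent.GoodRed.DescWiring
import Fermat.Agent.GoodRed.HredMain
import Fermat.Agent.RRlib.Modular
import Fermat.Agent.FrobAssemble

set_option autoImplicit false
set_option synthInstance.maxHeartbeats 400000
set_option linter.unusedSectionVars false

noncomputable section

namespace Fermat.Agent.S16lib

open AlgebraicCurve ModularCurve KaehlerDifferential CongruenceSubgroup ModularFormClass
open Fermat.Agent.RRlib Fermat.Agent.GoodRed Fermat.Agent.S24lib Fermat.Agent.GM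
  Fermat.Agent.FFlib

/-- the statement of G3 (helper18) -/
def UEG3Statement (p : ℕ) [Fact p.Prime] : Prop :=
  ∀ (M : ℕ) [NeZero M], 9 ∣ M → p ∣ M → ¬ 2 ∣ M →
    ∀ (A : ValuationSubring Kbar), A.LiesOverPrime 2 →
    ∀ (Θ : Fk (IsLocalRing.ResidueField A) M),
      (Θ : LaurentSeries (IsLocalRing.ResidueField A)) ^ 8 * jqNModC (IsLocalRing.ResidueField A) p
        = jqModC (IsLocalRing.ResidueField A) ^ p →
    ∀ x : Place (IsLocalRing.ResidueField A) (Fk (IsLocalRing.ResidueField A) M),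
      0 < x.ord (jk (IsLocalRing.ResidueField A) M) → Odd (x.ord Θ)

/-- the statement of UE-R (helper17) -/
def UERStatement (p : ℕ) : Prop :=
  ∀ (f : ModularForm (Gamma0 p) 2) (a : ℕ → ℤ), (∀ n : ℕ, qCoeff f n = (a n : ℂ)) →
    ∀ (M : ℕ) [NeZero M], p ∣ M →
    ∃ (φ : FF M) (y : PowerSeries ℤ),
      (φ : LaurentSeries Kbar) = HahnSeries.ofPowerSeries ℤ Kbar (y.map (Int.castRingHom Kbar)) ∧
      y * (sdE4 ^ 2 * sdE6) = -(PowerSeries.mk a * sdDelta) ∧
      ∀ P : Place Kbar (FF M), 0 ≤ P.ord (jF M) →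
        0 ≤ P.ordDifferential (φ • D Kbar (FF M) (jF M))

/-- the statement of UE-D (b) (helper1) -/
def UEDbStatement : Prop :=
  ∀ (N : ℕ) [NeZero N] (A : ValuationSubring Kbar), A ≠ ⊤ →
    ∀ (R : ConstRed A (IsLocalRing.residue A) (Fk (IsLocalRing.ResidueField A) N) (FF N)),
      (∀ (y : LaurentSeries A) (hy : coeffMap A.subtype y ∈ modularFunctionFieldBar N),
        ∃ h : (⟨coeffMap A.subtype y, hy⟩ : FF N) ∈ R.O,
          ((R.red ⟨_, h⟩ : Fk (IsLocalRing.ResidueField A) N) :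
              LaurentSeries (IsLocalRing.ResidueField A))
            = coeffMap (IsLocalRing.residue A) y) →
    ∀ t : R.O,
      ∃ t' : R.O, D Kbar (FF N) ((t : R.O) : FF N) = ((t' : R.O) : FF N) • D Kbar (FF N) (jF N) ∧
        D (IsLocalRing.ResidueField A) (Fk (IsLocalRing.ResidueField A) N) (R.red t)
          = R.red t' • D (IsLocalRing.ResidueField A) (Fk (IsLocalRing.ResidueField A) N)
              (jk (IsLocalRing.ResidueField A) N)

/-- the residue field of a place over `ℓ` has characteristic `ℓ` -/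
theorem uem_charP (A : ValuationSubring Kbar) {ℓ : ℕ} (hℓ : ℓ.Prime) (hA : A.LiesOverPrime ℓ) :
    CharP (IsLocalRing.ResidueField A) ℓ := by
  rw [CharP.charP_iff_prime_eq_zero hℓ]
  have hmem : (ℓ : Kbar) ∈ A := A.nonunits_le hA
  have h1 : ((⟨(ℓ : Kbar), hmem⟩ : A)) ∈ IsLocalRing.maximalIdeal A := by
    rw [IsLocalRing.mem_maximalIdeal, mem_nonunits_iff]
    intro hu
    have hA' : (ℓ : Kbar) ∈ A.nonunits := hA
    rw [ValuationSubring.mem_nonunits_iff_exists_mem_maximalIdeal] at hA'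
    obtain ⟨ha, hm⟩ := hA'
    rw [IsLocalRing.mem_maximalIdeal, mem_nonunits_iff] at hm
    exact hm hu
  have h2 : IsLocalRing.residue A (⟨(ℓ : Kbar), hmem⟩ : A) = 0 :=
    (IsLocalRing.residue_eq_zero_iff _).2 h1
  have h3 : ((⟨(ℓ : Kbar), hmem⟩ : A)) = ((ℓ : ℕ) : A) := by
    apply Subtype.ext
    simp
  rw [h3, map_natCast] at h2
  exact h2

section Level

variable {N : ℕ} [NeZero N] {A : ValuationSubring Kbar}
variable {R : ConstRed A (IsLocalRing.residue A) (Fk (IsLocalRing.ResidueField A) N) (FF N)}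

/-- an element of `F_N` with integral power series expansion lies in `O` and reduces
coefficientwise -/
theorem uem_mem_of_powerSeries (hR : IsSeriesRed R) (φ : FF N) (y : PowerSeries ℤ)
    (hφ : (φ : LaurentSeries Kbar)
      = HahnSeries.ofPowerSeries ℤ Kbar (y.map (Int.castRingHom Kbar))) :
    ∃ h : φ ∈ R.O, ((R.red ⟨φ, h⟩ : Fk (IsLocalRing.ResidueField A) N) :
        LaurentSeries (IsLocalRing.ResidueField A))
      = HahnSeries.ofPowerSeries ℤ (IsLocalRing.ResidueField A)
          (y.map (Int.castRingHom (IsLocalRing.ResidueField A))) := by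
  set yA : LaurentSeries A := HahnSeries.ofPowerSeries ℤ A (y.map (Int.castRingHom A)) with hyA
  have e1 : coeffMap A.subtype yA = (φ : LaurentSeries Kbar) := by
    have : (y.map (Int.castRingHom A)).map A.subtype = y.map (Int.castRingHom Kbar) := by
      ext n; simp
    rw [hφ, hyA, coeffMap_ofPowerSeries, this]
  have e2 : coeffMap (IsLocalRing.residue A) yA
      = HahnSeries.ofPowerSeries ℤ (IsLocalRing.ResidueField A)
          (y.map (Int.castRingHom (IsLocalRing.ResidueField A))) := by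
    have : (y.map (Int.castRingHom A)).map (IsLocalRing.residue A)
        = y.map (Int.castRingHom (IsLocalRing.ResidueField A)) := by
      ext n; simp
    rw [hyA, coeffMap_ofPowerSeries, this]
  have hy : coeffMap A.subtype yA ∈ modularFunctionFieldBar N := by
    rw [e1]; exact φ.2
  obtain ⟨h, hred⟩ := hR yA hy
  have e3 : (⟨coeffMap A.subtype yA, hy⟩ : FF N) = φ := Subtype.ext e1
  refine ⟨e3 ▸ h, ?_⟩
  rw [← e2, ← hred]
  congr 2
  exact Subtype.ext e3.symm

omit [NeZero N] in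
/-- a unit of `O`: nonzero reduction -/
theorem uem_inv_mem (x : R.O) (hx : R.red x ≠ 0) : ((x : R.O) : FF N)⁻¹ ∈ R.O := by
  have hnu : ((x : R.O) : FF N) ∉ R.O.nonunits := fun hnu => hx ((R.red_eq_zero_iff x).mpr hnu)
  by_contra hcon
  apply hnu
  rw [ValuationSubring.mem_nonunits_iff_or]
  right
  exact hcon

end Level

/-- a place of `ℚ̄` over `2` -/
theorem uem_exists_over_two : ∃ A : ValuationSubring Kbar, A.LiesOverPrime 2 := by
  have hP : (Ideal.span {(2 : ℤ)}).IsPrime :=
    (Ideal.span_singleton_prime (by norm_num)).mpr Int.prime_two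
  obtain ⟨Q, -, hQprime, hQ⟩ := Ideal.exists_ideal_over_prime_of_isIntegral
    (Ideal.span {(2 : ℤ)}) (⊥ : Ideal Fermat.Agent.FrobLib.ZBar) (by
      rw [Ideal.comap_bot_of_injective _
        (FaithfulSMul.algebraMap_injective ℤ Fermat.Agent.FrobLib.ZBar)]
      exact bot_le)
  have hlQ : ((2 : ℕ) : Fermat.Agent.FrobLib.ZBar) ∈ Q := by
    have : ((2 : ℕ) : ℤ) ∈ Q.comap (algebraMap ℤ Fermat.Agent.FrobLib.ZBar) := by
      rw [hQ]
      exact Ideal.subset_span rfl
    simpa using this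
  exact ⟨Fermat.Agent.FrobLib.valuationSubringOfPrime Q,
    Fermat.Agent.FrobLib.liesOverPrime_valuationSubringOfPrime Q 2 hlQ⟩

/-- a negative fibre sum has a negative term -/
theorem uem_exists_of_mapDomain_neg {α β : Type*} (r : α → β) (D : α →₀ ℤ) (b : β)
    (h : Finsupp.mapDomain r D b < 0) : ∃ a, r a = b ∧ D a < 0 := by
  by_contra hcon
  push Not at hcon
  exact absurd (uew_mapDomain_nonneg r D b hcon) (not_le.mpr h)

/-- **UE-main**, conditional on G3 (helper18), UE-R (helper17), UE-D (b) (helper1). -/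
theorem uem_not_eisCongMF_of (p : ℕ) [Fact p.Prime] (hp : p % 8 = 7)
    (hG3 : UEG3Statement p) (hRphi : UERStatement p) (hDb : UEDbStatement)
    (hZ : ∀ (k : Type) [Field k] [IsAlgClosed k] (M : ℕ) [NeZero M],
      ∃ x : Place k (Fk k M), 0 < x.ord (jk k M)) :
    ¬ EisCongMF p := by
  rintro ⟨f, a, hf, ha0, ha⟩
  have hpp : p.Prime := Fact.out
  obtain ⟨A, hA⟩ := uem_exists_over_two
  have hAtop : A ≠ ⊤ := dw_ne_top Nat.prime_two hA
  have : Fact (Nat.Prime 2) := ⟨Nat.prime_two⟩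
  have hpodd : p % 2 = 1 := by omega
  have hM0 : NeZero (9 * p) := ⟨by have := hpp.pos; omega⟩
  have h2M : ¬ 2 ∣ 9 * p := by omega
  have h9M : 9 ∣ 9 * p := dvd_mul_right 9 p
  have hpM : p ∣ 9 * p := dvd_mul_left p 9
  have : IsAlgClosed (IsLocalRing.ResidueField A) := isAlgClosed_residueField A
  have : CharP (IsLocalRing.ResidueField A) 2 := uem_charP A Nat.prime_two hA
  -- the constant reduction and the place reduction at level `M = 9 p`
  have hred := Fermat.Agent.GoodRed.hred_modL (9 * p) h2M A hA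
  obtain ⟨R, hR⟩ := exists_modConstRed (9 * p) A hAtop hred
  have hRs : IsSeriesRed R := hR
  have : RRHyp Kbar (FF (9 * p)) := mod_rrHyp (9 * p)
  have : RRHyp (IsLocalRing.ResidueField A) (Fk (IsLocalRing.ResidueField A) (9 * p)) :=
    mr_rrHyp (IsLocalRing.ResidueField A) (9 * p)
  have hDM := exists_fiberData_modL' (9 * p) h2M A hA
  have haux : IsAuxLevel 2 (9 * p) := ⟨h2M, Or.inr ⟨rfl, h9M⟩⟩
  have hD₀ := exists_fiberData_modL' (baseLevel 2) (dw_not_dvd_baseLevel Nat.prime_two) A hA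
  have hg := genusFF_le_modL_of_fiberData (9 * p) haux hD₀ hDM
  obtain ⟨r, hr, -⟩ := R.exists_isPlaceRed hg
  -- Kähler instances
  have hsepk : FFSep (IsLocalRing.ResidueField A) (jbarC (IsLocalRing.ResidueField A) (9 * p)) :=
    mr_ffSep (IsLocalRing.ResidueField A) (9 * p)
  have hgenk : ∀ v : Place (IsLocalRing.ResidueField A)
      (Fk (IsLocalRing.ResidueField A) (9 * p)), v.DCoordGenerates :=
    fun v => fsDCoordGenerates (x := jbarC (IsLocalRing.ResidueField A) (9 * p)) v
  have : Nontrivial Ω[Fk (IsLocalRing.ResidueField A) (9 * p)⁄IsLocalRing.ResidueField A] :=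
    fsNontrivial_kaehler (K := IsLocalRing.ResidueField A)
      (x := jbarC (IsLocalRing.ResidueField A) (9 * p))
  have : Nontrivial Ω[FF (9 * p)⁄Kbar] := mod_nontrivial_kaehler (9 * p)
  -- `Θ`
  have : FFSep (IsLocalRing.ResidueField A) ((jk (IsLocalRing.ResidueField A) (9 * p))⁻¹) :=
    ffSep_jk_inv_modL (9 * p) h2M A hA
  obtain ⟨Θ, -, hΘ8, hθΘ, hΘ0⟩ :=
    ue3_exists_theta (IsLocalRing.ResidueField A) (9 * p) p (Nat.odd_iff.mpr hpodd) hpM
  -- the supersingular place `x₀`
  obtain ⟨x₀, hx₀⟩ := hZ (IsLocalRing.ResidueField A) (9 * p)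
  have hodd : Odd (x₀.ord Θ) := hG3 (9 * p) h9M hpM h2M A hA Θ hΘ8 x₀ hx₀
  -- `j ∈ O`, `red j = j̄`
  have hjO : jF (9 * p) ∈ R.O := dw_jF_mem hRs
  have hjred : R.red ⟨jF (9 * p), hjO⟩ = jk (IsLocalRing.ResidueField A) (9 * p) := dw_red_jF hRs
  have hjk0 : jk (IsLocalRing.ResidueField A) (9 * p) ≠ 0 := by
    intro h0
    rw [h0, Place.ord_zero] at hx₀
    exact lt_irrefl _ hx₀
  -- poles of `j` reduce to poles of `j̄`
  have hpole : ∀ P : Place Kbar (FF (9 * p)), P.ord (jF (9 * p)) < 0 →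
      (r P).ord (jk (IsLocalRing.ResidueField A) (9 * p)) < 0 := by
    intro P hP
    classical
    set D : Divisor Kbar (FF (9 * p)) := divOf (K := Kbar) ((jF (9 * p))⁻¹) ⊔ 0 with hDdef
    set X : Divisor (IsLocalRing.ResidueField A) (Fk (IsLocalRing.ResidueField A) (9 * p)) :=
      divOf (K := IsLocalRing.ResidueField A) ((jk (IsLocalRing.ResidueField A) (9 * p))⁻¹) ⊔ 0
      with hXdef
    have hD : ∀ v : Place Kbar (FF (9 * p)), D v = max 0 (-(v.ord (jF (9 * p)))) := by
      intro v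
      rw [hDdef, Finsupp.sup_apply, divOf_apply', Finsupp.coe_zero, Pi.zero_apply, max_comm,
        Place.ord_inv]
    have hX : ∀ w : Place (IsLocalRing.ResidueField A) (Fk (IsLocalRing.ResidueField A) (9 * p)),
        X w = max 0 (-(w.ord (jk (IsLocalRing.ResidueField A) (9 * p)))) := by
      intro w
      rw [hXdef, Finsupp.sup_apply, divOf_apply', Finsupp.coe_zero, Pi.zero_apply, max_comm,
        Place.ord_inv]
    have hdeg : Divisor.degree D ≤ Divisor.degree X :=
      (degree_poles_jF_le (9 * p) D hD).trans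
        (le_degree_poles_jk (IsLocalRing.ResidueField A) (9 * p)
          (finrank_Fk_modL (9 * p) h2M A hA) X hX)
    have hx : R.red ⟨jF (9 * p), hjO⟩ ∉
        Set.range (algebraMap (IsLocalRing.ResidueField A)
          (Fk (IsLocalRing.ResidueField A) (9 * p))) := by
      rw [hjred]
      exact jk_not_mem_range (IsLocalRing.ResidueField A) (9 * p)
    have hD' : ∀ v : Place Kbar (FF (9 * p)),
        D v = max 0 (-(v.ord (((⟨jF (9 * p), hjO⟩ : R.O) : FF (9 * p))))) := hD
    have hX' : ∀ w : Place (IsLocalRing.ResidueField A) (Fk (IsLocalRing.ResidueField A) (9 * p)),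
        X w = max 0 (-(w.ord (R.red ⟨jF (9 * p), hjO⟩))) := by
      intro w; rw [hjred]; exact hX w
    have := hr.ord_red_neg ⟨jF (9 * p), hjO⟩ hx hD' hX' hdeg P hP
    rwa [hjred] at this
  -- a place `Q₀` outside the fibre of `x₀`
  obtain ⟨Q₀, hQ₀⟩ : ∃ Q₀ : Place Kbar (FF (9 * p)), r Q₀ ≠ x₀ := by
    obtain ⟨y, hy⟩ : ∃ y : Place (IsLocalRing.ResidueField A)
        (Fk (IsLocalRing.ResidueField A) (9 * p)),
        y.ord (jk (IsLocalRing.ResidueField A) (9 * p)) < 0 := by
      by_contra hcon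
      push Not at hcon
      exact jk_not_mem_range (IsLocalRing.ResidueField A) (9 * p)
        (RRBase.const_of_forall_ord_nonneg (K := IsLocalRing.ResidueField A) _ hcon)
    have hax := hr.2 ⟨jF (9 * p), hjO⟩ (by rw [hjred]; exact hjk0) y
    rw [hjred] at hax
    obtain ⟨Q₀, hQy, -⟩ := uem_exists_of_mapDomain_neg r _ y (by rw [hax]; exact hy)
    refine ⟨Q₀, fun h => ?_⟩
    rw [hQy] at h
    rw [h] at hy
    omega
  -- the uniformizer `t`
  obtain ⟨t, ht1, htP⟩ := uea_exists_uniformizer R hr hg x₀ Q₀ hQ₀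
  -- `φ`
  obtain ⟨φ, y, hφy, hyrel, hφreg⟩ := hRphi f a hf (9 * p) hpM
  obtain ⟨hφO, hφred⟩ := uem_mem_of_powerSeries hRs φ y hφy
  -- `t' = dt/dj`
  obtain ⟨t', ht', ht'red⟩ := hDb (9 * p) A hAtop R hR t
  have h2k : (2 : IsLocalRing.ResidueField A) = 0 := ue2_two_eq_zero _
  have h1k : ((x₀.ord (R.red t) : ℤ) : IsLocalRing.ResidueField A) ≠ 0 := by
    rw [ht1]; simp
  have := hgenk x₀
  have hDt : D (IsLocalRing.ResidueField A) (Fk (IsLocalRing.ResidueField A) (9 * p)) (R.red t)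
      ≠ 0 := uew_D_ne_zero x₀ h1k
  have ht'0 : R.red t' ≠ 0 := by
    intro h0
    rw [h0, zero_smul] at ht'red
    exact hDt ht'red
  have ht'F : ((t' : R.O) : FF (9 * p)) ≠ 0 := by
    intro h0
    apply ht'0
    rw [show t' = 0 from Subtype.ext h0, map_zero]
  have hinv : ((t' : R.O) : FF (9 * p))⁻¹ ∈ R.O := uem_inv_mem t' ht'0
  -- `g = φ / t'`
  set g : R.O := ⟨φ, hφO⟩ * ⟨_, hinv⟩ with hgdef
  have hgF : ((g : R.O) : FF (9 * p)) = φ * ((t' : R.O) : FF (9 * p))⁻¹ := rfl
  have hgred : R.red g = R.red ⟨φ, hφO⟩ * (R.red t')⁻¹ := by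
    rw [hgdef, map_mul]
    congr 1
    apply eq_inv_of_mul_eq_one_left
    rw [← map_mul]
    have : (⟨_, hinv⟩ : R.O) * t' = 1 := Subtype.ext (inv_mul_cancel₀ ht'F)
    rw [this, map_one]
  -- regularity of `g` on the fibre of `x₀`
  have hgreg : ∀ P : Place Kbar (FF (9 * p)), r P = x₀ → 0 ≤ P.ord ((g : R.O) : FF (9 * p)) := by
    intro P hP
    have hPfin : 0 ≤ P.ord (jF (9 * p)) := by
      by_contra hcon
      have := hpole P (not_le.mp hcon)
      rw [hP] at this
      omega
    obtain ⟨c, hc⟩ := htP P hP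
    have := mod_dCoordGenerates (9 * p) P
    refine uew_ord_nonneg P φ _ ((t : R.O) : FF (9 * p)) (jF (9 * p)) c (hφreg P hPfin) ?_ hc
    rw [ht', smul_smul, hgF, mul_assoc, inv_mul_cancel₀ ht'F, mul_one]
  -- `dΘ = Θ · red g · d(red t)`
  have hDΘ : D (IsLocalRing.ResidueField A) (Fk (IsLocalRing.ResidueField A) (9 * p)) Θ
      = (Θ * R.red g) • D (IsLocalRing.ResidueField A) (Fk (IsLocalRing.ResidueField A) (9 * p))
          (R.red t) := by
    have e1 := ued_D_eq_smul (IsLocalRing.ResidueField A) (9 * p) Θ (Θ * R.red ⟨φ, hφO⟩) (by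
      rw [ue2ThetaL_jqModC, hθΘ]
      have : (((Θ * R.red ⟨φ, hφO⟩ : Fk (IsLocalRing.ResidueField A) (9 * p))) :
          LaurentSeries (IsLocalRing.ResidueField A))
          = (Θ : LaurentSeries (IsLocalRing.ResidueField A))
            * ((R.red ⟨φ, hφO⟩ : Fk (IsLocalRing.ResidueField A) (9 * p)) :
              LaurentSeries (IsLocalRing.ResidueField A)) := rfl
      rw [this, hφred, mul_assoc, ueq_red_mul_jq (IsLocalRing.ResidueField A) p y a ha0 ha hyrel,
        mul_comm])
    have e2 : D (IsLocalRing.ResidueField A) (Fk (IsLocalRing.ResidueField A) (9 * p))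
        (jk (IsLocalRing.ResidueField A) (9 * p))
        = (R.red t')⁻¹ • D (IsLocalRing.ResidueField A)
            (Fk (IsLocalRing.ResidueField A) (9 * p)) (R.red t) := by
      rw [ht'red, smul_smul, inv_mul_cancel₀ ht'0, one_smul]
    rw [e1, e2, smul_smul, hgred, mul_assoc]
  exact uew_core hgenk R hr x₀ Θ hodd t g ht1 hgreg hDΘ

end Fermat.Agent.S16lib

end
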