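/-
S16 piece T (helper13): the Fricke involution of level `p`.
`frickeMap`, `FrickeDual` are the interface definitions of NOTES/S16_signatures.lean.txt.
-/
import Mathlib
import Fermat.Agent.S16lib.Defs
import Fermat.Prelude.Def_ModularForm_HeckeOperatorForms
import Fermat.Prelude.Thm_UpperHalfPlane_qCoeff_heckeT
import Fermat.Prelude.Thm_UpperHalfPlane_qCoeff_heckeU
import Fermat.Prelude.Thm_ModularFormClass_qCoeff_heckeU
import Fermat.Prelude.Thm_CongruenceSubgroup_one_mem_strictPeriods_Gamma0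

set_option autoImplicit false

noncomputable section

namespace Fermat.Agent.S16lib

open ModularCurve CuspForm CongruenceSubgroup ModularFormClass UpperHalfPlane
open scoped MatrixGroups ModularForm

/-- `z ↦ -1/(p z)` -/
def frickeMap (p : ℕ) [NeZero p] (z : ℍ) : ℍ :=
  ⟨-1 / ((p : ℂ) * z), by
    have hp : (0 : ℝ) < p := by exact_mod_cast Nat.pos_of_ne_zero (NeZero.ne p)
    have hz := z.im_pos
    have h1 : (-1 / ((p : ℂ) * z)) = ((-(1 : ℝ) / p : ℝ) : ℂ) * (z : ℂ)⁻¹ := by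
      push_cast
      field_simp
    rw [h1, Complex.im_ofReal_mul, Complex.inv_im]
    have hn : 0 < Complex.normSq (z : ℂ) := Complex.normSq_pos.2 z.ne_zero
    have : (-(1:ℝ) / p) * (-(z : ℂ).im / Complex.normSq (z : ℂ)) = (z : ℂ).im / (p * Complex.normSq (z : ℂ)) := by
      field_simp
    rw [this]
    positivity⟩

/-- `F'(z) = z^(-k) F(-1/(p z))` -/
def FrickeDual (p : ℕ) [NeZero p] (k : ℤ) (F F' : ℍ → ℂ) : Prop :=
  ∀ z : ℍ, F' z = (z : ℂ) ^ (-k) * F (frickeMap p z)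

theorem coe_frickeMap (p : ℕ) [NeZero p] (z : ℍ) :
    ((frickeMap p z : ℍ) : ℂ) = -1 / ((p : ℂ) * z) := rfl

/-- The Fricke matrix `[[0, -1], [p, 0]]`. -/
def frickeGL (p : ℕ) [NeZero p] : GL (Fin 2) ℝ :=
  Matrix.GeneralLinearGroup.mkOfDetNeZero !![0, -1; (p : ℝ), 0]
    (by
      rw [Matrix.det_fin_two_of]
      have : (p : ℝ) ≠ 0 := by exact_mod_cast NeZero.ne p
      simpa using this)

@[simp] theorem val_frickeGL (p : ℕ) [NeZero p] :
    ((frickeGL p : GL (Fin 2) ℝ) : Matrix (Fin 2) (Fin 2) ℝ) = !![0, -1; (p : ℝ), 0] := rfl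

theorem det_frickeGL (p : ℕ) [NeZero p] : ((frickeGL p).det : ℝ) = p := by
  rw [Matrix.GeneralLinearGroup.val_det_apply, val_frickeGL, Matrix.det_fin_two_of]
  ring

theorem det_frickeGL_pos (p : ℕ) [NeZero p] : 0 < ((frickeGL p).det : ℝ) := by
  rw [det_frickeGL]; exact_mod_cast Nat.pos_of_ne_zero (NeZero.ne p)

theorem denom_frickeGL (p : ℕ) [NeZero p] (z : ℍ) :
    UpperHalfPlane.denom (frickeGL p) z = (p : ℂ) * z := by
  simp [UpperHalfPlane.denom, val_frickeGL]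

theorem frickeGL_smul (p : ℕ) [NeZero p] (z : ℍ) : frickeGL p • z = frickeMap p z := by
  apply UpperHalfPlane.ext
  rw [UpperHalfPlane.coe_smul_of_det_pos (det_frickeGL_pos p), coe_frickeMap]
  simp [UpperHalfPlane.num, UpperHalfPlane.denom, val_frickeGL]

theorem σ_frickeGL (p : ℕ) [NeZero p] : UpperHalfPlane.σ (frickeGL p) = .refl ℝ ℂ := by
  rw [UpperHalfPlane.σ, if_pos (det_frickeGL_pos p)]

theorem slash_frickeGL_apply (p : ℕ) [NeZero p] (k : ℤ) (f : ℍ → ℂ) (z : ℍ) :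
    (f ∣[k] frickeGL p) z = (p : ℂ)⁻¹ * ((z : ℂ) ^ (-k) * f (frickeMap p z)) := by
  have hp' : (p : ℂ) ≠ 0 := by exact_mod_cast NeZero.ne p
  rw [ModularForm.slash_apply, σ_frickeGL, det_frickeGL, denom_frickeGL, frickeGL_smul]
  simp only [ContinuousAlgEquiv.refl_apply, Nat.abs_cast, Complex.ofReal_natCast]
  rw [mul_zpow, mul_assoc, ← mul_assoc ((p : ℂ) ^ (k - 1)), ← zpow_add₀ hp',
    show k - 1 + -k = -1 by ring, zpow_neg_one]
  ring

theorem frickeMap_frickeMap (p : ℕ) [NeZero p] (z : ℍ) : frickeMap p (frickeMap p z) = z := by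
  have hp' : (p : ℂ) ≠ 0 := by exact_mod_cast NeZero.ne p
  have hz : (z : ℂ) ≠ 0 := z.ne_zero
  apply UpperHalfPlane.ext
  rw [coe_frickeMap, coe_frickeMap]
  field_simp

/-- The Fricke dual of the Fricke dual is `(-p)^k F` (here `k = 2`). -/
theorem frickeDual_frickeDual_two (p : ℕ) [NeZero p] (G G' : ℍ → ℂ) (h : FrickeDual p 2 G G') :
    FrickeDual p 2 G' (((p : ℂ) ^ 2) • G) := by
  intro z
  have hp' : (p : ℂ) ≠ 0 := by exact_mod_cast NeZero.ne p
  have hz : (z : ℂ) ≠ 0 := z.ne_zero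
  rw [h (frickeMap p z), frickeMap_frickeMap, coe_frickeMap, Pi.smul_apply, smul_eq_mul,
    ← mul_assoc, ← mul_zpow]
  congr 1
  rw [zpow_neg, ← inv_zpow]
  have : ((z : ℂ) * (-1 / ((p : ℂ) * z)))⁻¹ = -(p : ℂ) := by
    field_simp
  rw [this, zpow_ofNat, neg_sq]

/-- Restriction of a modular form to a smaller group. -/
def mfRestrict {Γ Γ' : Subgroup (GL (Fin 2) ℝ)} {k : ℤ} (h : Γ' ≤ Γ) (f : ModularForm Γ k) :
    ModularForm Γ' k where
  toFun := f
  slash_action_eq' γ hγ := f.slash_action_eq' γ (h hγ)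
  holo' := f.holo'
  bdd_at_cusps' hc := f.bdd_at_cusps' (hc.mono h)

@[simp] theorem coe_mfRestrict {Γ Γ' : Subgroup (GL (Fin 2) ℝ)} {k : ℤ} (h : Γ' ≤ Γ)
    (f : ModularForm Γ k) : ⇑(mfRestrict h f) = ⇑f := rfl

theorem sl2_det_eq (γ : SL(2, ℤ)) : γ 0 0 * γ 1 1 - γ 0 1 * γ 1 0 = 1 := by
  have := γ.2
  rw [Matrix.det_fin_two] at this
  exact this

open ConjAct Pointwise in
theorem gamma0_le_conj_frickeGL (p : ℕ) [NeZero p] :
    (Gamma0 p : Subgroup (GL (Fin 2) ℝ)) ≤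
      toConjAct (frickeGL p)⁻¹ • (Gamma0 p : Subgroup (GL (Fin 2) ℝ)) := by
  intro g hg
  obtain ⟨γ, hγ, rfl⟩ := hg
  rw [Subgroup.mem_pointwise_smul_iff_inv_smul_mem]
  have hγ' : γ ∈ Gamma0 p := hγ
  rw [Gamma0_mem, ZMod.intCast_zmod_eq_zero_iff_dvd] at hγ'
  obtain ⟨c', hc'⟩ := hγ'
  have hdet := sl2_det_eq γ
  let γ' : SL(2, ℤ) := ⟨!![γ 1 1, -c'; -((p : ℤ) * γ 0 1), γ 0 0], by
    rw [Matrix.det_fin_two_of]
    rw [hc'] at hdet
    linear_combination hdet⟩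
  refine ⟨γ', ?_, ?_⟩
  · rw [SetLike.mem_coe, Gamma0_mem]
    simp [γ']
  · simp only [map_inv, inv_inv, ConjAct.smul_def, ConjAct.ofConjAct_toConjAct]
    rw [eq_mul_inv_iff_mul_eq]
    apply Matrix.GeneralLinearGroup.ext
    intro i j
    have hc'' : ((γ 1 0 : ℤ) : ℝ) = (p : ℝ) * (c' : ℝ) := by exact_mod_cast hc'
    fin_cases i <;> fin_cases j <;>
      simp [Matrix.mul_apply, Fin.sum_univ_two, γ', hc''] <;> ring

theorem exists_frickeDual (p : ℕ) [Fact p.Prime] (k : ℤ) (F : ModularForm (Gamma0 p) k) :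
    ∃ F' : ModularForm (Gamma0 p) k, FrickeDual p k F F' := by
  have hp' : (p : ℂ) ≠ 0 := by exact_mod_cast (Fact.out : p.Prime).ne_zero
  refine ⟨(p : ℂ) • mfRestrict (gamma0_le_conj_frickeGL p)
    (ModularForm.translate F (frickeGL p)), fun z => ?_⟩
  rw [FunLike.coe_smul, Pi.smul_apply, coe_mfRestrict, ModularForm.coe_translate,
    slash_frickeGL_apply, smul_eq_mul, ← mul_assoc, mul_inv_cancel₀ hp', one_mul]

end Fermat.Agent.S16lib

end
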