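/-
S16 piece T (helper13): trace from level `p` to level one, level raising, weight two.
`exists_trace`, `exists_levelRaise`, `frickeDual_weight_two` with the exact signatures of
NOTES/S16_signatures.lean.txt.
-/
import Mathlib
import Fermat.Agent.S16lib.Fricke

set_option autoImplicit false

noncomputable section

namespace Fermat.Agent.S16lib

open ModularCurve CuspForm CongruenceSubgroup ModularFormClass UpperHalfPlane
open scoped MatrixGroups ModularForm

theorem gamma0_le_SL (p : ℕ) : (Gamma0 p : Subgroup (GL (Fin 2) ℝ)) ≤ 𝒮ℒ :=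
  Subgroup.map_le_range _ _

open ConjAct Pointwise in
theorem gamma0_le_conj_diag (p : ℕ) [NeZero p] :
    (Gamma0 p : Subgroup (GL (Fin 2) ℝ)) ≤
      toConjAct (ModularForm.heckeDiagMatrix p)⁻¹ • 𝒮ℒ := by
  intro g hg
  obtain ⟨γ, hγ, rfl⟩ := hg
  rw [Subgroup.mem_pointwise_smul_iff_inv_smul_mem]
  have hγ' : γ ∈ Gamma0 p := hγ
  rw [Gamma0_mem, ZMod.intCast_zmod_eq_zero_iff_dvd] at hγ'
  obtain ⟨c', hc'⟩ := hγ'
  have hdet := sl2_det_eq γ
  let γ' : SL(2, ℤ) := ⟨!![γ 0 0, (p : ℤ) * γ 0 1; c', γ 1 1], by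
    rw [Matrix.det_fin_two_of]
    rw [hc'] at hdet
    linear_combination hdet⟩
  refine ⟨γ', ?_⟩
  simp only [map_inv, inv_inv, ConjAct.smul_def, ConjAct.ofConjAct_toConjAct]
  rw [eq_mul_inv_iff_mul_eq]
  apply Matrix.GeneralLinearGroup.ext
  intro i j
  have hc'' : ((γ 1 0 : ℤ) : ℝ) = (p : ℝ) * (c' : ℝ) := by exact_mod_cast hc'
  have hp : p ≠ 0 := NeZero.ne p
  fin_cases i <;> fin_cases j <;>
    simp [Matrix.mul_apply, Fin.sum_univ_two, γ', hc'', ModularForm.val_heckeDiagMatrix hp] <;> ring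

/-- `z ↦ B (p z)` as a modular form of level `p`. -/
def levelRaiseForm (p : ℕ) [NeZero p] (k : ℤ) (B : ModularForm 𝒮ℒ k) :
    ModularForm (Gamma0 p) k :=
  ((p : ℂ) ^ (1 - k)) • mfRestrict (gamma0_le_conj_diag p)
    (ModularForm.translate B (ModularForm.heckeDiagMatrix p))

theorem levelRaiseForm_apply (p : ℕ) [NeZero p] (k : ℤ) (B : ModularForm 𝒮ℒ k) (z : ℍ) :
    levelRaiseForm p k B z = B (ModularForm.heckeDiagMatrix p • z) := by
  have hp : p ≠ 0 := NeZero.ne p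
  have hp' : (p : ℂ) ≠ 0 := by exact_mod_cast hp
  rw [levelRaiseForm, FunLike.coe_smul, Pi.smul_apply, coe_mfRestrict, ModularForm.coe_translate,
    ModularForm.slash_heckeDiagMatrix_apply k hp, smul_eq_mul, ← mul_assoc, ← zpow_add₀ hp',
    show 1 - k + (k - 1) = 0 by ring, zpow_zero, one_mul]

theorem qCoeff_levelRaiseForm (p : ℕ) [NeZero p] (k : ℤ) (B : ModularForm 𝒮ℒ k) (n : ℕ) :
    qCoeff (levelRaiseForm p k B) n = if p ∣ n then qCoeff B (n / p) else 0 := by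
  have hp : p ≠ 0 := NeZero.ne p
  have hs : ∀ τ : ℍ, HasSum (fun m : ℕ ↦ (if p ∣ m then qCoeff B (m / p) else 0) •
      Function.Periodic.qParam 1 τ ^ m) (levelRaiseForm p k B τ) := by
    intro τ
    have h := P2MW.S_UpperHalfPlane_qCoeff_heckeT.M4cP1W2.hasSum_diag hp
      (SlashInvariantFormClass.periodic_comp_ofComplex B one_mem_strictPeriods_SL)
      (ModularFormClass.holo B) (ModularFormClass.bdd_at_infty B) 1 τ
    rw [levelRaiseForm_apply]
    simp only [sub_self, zpow_zero, one_mul] at h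
    convert h using 2 with m
    split_ifs <;> simp
  exact (ModularFormClass.qExpansion_coeff_unique one_pos
    (CongruenceSubgroup.one_mem_strictPeriods_Gamma0 p) hs n).symm

/-- A level one form satisfies `B (-1/z) = z ^ k B z`. -/
theorem levelOne_S_smul (k : ℤ) (B : ModularForm 𝒮ℒ k) (z : ℍ) :
    B (ModularGroup.S • z) = (z : ℂ) ^ k * B z := by
  have hmem : Matrix.SpecialLinearGroup.mapGL ℝ ModularGroup.S ∈ 𝒮ℒ := ⟨ModularGroup.S, rfl⟩
  have h := SlashInvariantForm.slash_action_eqn'' B hmem z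
  have hd : denom (Matrix.SpecialLinearGroup.mapGL ℝ ModularGroup.S) z = z := by
    simp [denom, ModularGroup.S]
  rw [hd] at h
  exact h

theorem heckeDiag_frickeMap (p : ℕ) [NeZero p] (z : ℍ) :
    ModularForm.heckeDiagMatrix p • frickeMap p z = ModularGroup.S • z := by
  have hp : p ≠ 0 := NeZero.ne p
  have hp' : (p : ℂ) ≠ 0 := by exact_mod_cast hp
  apply UpperHalfPlane.ext
  rw [ModularForm.coe_heckeDiagMatrix_smul hp, coe_frickeMap, modular_S_smul]
  dsimp only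
  have hz : (z : ℂ) ≠ 0 := z.ne_zero
  field_simp

theorem frickeMap_eq_S_heckeDiag (p : ℕ) [NeZero p] (z : ℍ) :
    frickeMap p z = ModularGroup.S • (ModularForm.heckeDiagMatrix p • z) := by
  have hp : p ≠ 0 := NeZero.ne p
  have hp' : (p : ℂ) ≠ 0 := by exact_mod_cast hp
  apply UpperHalfPlane.ext
  rw [coe_frickeMap, modular_S_smul]
  dsimp only
  rw [ModularForm.coe_heckeDiagMatrix_smul hp]
  have hz : (z : ℂ) ≠ 0 := z.ne_zero
  field_simp

/-- `B(p z)` is of level `p` for `B` of level one; its Fricke dual is `B`, and the dual of `B` is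
`p^k B(p z)`. -/
theorem exists_levelRaise (p : ℕ) [Fact p.Prime] (k : ℤ) (B : ModularForm 𝒮ℒ k) :
    ∃ B₁ Bp : ModularForm (Gamma0 p) k, (∀ z : ℍ, B₁ z = B z) ∧
      (∀ n : ℕ, qCoeff Bp n = if p ∣ n then qCoeff B (n / p) else 0) ∧
      FrickeDual p k Bp B₁ ∧ FrickeDual p k B₁ (((p : ℂ) ^ k) • ⇑Bp) := by
  have hp : p ≠ 0 := (Fact.out : p.Prime).ne_zero
  have hp' : (p : ℂ) ≠ 0 := by exact_mod_cast hp
  refine ⟨mfRestrict (gamma0_le_SL p) B, levelRaiseForm p k B, fun z => rfl,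
    qCoeff_levelRaiseForm p k B, fun z => ?_, fun z => ?_⟩
  · have hz : (z : ℂ) ≠ 0 := z.ne_zero
    rw [coe_mfRestrict, levelRaiseForm_apply, heckeDiag_frickeMap, levelOne_S_smul, ← mul_assoc,
      ← zpow_add₀ hz, neg_add_cancel, zpow_zero, one_mul]
  · have hz : (z : ℂ) ≠ 0 := z.ne_zero
    rw [Pi.smul_apply, coe_mfRestrict, levelRaiseForm_apply, frickeMap_eq_S_heckeDiag,
      levelOne_S_smul, ModularForm.coe_heckeDiagMatrix_smul hp, mul_zpow, smul_eq_mul,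
      ← mul_assoc, ← mul_assoc, mul_comm ((z : ℂ) ^ (-k)), mul_assoc ((p : ℂ) ^ k),
      ← zpow_add₀ hz, neg_add_cancel, zpow_zero, mul_one]

/-- The matrix `S T^j = [[0, -1], [1, j]]`. -/
def stMat (j : ℤ) : SL(2, ℤ) := ⟨!![0, -1; 1, j], by simp [Matrix.det_fin_two_of]⟩

@[simp] theorem val_stMat (j : ℤ) : ((stMat j : SL(2, ℤ)) : Matrix (Fin 2) (Fin 2) ℤ) = !![0, -1; 1, j] :=
  rfl

theorem mapGL_mem_gamma0_iff (p : ℕ) (γ : SL(2, ℤ)) :
    Matrix.SpecialLinearGroup.mapGL ℝ γ ∈ (Gamma0 p : Subgroup (GL (Fin 2) ℝ)) ↔ γ ∈ Gamma0 p :=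
  Subgroup.mem_map_iff_mem Matrix.SpecialLinearGroup.mapGL_injective

/-- Coset representatives of `Γ₀(p)` in `SL₂(ℤ)`: `1` and `(S T^j)⁻¹`. -/
def traceRep (p : ℕ) (a : Option (Fin p)) : 𝒮ℒ :=
  a.elim 1 (fun j => ⟨(Matrix.SpecialLinearGroup.mapGL ℝ (stMat (j : ℕ)))⁻¹,
    ⟨(stMat (j : ℕ))⁻¹, map_inv _ _⟩⟩)

@[simp] theorem coe_traceRep_none (p : ℕ) :
    ((traceRep p none : 𝒮ℒ) : GL (Fin 2) ℝ) = 1 := rfl

@[simp] theorem coe_traceRep_some (p : ℕ) (j : Fin p) :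
    ((traceRep p (some j) : 𝒮ℒ) : GL (Fin 2) ℝ) =
      (Matrix.SpecialLinearGroup.mapGL ℝ (stMat (j : ℕ)))⁻¹ := rfl

theorem stMat_mul_inv_one_zero (i j : ℤ) : (stMat i * (stMat j)⁻¹) 1 0 = j - i := by
  simp [stMat, Matrix.SpecialLinearGroup.coe_inv, Matrix.adjugate_fin_two, Matrix.mul_apply,
    Fin.sum_univ_two]
  ring

theorem stMat_inv_one_zero (j : ℤ) : ((stMat j)⁻¹) 1 0 = -1 := by
  simp [stMat, Matrix.SpecialLinearGroup.coe_inv, Matrix.adjugate_fin_two]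

theorem stMat_mul_one_zero (j : ℤ) (γ : SL(2, ℤ)) : (stMat j * γ) 1 0 = γ 0 0 + j * γ 1 0 := by
  simp [stMat, Matrix.mul_apply, Fin.sum_univ_two]

theorem traceRep_bijective (p : ℕ) [Fact p.Prime] :
    Function.Bijective (fun a : Option (Fin p) =>
      (QuotientGroup.mk (traceRep p a) :
        𝒮ℒ ⧸ ((Gamma0 p : Subgroup (GL (Fin 2) ℝ)).subgroupOf 𝒮ℒ))) := by
  have hpp : p.Prime := Fact.out
  have h1 : ((-1 : ℤ) : ZMod p) ≠ 0 := by
    simp
  constructor
  · intro a b hab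
    rw [QuotientGroup.eq, Subgroup.mem_subgroupOf, Subgroup.coe_mul, Subgroup.coe_inv] at hab
    rcases a with _ | i <;> rcases b with _ | j
    · rfl
    · exfalso
      rw [coe_traceRep_none, coe_traceRep_some, inv_one, one_mul, ← map_inv,
        mapGL_mem_gamma0_iff, Gamma0_mem, stMat_inv_one_zero] at hab
      exact h1 hab
    · exfalso
      rw [coe_traceRep_none, coe_traceRep_some, inv_inv, mul_one,
        mapGL_mem_gamma0_iff, Gamma0_mem] at hab
      simp [stMat] at hab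
    · rw [coe_traceRep_some, coe_traceRep_some, inv_inv, ← map_inv, ← map_mul,
        mapGL_mem_gamma0_iff, Gamma0_mem, stMat_mul_inv_one_zero] at hab
      congr 1
      apply Fin.ext
      have h2 : ((j : ℕ) : ZMod p) = ((i : ℕ) : ZMod p) := by
        have : (((j : ℕ) : ℤ) : ZMod p) - (((i : ℕ) : ℤ) : ZMod p) = 0 := by
          rw [← hab]; push_cast; ring
        rw [sub_eq_zero] at this
        exact_mod_cast this
      rw [ZMod.natCast_eq_natCast_iff'] at h2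
      rw [Nat.mod_eq_of_lt j.2, Nat.mod_eq_of_lt i.2] at h2
      exact h2.symm
  · intro q
    induction q using QuotientGroup.induction_on with
    | H h =>
      obtain ⟨h, γ, rfl⟩ := h
      by_cases hc : ((γ 1 0 : ℤ) : ZMod p) = 0
      · refine ⟨none, ?_⟩
        show (QuotientGroup.mk (traceRep p none) : 𝒮ℒ ⧸ _) = QuotientGroup.mk _
        rw [QuotientGroup.eq, Subgroup.mem_subgroupOf, Subgroup.coe_mul, Subgroup.coe_inv,
          coe_traceRep_none, inv_one, one_mul]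
        show Matrix.SpecialLinearGroup.mapGL ℝ γ ∈ _
        rw [mapGL_mem_gamma0_iff, Gamma0_mem]
        exact hc
      · have : NeZero p := ⟨hpp.ne_zero⟩
        let t : ZMod p := -((γ 0 0 : ℤ) : ZMod p) * ((γ 1 0 : ℤ) : ZMod p)⁻¹
        refine ⟨some ⟨t.val, ZMod.val_lt t⟩, ?_⟩
        show (QuotientGroup.mk (traceRep p (some ⟨t.val, ZMod.val_lt t⟩)) : 𝒮ℒ ⧸ _)
          = QuotientGroup.mk _
        rw [QuotientGroup.eq, Subgroup.mem_subgroupOf, Subgroup.coe_mul, Subgroup.coe_inv,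
          coe_traceRep_some, inv_inv]
        show Matrix.SpecialLinearGroup.mapGL ℝ _ * Matrix.SpecialLinearGroup.mapGL ℝ γ ∈ _
        rw [← map_mul, mapGL_mem_gamma0_iff, Gamma0_mem, stMat_mul_one_zero]
        push_cast
        rw [ZMod.natCast_zmod_val]
        simp only [t]
        field_simp
        ring

theorem coe_trace_eq (p : ℕ) [Fact p.Prime] (k : ℤ) (F : ModularForm (Gamma0 p) k) :
    ⇑(ModularForm.trace 𝒮ℒ F) =
      ⇑F + ∑ j : Fin p, (⇑F) ∣[k] (Matrix.SpecialLinearGroup.mapGL ℝ (stMat (j : ℕ))) := by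
  rw [ModularForm.coe_trace]
  let _ := Fintype.ofFinite (𝒮ℒ ⧸ ((Gamma0 p : Subgroup (GL (Fin 2) ℝ)).subgroupOf 𝒮ℒ))
  rw [← (traceRep_bijective p).sum_comp, Fintype.sum_option]
  congr 1
  show (⇑F) ∣[k] ((traceRep p none : 𝒮ℒ) : GL (Fin 2) ℝ)⁻¹ = ⇑F
  rw [coe_traceRep_none, inv_one, SlashAction.slash_one]

theorem stMat_smul_eq (p : ℕ) [NeZero p] (j : ℕ) (z : ℍ) :
    stMat (j : ℤ) • z = frickeMap p (ModularForm.heckeMatrix p j • z) := by
  have hp : p ≠ 0 := NeZero.ne p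
  have hp' : (p : ℂ) ≠ 0 := by exact_mod_cast hp
  apply UpperHalfPlane.ext
  rw [coe_specialLinearGroup_apply, coe_frickeMap, ModularForm.coe_heckeMatrix_smul hp]
  simp only [val_stMat, Matrix.of_apply, Matrix.cons_val', Matrix.cons_val_zero,
    Matrix.cons_val_one, Matrix.cons_val_fin_one]
  have hd : (z : ℂ) + j ≠ 0 := by
    have := UpperHalfPlane.denom_ne_zero (Matrix.SpecialLinearGroup.mapGL ℝ (stMat (j : ℤ))) z
    simpa [denom, stMat] using this
  simp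
  field_simp

theorem denom_stMat (j : ℕ) (z : ℍ) :
    denom (Matrix.SpecialLinearGroup.mapGL ℝ (stMat (j : ℤ))) z = (z : ℂ) + j := by
  simp [denom, stMat]

theorem slash_stMat_apply (p : ℕ) [NeZero p] (k : ℤ) (F F' : ℍ → ℂ) (h : FrickeDual p k F F')
    (j : ℕ) (z : ℍ) :
    (F ∣[k] (Matrix.SpecialLinearGroup.mapGL ℝ (stMat (j : ℤ)))) z =
      (p : ℂ) ^ (1 - k) * (F' ∣[k] ModularForm.heckeMatrix p j) z := by
  have hp : p ≠ 0 := NeZero.ne p
  have hp' : (p : ℂ) ≠ 0 := by exact_mod_cast hp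
  have h1 : (F ∣[k] (Matrix.SpecialLinearGroup.mapGL ℝ (stMat (j : ℤ)))) z =
      F (stMat (j : ℤ) • z) * denom (Matrix.SpecialLinearGroup.mapGL ℝ (stMat (j : ℤ))) z ^ (-k) :=
    ModularForm.SL_slash_apply (k := k) F (stMat (j : ℤ)) z
  rw [h1, denom_stMat, ModularForm.slash_heckeMatrix_apply k hp, h, ← stMat_smul_eq,
    ModularForm.coe_heckeMatrix_smul hp, div_zpow, zpow_sub₀ hp', zpow_neg, zpow_neg, zpow_one]
  have hd : ((z : ℂ) + j) ^ k ≠ 0 := by
    apply zpow_ne_zero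
    rw [← denom_stMat]
    exact UpperHalfPlane.denom_ne_zero _ z
  have hpk : (p : ℂ) ^ k ≠ 0 := zpow_ne_zero _ hp'
  field_simp

theorem coe_trace_eq_heckeU (p : ℕ) [Fact p.Prime] (k : ℤ) (F F' : ModularForm (Gamma0 p) k)
    (h : FrickeDual p k F F') :
    ⇑(ModularForm.trace 𝒮ℒ F) = ⇑F + ((p : ℂ) ^ (1 - k)) • ModularForm.heckeU k p ⇑F' := by
  have : NeZero p := ⟨(Fact.out : p.Prime).ne_zero⟩
  rw [coe_trace_eq]
  congr 1
  funext z
  rw [Finset.sum_apply, Pi.smul_apply, ModularForm.heckeU_def, Finset.sum_apply, smul_eq_mul,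
    Finset.mul_sum, Finset.sum_range]
  refine Finset.sum_congr rfl fun j _ => ?_
  exact slash_stMat_apply p k F F' h j z

theorem exists_trace (p : ℕ) [Fact p.Prime] (k : ℤ) (F F' : ModularForm (Gamma0 p) k)
    (h : FrickeDual p k F F') :
    ∃ T : ModularForm 𝒮ℒ k, ∀ n : ℕ,
      qCoeff T n = qCoeff F n + (p : ℂ) ^ (1 - k) * qCoeff F' (p * n) := by
  have hp : p ≠ 0 := (Fact.out : p.Prime).ne_zero
  have : NeZero p := ⟨hp⟩
  have hΓ := CongruenceSubgroup.one_mem_strictPeriods_Gamma0 p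
  refine ⟨ModularForm.trace 𝒮ℒ F, fun n => ?_⟩
  have hU : ⇑(ModularForm.heckeULin k (dvd_refl p) F') = ModularForm.heckeU k p ⇑F' := rfl
  rw [qCoeff, coe_trace_eq_heckeU p k F F' h, ← hU,
    ← FunLike.coe_smul ((p : ℂ) ^ (1 - k)) (ModularForm.heckeULin k (dvd_refl p) F'),
    ModularForm.qExpansion_add one_pos hΓ, FunLike.coe_smul,
    ModularForm.qExpansion_smul one_pos hΓ, map_add,
    PowerSeries.coeff_smul, hU]
  have := ModularFormClass.qCoeff_heckeU F' hΓ hp n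
  rw [qCoeff] at this
  rw [this, ModularForm.coeffHeckeU_apply, mul_comm n p]
  rfl

/-- In weight two the Fricke dual is `-p U_p`. -/
theorem frickeDual_weight_two (p : ℕ) [Fact p.Prime] (G G' : ModularForm (Gamma0 p) 2)
    (h : FrickeDual p 2 G G') (n : ℕ) : qCoeff G' n = -(p : ℂ) * qCoeff G (p * n) := by
  have hp : p ≠ 0 := (Fact.out : p.Prime).ne_zero
  have hp' : (p : ℂ) ≠ 0 := by exact_mod_cast hp
  have : NeZero p := ⟨hp⟩
  have hΓ := CongruenceSubgroup.one_mem_strictPeriods_Gamma0 p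
  have h2 : FrickeDual p 2 G' (((p : ℂ) ^ 2) • G : ModularForm (Gamma0 p) 2) := by
    rw [FunLike.coe_smul]
    exact frickeDual_frickeDual_two p G G' h
  obtain ⟨T, hT⟩ := exists_trace p 2 G' (((p : ℂ) ^ 2) • G) h2
  have hT0 : T = 0 := rank_zero_iff_forall_zero.mp ModularForm.levelOne_weight_two_rank_zero T
  have h3 := hT n
  rw [hT0] at h3
  have h4 : qCoeff (⇑(0 : ModularForm 𝒮ℒ 2)) n = 0 := by
    rw [qCoeff, FunLike.coe_zero, qExpansion_zero, map_zero]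
  have h5 : qCoeff (⇑(((p : ℂ) ^ 2) • G : ModularForm (Gamma0 p) 2)) (p * n) =
      (p : ℂ) ^ 2 * qCoeff G (p * n) := by
    rw [qCoeff, FunLike.coe_smul, ModularForm.qExpansion_smul one_pos hΓ, PowerSeries.coeff_smul]
    rfl
  rw [h4, h5] at h3
  have h6 : (p : ℂ) ^ ((1 : ℤ) - 2) = (p : ℂ)⁻¹ := by
    rw [show (1 : ℤ) - 2 = -1 by norm_num, zpow_neg_one]
  rw [h6] at h3
  have h7 : (p : ℂ)⁻¹ * ((p : ℂ) ^ 2 * qCoeff G (p * n)) = (p : ℂ) * qCoeff G (p * n) := by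
    field_simp
  rw [h7] at h3
  linear_combination -h3

end Fermat.Agent.S16lib

end
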