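/-
S16 library (item 16), piece UE-R, analytic part 1 (helper17).

For a modular form `F` of weight `k` on `Γ₀(p)` (`p` prime, `p ∣ N`) with Fricke dual `F'`:
ALL `SL(2,ℤ)`-conjugates `F ∣[k] h` have a `q_N`-expansion with coefficients in any subring `𝔸 ⊆ ℂ`
containing the `N`-th roots of unity, `p⁻¹` and the `q`-coefficients of `F` and `F'`.

* `uer_coset` : `SL(2,ℤ) = Γ₀(p) ⊔ ⨆_j Γ₀(p) S T^j`;
* `uer_qExpansion_coeff` : `q_N`-coefficients of `F`;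
* `uer_hasSum_slash_stMat` : the convergent expansion of `F ∣[k] S T^j`;
* `uer_slash_coeff_mem` : the coefficients of all conjugates lie in `𝔸`.
No sorry.
-/
import Mathlib
import Fermat.Agent.S16lib.Trace
import Fermat.Agent.S24lib.ConjKRat
import Fermat.Agent.S24lib.ExpHasSum
import Fermat.Agent.S24lib.ExpInfDef
import Fermat.Agent.S24lib.WHAct
import Fermat.Agent.S28lib.UnitWH
import Fermat.Agent.S28lib.UnitExp
import Fermat.Prelude.Thm_UpperHalfPlane_qExpansion_coeff_nat_mul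
import Fermat.Prelude.Thm_CongruenceSubgroup_one_mem_strictPeriods_Gamma0

set_option autoImplicit false

noncomputable section

namespace Fermat.Agent.S16lib

open UpperHalfPlane ModularForm CongruenceSubgroup ModularFormClass
open Fermat.Agent.S20lib Fermat.Agent.S24lib Fermat.Agent.S28lib
open scoped MatrixGroups ModularForm Manifold

/-- `SL(2,ℤ) = Γ₀(p) ⊔ ⨆_{j < p} Γ₀(p) · S T^j`. -/
theorem uer_coset (p : ℕ) [Fact p.Prime] (h : SL(2, ℤ)) :
    h ∈ Gamma0 p ∨ ∃ j : ℕ, j < p ∧ h * (stMat (j : ℤ))⁻¹ ∈ Gamma0 p := by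
  have hp : p.Prime := Fact.out
  by_cases hc : ((h 1 0 : ℤ) : ZMod p) = 0
  · left
    rw [Gamma0_mem]
    exact hc
  · right
    set j : ℕ := (((h 1 1 : ℤ) : ZMod p) * ((h 1 0 : ℤ) : ZMod p)⁻¹).val with hj
    have : NeZero p := ⟨hp.ne_zero⟩
    refine ⟨j, ZMod.val_lt _, ?_⟩
    rw [Gamma0_mem]
    have e : (h * (stMat (j : ℤ))⁻¹) 1 0 = h 1 0 * j - h 1 1 := by
      rw [Matrix.SpecialLinearGroup.coe_mul, Matrix.mul_apply, Fin.sum_univ_two,
        Matrix.SpecialLinearGroup.coe_inv, Matrix.adjugate_fin_two]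
      simp [stMat]
      ring
    rw [e]
    push_cast
    rw [hj, ZMod.natCast_zmod_val]
    field_simp
    ring

theorem uer_Gamma_le_Gamma0 {p N : ℕ} (hpN : p ∣ N) : Gamma N ≤ Gamma0 p := by
  intro γ hγ
  have h1 := uw_dvd_of_mem_Gamma0 hpN (uw_Gamma_le_Gamma0 N hγ)
  rw [Gamma0_mem]
  exact (ZMod.intCast_zmod_eq_zero_iff_dvd _ _).mpr h1

variable {p : ℕ} [Fact p.Prime] {N : ℕ} [NeZero N]

theorem uer_isMF (hpN : p ∣ N) {k : ℤ} (F : ModularForm (Gamma0 p) k) : IsMF (Gamma N) k ⇑F :=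
  (isMF_of_modularForm F).mono (uer_Gamma_le_Gamma0 hpN)

theorem uer_isMF_slash (hpN : p ∣ N) {k : ℤ} (F : ModularForm (Gamma0 p) k) (h : SL(2, ℤ)) :
    IsMF (Gamma N) k (⇑F ∣[k] h) := by
  have := Gamma_normal N
  exact wh_isMF_slash (uer_isMF hpN F) h

theorem uer_slash_mul {k : ℤ} (F : ModularForm (Gamma0 p) k) (γ δ : SL(2, ℤ))
    (hγ : γ ∈ Gamma0 p) : ⇑F ∣[k] (γ * δ) = ⇑F ∣[k] δ := by
  rw [SlashAction.slash_mul, (isMF_of_modularForm F).inv γ hγ]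


/-! ### The expansion of `F` itself -/

theorem uer_periodic {k : ℤ} (F : ModularForm (Gamma0 p) k) :
    Function.Periodic (⇑F ∘ ofComplex) (1 : ℝ) :=
  SlashInvariantFormClass.periodic_comp_ofComplex F
    (CongruenceSubgroup.one_mem_strictPeriods_Gamma0 p)

theorem uer_bdd {k : ℤ} (F : ModularForm (Gamma0 p) k) : IsBoundedAtImInfty ⇑F := by
  have := (isMF_of_modularForm F).bdd 1
  simpa using this

/-- the `q_N`-coefficients of a form of level `Γ₀(p)` -/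
theorem uer_qExpansion_coeff {k : ℤ} (F : ModularForm (Gamma0 p) k) (n : ℕ) :
    (qExpansion (N : ℝ) ⇑F).coeff n = if N ∣ n then qCoeff F (n / N) else 0 := by
  have h := UpperHalfPlane.qExpansion_coeff_nat_mul (h := 1) one_pos (F := ⇑F) (uer_periodic F)
    (isMF_of_modularForm F).holo (uer_bdd F) (M := N) (Nat.pos_of_ne_zero (NeZero.ne N)) n
  rw [mul_one] at h
  rw [h]
  rfl

theorem uer_hasSum {k : ℤ} (F : ModularForm (Gamma0 p) k) (w : ℍ) :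
    HasSum (fun n : ℕ => qCoeff F n * Function.Periodic.qParam 1 (w : ℂ) ^ n) (F w) := by
  have h := UpperHalfPlane.hasSum_qExpansion (h := 1) (f := ⇑F) one_pos (uer_periodic F)
    (isMF_of_modularForm F).holo (uer_bdd F) w
  convert h using 2 with n
  rw [smul_eq_mul]
  rfl

/-! ### The expansion of `F ∣[k] S T^j` -/

/-- the coefficients of `F ∣[k] S T^j` in `q_N`, in terms of the coefficients `c` of the Fricke
dual -/
def uerConjCoeff (N p : ℕ) (k : ℤ) (j : ℕ) (c : ℕ → ℂ) : ℕ → ℂ := fun n =>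
  (p : ℂ) ^ (-k) * (if (N / p) ∣ n then c (n / (N / p)) * (zetaC p ^ (j : ℤ)) ^ (n / (N / p))
    else 0)

theorem uer_heckeMatrix_smul (j : ℕ) (hp0 : 0 < p) (z : ℍ) :
    heckeMatrix p j • z = affH 1 p (j : ℤ) one_pos hp0 z := by
  apply UpperHalfPlane.ext
  rw [coe_heckeMatrix_smul hp0.ne', coe_affH]
  push_cast
  ring

theorem uer_hasSum_slash_stMat (hpN : p ∣ N) {k : ℤ} (F F' : ModularForm (Gamma0 p) k)
    (hFD : FrickeDual p k F F') (j : ℕ) (z : ℍ) :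
    HasSum (fun n : ℕ => uerConjCoeff N p k j (fun m => qCoeff F' m) n *
        Function.Periodic.qParam N (z : ℂ) ^ n)
      ((⇑F ∣[k] (stMat (j : ℤ))) z) := by
  have hp : p.Prime := Fact.out
  have hp0 : 0 < p := hp.pos
  have hpC : (p : ℂ) ≠ 0 := by exact_mod_cast hp.ne_zero
  have : NeZero p := ⟨hp.ne_zero⟩
  have hN : 0 < N := Nat.pos_of_ne_zero (NeZero.ne N)
  have he : 0 < 1 * (N / p) := by
    rw [one_mul]
    exact Nat.div_pos (Nat.le_of_dvd hN hpN) hp0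
  have e1 : (⇑F ∣[k] (stMat (j : ℤ))) z =
      (p : ℂ) ^ (-k) * F' (affH 1 p (j : ℤ) one_pos hp0 z) := by
    have h1 := slash_stMat_apply p k ⇑F ⇑F' hFD j z
    rw [slash_heckeMatrix_apply k hp.ne_zero, uer_heckeMatrix_smul j hp0] at h1
    rw [show (⇑F ∣[k] (stMat (j : ℤ))) = (⇑F ∣[k] (Matrix.SpecialLinearGroup.mapGL ℝ
      (stMat (j : ℤ)))) from rfl, h1, ← mul_assoc]
    congr 1
    rw [← zpow_neg_one, ← zpow_add₀ hpC]
    congr 1
    ring
  rw [e1]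
  have h := uer_hasSum F' (affH 1 p (j : ℤ) one_pos hp0 z)
  rw [qParam_affH N 1 p (j : ℤ) one_pos hp0 hN hpN z] at h
  have h' : HasSum (fun n : ℕ => (qCoeff F' n * (zetaC p ^ (j : ℤ)) ^ n) *
      (Function.Periodic.qParam N (z : ℂ) ^ (1 * (N / p))) ^ n)
      (F' (affH 1 p (j : ℤ) one_pos hp0 z)) := by
    convert h using 2 with n
    rw [mul_pow]
    ring
  have h2 := hasSum_pow_reindex (1 * (N / p)) he
    (fun n : ℕ => qCoeff F' n * (zetaC p ^ (j : ℤ)) ^ n) _ _ h'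
  have h3 := h2.mul_left ((p : ℂ) ^ (-k))
  have e : (fun n : ℕ => uerConjCoeff N p k j (fun m => qCoeff F' m) n *
      Function.Periodic.qParam N (z : ℂ) ^ n) =
      fun n : ℕ => (p : ℂ) ^ (-k) * ((if 1 * (N / p) ∣ n then
        (fun n : ℕ => qCoeff F' n * (zetaC p ^ (j : ℤ)) ^ n) (n / (1 * (N / p))) else 0) *
        Function.Periodic.qParam N (z : ℂ) ^ n) := by
    funext n
    unfold uerConjCoeff
    rw [one_mul]
    ring
  rw [e]
  exact h3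

theorem uer_slash_stMat_coeff (hpN : p ∣ N) {k : ℤ} (F F' : ModularForm (Gamma0 p) k)
    (hFD : FrickeDual p k F F') (j : ℕ) (n : ℕ) :
    (qExpansion (N : ℝ) (⇑F ∣[k] (stMat (j : ℤ)))).coeff n =
      uerConjCoeff N p k j (fun m => qCoeff F' m) n :=
  (qExpansion_coeff_unique_fun (h := (N : ℝ)) _ ei_N_pos
    (ei_analyticAt (uer_isMF_slash hpN F (stMat (j : ℤ))))
    (fun τ => uer_hasSum_slash_stMat hpN F F' hFD j τ) n).symm

/-! ### All conjugates -/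

theorem uer_zpow_mem (𝔸 : Subring ℂ) {x : ℂ} (hx : x ∈ 𝔸) (hx' : x⁻¹ ∈ 𝔸) (n : ℤ) :
    x ^ n ∈ 𝔸 := by
  rcases n with n | n
  · rw [Int.ofNat_eq_natCast, zpow_natCast]
    exact 𝔸.pow_mem hx n
  · rw [zpow_negSucc, ← inv_pow]
    exact 𝔸.pow_mem hx' _

/-- **All conjugates of a form of level `Γ₀(p)` have `q_N`-coefficients in `𝔸`.** -/
theorem uer_slash_coeff_mem (hpN : p ∣ N) {k : ℤ} (F F' : ModularForm (Gamma0 p) k)
    (hFD : FrickeDual p k F F') (𝔸 : Subring ℂ) (hζ : ∀ ζ : ℂ, ζ ^ N = 1 → ζ ∈ 𝔸)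
    (hpinv : ((p : ℂ))⁻¹ ∈ 𝔸) (hF : ∀ n, qCoeff F n ∈ 𝔸) (hF' : ∀ n, qCoeff F' n ∈ 𝔸)
    (h : SL(2, ℤ)) (n : ℕ) :
    (qExpansion (N : ℝ) (⇑F ∣[k] h)).coeff n ∈ 𝔸 := by
  have hp : p.Prime := Fact.out
  rcases uer_coset p h with hh | ⟨j, -, hj⟩
  · rw [(isMF_of_modularForm F).inv h hh, uer_qExpansion_coeff]
    split_ifs
    · exact hF _
    · exact 𝔸.zero_mem
  · have e : h = (h * (stMat (j : ℤ))⁻¹) * stMat (j : ℤ) := by group
    rw [e, uer_slash_mul F _ _ hj, uer_slash_stMat_coeff hpN F F' hFD j n]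
    unfold uerConjCoeff
    refine 𝔸.mul_mem (uer_zpow_mem 𝔸 (natCast_mem 𝔸 p) hpinv _) ?_
    split_ifs
    · refine 𝔸.mul_mem (hF' _) (𝔸.pow_mem (hζ _ ?_) _)
      exact uw_zetaC_zpow_pow N p hp.pos hpN _
    · exact 𝔸.zero_mem

/-- Weight two: the Fricke dual is `-p U_p`, so only the coefficients of `f` matter. -/
theorem uer_slash_coeff_mem_two (hpN : p ∣ N) (f : ModularForm (Gamma0 p) 2)
    (𝔸 : Subring ℂ) (hζ : ∀ ζ : ℂ, ζ ^ N = 1 → ζ ∈ 𝔸)
    (hpinv : ((p : ℂ))⁻¹ ∈ 𝔸) (hF : ∀ n, qCoeff f n ∈ 𝔸) (h : SL(2, ℤ)) (n : ℕ) :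
    (qExpansion (N : ℝ) (⇑f ∣[(2 : ℤ)] h)).coeff n ∈ 𝔸 := by
  obtain ⟨f', hf'⟩ := exists_frickeDual p 2 f
  refine uer_slash_coeff_mem hpN f f' hf' 𝔸 hζ hpinv hF (fun m => ?_) h n
  rw [frickeDual_weight_two p f f' hf' m]
  exact 𝔸.mul_mem (𝔸.neg_mem (natCast_mem 𝔸 p)) (hF _)

end Fermat.Agent.S16lib

end
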