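/-
S16 library (item 16), piece UE-R, analytic part 2 (helper17).

Generic quotients `G / Δ^m` (`G` a modular form of weight `12 m` and level `Γ(N)`) as elements of
`S24lib.WH N`: conjugates, expansion at `∞`, bridge from analytic `q`-expansions to formal series
over `ℚ`.   No sorry.
-/
import Mathlib
import Fermat.Agent.S16lib.UERSlash

set_option autoImplicit false

noncomputable section

namespace Fermat.Agent.S16lib

open UpperHalfPlane ModularForm CongruenceSubgroup ModularFormClass ModularCurve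
open Fermat.Agent.S20lib Fermat.Agent.S24lib Fermat.Agent.S28lib
open scoped MatrixGroups ModularForm Manifold

/-- `G / Δ^m` -/
def uerQuot (G : ℍ → ℂ) (m : ℕ) : ℍ → ℂ := fun z => G z / ModularForm.discriminant z ^ m

theorem uerQuot_mul (G : ℍ → ℂ) (m : ℕ) :
    uerQuot G m * (ModularForm.discriminant : ℍ → ℂ) ^ m = G := by
  funext z
  simp only [Pi.mul_apply, Pi.pow_apply, uerQuot]
  rw [div_mul_cancel₀ _ (pow_ne_zero _ (ModularForm.discriminant_ne_zero z))]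

theorem uerQuot_unique {f G : ℍ → ℂ} {m : ℕ}
    (h : f * (ModularForm.discriminant : ℍ → ℂ) ^ m = G) : f = uerQuot G m := by
  funext z
  have hz := congrFun h z
  simp only [Pi.mul_apply, Pi.pow_apply] at hz
  unfold uerQuot
  rw [← hz, mul_div_assoc, div_self (pow_ne_zero _ (ModularForm.discriminant_ne_zero z)), mul_one]

theorem isWH_uerQuot {N : ℕ} {G : ℍ → ℂ} {m : ℕ} (hG : IsMF (Gamma N) (12 * (m : ℤ)) G) :
    IsWH N (uerQuot G m) :=
  ⟨m, by rw [uerQuot_mul]; exact hG⟩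

/-- `G / Δ^m` as an element of `WH N` -/
def uerWH (N : ℕ) (G : ℍ → ℂ) (m : ℕ) (hG : IsMF (Gamma N) (12 * (m : ℤ)) G) : WH N :=
  ⟨uerQuot G m, isWH_uerQuot hG⟩

@[simp] theorem coe_uerWH (N : ℕ) (G : ℍ → ℂ) (m : ℕ) (hG : IsMF (Gamma N) (12 * (m : ℤ)) G) :
    ((uerWH N G m hG : WH N) : ℍ → ℂ) = uerQuot G m := rfl

theorem uerQuot_slash (G : ℍ → ℂ) (m : ℕ) (g : SL(2, ℤ)) :
    (uerQuot G m) ∣[(0 : ℤ)] g = uerQuot (G ∣[12 * (m : ℤ)] g) m := by
  apply uerQuot_unique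
  rw [← uw_slash_zero_mul_discriminant_pow, uerQuot_mul]

theorem smul_uerWH (N : ℕ) (G : ℍ → ℂ) (m : ℕ) (hG : IsMF (Gamma N) (12 * (m : ℤ)) G)
    (g : SL(2, ℤ)) :
    g • uerWH N G m hG = uerWH N (G ∣[12 * (m : ℤ)] g⁻¹) m
      (by have := Gamma_normal N; exact wh_isMF_slash hG g⁻¹) := by
  apply Subtype.ext
  rw [wh_smul_coe, coe_uerWH, coe_uerWH, uerQuot_slash]

theorem smul_uerWH_of_inv (N : ℕ) (G : ℍ → ℂ) (m : ℕ) (hG : IsMF (Gamma N) (12 * (m : ℤ)) G)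
    (g : SL(2, ℤ)) (hg : G ∣[12 * (m : ℤ)] g⁻¹ = G) : g • uerWH N G m hG = uerWH N G m hG := by
  rw [smul_uerWH]
  apply Subtype.ext
  rw [coe_uerWH, coe_uerWH, hg]

variable {N : ℕ} [NeZero N]

theorem expInf_uerWH_mul (G : ℍ → ℂ) (m : ℕ) (hG : IsMF (Gamma N) (12 * (m : ℤ)) G) :
    expInf N (uerWH N G m hG) * deltaL N ^ m =
      HahnSeries.ofPowerSeries ℤ ℂ (qExpansion (N : ℝ) G) := by
  have hk : IsMF (Gamma N) (12 * (m : ℤ))
      (((uerWH N G m hG : WH N) : ℍ → ℂ) * (ModularForm.discriminant : ℍ → ℂ) ^ m) := by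
    rw [coe_uerWH, uerQuot_mul]
    exact hG
  have h1 := expInf_mul_pow (uerWH N G m hG) m hk
  rw [h1, coe_uerWH, uerQuot_mul]

theorem expInf_uerWH (G : ℍ → ℂ) (m : ℕ) (hG : IsMF (Gamma N) (12 * (m : ℤ)) G) :
    expInf N (uerWH N G m hG) =
      HahnSeries.ofPowerSeries ℤ ℂ (qExpansion (N : ℝ) G) * ((deltaL N)⁻¹) ^ m := by
  rw [← expInf_uerWH_mul G m hG, mul_assoc, ← mul_pow, mul_inv_cancel₀ (deltaL_ne_zero N),
    one_pow, mul_one]

/-- coefficients in a subring -/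
theorem expInf_uerWH_mem (𝔸 : Subring ℂ) (G : ℍ → ℂ) (m : ℕ)
    (hG : IsMF (Gamma N) (12 * (m : ℤ)) G)
    (hc : ∀ n, (qExpansion (N : ℝ) G).coeff n ∈ 𝔸) :
    expInf N (uerWH N G m hG) ∈ coeffRing 𝔸 := by
  rw [expInf_uerWH]
  exact (coeffRing 𝔸).mul_mem (uw_ofPowerSeries_mem 𝔸 _ hc)
    ((coeffRing 𝔸).pow_mem (deltaL_unit 𝔸 N).2.1 m)

/-! ### products of `q_N`-expansions: coefficients in a subring -/

theorem uer_coeff_mul_mem (𝔸 : Subring ℂ) {P Q : PowerSeries ℂ} (hP : ∀ n, P.coeff n ∈ 𝔸)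
    (hQ : ∀ n, Q.coeff n ∈ 𝔸) (n : ℕ) : (P * Q).coeff n ∈ 𝔸 := by
  rw [PowerSeries.coeff_mul]
  exact 𝔸.sum_mem fun ij _ => 𝔸.mul_mem (hP _) (hQ _)

theorem uer_coeff_pow_mem (𝔸 : Subring ℂ) {P : PowerSeries ℂ} (hP : ∀ n, P.coeff n ∈ 𝔸)
    (e : ℕ) (n : ℕ) : (P ^ e).coeff n ∈ 𝔸 := by
  induction e generalizing n with
  | zero =>
    rw [pow_zero, PowerSeries.coeff_one]
    split_ifs
    · exact 𝔸.one_mem
    · exact 𝔸.zero_mem
  | succ e ih =>
    rw [pow_succ]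
    exact uer_coeff_mul_mem 𝔸 ih hP n

/-! ### the bridge to formal series over `ℚ` -/

/-- For a `1`-periodic form `F` whose `q`-expansion is (the image of) `P ∈ ℚ[[q]]`, the
`q_N`-expansion is `P(q_N^N)`. -/
theorem uer_bridge (F : ℍ → ℂ) (hper : Function.Periodic (F ∘ ofComplex) (1 : ℝ))
    (hhol : MDiff F) (hbdd : IsBoundedAtImInfty F) (P : PowerSeries ℚ)
    (hP : qExpansion 1 F = P.map (algebraMap ℚ ℂ)) :
    HahnSeries.ofPowerSeries ℤ ℂ (qExpansion (N : ℝ) F) =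
      qExpand ℂ N (coeffMap (algebraMap ℚ ℂ) (HahnSeries.ofPowerSeries ℤ ℚ P)) := by
  have hN0 : 0 < N := Nat.pos_of_ne_zero (NeZero.ne N)
  have hN : (0 : ℤ) < (N : ℤ) := by exact_mod_cast hN0
  have hc : ∀ n : ℕ, (qExpansion (N : ℝ) F).coeff n =
      if N ∣ n then algebraMap ℚ ℂ (P.coeff (n / N)) else 0 := by
    intro n
    have h := UpperHalfPlane.qExpansion_coeff_nat_mul (h := 1) one_pos (F := F) hper hhol hbdd
      (M := N) hN0 n
    rw [mul_one] at h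
    rw [h, hP, PowerSeries.coeff_map]
  ext n
  by_cases hdvd : (N : ℤ) ∣ n
  · obtain ⟨t, rfl⟩ := hdvd
    rw [qExpand_coeff_mul, coeffMap_coeff]
    by_cases ht : 0 ≤ t
    · obtain ⟨t', rfl⟩ := Int.eq_ofNat_of_zero_le ht
      rw [show ((N : ℤ) * (t' : ℤ)) = ((N * t' : ℕ) : ℤ) by push_cast; rfl,
        HahnSeries.ofPowerSeries_apply_coeff, HahnSeries.ofPowerSeries_apply_coeff, hc,
        if_pos (Dvd.intro _ rfl), Nat.mul_div_cancel_left _ hN0]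
    · rw [not_le] at ht
      rw [uw_ofPowerSeries_coeff_neg _ (mul_neg_of_pos_of_neg hN ht),
        ModularCurve.ofPowerSeries_coeff_of_neg _ ht, map_zero]
  · rw [qExpand_coeff_of_not_dvd _ _ hdvd]
    by_cases hn : 0 ≤ n
    · obtain ⟨n', rfl⟩ := Int.eq_ofNat_of_zero_le hn
      rw [HahnSeries.ofPowerSeries_apply_coeff, hc,
        if_neg (fun h => hdvd (Int.natCast_dvd_natCast.2 h))]
    · rw [uw_ofPowerSeries_coeff_neg _ (not_le.1 hn)]

end Fermat.Agent.S16lib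

end
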