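/-
S16 library (item 16), piece UE-R, analytic part 3 (helper17).

For `f ∈ M₂(Γ₀(p))` with integer `q`-expansion `∑ a_n q^n` and a level `N` with `p ∣ N`, the
weakly holomorphic functions
  `ψ₀ = f E₄ E₆ / Δ`,   `ψ₁ = f² E₄² / Δ`,   `ψ₂ = f³ E₆³ / Δ²`
as elements of `S24lib.WH N`: `Γ₀(N)`-invariance, `ℚ̄`-rationality of all conjugates (`KRat N`),
and their expansions at `∞` as formal Laurent series over `ℚ`.   No sorry.
-/
import Mathlib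
import Fermat.Agent.S16lib.UERQuot
import Fermat.Agent.S16lib.SwDInt
import Fermat.Agent.S24lib.KRat

set_option autoImplicit false

noncomputable section

namespace Fermat.Agent.S16lib

open UpperHalfPlane ModularForm CongruenceSubgroup ModularFormClass ModularCurve EisensteinSeries
open Fermat.Agent.S20lib Fermat.Agent.S24lib Fermat.Agent.S28lib
open scoped MatrixGroups ModularForm Manifold

/-! ### The numerators -/

/-- `u E₄ E₆` -/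
def uerG0 (u : ℍ → ℂ) : ℍ → ℂ := u * ⇑E₄ * ⇑E₆

/-- `(u E₄)²` -/
def uerG1 (u : ℍ → ℂ) : ℍ → ℂ := (u * ⇑E₄) * (u * ⇑E₄)

/-- `(u E₆)³` -/
def uerG2 (u : ℍ → ℂ) : ℍ → ℂ := ((u * ⇑E₆) * (u * ⇑E₆)) * (u * ⇑E₆)

section Level

variable {N : ℕ}

theorem isMF_uerG0 {u : ℍ → ℂ} (hu : IsMF (Gamma N) 2 u) :
    IsMF (Gamma N) (12 * ((1 : ℕ) : ℤ)) (uerG0 u) :=
  ((hu.mul (isMF_E₄.of_top)).mul (isMF_E₆.of_top)).congr_weight (by norm_num)

theorem isMF_uerG1 {u : ℍ → ℂ} (hu : IsMF (Gamma N) 2 u) :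
    IsMF (Gamma N) (12 * ((1 : ℕ) : ℤ)) (uerG1 u) :=
  ((hu.mul (isMF_E₄.of_top)).mul (hu.mul (isMF_E₄.of_top))).congr_weight (by norm_num)

theorem isMF_uerG2 {u : ℍ → ℂ} (hu : IsMF (Gamma N) 2 u) :
    IsMF (Gamma N) (12 * ((2 : ℕ) : ℤ)) (uerG2 u) :=
  (((hu.mul (isMF_E₆.of_top)).mul (hu.mul (isMF_E₆.of_top))).mul
    (hu.mul (isMF_E₆.of_top))).congr_weight (by norm_num)

theorem uer_slash_E4 (u : ℍ → ℂ) (g : SL(2, ℤ)) :
    (u * ⇑E₄) ∣[(2 : ℤ) + 4] g = (u ∣[(2 : ℤ)] g) * ⇑E₄ := by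
  rw [mul_slash_SL2, isMF_E₄.slash_top]

theorem uer_slash_E6 (u : ℍ → ℂ) (g : SL(2, ℤ)) :
    (u * ⇑E₆) ∣[(2 : ℤ) + 6] g = (u ∣[(2 : ℤ)] g) * ⇑E₆ := by
  rw [mul_slash_SL2, isMF_E₆.slash_top]

theorem uerG0_slash (u : ℍ → ℂ) (g : SL(2, ℤ)) :
    (uerG0 u) ∣[12 * ((1 : ℕ) : ℤ)] g = uerG0 (u ∣[(2 : ℤ)] g) := by
  rw [show (12 * ((1 : ℕ) : ℤ)) = ((2 : ℤ) + 4) + 6 by norm_num]
  unfold uerG0
  rw [mul_slash_SL2, uer_slash_E4, isMF_E₆.slash_top]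

theorem uerG1_slash (u : ℍ → ℂ) (g : SL(2, ℤ)) :
    (uerG1 u) ∣[12 * ((1 : ℕ) : ℤ)] g = uerG1 (u ∣[(2 : ℤ)] g) := by
  rw [show (12 * ((1 : ℕ) : ℤ)) = ((2 : ℤ) + 4) + ((2 : ℤ) + 4) by norm_num]
  unfold uerG1
  rw [mul_slash_SL2, uer_slash_E4]

theorem uerG2_slash (u : ℍ → ℂ) (g : SL(2, ℤ)) :
    (uerG2 u) ∣[12 * ((2 : ℕ) : ℤ)] g = uerG2 (u ∣[(2 : ℤ)] g) := by
  rw [show (12 * ((2 : ℕ) : ℤ)) = (((2 : ℤ) + 6) + ((2 : ℤ) + 6)) + ((2 : ℤ) + 6) by norm_num]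
  unfold uerG2
  rw [mul_slash_SL2, mul_slash_SL2, uer_slash_E6]

variable [NeZero N]

theorem qExpansion_uerG0 {u : ℍ → ℂ} (hu : IsMF (Gamma N) 2 u) :
    qExpansion (N : ℝ) (uerG0 u) =
      qExpansion (N : ℝ) u * qExpansion (N : ℝ) ⇑E₄ * qExpansion (N : ℝ) ⇑E₆ := by
  have h4 : IsMF (Gamma N) 4 ⇑E₄ := isMF_E₄.of_top
  have h6 : IsMF (Gamma N) 6 ⇑E₆ := isMF_E₆.of_top
  unfold uerG0
  rw [ei_qExpansion_mul (hu.mul h4) h6, ei_qExpansion_mul hu h4]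

theorem qExpansion_uerG1 {u : ℍ → ℂ} (hu : IsMF (Gamma N) 2 u) :
    qExpansion (N : ℝ) (uerG1 u) =
      (qExpansion (N : ℝ) u * qExpansion (N : ℝ) ⇑E₄) ^ 2 := by
  have h4 : IsMF (Gamma N) 4 ⇑E₄ := isMF_E₄.of_top
  unfold uerG1
  rw [ei_qExpansion_mul (hu.mul h4) (hu.mul h4), ei_qExpansion_mul hu h4, sq]

theorem qExpansion_uerG2 {u : ℍ → ℂ} (hu : IsMF (Gamma N) 2 u) :
    qExpansion (N : ℝ) (uerG2 u) =
      (qExpansion (N : ℝ) u * qExpansion (N : ℝ) ⇑E₆) ^ 3 := by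
  have h6 : IsMF (Gamma N) 6 ⇑E₆ := isMF_E₆.of_top
  unfold uerG2
  rw [ei_qExpansion_mul ((hu.mul h6).mul (hu.mul h6)) (hu.mul h6),
    ei_qExpansion_mul (hu.mul h6) (hu.mul h6), ei_qExpansion_mul hu h6]
  ring

/-! ### The elements of `WH N` -/

/-- `ψ₀ = u E₄ E₆ / Δ` -/
def uerPsi0 (N : ℕ) (u : ℍ → ℂ) (hu : IsMF (Gamma N) 2 u) : WH N :=
  uerWH N (uerG0 u) 1 (isMF_uerG0 hu)

/-- `ψ₁ = u² E₄² / Δ` -/
def uerPsi1 (N : ℕ) (u : ℍ → ℂ) (hu : IsMF (Gamma N) 2 u) : WH N :=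
  uerWH N (uerG1 u) 1 (isMF_uerG1 hu)

/-- `ψ₂ = u³ E₆³ / Δ²` -/
def uerPsi2 (N : ℕ) (u : ℍ → ℂ) (hu : IsMF (Gamma N) 2 u) : WH N :=
  uerWH N (uerG2 u) 2 (isMF_uerG2 hu)

omit [NeZero N] in
theorem uer_isMF_slash' {u : ℍ → ℂ} (hu : IsMF (Gamma N) 2 u) (g : SL(2, ℤ)) :
    IsMF (Gamma N) 2 (u ∣[(2 : ℤ)] g) := by
  have := Gamma_normal N
  exact wh_isMF_slash hu g

omit [NeZero N] in
theorem smul_uerPsi0 {u : ℍ → ℂ} (hu : IsMF (Gamma N) 2 u) (g : SL(2, ℤ)) :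
    g • uerPsi0 N u hu = uerPsi0 N (u ∣[(2 : ℤ)] g⁻¹) (uer_isMF_slash' hu g⁻¹) := by
  unfold uerPsi0
  rw [smul_uerWH]
  apply Subtype.ext
  rw [coe_uerWH, coe_uerWH, uerG0_slash]

omit [NeZero N] in
theorem smul_uerPsi1 {u : ℍ → ℂ} (hu : IsMF (Gamma N) 2 u) (g : SL(2, ℤ)) :
    g • uerPsi1 N u hu = uerPsi1 N (u ∣[(2 : ℤ)] g⁻¹) (uer_isMF_slash' hu g⁻¹) := by
  unfold uerPsi1
  rw [smul_uerWH]
  apply Subtype.ext
  rw [coe_uerWH, coe_uerWH, uerG1_slash]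

omit [NeZero N] in
theorem smul_uerPsi2 {u : ℍ → ℂ} (hu : IsMF (Gamma N) 2 u) (g : SL(2, ℤ)) :
    g • uerPsi2 N u hu = uerPsi2 N (u ∣[(2 : ℤ)] g⁻¹) (uer_isMF_slash' hu g⁻¹) := by
  unfold uerPsi2
  rw [smul_uerWH]
  apply Subtype.ext
  rw [coe_uerWH, coe_uerWH, uerG2_slash]

omit [NeZero N] in
theorem uerPsi0_congr {u v : ℍ → ℂ} (hu : IsMF (Gamma N) 2 u) (hv : IsMF (Gamma N) 2 v)
    (h : u = v) : uerPsi0 N u hu = uerPsi0 N v hv := by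
  subst h; rfl

omit [NeZero N] in
theorem uerPsi1_congr {u v : ℍ → ℂ} (hu : IsMF (Gamma N) 2 u) (hv : IsMF (Gamma N) 2 v)
    (h : u = v) : uerPsi1 N u hu = uerPsi1 N v hv := by
  subst h; rfl

omit [NeZero N] in
theorem uerPsi2_congr {u v : ℍ → ℂ} (hu : IsMF (Gamma N) 2 u) (hv : IsMF (Gamma N) 2 v)
    (h : u = v) : uerPsi2 N u hu = uerPsi2 N v hv := by
  subst h; rfl

/-! ### Relations -/

omit [NeZero N] in
theorem uerPsi_rel1 {u : ℍ → ℂ} (hu : IsMF (Gamma N) 2 u) :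
    uerPsi0 N u hu ^ 2 = uerPsi1 N u hu * (jWH N - 1728) := by
  apply Subtype.ext
  funext z
  have hΔ := ModularForm.discriminant_ne_zero z
  have hrel := ModularForm.discriminant_eq_E₄_cube_sub_E₆_sq z
  have hrel' : E₆ z ^ 2 = E₄ z ^ 3 - 1728 * ModularForm.discriminant z := by
    rw [hrel]; ring
  show (uerQuot (uerG0 u) 1 z) ^ 2 = uerQuot (uerG1 u) 1 z * (jH z - 1728)
  unfold uerQuot uerG0 uerG1 jH
  simp only [Pi.mul_apply, pow_one]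
  field_simp
  rw [hrel']
  ring

omit [NeZero N] in
theorem uerPsi_rel2 {u : ℍ → ℂ} (hu : IsMF (Gamma N) 2 u) :
    uerPsi0 N u hu ^ 3 = uerPsi2 N u hu * jWH N := by
  apply Subtype.ext
  funext z
  have hΔ := ModularForm.discriminant_ne_zero z
  show (uerQuot (uerG0 u) 1 z) ^ 3 = uerQuot (uerG2 u) 2 z * jH z
  unfold uerQuot uerG0 uerG2 jH
  simp only [Pi.mul_apply, pow_one]
  field_simp

end Level

/-! ### Formal series over `ℚ` -/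

/-- `ℤ[[q]] → ℚ((q))` -/
def sdQ : PowerSeries ℤ →+* LaurentSeries ℚ :=
  (HahnSeries.ofPowerSeries ℤ ℚ).comp (PowerSeries.map (Int.castRingHom ℚ))

theorem sdQ_apply (P : PowerSeries ℤ) :
    sdQ P = HahnSeries.ofPowerSeries ℤ ℚ (P.map (Int.castRingHom ℚ)) := rfl

theorem sdQ_injective : Function.Injective sdQ := by
  intro a b h
  have h1 : a.map (Int.castRingHom ℚ) = b.map (Int.castRingHom ℚ) :=
    HahnSeries.ofPowerSeries_injective h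
  ext n
  have := congrArg (PowerSeries.coeff n) h1
  simpa using this

theorem sdQ_sdDelta : sdQ sdDelta = deltaQ := rfl

theorem sdQ_sdE4 : sdQ sdE4 = e4Q := rfl

/-- the expansion map `ℚ((q)) → ℂ((q_N))`, `q ↦ q_N^N` -/
def uerPhi (N : ℕ) [NeZero N] : LaurentSeries ℚ →+* LaurentSeries ℂ :=
  (qExpand ℂ N).comp (coeffMap (algebraMap ℚ ℂ))

theorem uerPhi_apply (N : ℕ) [NeZero N] (x : LaurentSeries ℚ) :
    uerPhi N x = qExpand ℂ N (coeffMap (algebraMap ℚ ℂ) x) := rfl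

theorem uerPhi_injective (N : ℕ) [NeZero N] : Function.Injective (uerPhi N) :=
  (uerPhi N).injective

section Bridge

variable {N : ℕ} [NeZero N]

theorem uer_bridgeZ (F : ℍ → ℂ) (hper : Function.Periodic (F ∘ ofComplex) (1 : ℝ))
    (hhol : MDiff F) (hbdd : IsBoundedAtImInfty F) (P : PowerSeries ℤ)
    (hP : qExpansion 1 F = sdι P) :
    HahnSeries.ofPowerSeries ℤ ℂ (qExpansion (N : ℝ) F) = uerPhi N (sdQ P) := by
  refine uer_bridge F hper hhol hbdd (P.map (Int.castRingHom ℚ)) ?_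
  rw [hP]
  ext n
  simp

theorem uer_levelOne_periodic {k : ℤ} (E : ModularForm 𝒮ℒ k) :
    Function.Periodic (⇑E ∘ ofComplex) (1 : ℝ) :=
  SlashInvariantFormClass.periodic_comp_ofComplex E one_mem_strictPeriods_SL

theorem uer_levelOne_bdd {k : ℤ} (E : ModularForm 𝒮ℒ k) : IsBoundedAtImInfty ⇑E := by
  have := (isMF_top_of_levelOne E).bdd 1
  simpa using this

theorem uer_bridge_levelOne {k : ℤ} (E : ModularForm 𝒮ℒ k) (P : PowerSeries ℤ)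
    (hP : qExpansion 1 E = sdι P) :
    HahnSeries.ofPowerSeries ℤ ℂ (qExpansion (N : ℝ) ⇑E) = uerPhi N (sdQ P) :=
  uer_bridgeZ ⇑E (uer_levelOne_periodic E) (isMF_top_of_levelOne E).holo (uer_levelOne_bdd E) P hP

theorem uer_levelOne_coeff_mem (𝔸 : Subring ℂ) {k : ℤ} (E : ModularForm 𝒮ℒ k)
    (P : PowerSeries ℤ) (hP : qExpansion 1 E = sdι P) (n : ℕ) :
    (qExpansion (N : ℝ) ⇑E).coeff n ∈ 𝔸 := by
  have h := UpperHalfPlane.qExpansion_coeff_nat_mul (h := 1) one_pos (F := ⇑E)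
    (uer_levelOne_periodic E) (isMF_top_of_levelOne E).holo (uer_levelOne_bdd E) (M := N)
    (Nat.pos_of_ne_zero (NeZero.ne N)) n
  rw [mul_one] at h
  rw [h]
  split_ifs
  · rw [hP, PowerSeries.coeff_map]
    exact intCast_mem 𝔸 _
  · exact 𝔸.zero_mem

theorem uer_deltaL_eq : deltaL N = uerPhi N deltaQ := by
  have hper : Function.Periodic ((ModularForm.discriminant : ℍ → ℂ) ∘ ofComplex) (1 : ℝ) := by
    have := ei_periodic (N := 1) (isCF_discriminant.isMF.of_top (Γ := Gamma 1))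
    simpa using this
  unfold deltaL
  rw [← sdQ_sdDelta]
  exact uer_bridgeZ _ hper isCF_discriminant.holo uw_discriminant_bdd sdDelta sd_qExpansion_Delta

end Bridge

end Fermat.Agent.S16lib

end
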