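/-
S16 library (item 16), piece UE-R (helper17): the main statement `uer_exists_phi`.

For `f ∈ M₂(Γ₀(p))` with integer `q`-expansion `∑ a_n q^n` and a level `M` with `p ∣ M`:
the function `φ = -f Δ / (E₄² E₆) = f / θ(j)` lies in the function field `FF M` of `X₀(M)` over `ℚ̄`,
its `q`-expansion is the integral power series `y` with `y E₄² E₆ = -f Δ`, and the differential
`φ dj` is regular at all places where `j` is regular.   No sorry.
-/
import Mathlib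
import Fermat.Agent.S16lib.UERPsi
import Fermat.Agent.S16lib.UERTail
import Fermat.Agent.S28lib.UnitInt
import Fermat.Agent.S28lib.UnitMem
import Fermat.Agent.S28lib.Sig
import Fermat.Agent.RRlib.Modular

set_option autoImplicit false

noncomputable section

namespace Fermat.Agent.S16lib

open UpperHalfPlane ModularForm CongruenceSubgroup ModularFormClass ModularCurve EisensteinSeries
open Fermat.Agent.S20lib Fermat.Agent.S24lib Fermat.Agent.S28lib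
open scoped MatrixGroups ModularForm Manifold

theorem uer_Gamma0_le {p N : ℕ} (hpN : p ∣ N) : Gamma0 N ≤ Gamma0 p := by
  intro γ hγ
  have h1 := uw_dvd_of_mem_Gamma0 hpN hγ
  rw [Gamma0_mem]
  exact (ZMod.intCast_zmod_eq_zero_iff_dvd _ _).mpr h1

variable {p : ℕ} [Fact p.Prime] {N : ℕ} [NeZero N]

/-! ### Invariance -/

theorem uer_slash_inv (hpN : p ∣ N) (f : ModularForm (Gamma0 p) 2) (γ : SL(2, ℤ))
    (hγ : γ ∈ Gamma0 N) : ⇑f ∣[(2 : ℤ)] γ⁻¹ = ⇑f :=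
  (isMF_of_modularForm f).inv γ⁻¹ (uer_Gamma0_le hpN (inv_mem hγ))

theorem uer_smul_psi0 (hpN : p ∣ N) (f : ModularForm (Gamma0 p) 2) (γ : SL(2, ℤ))
    (hγ : γ ∈ Gamma0 N) :
    γ • uerPsi0 N ⇑f (uer_isMF hpN f) = uerPsi0 N ⇑f (uer_isMF hpN f) := by
  rw [smul_uerPsi0]
  exact uerPsi0_congr _ _ (uer_slash_inv hpN f γ hγ)

theorem uer_smul_psi1 (hpN : p ∣ N) (f : ModularForm (Gamma0 p) 2) (γ : SL(2, ℤ))
    (hγ : γ ∈ Gamma0 N) :
    γ • uerPsi1 N ⇑f (uer_isMF hpN f) = uerPsi1 N ⇑f (uer_isMF hpN f) := by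
  rw [smul_uerPsi1]
  exact uerPsi1_congr _ _ (uer_slash_inv hpN f γ hγ)

theorem uer_smul_psi2 (hpN : p ∣ N) (f : ModularForm (Gamma0 p) 2) (γ : SL(2, ℤ))
    (hγ : γ ∈ Gamma0 N) :
    γ • uerPsi2 N ⇑f (uer_isMF hpN f) = uerPsi2 N ⇑f (uer_isMF hpN f) := by
  rw [smul_uerPsi2]
  exact uerPsi2_congr _ _ (uer_slash_inv hpN f γ hγ)

/-! ### Coefficients of all conjugates -/

section Coeff

variable (hpN : p ∣ N) (f : ModularForm (Gamma0 p) 2) (𝔸 : Subring ℂ)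
  (hζ : ∀ ζ : ℂ, ζ ^ N = 1 → ζ ∈ 𝔸) (hpinv : ((p : ℂ))⁻¹ ∈ 𝔸) (hF : ∀ n, qCoeff f n ∈ 𝔸)

include hζ hpinv hF

theorem uer_psi0_conj_mem (g : SL(2, ℤ)) :
    expInf N (g • uerPsi0 N ⇑f (uer_isMF hpN f)) ∈ coeffRing 𝔸 := by
  rw [smul_uerPsi0]
  unfold uerPsi0
  refine expInf_uerWH_mem 𝔸 _ _ _ (fun n => ?_)
  rw [qExpansion_uerG0 (uer_isMF_slash' (uer_isMF hpN f) g⁻¹)]
  exact uer_coeff_mul_mem 𝔸 (uer_coeff_mul_mem 𝔸
    (uer_slash_coeff_mem_two hpN f 𝔸 hζ hpinv hF g⁻¹)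
    (uer_levelOne_coeff_mem 𝔸 E₄ sdE4 sd_qExpansion_E4))
    (uer_levelOne_coeff_mem 𝔸 E₆ sdE6 sd_qExpansion_E6) n

theorem uer_psi1_conj_mem (g : SL(2, ℤ)) :
    expInf N (g • uerPsi1 N ⇑f (uer_isMF hpN f)) ∈ coeffRing 𝔸 := by
  rw [smul_uerPsi1]
  unfold uerPsi1
  refine expInf_uerWH_mem 𝔸 _ _ _ (fun n => ?_)
  rw [qExpansion_uerG1 (uer_isMF_slash' (uer_isMF hpN f) g⁻¹)]
  exact uer_coeff_pow_mem 𝔸 (uer_coeff_mul_mem 𝔸
    (uer_slash_coeff_mem_two hpN f 𝔸 hζ hpinv hF g⁻¹)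
    (uer_levelOne_coeff_mem 𝔸 E₄ sdE4 sd_qExpansion_E4)) 2 n

theorem uer_psi2_conj_mem (g : SL(2, ℤ)) :
    expInf N (g • uerPsi2 N ⇑f (uer_isMF hpN f)) ∈ coeffRing 𝔸 := by
  rw [smul_uerPsi2]
  unfold uerPsi2
  refine expInf_uerWH_mem 𝔸 _ _ _ (fun n => ?_)
  rw [qExpansion_uerG2 (uer_isMF_slash' (uer_isMF hpN f) g⁻¹)]
  exact uer_coeff_pow_mem 𝔸 (uer_coeff_mul_mem 𝔸
    (uer_slash_coeff_mem_two hpN f 𝔸 hζ hpinv hF g⁻¹)
    (uer_levelOne_coeff_mem 𝔸 E₆ sdE6 sd_qExpansion_E6)) 3 n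

end Coeff

/-! ### The formal series -/

/-- the formal `ψ₀ = f E₄ E₆ / Δ` -/
def uerX0 (a : ℕ → ℤ) : LaurentSeries ℚ :=
  sdQ (PowerSeries.mk a) * sdQ sdE4 * sdQ sdE6 / sdQ sdDelta

/-- the formal `ψ₁ = (f E₄)² / Δ` -/
def uerX1 (a : ℕ → ℤ) : LaurentSeries ℚ :=
  (sdQ (PowerSeries.mk a) * sdQ sdE4) ^ 2 / sdQ sdDelta

/-- the formal `ψ₂ = (f E₆)³ / Δ²` -/
def uerX2 (a : ℕ → ℤ) : LaurentSeries ℚ :=
  (sdQ (PowerSeries.mk a) * sdQ sdE6) ^ 3 / sdQ sdDelta ^ 2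

section Exp

theorem uer_bridge_f (f : ModularForm (Gamma0 p) 2) (a : ℕ → ℤ)
    (hf : ∀ n : ℕ, qCoeff f n = (a n : ℂ)) :
    HahnSeries.ofPowerSeries ℤ ℂ (qExpansion (N : ℝ) ⇑f) = uerPhi N (sdQ (PowerSeries.mk a)) := by
  refine uer_bridgeZ ⇑f (SlashInvariantFormClass.periodic_comp_ofComplex f
    (CongruenceSubgroup.one_mem_strictPeriods_Gamma0 p)) (isMF_of_modularForm f).holo ?_
    (PowerSeries.mk a) ?_
  · have := (isMF_of_modularForm f).bdd 1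
    simpa using this
  · ext n
    rw [PowerSeries.coeff_map, PowerSeries.coeff_mk]
    exact hf n

theorem uer_int_mem_range (f : ModularForm (Gamma0 p) 2) (a : ℕ → ℤ)
    (hf : ∀ n : ℕ, qCoeff f n = (a n : ℂ)) (n : ℕ) : qCoeff f n ∈ ιC.range := by
  rw [hf n]
  exact intCast_mem _ _

variable (hpN : p ∣ N) (f : ModularForm (Gamma0 p) 2) (a : ℕ → ℤ)
  (hf : ∀ n : ℕ, qCoeff f n = (a n : ℂ))

include hpN hf

theorem uer_expInf_psi0 :
    expInf N (uerPsi0 N ⇑f (uer_isMF hpN f)) = uerPhi N (uerX0 a) := by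
  unfold uerPsi0 uerX0
  rw [expInf_uerWH, qExpansion_uerG0 (uer_isMF hpN f), map_mul, map_mul, uer_bridge_f f a hf,
    uer_bridge_levelOne E₄ sdE4 sd_qExpansion_E4, uer_bridge_levelOne E₆ sdE6 sd_qExpansion_E6,
    uer_deltaL_eq, sdQ_sdDelta, pow_one, div_eq_mul_inv, map_mul, map_mul, map_mul, map_inv₀]

theorem uer_expInf_psi1 :
    expInf N (uerPsi1 N ⇑f (uer_isMF hpN f)) = uerPhi N (uerX1 a) := by
  unfold uerPsi1 uerX1
  rw [expInf_uerWH, qExpansion_uerG1 (uer_isMF hpN f), map_pow, map_mul, uer_bridge_f f a hf,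
    uer_bridge_levelOne E₄ sdE4 sd_qExpansion_E4,
    uer_deltaL_eq, sdQ_sdDelta, pow_one, div_eq_mul_inv, map_mul, map_pow, map_mul, map_inv₀]

theorem uer_expInf_psi2 :
    expInf N (uerPsi2 N ⇑f (uer_isMF hpN f)) = uerPhi N (uerX2 a) := by
  unfold uerPsi2 uerX2
  rw [expInf_uerWH, qExpansion_uerG2 (uer_isMF hpN f), map_pow, map_mul, uer_bridge_f f a hf,
    uer_bridge_levelOne E₆ sdE6 sd_qExpansion_E6,
    uer_deltaL_eq, sdQ_sdDelta, div_eq_mul_inv, map_mul, map_pow, map_mul, map_inv₀, map_pow,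
    inv_pow]

/-! ### `ℚ̄`-rationality -/

theorem uer_psi0_mem_KRat : uerPsi0 N ⇑f (uer_isMF hpN f) ∈ KRat N := by
  intro g n
  have h := uer_psi0_conj_mem hpN f ιC.range (uw_root_of_unity_mem_range N)
    (uw_inv_natCast_mem_range p) (uer_int_mem_range f a hf) g
  rw [mem_coeffRing_iff] at h
  exact h n

theorem uer_psi1_mem_KRat : uerPsi1 N ⇑f (uer_isMF hpN f) ∈ KRat N := by
  intro g n
  have h := uer_psi1_conj_mem hpN f ιC.range (uw_root_of_unity_mem_range N)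
    (uw_inv_natCast_mem_range p) (uer_int_mem_range f a hf) g
  rw [mem_coeffRing_iff] at h
  exact h n

theorem uer_psi2_mem_KRat : uerPsi2 N ⇑f (uer_isMF hpN f) ∈ KRat N := by
  intro g n
  have h := uer_psi2_conj_mem hpN f ιC.range (uw_root_of_unity_mem_range N)
    (uw_inv_natCast_mem_range p) (uer_int_mem_range f a hf) g
  rw [mem_coeffRing_iff] at h
  exact h n

/-! ### Membership and integrality over `ℚ[j]` -/

theorem uerX0_mem : uerX0 a ∈ modularFunctionFieldFull N :=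
  mem_full_of_expInf N (uerX0 a) _ (uer_smul_psi0 hpN f) (uer_expInf_psi0 hpN f a hf)

theorem uerX1_mem : uerX1 a ∈ modularFunctionFieldFull N :=
  mem_full_of_expInf N (uerX1 a) _ (uer_smul_psi1 hpN f) (uer_expInf_psi1 hpN f a hf)

theorem uerX2_mem : uerX2 a ∈ modularFunctionFieldFull N :=
  mem_full_of_expInf N (uerX2 a) _ (uer_smul_psi2 hpN f) (uer_expInf_psi2 hpN f a hf)

open ModularCurve.IgusaScheme in
theorem uerX0_isIntegral :
    IsIntegral ↥(Algebra.adjoin ℚ ({jFull N} : Set ↥(modularFunctionFieldFull N)))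
      (⟨uerX0 a, uerX0_mem hpN f a hf⟩ : ↥(modularFunctionFieldFull N)) :=
  isIntegral_of_WH N _ _ (uer_psi0_mem_KRat hpN f a hf) (uer_smul_psi0 hpN f)
    (uer_expInf_psi0 hpN f a hf)

open ModularCurve.IgusaScheme in
theorem uerX1_isIntegral :
    IsIntegral ↥(Algebra.adjoin ℚ ({jFull N} : Set ↥(modularFunctionFieldFull N)))
      (⟨uerX1 a, uerX1_mem hpN f a hf⟩ : ↥(modularFunctionFieldFull N)) :=
  isIntegral_of_WH N _ _ (uer_psi1_mem_KRat hpN f a hf) (uer_smul_psi1 hpN f)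
    (uer_expInf_psi1 hpN f a hf)

open ModularCurve.IgusaScheme in
theorem uerX2_isIntegral :
    IsIntegral ↥(Algebra.adjoin ℚ ({jFull N} : Set ↥(modularFunctionFieldFull N)))
      (⟨uerX2 a, uerX2_mem hpN f a hf⟩ : ↥(modularFunctionFieldFull N)) :=
  isIntegral_of_WH N _ _ (uer_psi2_mem_KRat hpN f a hf) (uer_smul_psi2 hpN f)
    (uer_expInf_psi2 hpN f a hf)

end Exp

end Fermat.Agent.S16lib

end
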