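/-
S16 library (item 16), piece UE-R (helper17): formal identities in `ℚ((q))` between
`ψ₀ = f E₄ E₆ / Δ`, `ψ₁ = (f E₄)² / Δ`, `ψ₂ = (f E₆)³ / Δ²`, `j` and
`φ = -ψ₀ / (j (j - 1728)) = -f Δ / (E₄² E₆)`.   No sorry.
-/
import Mathlib
import Fermat.Agent.S16lib.UERMain

set_option autoImplicit false

noncomputable section

namespace Fermat.Agent.S16lib

open ModularCurve Fermat.Agent.S24lib Fermat.Agent.S28lib

theorem sdQ_sdDelta_ne_zero : sdQ sdDelta ≠ 0 := by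
  rw [sdQ_sdDelta]
  exact deltaQ_ne_zero

theorem sdQ_ne_zero_of_constantCoeff {P : PowerSeries ℤ} (h : PowerSeries.constantCoeff P = 1) :
    sdQ P ≠ 0 := by
  intro h0
  have h1 : P = 0 := sdQ_injective (by rw [h0, map_zero])
  rw [h1, map_zero] at h
  exact zero_ne_one h

theorem sdQ_sdE4_ne_zero : sdQ sdE4 ≠ 0 := sdQ_ne_zero_of_constantCoeff sd_coeff_zero_E4

theorem sdQ_sdE6_ne_zero : sdQ sdE6 ≠ 0 := sdQ_ne_zero_of_constantCoeff sd_coeff_zero_E6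

/-- `j = E₄³ / Δ` -/
theorem uer_formal_j : jq = sdQ sdE4 ^ 3 / sdQ sdDelta := by
  rw [eq_div_iff sdQ_sdDelta_ne_zero, sdQ_sdDelta, sdQ_sdE4]
  exact jq_mul_deltaQ

/-- `E₄³ - E₆² = 1728 Δ` in `ℚ((q))` -/
theorem uer_formal_rel : sdQ sdE4 ^ 3 - sdQ sdE6 ^ 2 = 1728 * sdQ sdDelta := by
  have h := congrArg sdQ sd_relation
  rw [map_sub, map_pow, map_pow, map_mul] at h
  rw [h]
  congr 1
  exact map_ofNat sdQ 1728

/-- `j - 1728 = E₆² / Δ` -/
theorem uer_formal_j' : jq - 1728 = sdQ sdE6 ^ 2 / sdQ sdDelta := by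
  rw [uer_formal_j, eq_div_iff sdQ_sdDelta_ne_zero, sub_mul,
    div_mul_cancel₀ _ sdQ_sdDelta_ne_zero]
  linear_combination uer_formal_rel

theorem uerX_rel1 (a : ℕ → ℤ) : uerX0 a ^ 2 = uerX1 a * (jq - 1728) := by
  rw [uer_formal_j']
  unfold uerX0 uerX1
  have h := sdQ_sdDelta_ne_zero
  field_simp

theorem uerX_rel2 (a : ℕ → ℤ) : uerX0 a ^ 3 = uerX2 a * jq := by
  rw [uer_formal_j]
  unfold uerX0 uerX2
  have h := sdQ_sdDelta_ne_zero
  field_simp

theorem uerX_phi (a : ℕ → ℤ) (y : PowerSeries ℤ)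
    (hy : y * (sdE4 ^ 2 * sdE6) = -(PowerSeries.mk a * sdDelta)) :
    -uerX0 a / (jq * (jq - 1728)) = sdQ y := by
  have hy' := congrArg sdQ hy
  rw [map_mul, map_mul, map_pow, map_neg, map_mul] at hy'
  rw [uer_formal_j', uer_formal_j]
  unfold uerX0
  have h := sdQ_sdDelta_ne_zero
  have h4 := sdQ_sdE4_ne_zero
  have h6 := sdQ_sdE6_ne_zero
  field_simp
  linear_combination (-1 : LaurentSeries ℚ) * hy'

/-- existence of the integral series `y = -f Δ / (E₄² E₆)` -/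
theorem uer_exists_y (a : ℕ → ℤ) :
    ∃ y : PowerSeries ℤ, y * (sdE4 ^ 2 * sdE6) = -(PowerSeries.mk a * sdDelta) := by
  have hu : IsUnit (sdE4 ^ 2 * sdE6) := by
    rw [PowerSeries.isUnit_iff_constantCoeff, map_mul, map_pow, sd_coeff_zero_E4,
      sd_coeff_zero_E6]
    simp
  obtain ⟨u, hu⟩ := hu.exists_left_inv
  exact ⟨-(PowerSeries.mk a * sdDelta) * u, by rw [mul_assoc, hu, mul_one]⟩

/-- `coeffEmb` of an integral power series -/
theorem coeffEmb_sdQ (L : Type*) [Field L] [Algebra ℚ L] (y : PowerSeries ℤ) :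
    coeffEmb L (sdQ y) = HahnSeries.ofPowerSeries ℤ L (y.map (Int.castRingHom L)) := by
  ext n
  rw [coeffEmb_coeff, sdQ_apply]
  by_cases hn : 0 ≤ n
  · obtain ⟨m, rfl⟩ := Int.eq_ofNat_of_zero_le hn
    rw [HahnSeries.ofPowerSeries_apply_coeff, HahnSeries.ofPowerSeries_apply_coeff,
      PowerSeries.coeff_map, PowerSeries.coeff_map]
    simp
  · rw [not_le] at hn
    rw [ModularCurve.ofPowerSeries_coeff_of_neg _ hn, ModularCurve.ofPowerSeries_coeff_of_neg _ hn,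
      map_zero]

end Fermat.Agent.S16lib

end
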