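/-
S16 library (item 16), piece UE-R (helper17): `uer_exists_phi`, EXACT signature of the U-E
interface (helper13's note, 20:10Z).

For `f ∈ M₂(Γ₀(p))` with integer `q`-expansion `∑ a_n q^n` and a level `M` with `p ∣ M`:
`φ = -ψ₀/(j (j - 1728)) = -f Δ/(E₄² E₆) ∈ FF M`, its `q`-expansion is the integral power series `y`
with `y E₄² E₆ = -f Δ`, and `φ dj` is regular at every place where `j` is regular.
No sorry.
-/
import Mathlib
import Fermat.Agent.S16lib.UERFormal
import Fermat.Agent.S16lib.UERInt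

set_option autoImplicit false

noncomputable section

namespace Fermat.Agent.S16lib

open Fermat.Agent.S24lib AlgebraicCurve KaehlerDifferential ModularFormClass CongruenceSubgroup
open Fermat.Agent.S28lib ModularCurve ModularCurve.IgusaScheme

set_option synthInstance.maxHeartbeats 400000 in
set_option maxHeartbeats 1000000 in
/-- the regularity statement, from the algebraic tail `uert_main'` -/
theorem uer_regular (M : ℕ) [NeZero M] (ψ0 ψ1 ψ2 : FF M)
    (h0 : IsIntegral ↥(Algebra.adjoin Kbar ({jF M} : Set (FF M))) ψ0)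
    (h1 : IsIntegral ↥(Algebra.adjoin Kbar ({jF M} : Set (FF M))) ψ1)
    (h2 : IsIntegral ↥(Algebra.adjoin Kbar ({jF M} : Set (FF M))) ψ2)
    (hr1 : ψ0 ^ 2 = ψ1 * (jF M - algebraMap Kbar (FF M) 1728))
    (hr2 : ψ0 ^ 3 = ψ2 * jF M) (P : Place Kbar (FF M)) (hP : 0 ≤ P.ord (jF M)) :
    0 ≤ P.ordDifferential
      ((-ψ0 / (jF M * (jF M - algebraMap Kbar (FF M) 1728))) • D Kbar (FF M) (jF M)) := by
  have hff := fin_ffData M
  have hrr := Fermat.Agent.RRlib.mod_rrHyp M
  have hdc := Fermat.Agent.RRlib.mod_dCoordGenerates M P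
  have hnt := Fermat.Agent.RRlib.mod_nontrivial_kaehler M
  have hfin : FiniteDimensional (IntermediateField.adjoin Kbar {jF M}) (FF M) := hff.fin
  have halg : Algebra.IsAlgebraic (IntermediateField.adjoin Kbar {jF M}) (FF M) :=
    Algebra.IsAlgebraic.of_finite _ _
  exact uert_main' P hff.trans (1728 : Kbar) (by norm_num) hP (uer_D_jF_ne_zero M) h0 h1 h2
    hr1 hr2

set_option synthInstance.maxHeartbeats 400000 in
theorem uer_exists_phi (p : ℕ) [Fact p.Prime] (f : ModularForm (Gamma0 p) 2) (a : ℕ → ℤ)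
    (hf : ∀ n : ℕ, qCoeff f n = (a n : ℂ)) (M : ℕ) [NeZero M] (hpM : p ∣ M) :
    ∃ (φ : FF M) (y : PowerSeries ℤ),
      (φ : LaurentSeries Kbar) = HahnSeries.ofPowerSeries ℤ Kbar (y.map (Int.castRingHom Kbar)) ∧
      y * (sdE4 ^ 2 * sdE6) = -(PowerSeries.mk a * sdDelta) ∧
      ∀ P : Place Kbar (FF M), 0 ≤ P.ord (jF M) →
        0 ≤ P.ordDifferential (φ • D Kbar (FF M) (jF M)) := by
  obtain ⟨y, hy⟩ := uer_exists_y a
  -- the three functions over `ℚ`
  set ψ0 : ↥(modularFunctionFieldFull M) := ⟨uerX0 a, uerX0_mem hpM f a hf⟩ with hψ0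
  set ψ1 : ↥(modularFunctionFieldFull M) := ⟨uerX1 a, uerX1_mem hpM f a hf⟩ with hψ1
  set ψ2 : ↥(modularFunctionFieldFull M) := ⟨uerX2 a, uerX2_mem hpM f a hf⟩ with hψ2
  have hr1 : ψ0 ^ 2 = ψ1 * (jFull M - 1728) := by
    apply Subtype.ext
    push_cast
    exact uerX_rel1 a
  have hr2 : ψ0 ^ 3 = ψ2 * jFull M := by
    apply Subtype.ext
    push_cast
    exact uerX_rel2 a
  have h1728 : toFF M (1728 : ↥(modularFunctionFieldFull M)) = algebraMap Kbar (FF M) 1728 := by
    rw [map_ofNat, map_ofNat]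
  have hr1' : (toFF M ψ0) ^ 2 = toFF M ψ1 * (jF M - algebraMap Kbar (FF M) 1728) := by
    rw [← map_pow, hr1, map_mul, map_sub, uer_toFF_jFull, h1728]
  have hr2' : (toFF M ψ0) ^ 3 = toFF M ψ2 * jF M := by
    rw [← map_pow, hr2, map_mul, uer_toFF_jFull]
  refine ⟨-(toFF M ψ0) / (jF M * (jF M - algebraMap Kbar (FF M) 1728)), y, ?_, hy, ?_⟩
  · -- the expansion
    have e : -(toFF M ψ0) / (jF M * (jF M - algebraMap Kbar (FF M) 1728)) =
        toFF M (-ψ0 / (jFull M * (jFull M - 1728))) := by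
      rw [map_div₀, map_neg, map_mul, map_sub, uer_toFF_jFull, h1728]
    rw [e, coe_toFF]
    have e2 : ((-ψ0 / (jFull M * (jFull M - 1728)) : ↥(modularFunctionFieldFull M)) :
        LaurentSeries ℚ) = -uerX0 a / (jq * (jq - 1728)) := by
      push_cast
      rfl
    rw [e2, uerX_phi a y hy, coeffEmb_sdQ]
  · -- regularity
    intro P hP
    exact uer_regular M _ _ _
      (uer_isIntegral_toFF M ψ0 (uerX0_isIntegral hpM f a hf))
      (uer_isIntegral_toFF M ψ1 (uerX1_isIntegral hpM f a hf))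
      (uer_isIntegral_toFF M ψ2 (uerX2_isIntegral hpM f a hf)) hr1' hr2' P hP

end Fermat.Agent.S16lib

end
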