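/-
S16 library, piece U-E (helper13, sub-architect): the geometric case
`p ≡ 7 mod 8 ⇒ ¬ ConstCong p 8`.

Assembly of the "local route" (NOTES/S16_UE_blueprint.md):
UE0 (`eisCongMF_of_constCong_eight`), the wiring `uem_not_eisCongMF_of` (UEMain.lean) and the
pieces G3 (`ue_g3`, `ue_exists_zero_jk`, helper18), UE-R (`uer_exists_phi`, helper17 + helper11),
UE-D (b) (`ued_exists_deriv`, helper1); inside the wiring: UE2/UE3 (helper1), UE-A (helper7),
UE-D (a) (helper11), and the good reduction of `X₀(9p)` at `2` (items 75/GM).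
-/
import Mathlib
import Fermat.Agent.S16lib.UEMain
import Fermat.Agent.S16lib.UEG3
import Fermat.Agent.S16lib.UERFinal
import Fermat.Agent.S16lib.UEDb

set_option autoImplicit false
set_option synthInstance.maxHeartbeats 400000

noncomputable section

namespace Fermat.Agent.S16lib

/-- there is no modular form of weight `2` on `Γ₀(p)`, `p ≡ 7 mod 8`, with integral
`q`-expansion congruent to the Eisenstein series modulo `2` -/
theorem not_eisCongMF (p : ℕ) [Fact p.Prime] (hp : p % 8 = 7) : ¬ EisCongMF p :=
  uem_not_eisCongMF_of p hp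
    (fun M _ h9 hpM h2M A hA Θ hΘ x hx => ue_g3 p hp M h9 hpM h2M A hA Θ hΘ x hx)
    (fun f a hf M _ hpM => uer_exists_phi p f a hf M hpM)
    (fun N _ A hA R hR t => ued_exists_deriv N A hA R hR t)
    (fun k _ _ M _ => ue_exists_zero_jk k M)

/-- **U-E** (the geometric case) -/
theorem not_constCong_eight (p : ℕ) [Fact p.Prime] (hp : p % 8 = 7) : ¬ ConstCong p 8 :=
  fun h => not_eisCongMF p hp (eisCongMF_of_constCong_eight p (by omega) h)

end Fermat.Agent.S16lib

end
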