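/-
S16 library, block (L) (helper25): the Shimura character
`χ : Γ₀(p) → (ℤ/p)ˣ → ℤ/n`, `n = (p - 1) / gcd (p - 1, 12)`.

* `dUnit p : Gamma0 p →* (ZMod p)ˣ`, the lower right entry;
* `unitLog p : Additive (ZMod p)ˣ →+ ZMod n`, a surjective "logarithm" killing the elements of
  order dividing `gcd (p - 1, 12)`;
* `shimuraChar p : Additive (Gamma0 p) →+ ZMod n`, surjective (`shimuraChar_surjective`) and
  trivial on the elements of trace in `[-2, 2]` (`shimuraChar_unram`).
-/
import Mathlib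
import Fermat.Agent.S16lib.Defs

set_option autoImplicit false

noncomputable section

namespace Fermat.Agent.S16lib

open ModularCurve CongruenceSubgroup
open scoped MatrixGroups

variable (p : ℕ) [Fact p.Prime]

/-- the lower right entry of `γ ∈ Γ₀(p)` as a unit modulo `p`. -/
def dUnit : Gamma0 p →* (ZMod p)ˣ := (Gamma0Map p).toHomUnits

theorem dUnit_val (γ : Gamma0 p) :
    ((dUnit p γ : (ZMod p)ˣ) : ZMod p) = (((γ : SL(2, ℤ)) 1 1 : ℤ) : ZMod p) := rfl

theorem lw_card_additive_units : Nat.card (Additive (ZMod p)ˣ) = p - 1 := by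
  rw [Nat.card_congr (Additive.toMul (α := (ZMod p)ˣ)), Nat.card_eq_fintype_card]
  exact ZMod.card_units p

theorem lw_numerator_dvd_card :
    eisensteinNumerator p ∣ Nat.card (Additive (ZMod p)ˣ) := by
  rw [lw_card_additive_units]
  exact eisensteinNumerator_dvd p

theorem lw_numerator_mul_gcd :
    eisensteinNumerator p * Nat.gcd (p - 1) 12 = p - 1 :=
  Nat.div_mul_cancel (Nat.gcd_dvd_left _ _)

theorem lw_numerator_pos : 0 < eisensteinNumerator p := by
  have hp : 2 ≤ p := (Fact.out : p.Prime).two_le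
  have h := lw_numerator_mul_gcd p
  rcases Nat.eq_zero_or_pos (eisensteinNumerator p) with h0 | h0
  · rw [h0, zero_mul] at h
    omega
  · exact h0

instance lw_numerator_neZero : NeZero (eisensteinNumerator p) :=
  ⟨(lw_numerator_pos p).ne'⟩

/-- a surjective homomorphism `(ℤ/p)ˣ → ℤ/n`. -/
def unitLog : Additive (ZMod p)ˣ →+ ZMod (eisensteinNumerator p) :=
  (ZMod.castHom (lw_numerator_dvd_card p)
      (ZMod (eisensteinNumerator p))).toAddMonoidHom.comp
    (zmodAddCyclicAddEquiv (G := Additive (ZMod p)ˣ) inferInstance).symm.toAddMonoidHom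

theorem unitLog_surjective : Function.Surjective (unitLog p) := by
  intro y
  obtain ⟨x, hx⟩ := ZMod.castHom_surjective (lw_numerator_dvd_card p) y
  refine ⟨zmodAddCyclicAddEquiv (G := Additive (ZMod p)ˣ) inferInstance x, ?_⟩
  show ZMod.castHom (lw_numerator_dvd_card p) (ZMod (eisensteinNumerator p))
    ((zmodAddCyclicAddEquiv (G := Additive (ZMod p)ˣ) inferInstance).symm
      (zmodAddCyclicAddEquiv (G := Additive (ZMod p)ˣ) inferInstance x)) = y
  rw [AddEquiv.symm_apply_apply, hx]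

/-- `unitLog` kills the elements of order dividing `gcd (p - 1, 12)`. -/
theorem unitLog_eq_zero (u : (ZMod p)ˣ) (hu : u ^ Nat.gcd (p - 1) 12 = 1) :
    unitLog p (Additive.ofMul u) = 0 := by
  set r := Nat.gcd (p - 1) 12 with hr
  set e := (zmodAddCyclicAddEquiv (G := Additive (ZMod p)ˣ) inferInstance) with he
  set y : ZMod (Nat.card (Additive (ZMod p)ˣ)) := e.symm (Additive.ofMul u) with hy
  have hcard := lw_card_additive_units p
  have hp : 2 ≤ p := (Fact.out : p.Prime).two_le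
  have hne : NeZero (Nat.card (Additive (ZMod p)ˣ)) := ⟨by rw [hcard]; omega⟩
  have h1 : r • y = 0 := by
    rw [hy, ← map_nsmul, ← ofMul_pow, hu, ofMul_one, map_zero]
  show ZMod.castHom (lw_numerator_dvd_card p) (ZMod (eisensteinNumerator p)) y = 0
  rw [ZMod.castHom_apply]
  have h2 : ((r * y.val : ℕ) : ZMod (Nat.card (Additive (ZMod p)ˣ))) = 0 := by
    rw [Nat.cast_mul, ZMod.natCast_zmod_val, ← nsmul_eq_mul, h1]
  rw [ZMod.natCast_eq_zero_iff] at h2
  have h2' : r * eisensteinNumerator p ∣ r * y.val := by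
    refine Dvd.dvd.trans (dvd_of_eq ?_) h2
    rw [hcard, ← lw_numerator_mul_gcd p, ← hr, mul_comm]
  have hrpos : 0 < r := Nat.gcd_pos_of_pos_right _ (by norm_num)
  have h3 : eisensteinNumerator p ∣ y.val := Nat.dvd_of_mul_dvd_mul_left hrpos h2'
  rw [ZMod.cast_eq_val, ZMod.natCast_eq_zero_iff]
  exact h3

/-- **the Shimura character** `Γ₀(p) → ℤ/n`. -/
def shimuraChar : Additive (Gamma0 p) →+ ZMod (eisensteinNumerator p) :=
  (unitLog p).comp (MonoidHom.toAdditive (dUnit p))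

theorem shimuraChar_apply (γ : Gamma0 p) :
    shimuraChar p (Additive.ofMul γ) = unitLog p (Additive.ofMul (dUnit p γ)) := rfl

/-- `χ(γ)` only depends on the lower right entry modulo `p`. -/
theorem shimuraChar_congr (γ δ : Gamma0 p)
    (h : (((γ : SL(2, ℤ)) 1 1 : ℤ) : ZMod p) = (((δ : SL(2, ℤ)) 1 1 : ℤ) : ZMod p)) :
    shimuraChar p (Additive.ofMul γ) = shimuraChar p (Additive.ofMul δ) := by
  rw [shimuraChar_apply, shimuraChar_apply]
  congr 2
  exact Units.ext h

theorem dUnit_surjective : Function.Surjective (dUnit p) := by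
  intro u
  have hp : p.Prime := Fact.out
  -- lift `u` to an integer `d` prime to `p`
  have hu0 : (u : ZMod p) ≠ 0 := u.ne_zero
  have hval0 : (u : ZMod p).val ≠ 0 := by
    rwa [Ne, ZMod.val_eq_zero]
  have hvallt : (u : ZMod p).val < p := ZMod.val_lt _
  have hcop : Nat.Coprime (u : ZMod p).val p :=
    ((Nat.Prime.coprime_iff_not_dvd hp).2
      (Nat.not_dvd_of_pos_of_lt (Nat.pos_of_ne_zero hval0) hvallt)).symm
  obtain ⟨a, b, hab⟩ := Nat.isCoprime_iff_coprime.mpr hcop
  set d : ℤ := (((u : ZMod p).val : ℕ) : ℤ) with hd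
  have hdet : (!![a, -b; (p : ℤ), d] : Matrix (Fin 2) (Fin 2) ℤ).det = 1 := by
    rw [Matrix.det_fin_two_of]
    linear_combination hab
  have hmem : (⟨!![a, -b; (p : ℤ), d], hdet⟩ : SL(2, ℤ)) ∈ Gamma0 p := by
    refine Gamma0_mem.mpr ?_
    show (((!![a, -b; (p : ℤ), d] : Matrix (Fin 2) (Fin 2) ℤ) 1 0 : ℤ) : ZMod p) = 0
    simp
  refine ⟨⟨⟨!![a, -b; (p : ℤ), d], hdet⟩, hmem⟩, Units.ext ?_⟩
  rw [dUnit_val]
  show (((!![a, -b; (p : ℤ), d] : Matrix (Fin 2) (Fin 2) ℤ) 1 1 : ℤ) : ZMod p) = u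
  simp [hd]

theorem shimuraChar_surjective : Function.Surjective (shimuraChar p) := by
  intro y
  obtain ⟨u, hu⟩ := unitLog_surjective p y
  obtain ⟨γ, hγ⟩ := dUnit_surjective p (Additive.toMul u)
  refine ⟨Additive.ofMul γ, ?_⟩
  rw [shimuraChar_apply, hγ]
  exact hu

/-- the lower right entry `d` of `γ ∈ Γ₀(p)` satisfies `d² - t d + 1 = 0` modulo `p`,
`t` the trace. -/
theorem dUnit_quadratic (γ : Gamma0 p) :
    ((dUnit p γ : (ZMod p)ˣ) : ZMod p) ^ 2
      - ((((γ : SL(2, ℤ)) : Matrix (Fin 2) (Fin 2) ℤ).trace : ℤ) : ZMod p)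
          * ((dUnit p γ : (ZMod p)ˣ) : ZMod p) + 1 = 0 := by
  have hc : ((((γ : SL(2, ℤ)) : Matrix (Fin 2) (Fin 2) ℤ) 1 0 : ℤ) : ZMod p) = 0 :=
    Gamma0_mem.mp γ.2
  have hdet := Matrix.SpecialLinearGroup.det_coe (γ : SL(2, ℤ))
  rw [Matrix.det_fin_two] at hdet
  have hdet' := congrArg (fun z : ℤ => (z : ZMod p)) hdet
  simp only [Int.cast_sub, Int.cast_mul, Int.cast_one, hc, mul_zero, sub_zero] at hdet'
  rw [dUnit_val, Matrix.trace_fin_two]
  push_cast
  linear_combination -hdet'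

/-- elements of trace in `[-2, 2]` have `d ^ 12 = 1`. -/
theorem dUnit_pow_twelve (γ : Gamma0 p)
    (h : |((γ : SL(2, ℤ)) : Matrix (Fin 2) (Fin 2) ℤ).trace| ≤ 2) :
    dUnit p γ ^ 12 = 1 := by
  have hq := dUnit_quadratic p γ
  set t : ℤ := ((γ : SL(2, ℤ)) : Matrix (Fin 2) (Fin 2) ℤ).trace with ht
  set d : ZMod p := ((dUnit p γ : (ZMod p)ˣ) : ZMod p) with hd
  apply Units.ext
  rw [Units.val_pow_eq_pow_val, Units.val_one, ← hd]
  have ht' : t = -2 ∨ t = -1 ∨ t = 0 ∨ t = 1 ∨ t = 2 := by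
    rw [abs_le] at h
    omega
  rcases ht' with h' | h' | h' | h' | h'
  · -- (d + 1)^2 = 0
    rw [h'] at hq
    have h1 : (d + 1) ^ 2 = 0 := by
      push_cast at hq
      linear_combination hq
    have h2 : d = -1 := eq_neg_of_add_eq_zero_left (pow_eq_zero_iff (two_ne_zero) |>.mp h1)
    rw [h2]
    norm_num
  · rw [h'] at hq
    push_cast at hq
    have h3 : d ^ 3 = 1 := by linear_combination (d - 1) * hq
    calc d ^ 12 = (d ^ 3) ^ 4 := by ring
      _ = 1 := by rw [h3, one_pow]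
  · rw [h'] at hq
    push_cast at hq
    have h2 : d ^ 2 = -1 := by linear_combination hq
    calc d ^ 12 = (d ^ 2) ^ 6 := by ring
      _ = 1 := by rw [h2]; norm_num
  · rw [h'] at hq
    push_cast at hq
    have h3 : d ^ 3 = -1 := by linear_combination (d + 1) * hq
    calc d ^ 12 = (d ^ 3) ^ 4 := by ring
      _ = 1 := by rw [h3]; norm_num
  · rw [h'] at hq
    have h1 : (d - 1) ^ 2 = 0 := by
      push_cast at hq
      linear_combination hq
    have h2 : d = 1 := sub_eq_zero.mp (pow_eq_zero_iff (two_ne_zero) |>.mp h1)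
    rw [h2, one_pow]

/-- **the Shimura character is unramified**: it kills `±1`, the elliptic and the parabolic
elements. -/
theorem shimuraChar_unram (γ : Gamma0 p)
    (h : |((γ : SL(2, ℤ)) : Matrix (Fin 2) (Fin 2) ℤ).trace| ≤ 2) :
    shimuraChar p (Additive.ofMul γ) = 0 := by
  rw [shimuraChar_apply]
  apply unitLog_eq_zero
  have h12 := dUnit_pow_twelve p γ h
  have hp1 : dUnit p γ ^ (p - 1) = 1 := ZMod.units_pow_card_sub_one_eq_one p _
  exact pow_gcd_eq_one.mpr ⟨hp1, h12⟩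

end Fermat.Agent.S16lib

end
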