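/-
S16 library, block (L) (helper25): the Shimura character is a Hecke eigenclass with the
Eisenstein eigenvalues:  `T_ℓ χ = (1 + ℓ) χ` (`ℓ ≠ p`), `U_p χ = χ`.
-/
import Mathlib
import Fermat.Agent.S16lib.LowerChar
import Fermat.Agent.GalRep.HeckeLat

set_option autoImplicit false

noncomputable section

namespace Fermat.Agent.S16lib

open ModularCurve CongruenceSubgroup Fermat.Agent.S22lib Fermat.Agent.GalRep
open Matrix.SpecialLinearGroup ModularForm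
open P2MW.S_ModularForm_heckeT_slash_eq_self_of_mem_Gamma0.ModularForm.HeckeSlashInvariance
open scoped MatrixGroups

section Entries

/-- entries of a product in `GL₂(ℝ)`. -/
theorem lw_gl_mul_apply (g h : GL (Fin 2) ℝ) (i j : Fin 2) :
    ((g * h : GL (Fin 2) ℝ) : Matrix (Fin 2) (Fin 2) ℝ) i j
      = (g : Matrix (Fin 2) (Fin 2) ℝ) i 0 * (h : Matrix (Fin 2) (Fin 2) ℝ) 0 j
        + (g : Matrix (Fin 2) (Fin 2) ℝ) i 1 * (h : Matrix (Fin 2) (Fin 2) ℝ) 1 j := by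
  rw [Units.val_mul, Matrix.mul_apply, Fin.sum_univ_two]

theorem lw_gamma0Hom_entry (N : ℕ) (γ : Gamma0 N) (i j : Fin 2) :
    ((gamma0Hom N γ : GL (Fin 2) ℝ) : Matrix (Fin 2) (Fin 2) ℝ) i j
      = (((γ : SL(2, ℤ)) i j : ℤ) : ℝ) := by
  rw [gamma0Hom_apply, mapGL_coe_matrix]
  rfl

end Entries

variable (p : ℕ) [Fact p.Prime]

/-- the upper left entry is inverse to the lower right one modulo `p`. -/
theorem lw_a_mul_d (γ : Gamma0 p) :
    ((((γ : SL(2, ℤ)) 0 0 : ℤ) : ZMod p)) * ((((γ : SL(2, ℤ)) 1 1 : ℤ) : ZMod p)) = 1 := by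
  have hc : ((((γ : SL(2, ℤ)) : Matrix (Fin 2) (Fin 2) ℤ) 1 0 : ℤ) : ZMod p) = 0 :=
    Gamma0_mem.mp γ.2
  have hdet := Matrix.SpecialLinearGroup.det_coe (γ : SL(2, ℤ))
  rw [Matrix.det_fin_two] at hdet
  have hdet' := congrArg (fun z : ℤ => (z : ZMod p)) hdet
  simp only [Int.cast_sub, Int.cast_mul, Int.cast_one, hc, mul_zero, sub_zero] at hdet'
  exact hdet'

/-- `χ(γ)` only depends on the upper left entry modulo `p`. -/
theorem shimuraChar_congr_a (γ δ : Gamma0 p)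
    (h : (((γ : SL(2, ℤ)) 0 0 : ℤ) : ZMod p) = (((δ : SL(2, ℤ)) 0 0 : ℤ) : ZMod p)) :
    shimuraChar p (Additive.ofMul γ) = shimuraChar p (Additive.ofMul δ) := by
  apply shimuraChar_congr
  have h1 := lw_a_mul_d p γ
  have h2 := lw_a_mul_d p δ
  rw [h] at h1
  calc (((γ : SL(2, ℤ)) 1 1 : ℤ) : ZMod p)
      = ((((δ : SL(2, ℤ)) 0 0 : ℤ) : ZMod p) * (((δ : SL(2, ℤ)) 1 1 : ℤ) : ZMod p))
          * (((γ : SL(2, ℤ)) 1 1 : ℤ) : ZMod p) := by rw [h2, one_mul]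
    _ = ((((δ : SL(2, ℤ)) 0 0 : ℤ) : ZMod p) * (((γ : SL(2, ℤ)) 1 1 : ℤ) : ZMod p))
          * (((δ : SL(2, ℤ)) 1 1 : ℤ) : ZMod p) := by ring
    _ = (((δ : SL(2, ℤ)) 1 1 : ℤ) : ZMod p) := by rw [h1, one_mul]

theorem lw_natCast_numerator : ((p : ℕ) : ZMod (eisensteinNumerator p)) = 1 := by
  have hp : 1 ≤ p := (Fact.out : p.Prime).one_le
  have h : ((p - 1 : ℕ) : ZMod (eisensteinNumerator p)) = 0 :=
    (ZMod.natCast_eq_zero_iff _ _).mpr (eisensteinNumerator_dvd p)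
  rw [Nat.cast_sub hp, Nat.cast_one, sub_eq_zero] at h
  exact h

/-- **`U_p χ = χ`**. -/
theorem heckeHomU_shimuraChar {ℓ : ℕ} [NeZero ℓ] (hℓ : ℓ ∣ p) :
    heckeHomU p hℓ (ZMod (eisensteinNumerator p)) (shimuraChar p) = shimuraChar p := by
  have hpp : p.Prime := Fact.out
  have hℓ0 : ℓ ≠ 0 := NeZero.ne ℓ
  refine AddMonoidHom.ext fun γ' => ?_
  obtain ⟨γ, rfl⟩ := Additive.ofMul.surjective γ'
  rw [heckeHomU_apply]
  have key : ∀ x : ZMod ℓ, shimuraChar p (Additive.ofMul (gammaU hℓ γ x))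
      = shimuraChar p (Additive.ofMul γ) := by
    intro x
    apply shimuraChar_congr_a
    have h := congrArg (fun g : GL (Fin 2) ℝ => (g : Matrix (Fin 2) (Fin 2) ℝ) 0 0) (relU hℓ γ x)
    simp only [lw_gl_mul_apply, lw_gamma0Hom_entry, val_heckeMatrix hℓ0] at h
    simp only [Matrix.of_apply, Matrix.cons_val', Matrix.cons_val_zero, Matrix.cons_val_one,
      Matrix.cons_val_fin_one] at h
    have h' : ((gammaU hℓ γ x : Gamma0 p) : SL(2, ℤ)) 0 0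
        = (γ : SL(2, ℤ)) 0 0 + (x.val : ℤ) * (γ : SL(2, ℤ)) 1 0 := by
      have : (((((gammaU hℓ γ x : Gamma0 p) : SL(2, ℤ)) 0 0 : ℤ)) : ℝ)
          = ((((γ : SL(2, ℤ)) 0 0 + (x.val : ℤ) * (γ : SL(2, ℤ)) 1 0 : ℤ)) : ℝ) := by
        push_cast
        linarith
      exact_mod_cast this
    have hc : ((((γ : SL(2, ℤ)) : Matrix (Fin 2) (Fin 2) ℤ) 1 0 : ℤ) : ZMod p) = 0 :=
      Gamma0_mem.mp γ.2
    rw [h']
    push_cast
    rw [hc, mul_zero, add_zero]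
  rw [Finset.sum_congr rfl (fun x _ => key x), Finset.sum_const, Finset.card_univ, ZMod.card]
  rcases (Nat.dvd_prime hpp).mp hℓ with h | h
  · rw [h, one_nsmul]
  · rw [h, nsmul_eq_mul, lw_natCast_numerator, one_mul]

section T

variable {ℓ : ℕ} [Fact ℓ.Prime]

/-- the lower right entry of the representative `α_x`. -/
def lwRepD (x : OnePoint (ZMod ℓ)) : ℤ := x.elim 1 (fun _ => (ℓ : ℤ))

/-- the upper right entry of the representative `α_x`. -/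
def lwRepB (x : OnePoint (ZMod ℓ)) : ℤ := x.elim 0 (fun j => (j.val : ℤ))

theorem lw_heckeRep_one_one (x : OnePoint (ZMod ℓ)) :
    ((heckeRep ℓ x : GL (Fin 2) ℝ) : Matrix (Fin 2) (Fin 2) ℝ) 1 1 = ((lwRepD x : ℤ) : ℝ) := by
  have hℓ0 : ℓ ≠ 0 := (Fact.out : ℓ.Prime).ne_zero
  induction x using OnePoint.rec with
  | infty =>
    show ((heckeDiagMatrix ℓ : GL (Fin 2) ℝ) : Matrix (Fin 2) (Fin 2) ℝ) 1 1 = _
    rw [val_heckeDiagMatrix hℓ0]
    simp [lwRepD]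
  | coe j =>
    show ((heckeMatrix ℓ j.val : GL (Fin 2) ℝ) : Matrix (Fin 2) (Fin 2) ℝ) 1 1 = _
    rw [val_heckeMatrix hℓ0]
    simp [lwRepD]

theorem lw_heckeRep_zero_one (x : OnePoint (ZMod ℓ)) :
    ((heckeRep ℓ x : GL (Fin 2) ℝ) : Matrix (Fin 2) (Fin 2) ℝ) 0 1 = ((lwRepB x : ℤ) : ℝ) := by
  have hℓ0 : ℓ ≠ 0 := (Fact.out : ℓ.Prime).ne_zero
  induction x using OnePoint.rec with
  | infty =>
    show ((heckeDiagMatrix ℓ : GL (Fin 2) ℝ) : Matrix (Fin 2) (Fin 2) ℝ) 0 1 = _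
    rw [val_heckeDiagMatrix hℓ0]
    simp [lwRepB]
  | coe j =>
    show ((heckeMatrix ℓ j.val : GL (Fin 2) ℝ) : Matrix (Fin 2) (Fin 2) ℝ) 0 1 = _
    rw [val_heckeMatrix hℓ0]
    simp [lwRepB]

theorem lwRepD_ne_zero (hℓ : ¬ ℓ ∣ p) (x : OnePoint (ZMod ℓ)) : ((lwRepD x : ℤ) : ZMod p) ≠ 0 := by
  have hpp : p.Prime := Fact.out
  have hℓp : ℓ.Prime := Fact.out
  induction x using OnePoint.rec with
  | infty =>
    show (((1 : ℤ)) : ZMod p) ≠ 0
    rw [Int.cast_one]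
    exact one_ne_zero
  | coe j =>
    show ((((ℓ : ℕ) : ℤ)) : ZMod p) ≠ 0
    rw [Int.cast_natCast, Ne, ZMod.natCast_eq_zero_iff]
    intro h
    rcases (Nat.dvd_prime hℓp).mp h with h1 | h1
    · exact hpp.one_lt.ne' h1
    · exact hℓ (h1 ▸ dvd_refl p)

/-- the unit `D(α_x)` of `ℤ/p`. -/
def lwRepU (hℓ : ¬ ℓ ∣ p) (x : OnePoint (ZMod ℓ)) : (ZMod p)ˣ :=
  Units.mk0 ((lwRepD x : ℤ) : ZMod p) (lwRepD_ne_zero p hℓ x)

theorem dUnit_gammaT (hℓ : ¬ ℓ ∣ p) (γ : Gamma0 p) (x : OnePoint (ZMod ℓ)) :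
    lwRepU p hℓ x * dUnit p γ = dUnit p (gammaT hℓ γ x) * lwRepU p hℓ (sigmaT γ x) := by
  have h := congrArg (fun g : GL (Fin 2) ℝ => (g : Matrix (Fin 2) (Fin 2) ℝ) 1 1) (relT hℓ γ x)
  simp only [lw_gl_mul_apply, lw_gamma0Hom_entry, lw_heckeRep_one_one, lw_heckeRep_zero_one,
    heckeRep_one_zero, zero_mul, zero_add] at h
  have h' : lwRepD x * (γ : SL(2, ℤ)) 1 1
      = ((gammaT hℓ γ x : Gamma0 p) : SL(2, ℤ)) 1 0 * lwRepB (sigmaT γ x)
        + ((gammaT hℓ γ x : Gamma0 p) : SL(2, ℤ)) 1 1 * lwRepD (sigmaT γ x) := by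
    have : (((lwRepD x * (γ : SL(2, ℤ)) 1 1 : ℤ)) : ℝ)
        = (((((gammaT hℓ γ x : Gamma0 p) : SL(2, ℤ)) 1 0 * lwRepB (sigmaT γ x)
        + ((gammaT hℓ γ x : Gamma0 p) : SL(2, ℤ)) 1 1 * lwRepD (sigmaT γ x) : ℤ)) : ℝ) := by
      push_cast
      linarith
    exact_mod_cast this
  have hc : (((((gammaT hℓ γ x : Gamma0 p) : SL(2, ℤ)) : Matrix (Fin 2) (Fin 2) ℤ) 1 0 : ℤ)
      : ZMod p) = 0 := Gamma0_mem.mp (gammaT hℓ γ x).2
  apply Units.ext
  rw [Units.val_mul, Units.val_mul, dUnit_val, dUnit_val]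
  show ((lwRepD x : ℤ) : ZMod p) * _ = _ * ((lwRepD (sigmaT γ x) : ℤ) : ZMod p)
  have h'' := congrArg (fun z : ℤ => (z : ZMod p)) h'
  simp only [Int.cast_add, Int.cast_mul, hc, zero_mul, zero_add] at h''
  exact h''

/-- **`T_ℓ χ = (1 + ℓ) χ`**. -/
theorem heckeHomT_shimuraChar (hℓ : ¬ ℓ ∣ p) :
    heckeHomT p hℓ (ZMod (eisensteinNumerator p)) (shimuraChar p)
      = ((1 + (ℓ : ℕ) : ℤ)) • shimuraChar p := by
  refine AddMonoidHom.ext fun γ' => ?_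
  obtain ⟨γ, rfl⟩ := Additive.ofMul.surjective γ'
  rw [heckeHomT_apply, AddMonoidHom.smul_apply]
  set L : OnePoint (ZMod ℓ) → ZMod (eisensteinNumerator p) :=
    fun x => unitLog p (Additive.ofMul (lwRepU p hℓ x)) with hL
  have key : ∀ x : OnePoint (ZMod ℓ), shimuraChar p (Additive.ofMul (gammaT hℓ γ x))
      = shimuraChar p (Additive.ofMul γ) + L x - L (sigmaT γ x) := by
    intro x
    have h := congrArg (fun u : (ZMod p)ˣ => unitLog p (Additive.ofMul u)) (dUnit_gammaT p hℓ γ x)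
    simp only [ofMul_mul, map_add] at h
    rw [shimuraChar_apply, shimuraChar_apply]
    simp only [hL]
    linear_combination -h
  rw [Finset.sum_congr rfl (fun x _ => key x), Finset.sum_sub_distrib, Finset.sum_add_distrib,
    Equiv.sum_comp (sigmaT γ) L, add_sub_cancel_right, Finset.sum_const, Finset.card_univ]
  have hcard : Fintype.card (OnePoint (ZMod ℓ)) = ℓ + 1 := by
    have : Fintype.card (OnePoint (ZMod ℓ)) = Fintype.card (Option (ZMod ℓ)) :=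
      Fintype.card_congr (Equiv.refl _)
    rw [this, Fintype.card_option, ZMod.card]
  rw [hcard, ← natCast_zsmul]
  congr 1
  push_cast
  ring

end T

/-- **the Shimura character is an Eisenstein eigenclass**. -/
theorem heckeHom_shimuraChar (ℓ : Nat.Primes) :
    heckeHom p ℓ (ZMod (eisensteinNumerator p)) (shimuraChar p)
      = eisensteinSystem p ℓ • shimuraChar p := by
  by_cases h : (ℓ : ℕ) ∣ p
  · have : NeZero (ℓ : ℕ) := ⟨ℓ.2.ne_zero⟩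
    rw [heckeHom_of_dvd h, eisensteinSystem_of_dvd h, one_smul]
    exact heckeHomU_shimuraChar p h
  · have : Fact (ℓ : ℕ).Prime := ⟨ℓ.2⟩
    rw [heckeHom_of_not_dvd h, eisensteinSystem_of_not_dvd h]
    exact heckeHomT_shimuraChar p h

end Fermat.Agent.S16lib

end
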