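/-
S16 library, block (L) (helper25): the lower bound `n ∣ eis(P)` for every Hecke polynomial `P`
killing `S₂(Γ₀(p))`  (`n = (p - 1) / gcd (p - 1, 12)`).

Proof.  A Hecke polynomial is represented by a word `w` in the operators; the word acts on
`Hom(Γ₀(p), A)` for every abelian group `A`, compatibly with `A → B` (`HWord.op_comp`), with the
involution (`HWord.op_jConj`) and with the period map (`HWord.op_periodMap`).  If `P` kills the
cusp forms, `w` kills `H¹_par(Γ₀(p), ℂ)` (Eichler–Shimura, S21), hence `H¹_par(Γ₀(p), ℤ)`, hence the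
Shimura character `χ` (which lifts to `ℤ`: `AJlib.redMod_surjective`).  But `w χ = eis(P) χ` and
`χ` is onto `ℤ/n`.
-/
import Mathlib
import Fermat.Agent.S16lib.LowerHecke
import Fermat.Agent.GalRep.HeckePeriod
import Fermat.Agent.GalRep.HeckeInvol
import Fermat.Agent.AJlib.Count
import Fermat.Agent.S21

set_option autoImplicit false

noncomputable section

namespace Fermat.Agent.S16lib

open ModularCurve ModularCurve.Period CongruenceSubgroup Fermat.Agent.S22lib Fermat.Agent.GalRep
open scoped MatrixGroups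

/-- words in the Hecke operators. -/
inductive HWord : Type
  | const : ℤ → HWord
  | add : HWord → HWord → HWord
  | mulX : HWord → Nat.Primes → HWord

/-- the Hecke polynomial of a word. -/
def HWord.poly : HWord → HeckeAlg
  | .const a => MvPolynomial.C a
  | .add v w => v.poly + w.poly
  | .mulX w ℓ => w.poly * MvPolynomial.X ℓ

theorem HWord.poly_surjective : Function.Surjective HWord.poly := by
  intro P
  induction P using MvPolynomial.induction_on with
  | C a => exact ⟨.const a, rfl⟩
  | add p q hp hq =>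
    obtain ⟨v, rfl⟩ := hp
    obtain ⟨w, rfl⟩ := hq
    exact ⟨.add v w, rfl⟩
  | mul_X p ℓ hp =>
    obtain ⟨w, rfl⟩ := hp
    exact ⟨.mulX w ℓ, rfl⟩

variable (N : ℕ)

/-- the operator of a word on `Hom(Γ₀(N), A)`. -/
def HWord.op (A : Type*) [AddCommGroup A] :
    HWord → ((Additive (Gamma0 N) →+ A) →+ (Additive (Gamma0 N) →+ A))
  | .const a => a • AddMonoidHom.id _
  | .add v w => HWord.op A v + HWord.op A w
  | .mulX w ℓ => (HWord.op A w).comp (heckeHom N ℓ A)

variable {N}

/-- the operators are natural in the coefficients. -/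
theorem HWord.op_comp {A B : Type*} [AddCommGroup A] [AddCommGroup B] (f : A →+ B) (w : HWord)
    (φ : Additive (Gamma0 N) →+ A) :
    HWord.op N B w (f.comp φ) = f.comp (HWord.op N A w φ) := by
  induction w generalizing φ with
  | const a =>
    refine AddMonoidHom.ext fun γ => ?_
    simp [HWord.op]
  | add v w hv hw =>
    simp only [HWord.op, AddMonoidHom.add_apply, hv, hw]
    refine AddMonoidHom.ext fun γ => ?_
    simp
  | mulX w ℓ hw =>
    simp only [HWord.op, AddMonoidHom.comp_apply]
    rw [heckeHom_comp, hw]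

/-- the operators commute with the involution. -/
theorem HWord.op_jConj {A : Type*} [AddCommGroup A] (w : HWord)
    (ψ : Additive (Gamma0 N) →+ A) :
    HWord.op N A w (ψ.comp (MonoidHom.toAdditive (jConjGamma0 N)))
      = (HWord.op N A w ψ).comp (MonoidHom.toAdditive (jConjGamma0 N)) := by
  induction w generalizing ψ with
  | const a =>
    refine AddMonoidHom.ext fun γ => ?_
    simp [HWord.op]
  | add v w hv hw =>
    simp only [HWord.op, AddMonoidHom.add_apply, hv, hw]
    refine AddMonoidHom.ext fun γ => ?_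
    simp
  | mulX w ℓ hw =>
    simp only [HWord.op, AddMonoidHom.comp_apply]
    rw [heckeHom_comp_jConj, hw]

/-- the operators on a joint eigenvector. -/
theorem HWord.op_eigen {A : Type*} [AddCommGroup A] (c : Nat.Primes → ℤ)
    (χ : Additive (Gamma0 N) →+ A) (hχ : ∀ ℓ, heckeHom N ℓ A χ = c ℓ • χ) (w : HWord) :
    HWord.op N A w χ = (MvPolynomial.aeval c w.poly) • χ := by
  induction w with
  | const a =>
    simp [HWord.op, HWord.poly]
  | add v w hv hw =>
    simp only [HWord.op, HWord.poly, AddMonoidHom.add_apply, hv, hw, map_add, add_smul]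
  | mulX w ℓ hw =>
    simp only [HWord.op, HWord.poly, AddMonoidHom.comp_apply, map_mul, MvPolynomial.aeval_X]
    rw [hχ, map_zsmul, hw, smul_smul, mul_comm]

/-- the operators and the period map. -/
theorem HWord.op_periodMap [NeZero N] (w : HWord) (f : CuspForm (Gamma0 N) 2) :
    HWord.op N ℂ w (periodMap N f)
      = periodMap N ((CuspForm.heckeEvalForms N 2 w.poly :
          Module.End ℂ (CuspForm (Gamma0 N) 2)) f) := by
  induction w generalizing f with
  | const a =>
    have h1 : ((CuspForm.heckeEvalForms N 2 (HWord.const a).poly :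
        Module.End ℂ (CuspForm (Gamma0 N) 2)) f) = a • f := by
      show ((CuspForm.heckeEvalForms N 2 (MvPolynomial.C a) :
        Module.End ℂ (CuspForm (Gamma0 N) 2)) f) = a • f
      rw [CuspForm.heckeEvalForms_C, Subalgebra.coe_algebraMap]
      rfl
    rw [h1]
    show a • periodMap N f = _
    exact (map_zsmul (Fermat.Agent.S21lib.periodMapLinear N).toAddMonoidHom a f).symm
  | add v w hv hw =>
    simp only [HWord.op, HWord.poly, AddMonoidHom.add_apply, hv, hw, map_add]
    rw [Subalgebra.coe_add, LinearMap.add_apply]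
    exact (map_add (Fermat.Agent.S21lib.periodMapLinear N) _ _).symm
  | mulX w ℓ hw =>
    simp only [HWord.op, HWord.poly, AddMonoidHom.comp_apply, map_mul]
    rw [← periodMap_hecke, hw, Subalgebra.coe_mul, Module.End.mul_apply]
    have h := CuspForm.heckeEvalForms_heckeGen N 2 ℓ
    unfold ModularCurve.heckeGen at h
    rw [h]

/-- a word whose polynomial kills the cusp forms kills `H¹_par(Γ₀(N), ℂ)`. -/
theorem HWord.op_parabolic_eq_zero [NeZero N] (w : HWord)
    (hw : CuspForm.heckeEvalForms N 2 w.poly = 0)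
    (ψ : Additive (Gamma0 N) →+ ℂ) (hψ : ψ ∈ parabolicHoms ℂ (Gamma0 N) ℂ) :
    HWord.op N ℂ w ψ = 0 := by
  have hper : ∀ f : CuspForm (Gamma0 N) 2, HWord.op N ℂ w (periodMap N f) = 0 := by
    intro f
    rw [HWord.op_periodMap, hw]
    show periodMap N (0 : CuspForm (Gamma0 N) 2) = 0
    exact map_zero (Fermat.Agent.S21lib.periodMapLinear N)
  have hperJ : ∀ f : CuspForm (Gamma0 N) 2,
      HWord.op N ℂ w (charInvolution N ℂ ℂ (periodMap N f)) = 0 := by
    intro f
    show HWord.op N ℂ w ((periodMap N f).comp (MonoidHom.toAdditive (jConjGamma0 N))) = 0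
    rw [HWord.op_jConj, hper]
    rfl
  obtain ⟨-, hrange⟩ := Fermat.Agent.S21.result N
  rw [← hrange] at hψ
  obtain ⟨⟨f, g⟩, rfl⟩ := hψ
  rw [Fermat.Agent.S21lib.periodHomPair_apply, map_add, map_add, map_sub, hper, hper, hperJ,
    hperJ]
  simp

/-- a word whose polynomial kills the cusp forms kills `H¹_par(Γ₀(N), ℤ)`. -/
theorem HWord.op_int_eq_zero [NeZero N] (w : HWord)
    (hw : CuspForm.heckeEvalForms N 2 w.poly = 0)
    (φ : Additive (Gamma0 N) →+ ℤ) (hφ : IsParabolicHom (Gamma0 N) φ) :
    HWord.op N ℤ w φ = 0 := by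
  have h1 : (Int.castAddHom ℂ).comp φ ∈ parabolicHoms ℂ (Gamma0 N) ℂ := by
    intro γ hγ
    show ((φ (Additive.ofMul γ) : ℤ) : ℂ) = 0
    rw [hφ γ hγ, Int.cast_zero]
  have h2 := HWord.op_parabolic_eq_zero w hw _ h1
  rw [HWord.op_comp] at h2
  refine AddMonoidHom.ext fun γ => ?_
  have h3 := DFunLike.congr_fun h2 γ
  simp only [AddMonoidHom.comp_apply, Int.coe_castAddHom, AddMonoidHom.zero_apply,
    Int.cast_eq_zero] at h3
  exact h3

/-- **Block (L)**: the lower bound. -/
theorem lowerBound (p : ℕ) [Fact p.Prime] : LowerBound p := by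
  intro P hP
  obtain ⟨w, rfl⟩ := HWord.poly_surjective P
  set n := eisensteinNumerator p with hn
  -- lift the Shimura character to `ℤ`
  let χu : Fermat.Agent.AJlib.UnramHom p (Multiplicative (ZMod n)) :=
    ⟨AddMonoidHom.toMultiplicativeRight (shimuraChar p), fun γ h => by
      show Multiplicative.ofAdd (shimuraChar p (Additive.ofMul γ)) = 1
      rw [shimuraChar_unram p γ h]
      rfl⟩
  obtain ⟨lam, hlam⟩ := Fermat.Agent.AJlib.redMod_surjective p n (lw_numerator_pos p) χu
  set φ : Additive (Gamma0 p) →+ ℤ := MonoidHom.toAdditiveLeft lam.1 with hφ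
  have hφpar : IsParabolicHom (Gamma0 p) φ := by
    intro γ hγ
    have h2 : |((γ : SL(2, ℤ)) : Matrix (Fin 2) (Fin 2) ℤ).trace| ≤ 2 := by
      have h4 : ((γ : SL(2, ℤ)) : Matrix (Fin 2) (Fin 2) ℤ).trace ^ 2 ≤ 2 ^ 2 := by
        rw [hγ]; norm_num
      exact abs_le_of_sq_le_sq' h4 (by norm_num) |> fun h => abs_le.mpr h
    have := lam.2 γ h2
    show Multiplicative.toAdd (lam.1 γ) = 0
    rw [this]
    rfl
  have hred : (Int.castAddHom (ZMod n)).comp φ = shimuraChar p := by
    refine AddMonoidHom.ext fun γ' => ?_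
    obtain ⟨γ, rfl⟩ := Additive.ofMul.surjective γ'
    have h := congrArg (fun χ : Fermat.Agent.AJlib.UnramHom p (Multiplicative (ZMod n)) =>
      Multiplicative.toAdd (χ.1 γ)) hlam
    exact h
  have h0 := HWord.op_int_eq_zero w hP φ hφpar
  have h1 : HWord.op p (ZMod n) w (shimuraChar p) = 0 := by
    rw [← hred, HWord.op_comp, h0, AddMonoidHom.comp_zero]
  rw [HWord.op_eigen (eisensteinSystem p) (shimuraChar p) (heckeHom_shimuraChar p)] at h1
  obtain ⟨γ, hγ⟩ := shimuraChar_surjective p 1
  have h2 := DFunLike.congr_fun h1 γ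
  rw [AddMonoidHom.smul_apply, hγ, AddMonoidHom.zero_apply, zsmul_eq_mul, mul_one] at h2
  exact (ZMod.intCast_zmod_eq_zero_iff_dvd _ _).mp h2

end Fermat.Agent.S16lib

end
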