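/-
S16 library, piece W2a (helper18): the Hecke recursion of the Eisenstein coefficients
`eisCoeff p k = σ(k) - p σ(k/p)`.  Helper lemmas are prefixed `ec_`.
-/
import Mathlib
import Fermat.Agent.S16lib.Defs

set_option autoImplicit false

namespace Fermat.Agent.S16lib

open ArithmeticFunction

/-- `σ(ℓ^(a+1)) = 1 + ℓ σ(ℓ^a)` -/
theorem ec_sigma_prime_pow_succ {ℓ : ℕ} (hℓ : ℓ.Prime) (a : ℕ) :
    sigma 1 (ℓ ^ (a + 1)) = 1 + ℓ * sigma 1 (ℓ ^ a) := by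
  rw [sigma_one_apply_prime_pow hℓ, sigma_one_apply_prime_pow hℓ, Finset.sum_range_succ',
    Finset.mul_sum]
  simp only [pow_zero, pow_succ]
  rw [add_comm]
  congr 1
  exact Finset.sum_congr rfl fun i _ => by ring

/-- `σ(ℓ k) = (1 + ℓ) σ(k)` if `ℓ ∤ k`. -/
theorem ec_sigma_mul_prime_of_not_dvd {ℓ : ℕ} (hℓ : ℓ.Prime) {k : ℕ} (hk : ¬ ℓ ∣ k) :
    (sigma 1 (ℓ * k) : ℤ) = (1 + ℓ) * sigma 1 k := by
  have hcop : Nat.Coprime ℓ k := (Nat.Prime.coprime_iff_not_dvd hℓ).2 hk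
  rw [isMultiplicative_sigma.map_mul_of_coprime hcop]
  have h1 : sigma 1 ℓ = 1 + ℓ := by
    have := ec_sigma_prime_pow_succ hℓ 0
    simpa using this
  rw [h1]
  push_cast
  ring

/-- `σ(ℓ² k) = (1 + ℓ) σ(ℓ k) - ℓ σ(k)`. -/
theorem ec_sigma_mul_prime_of_dvd {ℓ : ℕ} (hℓ : ℓ.Prime) {k : ℕ} (hk : 0 < k) :
    (sigma 1 (ℓ * (ℓ * k)) : ℤ) = (1 + ℓ) * sigma 1 (ℓ * k) - ℓ * sigma 1 k := by
  obtain ⟨a, m, hm, rfl⟩ := Nat.exists_eq_pow_mul_and_not_dvd hk.ne' ℓ hℓ.ne_one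
  have hcop : ∀ b : ℕ, Nat.Coprime (ℓ ^ b) m := fun b =>
    Nat.Coprime.pow_left b ((Nat.Prime.coprime_iff_not_dvd hℓ).2 hm)
  have h1 : ℓ * (ℓ * (ℓ ^ a * m)) = ℓ ^ (a + 1 + 1) * m := by ring
  have h2 : ℓ * (ℓ ^ a * m) = ℓ ^ (a + 1) * m := by ring
  rw [h1, h2, isMultiplicative_sigma.map_mul_of_coprime (hcop (a + 1 + 1)),
    isMultiplicative_sigma.map_mul_of_coprime (hcop (a + 1)),
    isMultiplicative_sigma.map_mul_of_coprime (hcop a), ec_sigma_prime_pow_succ hℓ (a + 1),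
    ec_sigma_prime_pow_succ hℓ a]
  push_cast
  ring

theorem eisCoeff_one (p : ℕ) (hp : 1 < p) : eisCoeff p 1 = 1 := by
  have : ¬ p ∣ 1 := fun h => by
    have := Nat.le_of_dvd one_pos h
    omega
  simp [eisCoeff, this]

theorem eisCoeff_of_not_dvd {p k : ℕ} (h : ¬ p ∣ k) : eisCoeff p k = sigma 1 k := by
  simp [eisCoeff, h]

theorem eisCoeff_mul_left (p k : ℕ) (hp : 0 < p) :
    eisCoeff p (p * k) = sigma 1 (p * k) - p * sigma 1 k := by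
  simp [eisCoeff, Nat.mul_div_cancel_left _ hp]

/-- `eisCoeff p (p k) = eisCoeff p k` -/
theorem eisCoeff_mul_self {p : ℕ} (hp : p.Prime) {k : ℕ} (hk : 0 < k) :
    eisCoeff p (p * k) = eisCoeff p k := by
  rw [eisCoeff_mul_left p k hp.pos]
  by_cases h : p ∣ k
  · obtain ⟨k', rfl⟩ := h
    have hk' : 0 < k' := Nat.pos_of_ne_zero (fun h0 => by rw [h0, mul_zero] at hk; exact lt_irrefl 0 hk)
    rw [eisCoeff_mul_left p k' hp.pos, ec_sigma_mul_prime_of_dvd hp hk']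
    ring
  · rw [eisCoeff_of_not_dvd h, ec_sigma_mul_prime_of_not_dvd hp h]
    ring

/-- `eisCoeff p (ℓ k) = (1 + ℓ) eisCoeff p k` for a prime `ℓ ≠ p` not dividing `k`. -/
theorem eisCoeff_mul_prime_of_not_dvd {p ℓ : ℕ} (hp : p.Prime) (hℓ : ℓ.Prime) (hℓp : ℓ ≠ p)
    {k : ℕ} (hk : 0 < k) (hℓk : ¬ ℓ ∣ k) :
    eisCoeff p (ℓ * k) = (1 + ℓ) * eisCoeff p k := by
  have hcop : Nat.Coprime p ℓ := (Nat.coprime_primes hp hℓ).2 (Ne.symm hℓp)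
  by_cases hpk : p ∣ k
  · obtain ⟨k', rfl⟩ := hpk
    have hk' : 0 < k' := Nat.pos_of_ne_zero (fun h0 => by rw [h0, mul_zero] at hk; exact lt_irrefl 0 hk)
    have hℓk' : ¬ ℓ ∣ k' := fun h => hℓk (Dvd.dvd.mul_left h p)
    have e : ℓ * (p * k') = p * (ℓ * k') := by ring
    rw [e, eisCoeff_mul_left p _ hp.pos, eisCoeff_mul_left p _ hp.pos, ← e,
      ec_sigma_mul_prime_of_not_dvd hℓ hℓk, ec_sigma_mul_prime_of_not_dvd hℓ hℓk']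
    ring
  · have h1 : ¬ p ∣ ℓ * k := fun h => hpk ((Nat.Coprime.dvd_mul_left hcop).1 h)
    rw [eisCoeff_of_not_dvd h1, eisCoeff_of_not_dvd hpk, ec_sigma_mul_prime_of_not_dvd hℓ hℓk]

/-- `eisCoeff p (ℓ² k) = (1 + ℓ) eisCoeff p (ℓ k) - ℓ eisCoeff p k` for a prime `ℓ ≠ p`. -/
theorem eisCoeff_mul_prime_of_dvd {p ℓ : ℕ} (hp : p.Prime) (hℓ : ℓ.Prime) (hℓp : ℓ ≠ p)
    {k : ℕ} (hk : 0 < k) :
    eisCoeff p (ℓ * (ℓ * k)) = (1 + ℓ) * eisCoeff p (ℓ * k) - ℓ * eisCoeff p k := by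
  have hcop : Nat.Coprime p ℓ := (Nat.coprime_primes hp hℓ).2 (Ne.symm hℓp)
  by_cases hpk : p ∣ k
  · obtain ⟨k', rfl⟩ := hpk
    have hk' : 0 < k' := Nat.pos_of_ne_zero (fun h0 => by rw [h0, mul_zero] at hk; exact lt_irrefl 0 hk)
    have e1 : ℓ * (ℓ * (p * k')) = p * (ℓ * (ℓ * k')) := by ring
    have e2 : ℓ * (p * k') = p * (ℓ * k') := by ring
    rw [e1, e2, eisCoeff_mul_left p _ hp.pos, eisCoeff_mul_left p _ hp.pos,
      eisCoeff_mul_left p _ hp.pos, ← e1, ← e2, ec_sigma_mul_prime_of_dvd hℓ hk,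
      ec_sigma_mul_prime_of_dvd hℓ hk']
    ring
  · have h1 : ¬ p ∣ ℓ * k := fun h => hpk ((Nat.Coprime.dvd_mul_left hcop).1 h)
    have h2 : ¬ p ∣ ℓ * (ℓ * k) := fun h => h1 ((Nat.Coprime.dvd_mul_left hcop).1 h)
    rw [eisCoeff_of_not_dvd h2, eisCoeff_of_not_dvd h1, eisCoeff_of_not_dvd hpk,
      ec_sigma_mul_prime_of_dvd hℓ hk]

end Fermat.Agent.S16lib
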