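/-
S16 library, piece W2b (helper18): for every `k ≥ 1` a Hecke polynomial `P_k` with
`a_1 (P_k g) = a_k (g)` for every cusp form `g` of weight `2` on `Γ₀(p)`, and with Eisenstein value
`eisCoeff p k`.  Helper lemmas are prefixed `hp_`.
-/
import Mathlib
import Fermat.Agent.S16lib.Defs
import Fermat.Agent.S16lib.EisCoeff
import Fermat.Agent.S49_Modular

set_option autoImplicit false

noncomputable section

namespace Fermat.Agent.S16lib

open ModularCurve CuspForm CongruenceSubgroup ModularFormClass Fermat.Agent.S49lib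

variable (p : ℕ) [NeZero p]

/-- The operator on cusp forms attached to a Hecke polynomial. -/
def opC : HeckeAlg →+* Module.End ℂ (CuspForm (Gamma0 p) 2) :=
  (heckeAlgebra p 2 ∅).val.toRingHom.comp (heckeEvalForms p 2)

theorem opC_apply (P : HeckeAlg) :
    opC p P = ((heckeEvalForms p 2 P : heckeAlgebra p 2 ∅) :
      Module.End ℂ (CuspForm (Gamma0 p) 2)) := rfl

theorem opC_heckeGen (ℓ : Nat.Primes) : opC p (heckeGen ℓ) = heckeOp p ℓ := by
  rw [opC_apply, heckeEvalForms_heckeGen]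
  unfold heckeFormsGen heckeOp
  split_ifs <;> rfl

theorem opC_mem (P : HeckeAlg) : opC p P ∈ heckeAlgebra p 2 ∅ :=
  (heckeEvalForms p 2 P).2

omit [NeZero p] in
theorem hp_qCoeff_smul (c : ℂ) (g : CuspForm (Gamma0 p) 2) (n : ℕ) :
    qCoeff ⇑(c • g) n = c * qCoeff ⇑g n :=
  (qCoeffLin p 2 n).map_smul c g

omit [NeZero p] in
theorem hp_qCoeff_sub (f g : CuspForm (Gamma0 p) 2) (n : ℕ) :
    qCoeff ⇑(f - g) n = qCoeff ⇑f n - qCoeff ⇑g n :=
  (qCoeffLin p 2 n).map_sub f g

omit [NeZero p] in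
theorem hp_qCoeff_add (f g : CuspForm (Gamma0 p) 2) (n : ℕ) :
    qCoeff ⇑(f + g) n = qCoeff ⇑f n + qCoeff ⇑g n :=
  (qCoeffLin p 2 n).map_add f g

/-- the Hecke polynomials -/
theorem exists_heckePoly (hp : p.Prime) (k : ℕ) (hk : 0 < k) :
    ∃ P : HeckeAlg, (∀ g : CuspForm (Gamma0 p) 2, qCoeff (opC p P g) 1 = qCoeff g k) ∧
      eisEval p P = eisCoeff p k := by
  induction k using Nat.strong_induction_on with
  | _ k ih =>
  rcases Nat.lt_or_ge k 2 with h2 | h2
  · obtain rfl : k = 1 := by omega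
    refine ⟨1, fun g => ?_, ?_⟩
    · rw [map_one]; rfl
    · rw [map_one, eisCoeff_one p hp.one_lt]
  · have hℓ : (Nat.minFac k).Prime := Nat.minFac_prime (by omega)
    set ℓ := Nat.minFac k with hℓdef
    obtain ⟨k', hk'⟩ : ℓ ∣ k := Nat.minFac_dvd k
    have hk'pos : 0 < k' := Nat.pos_of_ne_zero (fun h0 => by rw [h0, mul_zero] at hk'; omega)
    have hk'lt : k' < k := by
      rw [hk']
      exact lt_mul_of_one_lt_left hk'pos hℓ.one_lt
    obtain ⟨P', hP'a, hP'e⟩ := ih k' hk'lt hk'pos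
    have hcoeff : ∀ g : CuspForm (Gamma0 p) 2,
        qCoeff (opC p (heckeGen ⟨ℓ, hℓ⟩ * P') g) 1 = qCoeff (heckeOp p ⟨ℓ, hℓ⟩ g) k' := by
      intro g
      rw [mul_comm, map_mul, Module.End.mul_apply, hP'a, opC_heckeGen]
    have hHO : ∀ (g : CuspForm (Gamma0 p) 2) (n : ℕ), qCoeff (heckeOp p ⟨ℓ, hℓ⟩ g) n =
        qCoeff g (n * ℓ) + (if ℓ ∣ n then heckeChar p ℓ * qCoeff g (n / ℓ) else 0) :=
      fun g n => qCoeff_heckeOp p ⟨ℓ, hℓ⟩ g n
    have heisX : eisEval p (heckeGen ⟨ℓ, hℓ⟩) = eisensteinSystem p ⟨ℓ, hℓ⟩ := by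
      show MvPolynomial.aeval (eisensteinSystem p) (heckeGen ⟨ℓ, hℓ⟩) = _
      rw [aeval_heckeGen]
    by_cases hℓp : ℓ = p
    · -- the prime `p`
      refine ⟨heckeGen ⟨ℓ, hℓ⟩ * P', fun g => ?_, ?_⟩
      · rw [hcoeff, hHO]
        have hchar : heckeChar p ℓ = 0 := by
          unfold heckeChar
          rw [if_pos (by rw [hℓp])]
        simp only [hchar, zero_mul, ite_self, add_zero]
        rw [hk', mul_comm]
      · rw [map_mul, heisX, hP'e, eisensteinSystem_of_dvd (by simp [hℓp]), one_mul, hk', hℓp,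
          eisCoeff_mul_self hp hk'pos]
    · have hndvd : ¬ ℓ ∣ p := fun h => hℓp ((Nat.prime_dvd_prime_iff_eq hℓ hp).1 h)
      have hchar : heckeChar p ℓ = (ℓ : ℂ) := by
        unfold heckeChar
        rw [if_neg hndvd]
      by_cases hℓk' : ℓ ∣ k'
      · obtain ⟨k'', hk''⟩ := hℓk'
        have hk''pos : 0 < k'' :=
          Nat.pos_of_ne_zero (fun h0 => by rw [h0, mul_zero] at hk''; omega)
        have hk''lt : k'' < k := by
          have : k'' < k' := by
            rw [hk'']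
            exact lt_mul_of_one_lt_left hk''pos hℓ.one_lt
          omega
        obtain ⟨P'', hP''a, hP''e⟩ := ih k'' hk''lt hk''pos
        refine ⟨heckeGen ⟨ℓ, hℓ⟩ * P' - MvPolynomial.C (ℓ : ℤ) * P'', fun g => ?_, ?_⟩
        · have e1 : opC p (heckeGen ⟨ℓ, hℓ⟩ * P' - MvPolynomial.C (ℓ : ℤ) * P'') g =
              opC p (heckeGen ⟨ℓ, hℓ⟩ * P') g - (ℓ : ℂ) • opC p P'' g := by
            have hC : opC p (MvPolynomial.C (ℓ : ℤ)) = ((ℓ : ℤ) : ℂ) • (1 : Module.End ℂ _) := by
              rw [opC_apply, heckeEvalForms_C]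
              ext x
              simp
            rw [map_sub, LinearMap.sub_apply, map_mul (opC p) (MvPolynomial.C (ℓ : ℤ)) P'', hC]
            simp
          rw [e1, hp_qCoeff_sub, hp_qCoeff_smul, hcoeff, hHO, hP''a, hchar]
          have hd : ℓ ∣ k' := ⟨k'', hk''⟩
          have hdiv : k' / ℓ = k'' := by
            rw [hk'', Nat.mul_div_cancel_left _ hℓ.pos]
          simp only [if_pos hd, hdiv]
          rw [hk', mul_comm k' ℓ]
          ring
        · rw [map_sub, map_mul, map_mul, heisX, hP'e, hP''e,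
            eisensteinSystem_of_not_dvd (by simpa using hndvd)]
          have hC : eisEval p (MvPolynomial.C (ℓ : ℤ)) = ℓ := by
            show MvPolynomial.aeval (eisensteinSystem p) (MvPolynomial.C (ℓ : ℤ)) = _
            rw [MvPolynomial.aeval_C]
            rfl
          rw [hC, hk', hk'', eisCoeff_mul_prime_of_dvd hp hℓ hℓp hk''pos]
      · refine ⟨heckeGen ⟨ℓ, hℓ⟩ * P', fun g => ?_, ?_⟩
        · rw [hcoeff, hHO]
          simp only [if_neg hℓk', add_zero]
          rw [hk', mul_comm]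
        · rw [map_mul, heisX, hP'e, eisensteinSystem_of_not_dvd (by simpa using hndvd), hk',
            eisCoeff_mul_prime_of_not_dvd hp hℓ hℓp hk'pos hℓk']

end Fermat.Agent.S16lib

end
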