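/-
S16 library, piece W3 (helper18): the upper bound for Eisenstein congruences follows from the
upper bound for modular forms congruent to a constant (`G = 24 (E - f) / gcd (p - 1, 24 m)`).
Helper lemmas are prefixed `rd_`.
-/
import Mathlib
import Fermat.Agent.S16lib.Defs
import Fermat.Agent.S16lib.Eis
import Fermat.Agent.S16lib.HeckePoly

set_option autoImplicit false

noncomputable section

namespace Fermat.Agent.S16lib

open ModularCurve CuspForm CongruenceSubgroup ModularFormClass Fermat.Agent.S49lib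

/-- The `n`-th `q`-coefficient as a `ℂ`-linear functional on modular forms. -/
def rd_qCoeffLin (N : ℕ) (k : ℤ) (n : ℕ) : ModularForm (Gamma0 N) k →ₗ[ℂ] ℂ where
  toFun f := qCoeff f n
  map_add' f g := by
    simp only [qCoeff]
    have h1 : ⇑(f + g) = ⇑f + ⇑g := rfl
    rw [h1, ModularForm.qExpansion_add one_pos (one_mem_strictPeriods N) f g, map_add]
  map_smul' c f := by
    have h1 : ⇑(c • f) = c • ⇑f := rfl
    simp only [qCoeff, h1]
    rw [ModularForm.qExpansion_smul one_pos (one_mem_strictPeriods N) c f]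
    simp

theorem rd_qCoeffLin_apply (N : ℕ) (k : ℤ) (n : ℕ) (f : ModularForm (Gamma0 N) k) :
    rd_qCoeffLin N k n f = qCoeff f n := rfl

theorem rd_qCoeff_toModularForm (N : ℕ) (k : ℤ) (n : ℕ) (f : CuspForm (Gamma0 N) k) :
    rd_qCoeffLin N k n (CuspForm.toModularFormₗ f) = qCoeff f n := rfl

/-- arithmetic: `24 m / gcd (p - 1, 24 m) ∣ 24 / gcd (p - 1, 12)` implies
`m ∣ (p - 1) / gcd (p - 1, 12)`. -/
theorem rd_arith (q m : ℕ) (hm : 0 < m)
    (h : 24 * m / Nat.gcd q (24 * m) ∣ 24 / Nat.gcd q 12) : m ∣ q / Nat.gcd q 12 := by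
  have hg12 : Nat.gcd q 12 ∣ 24 := (Nat.gcd_dvd_right q 12).trans ⟨2, rfl⟩
  have hgpos : 0 < Nat.gcd q 12 := Nat.gcd_pos_of_pos_right q (by norm_num)
  have hDpos : 0 < Nat.gcd q (24 * m) := Nat.gcd_pos_of_pos_right q (by positivity)
  obtain ⟨t, ht⟩ := h
  have hD : Nat.gcd q (24 * m) * (24 * m / Nat.gcd q (24 * m)) = 24 * m :=
    Nat.mul_div_cancel' (Nat.gcd_dvd_right q (24 * m))
  have hg : Nat.gcd q 12 * (24 / Nat.gcd q 12) = 24 := Nat.mul_div_cancel' hg12
  -- `D = m * g * t`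
  have key : Nat.gcd q (24 * m) = m * Nat.gcd q 12 * t := by
    have h1 : 24 * Nat.gcd q (24 * m) = 24 * (m * Nat.gcd q 12 * t) := by
      calc 24 * Nat.gcd q (24 * m)
          = Nat.gcd q (24 * m) * (Nat.gcd q 12 * (24 / Nat.gcd q 12)) := by rw [hg]; ring
        _ = Nat.gcd q 12 * t * (Nat.gcd q (24 * m) * (24 * m / Nat.gcd q (24 * m))) := by
            rw [ht]; ring
        _ = 24 * (m * Nat.gcd q 12 * t) := by rw [hD]; ring
    exact Nat.eq_of_mul_eq_mul_left (by norm_num) h1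
  have hdvd : m * Nat.gcd q 12 ∣ q := by
    have : m * Nat.gcd q 12 ∣ Nat.gcd q (24 * m) := ⟨t, key⟩
    exact this.trans (Nat.gcd_dvd_left q (24 * m))
  obtain ⟨e, he⟩ := hdvd
  refine ⟨e, ?_⟩
  apply Nat.div_eq_of_eq_mul_right hgpos
  calc q = m * Nat.gcd q 12 * e := he
    _ = Nat.gcd q 12 * (m * e) := by ring

/-- **W3**, with the Eisenstein series as a hypothesis. -/
theorem rd_upperBound_of (p : ℕ) [Fact p.Prime]
    (hE : ∃ E : ModularForm (Gamma0 p) 2, qCoeff E 0 = ((p : ℂ) - 1) / 24 ∧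
      ∀ k : ℕ, 0 < k → qCoeff E k = (eisCoeff p k : ℂ))
    (h : UpperBoundForm p) : UpperBound p := by
  have hp : p.Prime := Fact.out
  intro m hm hcong
  obtain ⟨f, hf⟩ := hcong
  obtain ⟨E, hE0, hEk⟩ := hE
  unfold eisensteinNumerator
  apply rd_arith (p - 1) m hm
  set D := Nat.gcd (p - 1) (24 * m) with hDdef
  have hDpos : 0 < D := Nat.gcd_pos_of_pos_right _ (by positivity)
  have hDc : (D : ℂ) ≠ 0 := by exact_mod_cast hDpos.ne'
  have hMpos : 0 < 24 * m / D :=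
    Nat.div_pos (Nat.le_of_dvd (by positivity) (Nat.gcd_dvd_right _ _)) hDpos
  apply h (24 * m / D) hMpos
  obtain ⟨c, hc⟩ : D ∣ p - 1 := Nat.gcd_dvd_left _ _
  obtain ⟨M, hM⟩ : D ∣ 24 * m := Nat.gcd_dvd_right _ _
  have hMeq : 24 * m / D = M := by rw [hM]; exact Nat.mul_div_cancel_left _ hDpos
  have hceq : (p - 1) / D = c := by rw [hc]; exact Nat.mul_div_cancel_left _ hDpos
  have hcop : Nat.Coprime c M := by
    have := Nat.coprime_div_gcd_div_gcd (m := p - 1) (n := 24 * m) hDpos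
    rwa [← hDdef, hMeq, hceq] at this
  rw [hMeq]
  have hpc : ((p : ℂ) - 1) = (D : ℂ) * (c : ℂ) := by
    have h1 : ((p - 1 : ℕ) : ℂ) = (p : ℂ) - 1 := by
      rw [Nat.cast_sub hp.one_le]; simp
    rw [← h1, hc]; push_cast; ring
  have hMc : (24 : ℂ) * (m : ℂ) = (D : ℂ) * (M : ℂ) := by exact_mod_cast congrArg (Nat.cast : ℕ → ℂ) hM
  refine ⟨((24 : ℂ) / D) • (E - CuspForm.toModularFormₗ f), (c : ℤ), ?_, ?_, ?_⟩
  · exact_mod_cast (Nat.isCoprime_iff_coprime.2 hcop)
  · have h1 := (rd_qCoeffLin p 2 0).map_smul ((24 : ℂ) / D) (E - CuspForm.toModularFormₗ f)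
    rw [map_sub, rd_qCoeff_toModularForm, rd_qCoeffLin_apply, rd_qCoeffLin_apply,
      qCoeff_zero_index, hE0, hpc] at h1
    rw [h1, smul_eq_mul]
    push_cast
    field_simp
    ring
  · intro k hk
    obtain ⟨a, ha, b, hb⟩ := hf k hk
    refine ⟨-b, ?_⟩
    have h1 := (rd_qCoeffLin p 2 k).map_smul ((24 : ℂ) / D) (E - CuspForm.toModularFormₗ f)
    rw [map_sub, rd_qCoeff_toModularForm, rd_qCoeffLin_apply, rd_qCoeffLin_apply,
      hEk k hk, ha] at h1
    rw [h1, smul_eq_mul]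
    have h2 : ((eisCoeff p k : ℤ) : ℂ) - (a : ℂ) = -((m : ℂ) * (b : ℂ)) := by
      have : (a : ℂ) - (eisCoeff p k : ℂ) = (m : ℂ) * (b : ℂ) := by exact_mod_cast congrArg (Int.cast : ℤ → ℂ) hb
      linear_combination -this
    rw [h2]
    have h3 : (24 : ℂ) / D * -((m : ℂ) * (b : ℂ)) = -((24 * (m : ℂ)) * b / D) := by ring
    rw [h3, hMc]
    push_cast
    field_simp

/-- **W3** -/
theorem upperBound_of_upperBoundForm (p : ℕ) [Fact p.Prime] (h : UpperBoundForm p) :
    UpperBound p :=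
  rd_upperBound_of p (exists_eisForm p) h

end Fermat.Agent.S16lib

end
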