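/-
S16 library, piece W1 (helper18): `T/I ≅ ℤ/J`, where `J = eis (ker Φ)`.
Helper lemmas are prefixed `crd_`.
-/
import Mathlib
import Fermat.Agent.S16lib.Defs

set_option autoImplicit false

noncomputable section

namespace Fermat.Agent.S16lib

open ModularCurve CuspForm CongruenceSubgroup

/-- Two surjections `Φ : A → B`, `e : A → C`: `B / Φ(ker e) ≅ C / e(ker Φ)`. -/
def crd_quotEquiv {A B C : Type*} [CommRing A] [CommRing B] [CommRing C] (Φ : A →+* B) (e : A →+* C)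
    (hΦ : Function.Surjective Φ) (he : Function.Surjective e) :
    (B ⧸ Ideal.map Φ (RingHom.ker e)) ≃+* (C ⧸ Ideal.map e (RingHom.ker Φ)) := by
  let f : A →+* B ⧸ Ideal.map Φ (RingHom.ker e) := (Ideal.Quotient.mk _).comp Φ
  let g : A →+* C ⧸ Ideal.map e (RingHom.ker Φ) := (Ideal.Quotient.mk _).comp e
  have hf : Function.Surjective f := Ideal.Quotient.mk_surjective.comp hΦ
  have hg : Function.Surjective g := Ideal.Quotient.mk_surjective.comp he
  have kf : RingHom.ker f = RingHom.ker e ⊔ RingHom.ker Φ := by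
    rw [← RingHom.comap_ker, Ideal.mk_ker, Ideal.comap_map_of_surjective Φ hΦ]
    rfl
  have kg : RingHom.ker g = RingHom.ker Φ ⊔ RingHom.ker e := by
    rw [← RingHom.comap_ker, Ideal.mk_ker, Ideal.comap_map_of_surjective e he]
    rfl
  have hk : RingHom.ker f = RingHom.ker g := by rw [kf, kg, sup_comm]
  exact ((RingHom.quotientKerEquivOfSurjective hf).symm.trans
    (Ideal.quotEquivOfEq hk)).trans (RingHom.quotientKerEquivOfSurjective hg)

theorem eisEval_surjective (p : ℕ) : Function.Surjective (eisEval p) := by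
  intro a
  refine ⟨MvPolynomial.C a, ?_⟩
  show MvPolynomial.aeval (eisensteinSystem p) (MvPolynomial.C a) = a
  rw [MvPolynomial.aeval_C]
  rfl

theorem crd_exists_coe_eq (N : ℕ) [NeZero N] (k : ℤ)
    (t : Module.End ℂ (CuspForm (Gamma0 N) k)) (hmem : t ∈ Algebra.adjoin ℤ (heckeGenerators N k ∅)) :
    ∃ a : HeckeAlg, ((heckeEvalForms N k a : heckeAlgebra N k ∅) :
      Module.End ℂ (CuspForm (Gamma0 N) k)) = t := by
  induction hmem using Algebra.adjoin_induction with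
  | mem x hx =>
    rcases hx with ⟨ℓ, hℓ, hℓN, hℓS, rfl⟩ | ⟨q, hqN, hq, hqS, rfl⟩
    · refine ⟨heckeGen ⟨ℓ, hℓ⟩, ?_⟩
      rw [heckeEvalForms_heckeGen_of_not_dvd (N := N) (k := k) (ℓ := ⟨ℓ, hℓ⟩) hℓN]
      rfl
    · refine ⟨heckeGen ⟨q, hq⟩, ?_⟩
      rw [heckeEvalForms_heckeGen_of_dvd (N := N) (k := k) (q := ⟨q, hq⟩) hqN]
      rfl
  | algebraMap r =>
    refine ⟨MvPolynomial.C r, ?_⟩
    rw [heckeEvalForms_C]
    rfl
  | add x y hx hy ihx ihy =>
    obtain ⟨a, ha⟩ := ihx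
    obtain ⟨b, hb⟩ := ihy
    refine ⟨a + b, ?_⟩
    rw [map_add, ← ha, ← hb]
    rfl
  | mul x y hx hy ihx ihy =>
    obtain ⟨a, ha⟩ := ihx
    obtain ⟨b, hb⟩ := ihy
    refine ⟨a * b, ?_⟩
    rw [map_mul, ← ha, ← hb]
    rfl

theorem heckeEvalForms_surjective (N : ℕ) [NeZero N] (k : ℤ) :
    Function.Surjective (heckeEvalForms N k) := by
  rintro ⟨t, ht⟩
  obtain ⟨a, ha⟩ := crd_exists_coe_eq N k t ht
  exact ⟨a, Subtype.ext ha⟩

theorem heckePhi_surjective (p : ℕ) [NeZero p] : Function.Surjective (heckePhi p) :=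
  (latticeRestrictHom_surjective p ∅).comp (heckeEvalForms_surjective p 2)

/-- `T/I ≅ ℤ/J`. -/
def quotEquivInt (p : ℕ) [NeZero p] :
    (↥(heckeLatticeAlgebra p ∅) ⧸
        Ideal.map ((latticeRestrictHom p ∅).toRingHom.comp (heckeEvalForms p 2))
          (eisensteinIdeal p)) ≃+*
      (ℤ ⧸ Ideal.map (eisEval p) (RingHom.ker (heckePhi p))) :=
  crd_quotEquiv (heckePhi p) (eisEval p) (heckePhi_surjective p) (eisEval_surjective p)

/-- **W1**: if `J = (m₀)` then `|T/I| = m₀`. -/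
theorem card_quotient_eq (p : ℕ) [Fact p.Prime] (m₀ : ℕ)
    (h : Ideal.map (eisEval p) (RingHom.ker (heckePhi p)) = Ideal.span {(m₀ : ℤ)}) :
    Nat.card (↥(heckeLatticeAlgebra p ∅) ⧸
        Ideal.map ((latticeRestrictHom p ∅).toRingHom.comp (heckeEvalForms p 2))
          (eisensteinIdeal p)) = m₀ := by
  rw [Nat.card_congr (quotEquivInt p).toEquiv, Nat.card_congr (Ideal.quotEquivOfEq h).toEquiv,
    Nat.card_congr (Int.quotientSpanNatEquivZMod m₀).toEquiv, Nat.card_zmod]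

end Fermat.Agent.S16lib

end
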