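/-
S16 library, piece W2 (helper18): the `q`-expansion pairing between the lattice Hecke algebra
`T` and the lattice `L` of cusp forms with integral `q`-expansion, and the resulting
Eisenstein congruence.  Helper lemmas are prefixed `du_`.
-/
import Mathlib
import Fermat.Agent.S16lib.Defs
import Fermat.Agent.S16lib.Card
import Fermat.Agent.S16lib.HeckePoly

set_option autoImplicit false

noncomputable section

namespace Fermat.Agent.S16lib

open ModularCurve CuspForm CongruenceSubgroup ModularFormClass Fermat.Agent.S49lib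

variable (p : ℕ) [NeZero p]

omit [NeZero p] in
theorem du_exists_coef (f : ↥(intLattice p 2)) (n : ℕ) :
    ∃ m : ℤ, qCoeff (f : CuspForm (Gamma0 p) 2) n = (m : ℂ) :=
  (mem_intLattice_iff' f.1).1 f.2 n

/-- The `n`-th coefficient of an element of the lattice, as an integer. -/
def coefZ (n : ℕ) : ↥(intLattice p 2) →ₗ[ℤ] ℤ where
  toFun f := Classical.choose (du_exists_coef p f n)
  map_add' f g := by
    apply Int.cast_injective (α := ℂ)
    rw [Int.cast_add, ← Classical.choose_spec (du_exists_coef p f n),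
      ← Classical.choose_spec (du_exists_coef p g n),
      ← Classical.choose_spec (du_exists_coef p (f + g) n)]
    exact (qCoeffLin p 2 n).map_add f.1 g.1
  map_smul' c f := by
    apply Int.cast_injective (α := ℂ)
    rw [RingHom.id_apply, smul_eq_mul, Int.cast_mul,
      ← Classical.choose_spec (du_exists_coef p f n),
      ← Classical.choose_spec (du_exists_coef p (c • f) n)]
    exact qCoeff_zsmul' c f.1 n

omit [NeZero p] in
theorem coefZ_spec (n : ℕ) (f : ↥(intLattice p 2)) :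
    ((coefZ p n f : ℤ) : ℂ) = qCoeff (f : CuspForm (Gamma0 p) 2) n :=
  (Classical.choose_spec (du_exists_coef p f n)).symm

theorem heckePhi_apply_coe (P : HeckeAlg) (f : ↥(intLattice p 2)) :
    ((((heckePhi p P : ↥(heckeLatticeAlgebra p ∅)) : Module.End ℤ ↥(intLattice p 2)) f :
      ↥(intLattice p 2)) : CuspForm (Gamma0 p) 2) = opC p P f.1 := rfl

/-- the pairing, as a map `T → Dual L` -/
def pairT : ↥(heckeLatticeAlgebra p ∅) →ₗ[ℤ] (↥(intLattice p 2) →ₗ[ℤ] ℤ) :=
  (LinearMap.llcomp ℤ ↥(intLattice p 2) ↥(intLattice p 2) ℤ (coefZ p 1)).comp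
    (heckeLatticeAlgebra p ∅).val.toLinearMap

theorem pairT_apply (t : ↥(heckeLatticeAlgebra p ∅)) (f : ↥(intLattice p 2)) :
    pairT p t f = coefZ p 1 ((t : Module.End ℤ ↥(intLattice p 2)) f) := rfl

/-- the pairing, as a map `L → Dual T` -/
def pairL : ↥(intLattice p 2) →ₗ[ℤ] (↥(heckeLatticeAlgebra p ∅) →ₗ[ℤ] ℤ) :=
  (pairT p).flip

theorem pairL_apply (t : ↥(heckeLatticeAlgebra p ∅)) (f : ↥(intLattice p 2)) :
    pairL p f t = coefZ p 1 ((t : Module.End ℤ ↥(intLattice p 2)) f) := rfl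

/-- `a_k (f) = ⟨T_k, f⟩` -/
theorem du_coef_eq (hp : p.Prime) (k : ℕ) (hk : 0 < k) :
    ∃ P : HeckeAlg, (∀ f : ↥(intLattice p 2), pairL p f (heckePhi p P) = coefZ p k f) ∧
      eisEval p P = eisCoeff p k := by
  obtain ⟨P, hP, hPe⟩ := exists_heckePoly p hp k hk
  refine ⟨P, fun f => ?_, hPe⟩
  apply Int.cast_injective (α := ℂ)
  rw [pairL_apply, coefZ_spec, coefZ_spec, heckePhi_apply_coe, hP]

theorem pairL_injective (hp : p.Prime) : Function.Injective (pairL p) := by
  rw [injective_iff_map_eq_zero]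
  intro f hf
  apply Subtype.ext
  apply eq_zero_of_forall_qCoeff
  intro n
  rcases Nat.eq_zero_or_pos n with rfl | hn
  · exact qCoeff_zero_index _
  · obtain ⟨P, hP, -⟩ := du_coef_eq p hp n hn
    have h1 := hP f
    rw [hf, LinearMap.zero_apply] at h1
    rw [← coefZ_spec, ← h1, Int.cast_zero]

theorem pairT_injective (hp : p.Prime) : Function.Injective (pairT p) := by
  rw [injective_iff_map_eq_zero]
  intro t ht
  apply Subtype.ext
  apply LinearMap.ext
  intro f
  have hcomm : ∀ (s : ↥(heckeLatticeAlgebra p ∅)) (g : ↥(intLattice p 2)),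
      (t : Module.End ℤ ↥(intLattice p 2)) ((s : Module.End ℤ ↥(intLattice p 2)) g) =
        (s : Module.End ℤ ↥(intLattice p 2)) ((t : Module.End ℤ ↥(intLattice p 2)) g) := by
    intro s g
    have h := congrArg (fun u : ↥(heckeLatticeAlgebra p ∅) =>
      (u : Module.End ℤ ↥(intLattice p 2)) g) (mul_comm t s)
    exact h
  show (t : Module.End ℤ ↥(intLattice p 2)) f = 0
  apply pairL_injective p hp
  apply LinearMap.ext
  intro s
  rw [pairL_apply, ← hcomm, ← pairT_apply, ht, map_zero]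
  rfl

/-- Every functional on `T` is, up to a nonzero integer multiple, of the form `⟨·, f⟩`. -/
theorem du_exists_dual (hp : p.Prime) (ψ : ↥(heckeLatticeAlgebra p ∅) →ₗ[ℤ] ℤ) :
    ∃ (N : ℤ) (f : ↥(intLattice p 2)), N ≠ 0 ∧ N • ψ = pairL p f := by
  have := intLattice.moduleFinite p
  have := intLattice.moduleFree p
  have h1 : Module.finrank ℤ ↥(intLattice p 2) ≤
      Module.finrank ℤ (↥(heckeLatticeAlgebra p ∅) →ₗ[ℤ] ℤ) :=
    LinearMap.finrank_le_finrank_of_injective (pairL_injective p hp)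
  have h2 : Module.finrank ℤ ↥(heckeLatticeAlgebra p ∅) ≤
      Module.finrank ℤ (↥(intLattice p 2) →ₗ[ℤ] ℤ) :=
    LinearMap.finrank_le_finrank_of_injective (pairT_injective p hp)
  rw [Module.finrank_linearMap_self] at h1 h2
  have h3 : Module.finrank ℤ (LinearMap.range (pairL p)) =
      Module.finrank ℤ ↥(intLattice p 2) :=
    LinearMap.finrank_range_of_inj (pairL_injective p hp)
  have h4 := Submodule.finrank_quotient_add_finrank (LinearMap.range (pairL p))
  rw [h3, Module.finrank_linearMap_self] at h4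
  have h5 : Module.finrank ℤ ((↥(heckeLatticeAlgebra p ∅) →ₗ[ℤ] ℤ) ⧸
      LinearMap.range (pairL p)) = 0 := by omega
  rw [Module.finrank_eq_zero_iff_isTorsion] at h5
  obtain ⟨⟨N, hN⟩, hNψ⟩ := @h5 (Submodule.Quotient.mk ψ)
  have hN0 : N ≠ 0 := nonZeroDivisors.ne_zero hN
  have hmem : N • ψ ∈ LinearMap.range (pairL p) := by
    rw [← Submodule.Quotient.mk_eq_zero, Submodule.Quotient.mk_smul]
    exact hNψ
  obtain ⟨f, hf⟩ := hmem
  exact ⟨N, f, hN0, hf.symm⟩

/-- A linear functional on `T` lifting the Eisenstein character modulo `m`. -/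
theorem du_exists_lift (m : ℕ)
    (hm : ∀ P : HeckeAlg, heckePhi p P = 0 → (m : ℤ) ∣ eisEval p P) :
    ∃ ψ : ↥(heckeLatticeAlgebra p ∅) →ₗ[ℤ] ℤ,
      ∀ P : HeckeAlg, (m : ℤ) ∣ ψ (heckePhi p P) - eisEval p P := by
  let g : HeckeAlg →+* ZMod m := (Int.castRingHom (ZMod m)).comp (eisEval p)
  have hg : RingHom.ker (heckePhi p) ≤ RingHom.ker g := by
    intro P hP
    rw [RingHom.mem_ker] at hP ⊢
    show ((eisEval p P : ℤ) : ZMod m) = 0
    rw [ZMod.intCast_zmod_eq_zero_iff_dvd]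
    exact hm P hP
  let χ : ↥(heckeLatticeAlgebra p ∅) →+* ZMod m :=
    RingHom.liftOfSurjective (heckePhi p) (heckePhi_surjective p) ⟨g, hg⟩
  have hχ : ∀ P, χ (heckePhi p P) = g P := fun P =>
    RingHom.liftOfRightInverse_comp_apply _ _ _ ⟨g, hg⟩ P
  have hsurj : Function.Surjective (Int.castAddHom (ZMod m)).toIntLinearMap :=
    ZMod.intCast_surjective
  obtain ⟨ψ, hψ⟩ := Module.projective_lifting_property
    (Int.castAddHom (ZMod m)).toIntLinearMap χ.toAddMonoidHom.toIntLinearMap hsurj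
  refine ⟨ψ, fun P => ?_⟩
  have h1 : ((ψ (heckePhi p P) : ℤ) : ZMod m) = χ (heckePhi p P) :=
    LinearMap.congr_fun hψ (heckePhi p P)
  rw [hχ] at h1
  rw [← ZMod.intCast_zmod_eq_zero_iff_dvd, Int.cast_sub, h1]
  exact sub_self _

/-- **W2** -/
theorem eisCong_of_forall_dvd (p : ℕ) [Fact p.Prime] (m : ℕ)
    (hm : ∀ P : HeckeAlg, heckePhi p P = 0 → (m : ℤ) ∣ eisEval p P) : EisCong p m := by
  have hp : p.Prime := Fact.out
  obtain ⟨ψ, hψ⟩ := du_exists_lift p m hm
  obtain ⟨N, f, hN, hf⟩ := du_exists_dual p hp ψ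
  refine ⟨((N : ℂ)⁻¹) • (f : CuspForm (Gamma0 p) 2), fun k hk => ?_⟩
  obtain ⟨P, hP, hPe⟩ := du_coef_eq p hp k hk
  refine ⟨ψ (heckePhi p P), ?_, ?_⟩
  · rw [hp_qCoeff_smul, ← coefZ_spec, ← hP f, ← hf]
    have hNc : (N : ℂ) ≠ 0 := by exact_mod_cast hN
    rw [LinearMap.smul_apply, smul_eq_mul, Int.cast_mul]
    field_simp
  · rw [← hPe]
    exact hψ P

end Fermat.Agent.S16lib

end
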