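/-
S16 library, piece W4 (helper18): the index of the Eisenstein ideal from the upper bound (block U)
and the lower bound (block L).  Helper lemmas are prefixed `wr_`.
-/
import Mathlib
import Fermat.Agent.S16lib.Defs
import Fermat.Agent.S16lib.Card
import Fermat.Agent.S16lib.Duality
import Fermat.Agent.S07_Lib
import Fermat.Agent.S20_Comb
import Fermat.Agent.S23

set_option autoImplicit false

noncomputable section

namespace Fermat.Agent.S16lib

open ModularCurve CuspForm CongruenceSubgroup ModularFormClass Fermat.Agent.S49lib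

theorem wr_numerator_pos (p : ℕ) (hp : p.Prime) : 0 < eisensteinNumerator p := by
  unfold eisensteinNumerator
  have h1 : 0 < p - 1 := by have := hp.two_le; omega
  exact Nat.div_pos (Nat.le_of_dvd h1 (Nat.gcd_dvd_left _ _)) (Nat.gcd_pos_of_pos_left _ h1)

/-- The lower bound is trivial when `n = 1`. -/
theorem wr_lowerBound_of_numerator_one (p : ℕ) [NeZero p] (h : eisensteinNumerator p = 1) :
    LowerBound p := by
  intro P _
  rw [h]
  exact one_dvd _

/-- `Φ P = 0` implies that `P` kills all cusp forms. -/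
theorem wr_eval_eq_zero (p : ℕ) [NeZero p] (P : HeckeAlg) (h : heckePhi p P = 0) :
    heckeEvalForms p 2 P = 0 := by
  have hint : HasIntegralStructure p 2 := Fermat.Agent.S23.result p
  have hinj := (latticeRestrictHom_bijective p ∅ hint).1
  apply hinj
  rw [map_zero]
  exact h

/-- The upper bound when there are no cusp forms. -/
theorem wr_upperBound_of_forall_eq_zero (p : ℕ) (hp : p.Prime)
    (h0 : ∀ f : CuspForm (Gamma0 p) 2, f = 0) : UpperBound p := by
  intro m hm hcong
  obtain ⟨f, hf⟩ := hcong
  obtain ⟨a, ha, hdvd⟩ := hf 1 one_pos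
  rw [h0 f] at ha
  have h1 : qCoeff ⇑(0 : CuspForm (Gamma0 p) 2) 1 = 0 := (qCoeffLin p 2 1).map_zero
  rw [h1] at ha
  have ha0 : a = 0 := by exact_mod_cast ha.symm
  rw [ha0, eisCoeff_one p hp.one_lt, zero_sub, dvd_neg] at hdvd
  have h2 : m ∣ 1 := by exact_mod_cast hdvd
  rw [Nat.dvd_one.1 h2]
  exact one_dvd _

theorem wr_dedekindPsi_prime (p : ℕ) (hp : p.Prime) : dedekindPsi p = p + 1 := by
  unfold dedekindPsi
  rw [hp.divisors, Finset.filter_insert, Finset.filter_singleton, if_pos squarefree_one,
    if_pos hp.squarefree]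
  rw [Finset.sum_insert (by simp [hp.ne_one.symm]), Finset.sum_singleton, Nat.div_one,
    Nat.div_self hp.pos, add_comm]

/-- The upper bound for `p = 2, 3`. -/
theorem wr_upperBound_small (p : ℕ) (hp : p.Prime) (h5 : p < 5) : UpperBound p := by
  have : NeZero p := ⟨hp.ne_zero⟩
  apply wr_upperBound_of_forall_eq_zero p hp
  intro f
  apply Fermat.Agent.S07lib.cuspForm_weight_two_eq_zero_of_index_le p
  rw [Fermat.Agent.S20lib.index_Gamma0 p hp.ne_zero, wr_dedekindPsi_prime p hp]
  omega

/-- **W4** -/
theorem s16_of_bounds (p : ℕ) [Fact p.Prime] (hU : UpperBound p) (hL : LowerBound p) :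
    Nat.card (↥(heckeLatticeAlgebra p ∅) ⧸
        Ideal.map ((latticeRestrictHom p ∅).toRingHom.comp (heckeEvalForms p 2))
          (eisensteinIdeal p)) = eisensteinNumerator p := by
  have hp : p.Prime := Fact.out
  set J : Ideal ℤ := Ideal.map (eisEval p) (RingHom.ker (heckePhi p)) with hJ
  obtain ⟨g, hg⟩ : ∃ g : ℤ, J = Ideal.span {g} :=
    ⟨_, (Ideal.span_singleton_generator J).symm⟩
  have hJ' : J = Ideal.span {((g.natAbs : ℕ) : ℤ)} := by rw [Int.span_natAbs, hg]
  -- every Eisenstein value of an element of the kernel is divisible by the generator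
  have hdvd : ∀ P : HeckeAlg, heckePhi p P = 0 → ((g.natAbs : ℕ) : ℤ) ∣ eisEval p P := by
    intro P hP
    have hmem : eisEval p P ∈ J := Ideal.mem_map_of_mem _ hP
    rw [hJ'] at hmem
    exact Ideal.mem_span_singleton.1 hmem
  -- the generator is positive
  have hpos : 0 < g.natAbs := by
    rcases Nat.eq_zero_or_pos g.natAbs with h0 | h0
    · exfalso
      have hall : ∀ P : HeckeAlg, heckePhi p P = 0 →
          (((eisensteinNumerator p + 1 : ℕ) : ℕ) : ℤ) ∣ eisEval p P := by
        intro P hP
        have := hdvd P hP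
        rw [h0] at this
        have h1 : eisEval p P = 0 := by simpa using this
        rw [h1]
        exact dvd_zero _
      have h2 := hU _ (Nat.succ_pos _) (eisCong_of_forall_dvd p _ hall)
      have h3 := Nat.le_of_dvd (wr_numerator_pos p hp) h2
      omega
    · exact h0
  -- upper bound
  have h1 : g.natAbs ∣ eisensteinNumerator p := hU _ hpos (eisCong_of_forall_dvd p _ hdvd)
  -- lower bound
  have h2 : eisensteinNumerator p ∣ g.natAbs := by
    have hmem : ((g.natAbs : ℕ) : ℤ) ∈ J := by
      rw [hJ']
      exact Ideal.mem_span_singleton_self _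
    rw [hJ, Ideal.mem_map_iff_of_surjective _ (eisEval_surjective p)] at hmem
    obtain ⟨P, hP, hPe⟩ := hmem
    have := hL P (wr_eval_eq_zero p P hP)
    rw [hPe] at this
    exact_mod_cast this
  rw [card_quotient_eq p g.natAbs hJ'.symm.symm, Nat.dvd_antisymm h1 h2]

end Fermat.Agent.S16lib

end
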