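/-
S16 library (helper18): final assembly of S16 from block L (`LowerBound p`) and block U
(`UpperBoundForm p` for `p ≥ 5`).
-/
import Mathlib
import Fermat.Agent.S16lib.Wire
import Fermat.Agent.S16lib.Reduce

set_option autoImplicit false

noncomputable section

namespace Fermat.Agent.S16lib

open ModularCurve CuspForm CongruenceSubgroup

/-- The upper bound for every prime `p`, from block U. -/
theorem upperBound_of (p : ℕ) [Fact p.Prime] (hUF : 5 ≤ p → UpperBoundForm p) : UpperBound p := by
  rcases Nat.lt_or_ge p 5 with h | h
  · exact wr_upperBound_small p Fact.out h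
  · exact upperBound_of_upperBoundForm p (hUF h)

/-- S16 from block L and block U. -/
theorem s16_of (p : ℕ) [Fact p.Prime] (hL : LowerBound p) (hUF : 5 ≤ p → UpperBoundForm p) :
    Nat.card (↥(heckeLatticeAlgebra p ∅) ⧸
        Ideal.map ((latticeRestrictHom p ∅).toRingHom.comp (heckeEvalForms p 2))
          (eisensteinIdeal p)) = eisensteinNumerator p :=
  s16_of_bounds p (upperBound_of p hUF) hL

end Fermat.Agent.S16lib

end
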