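/-
S16 library (item 16), piece S (helper11), part 2: the INTEGRAL BASIS of level-one modular forms.

`sd_basis`: a modular form `F` of level one and weight `k = 12 m + 4 a + 6 b` whose `q`-expansion `φ`
has integer coefficients is `E₄^a E₆^b ∑_{j ≤ m} g_j Δ^j (E₄³)^{m-j}` with `g_j ∈ ℤ`
(identity in `ℤ[[q]]`).   No sorry.
-/
import Mathlib
import Fermat.Agent.S16lib.SwDInt

set_option autoImplicit false

open UpperHalfPlane ModularForm ModularFormClass EisensteinSeries
open scoped MatrixGroups ModularForm Topology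

namespace Fermat.Agent.S16lib

noncomputable section

/-- `sdDelta = X * unit`: division by `Δ` in `ℤ[[q]]`. -/
theorem sd_exists_eq_delta_mul (χ : PowerSeries ℤ) (h0 : PowerSeries.constantCoeff χ = 0) :
    ∃ ψ : PowerSeries ℤ, χ = sdDelta * ψ := by
  obtain ⟨χ₁, hχ₁⟩ := PowerSeries.X_dvd_iff.mpr h0
  refine ⟨χ₁ * ModularCurve.dedekindEtaUnitInv, ?_⟩
  rw [sdDelta, hχ₁]
  have h := ModularCurve.dedekindEtaUnit_mul_inv
  calc PowerSeries.X * χ₁ = PowerSeries.X * χ₁ * (ModularCurve.dedekindEtaUnit *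
        ModularCurve.dedekindEtaUnitInv) := by rw [h, mul_one]
    _ = _ := by ring

theorem sdι_delta_ne_zero : sdι sdDelta ≠ 0 := by
  intro h
  have h1 := congrArg (PowerSeries.coeff 1) h
  rw [PowerSeries.coeff_map, sdDelta] at h1
  have h3 : PowerSeries.coeff 1 (PowerSeries.X * ModularCurve.dedekindEtaUnit) = 1 := by
    rw [show (1 : ℕ) = 0 + 1 from rfl, PowerSeries.coeff_succ_X_mul,
      PowerSeries.coeff_zero_eq_constantCoeff_apply, ModularCurve.constantCoeff_dedekindEtaUnit]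
  rw [h3] at h1
  simp at h1

/-- **The reduction step**: subtract the constant term times a form with constant term `1` and
divide by `Δ`. -/
theorem sd_step {k : ℤ} (F Bf : ModularForm 𝒮ℒ k) (φ B : PowerSeries ℤ)
    (hF : qExpansion 1 F = sdι φ) (hB : qExpansion 1 Bf = sdι B)
    (hB0 : PowerSeries.constantCoeff B = 1) :
    ∃ (H : ModularForm 𝒮ℒ (k - 12)) (ψ : PowerSeries ℤ), qExpansion 1 H = sdι ψ ∧
      φ = PowerSeries.C (PowerSeries.constantCoeff φ) * B + sdDelta * ψ := by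
  set c : ℤ := PowerSeries.constantCoeff φ with hc
  set G : ModularForm 𝒮ℒ k := F - (c : ℂ) • Bf with hG
  have hGq : qExpansion 1 G = sdι (φ - PowerSeries.C c * B) := by
    have h1 : (⇑G : ℍ → ℂ) = ⇑F - ⇑((c : ℂ) • Bf) := rfl
    have h2 : (⇑((c : ℂ) • Bf) : ℍ → ℂ) = (c : ℂ) • ⇑Bf := rfl
    rw [h1, ModularForm.qExpansion_sub one_pos one_mem_strictPeriods_SL F ((c : ℂ) • Bf), h2,
      ModularForm.qExpansion_smul one_pos one_mem_strictPeriods_SL, hF, hB, map_sub, map_mul,
      PowerSeries.smul_eq_C_mul]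
    congr 2
    ext n
    simp
  have hχ0 : PowerSeries.constantCoeff (φ - PowerSeries.C c * B) = 0 := by
    rw [map_sub, map_mul, hB0, PowerSeries.constantCoeff_C, mul_one, hc, sub_self]
  have hcusp : (qExpansion 1 G).coeff 0 = 0 := by
    rw [hGq, PowerSeries.coeff_map, PowerSeries.coeff_zero_eq_constantCoeff_apply, hχ0]
    simp
  obtain ⟨ψ, hψ⟩ := sd_exists_eq_delta_mul _ hχ0
  refine ⟨CuspForm.discriminantEquiv (ModularForm.toCuspForm G hcusp), ψ, ?_, ?_⟩
  · have h := ModularForm.qExpansion_eq_qExpansion_discriminant_mul G hcusp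
    rw [hGq, hψ, map_mul, sd_qExpansion_Delta] at h
    exact (mul_left_cancel₀ sdι_delta_ne_zero h).symm
  · rw [← hψ]
    ring

/-- `E₄^n E₆^b` as a modular form of weight `k = 4 n + 6 b`. -/
def sdMon (n b : ℕ) (k : ℤ) (h : (n : ℤ) * 4 + (b : ℤ) * 6 = k) : ModularForm 𝒮ℒ k :=
  ModularForm.mcast h ((E₄.pow n).mul (E₆.pow b))

theorem sdMon_qExpansion (n b : ℕ) (k : ℤ) (h : (n : ℤ) * 4 + (b : ℤ) * 6 = k) :
    qExpansion 1 (sdMon n b k h) = sdι (sdE4 ^ n * sdE6 ^ b) := by
  unfold sdMon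
  rw [ModularForm.qExpansion_mcast, ModularForm.qExpansion_mul one_pos one_mem_strictPeriods_SL,
    ModularForm.qExpansion_pow one_pos one_mem_strictPeriods_SL,
    ModularForm.qExpansion_pow one_pos one_mem_strictPeriods_SL, sd_qExpansion_E4,
    sd_qExpansion_E6, map_mul, map_pow, map_pow]

theorem sdMon_constantCoeff (n b : ℕ) :
    PowerSeries.constantCoeff (sdE4 ^ n * sdE6 ^ b) = 1 := by
  rw [map_mul, map_pow, map_pow, sd_coeff_zero_E4, sd_coeff_zero_E6, one_pow, one_pow, one_mul]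

/-- a level one form of weight `≤ 2`, `≠ 0`, even... here: negative or `2`, vanishes -/
theorem sd_eq_zero_of_weight {k : ℤ} (hk : k < 0 ∨ k = 2) (H : ModularForm 𝒮ℒ k) :
    (⇑H : ℍ → ℂ) = 0 := by
  rcases hk with hk | rfl
  · exact levelOne_neg_weight_eq_zero hk H
  · have h := rank_zero_iff_forall_zero.mp levelOne_weight_two_rank_zero H
    rw [h]
    rfl

/-- **Integral basis.** -/
theorem sd_basis (m : ℕ) : ∀ (a b : ℕ) (k : ℤ), k = 12 * (m : ℤ) + 4 * (a : ℤ) + 6 * (b : ℤ) →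
    a ≤ 2 → b ≤ 1 → ∀ (F : ModularForm 𝒮ℒ k) (φ : PowerSeries ℤ), qExpansion 1 F = sdι φ →
    ∃ g : Polynomial ℤ, g.natDegree ≤ m ∧
      φ = sdE4 ^ a * sdE6 ^ b * ∑ j ∈ Finset.range (m + 1),
        PowerSeries.C (g.coeff j) * sdDelta ^ j * (sdE4 ^ 3) ^ (m - j) := by
  induction m with
  | zero =>
    intro a b k hk ha hb F φ hF
    have hw : ((a : ℕ) : ℤ) * 4 + ((b : ℕ) : ℤ) * 6 = k := by rw [hk]; push_cast; ring
    obtain ⟨H, ψ, hH, hφ⟩ := sd_step F (sdMon a b k hw) φ (sdE4 ^ a * sdE6 ^ b) hF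
      (sdMon_qExpansion a b k hw) (sdMon_constantCoeff a b)
    have hk12 : k - 12 < 0 ∨ k - 12 = 2 := by
      have ha' : (a : ℤ) ≤ 2 := by exact_mod_cast ha
      have hb' : (b : ℤ) ≤ 1 := by exact_mod_cast hb
      have ha0 : (0 : ℤ) ≤ a := Int.natCast_nonneg a
      have hb0 : (0 : ℤ) ≤ b := Int.natCast_nonneg b
      omega
    have hH0 : (⇑H : ℍ → ℂ) = 0 := sd_eq_zero_of_weight hk12 H
    have hψ : ψ = 0 := by
      apply sdι_injective
      rw [← hH, hH0, qExpansion_zero, map_zero]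
    generalize PowerSeries.constantCoeff φ = c at hφ
    refine ⟨Polynomial.C c, ?_, ?_⟩
    · simp
    · rw [hψ, mul_zero, add_zero] at hφ
      rw [Finset.sum_range_one, Polynomial.coeff_C_zero, pow_zero, mul_one, Nat.sub_zero,
        pow_zero, mul_one]
      rw [hφ]
      ring
  | succ m ih =>
    intro a b k hk ha hb F φ hF
    have hw : ((a + 3 * (m + 1) : ℕ) : ℤ) * 4 + ((b : ℕ) : ℤ) * 6 = k := by
      rw [hk]; push_cast; ring
    obtain ⟨H, ψ, hH, hφ⟩ := sd_step F (sdMon (a + 3 * (m + 1)) b k hw) φ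
      (sdE4 ^ (a + 3 * (m + 1)) * sdE6 ^ b) hF
      (sdMon_qExpansion _ b k hw) (sdMon_constantCoeff _ b)
    have hk' : k - 12 = 12 * (m : ℤ) + 4 * (a : ℤ) + 6 * (b : ℤ) := by
      rw [hk]; push_cast; ring
    obtain ⟨gH, hgdeg, hg⟩ := ih a b (k - 12) hk' ha hb H ψ hH
    generalize PowerSeries.constantCoeff φ = c at hφ
    refine ⟨Polynomial.C c + Polynomial.X * gH, ?_, ?_⟩
    · refine (Polynomial.natDegree_add_le _ _).trans (max_le ?_ ?_)
      · simp
      · refine (Polynomial.natDegree_mul_le).trans ?_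
        rw [Polynomial.natDegree_X]
        omega
    · rw [Finset.sum_range_succ']
      have h0 : (Polynomial.C c + Polynomial.X * gH).coeff 0 = c := by
        rw [Polynomial.coeff_add, Polynomial.coeff_C_zero, Polynomial.mul_coeff_zero,
          Polynomial.coeff_X_zero, zero_mul, add_zero]
      have hs : ∀ j : ℕ, (Polynomial.C c + Polynomial.X * gH).coeff (j + 1) = gH.coeff j := by
        intro j
        rw [Polynomial.coeff_add, Polynomial.coeff_C_succ, Polynomial.coeff_X_mul, zero_add]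
      simp only [h0, hs, Nat.add_sub_add_right, pow_zero, mul_one, Nat.sub_zero]
      rw [hφ, hg]
      have hsum : sdDelta * (sdE4 ^ a * sdE6 ^ b * ∑ j ∈ Finset.range (m + 1),
          PowerSeries.C (gH.coeff j) * sdDelta ^ j * (sdE4 ^ 3) ^ (m - j)) =
          sdE4 ^ a * sdE6 ^ b * ∑ j ∈ Finset.range (m + 1),
          PowerSeries.C (gH.coeff j) * sdDelta ^ (j + 1) * (sdE4 ^ 3) ^ (m - j) := by
        rw [mul_left_comm, Finset.mul_sum]
        congr 1
        refine Finset.sum_congr rfl fun j _ => ?_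
        ring
      rw [hsum]
      ring

end

end Fermat.Agent.S16lib
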