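/-
S16 library (item 16), piece S (helper11), part 4: the ALGEBRAIC CORE of the Swinnerton-Dyer/Serre
argument (pure algebra over a field `𝔽`, power series in `q`).

Data: `Q, R, D ∈ 𝔽[[q]]` (reductions of `E₄, E₆, Δ`), `Q(0) = 1`, `D(0) = 0 ≠ D`, `Q³ - R² = t·D`,
`t ≠ 0`.  If two constants `c, c' ≠ 0` are "forms" of weights `k = 12m+4a+6b` and
`e = 12m'+4a'+6b'` (`b, b' ≤ 1`), i.e. `c = Q^a R^b ∑_{j≤m} g_j D^j (Q³)^{m-j}` etc., then
`e ∣ k - 2` is impossible (`e ≥ 4`).   No sorry.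
-/
import Mathlib

set_option autoImplicit false

namespace Fermat.Agent.S16lib

open Polynomial

section Core

variable {𝔽 : Type*} [Field 𝔽]

/-- evaluation of polynomials at a nonzero power series without constant term is injective -/
theorem sd_aeval_injective (u : PowerSeries 𝔽) (hu0 : PowerSeries.constantCoeff u = 0)
    (hu : u ≠ 0) : Function.Injective (Polynomial.aeval (R := 𝔽) u) := by
  rw [injective_iff_map_eq_zero]
  intro p
  induction' hn : p.natDegree using Nat.strong_induction_on with n ih generalizing p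
  intro hp
  -- the constant coefficient vanishes
  have h0 : p.coeff 0 = 0 := by
    have h1 := congrArg (PowerSeries.constantCoeff (R := 𝔽)) hp
    rw [Polynomial.aeval_def, Polynomial.hom_eval₂, hu0, map_zero] at h1
    have h2 : (PowerSeries.constantCoeff (R := 𝔽)).comp (algebraMap 𝔽 (PowerSeries 𝔽)) =
        RingHom.id 𝔽 := by
      ext c
      simp
    rw [h2, Polynomial.eval₂_id, ← Polynomial.coeff_zero_eq_eval_zero] at h1
    exact h1
  have hdiv : p = p.divX * X := by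
    have := Polynomial.divX_mul_X_add p
    rw [h0, map_zero, add_zero] at this
    exact this.symm
  by_cases hp0 : p = 0
  · exact hp0
  · have hq : Polynomial.aeval u p.divX = 0 := by
      rw [hdiv, map_mul, Polynomial.aeval_X] at hp
      rcases mul_eq_zero.mp hp with h | h
      · exact h
      · exact absurd h hu
    have hdX : p.divX ≠ 0 := by
      intro h
      rw [h, zero_mul] at hdiv
      exact hp0 hdiv
    have hlt : p.divX.natDegree < n := by
      rw [← hn]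
      conv_rhs => rw [hdiv]
      rw [Polynomial.natDegree_mul_X hdX]
      omega
    have := ih _ hlt p.divX rfl hq
    exact absurd this hdX

/-- homogenisation: `∑_{j ≤ m} g_j y^j x^{m-j} = x^m g(y/x)` -/
theorem sd_hom_eq (x y xinv : PowerSeries 𝔽) (hx : x * xinv = 1) (g : Polynomial 𝔽) (m : ℕ)
    (hg : g.natDegree ≤ m) :
    ∑ j ∈ Finset.range (m + 1), PowerSeries.C (g.coeff j) * y ^ j * x ^ (m - j) =
      x ^ m * Polynomial.aeval (y * xinv) g := by
  rw [Polynomial.aeval_eq_sum_range' (Nat.lt_succ_of_le hg), Finset.mul_sum]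
  refine Finset.sum_congr rfl fun j hj => ?_
  rw [Finset.mem_range] at hj
  have hjm : j ≤ m := by omega
  have h1 : x ^ m = x ^ (m - j) * x ^ j := by rw [← pow_add, Nat.sub_add_cancel hjm]
  have h2 : x ^ j * xinv ^ j = 1 := by rw [← mul_pow, hx, one_pow]
  rw [PowerSeries.smul_eq_C_mul, mul_pow, h1]
  calc PowerSeries.C (g.coeff j) * y ^ j * x ^ (m - j)
      = PowerSeries.C (g.coeff j) * y ^ j * x ^ (m - j) * (x ^ j * xinv ^ j) := by
        rw [h2, mul_one]
    _ = _ := by ring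

/-- the arithmetic at the end of the argument -/
theorem sd_arith (m a b m' a' b' n δ δ' : ℕ) (hb : b ≤ 1) (hb' : b' ≤ 1) (hδ' : δ' ≤ m')
    (hk : 6 * m + 2 * a + 3 * b = 1 + n * (6 * m' + 2 * a' + 3 * b'))
    (he : 2 ≤ 6 * m' + 2 * a' + 3 * b')
    (hdeg : b * (6 * m' + 2 * a' + 3 * b') + 2 * (6 * m' + 2 * a' + 3 * b') * δ =
      b' * (6 * m + 2 * a + 3 * b) + 2 * (6 * m + 2 * a + 3 * b) * δ') : False := by
  set e₂ := 6 * m' + 2 * a' + 3 * b' with he₂
  set T := b' + 2 * δ' with hT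
  have hE : e₂ * (b + 2 * δ) = n * e₂ * T + T := by
    have h1 : b' * (6 * m + 2 * a + 3 * b) + 2 * (6 * m + 2 * a + 3 * b) * δ' =
        (1 + n * e₂) * T := by rw [hk, hT]; ring
    have h2 : n * e₂ * T + T = (1 + n * e₂) * T := by ring
    rw [h2, ← h1, ← hdeg]
    ring
  have hdiv : e₂ ∣ T := by
    have h1 : e₂ ∣ n * e₂ * T := Dvd.dvd.mul_right (Dvd.intro_left n rfl) T
    have h2 : e₂ ∣ n * e₂ * T + T := by rw [← hE]; exact dvd_mul_right _ _
    exact (Nat.dvd_add_right h1).mp h2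
  have hT0 : T = 0 := by
    by_contra hne
    have hle := Nat.le_of_dvd (Nat.pos_of_ne_zero hne) hdiv
    omega
  have hb'0 : b' = 0 := by omega
  have hbδ : b + 2 * δ = 0 := by
    rw [hT0, mul_zero, add_zero] at hE
    rcases Nat.mul_eq_zero.mp hE with h | h
    · omega
    · exact h
  have hb0 : b = 0 := by omega
  have h3 : n * e₂ = 2 * (n * (3 * m' + a')) := by
    rw [he₂, hb'0]; ring
  omega

/-- **Algebraic core.** -/
theorem sd_core (Q R D : PowerSeries 𝔽) (t : 𝔽) (ht : t ≠ 0)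
    (hQ : PowerSeries.constantCoeff Q = 1) (hD0 : PowerSeries.constantCoeff D = 0) (hD : D ≠ 0)
    (hrel : Q ^ 3 - R ^ 2 = PowerSeries.C t * D)
    (m a b m' a' b' : ℕ) (hb : b ≤ 1) (hb' : b' ≤ 1)
    (g g' : Polynomial 𝔽) (hg : g.natDegree ≤ m) (hg' : g'.natDegree ≤ m')
    (c c' : 𝔽) (hc : c ≠ 0) (hc' : c' ≠ 0)
    (h1 : PowerSeries.C c = Q ^ a * R ^ b *
      ∑ j ∈ Finset.range (m + 1), PowerSeries.C (g.coeff j) * D ^ j * (Q ^ 3) ^ (m - j))
    (h2 : PowerSeries.C c' = Q ^ a' * R ^ b' *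
      ∑ j ∈ Finset.range (m' + 1), PowerSeries.C (g'.coeff j) * D ^ j * (Q ^ 3) ^ (m' - j))
    (n : ℕ) (hk : 12 * m + 4 * a + 6 * b = 2 + n * (12 * m' + 4 * a' + 6 * b'))
    (he : 4 ≤ 12 * m' + 4 * a' + 6 * b') : False := by
  classical
  have harith1 : 6 * m + 2 * a + 3 * b = 1 + n * (6 * m' + 2 * a' + 3 * b') := by
    have hn : n * (12 * m' + 4 * a' + 6 * b') = 2 * (n * (6 * m' + 2 * a' + 3 * b')) := by ring
    rw [hn] at hk
    omega
  have harith2 : 2 ≤ 6 * m' + 2 * a' + 3 * b' := by omega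
  -- inverse of `Q`
  have hQ0 : PowerSeries.constantCoeff Q ≠ 0 := by rw [hQ]; exact one_ne_zero
  have hQinv : Q * Q⁻¹ = 1 := PowerSeries.mul_inv_cancel Q hQ0
  have hQne : Q ≠ 0 := fun h => by rw [h, zero_mul] at hQinv; exact zero_ne_one hQinv
  set xinv : PowerSeries 𝔽 := Q⁻¹ ^ 3 with hxinv
  have hx : Q ^ 3 * xinv = 1 := by rw [hxinv, ← mul_pow, hQinv, one_pow]
  have hxinv0 : xinv ≠ 0 := fun h => by rw [h, mul_zero] at hx; exact zero_ne_one hx
  set u : PowerSeries 𝔽 := D * xinv with hu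
  have hu0 : PowerSeries.constantCoeff u = 0 := by rw [hu, map_mul, hD0, zero_mul]
  have hune : u ≠ 0 := mul_ne_zero hD hxinv0
  have hinj := sd_aeval_injective u hu0 hune
  have hxu : Q ^ 3 * u = D := by
    rw [hu, mul_left_comm, hx, mul_one]
  -- the polynomial `W = 1 - t s`
  set W : Polynomial 𝔽 := C (-t) * X + C 1 with hW
  have hWdeg : W.natDegree = 1 := Polynomial.natDegree_linear (neg_ne_zero.mpr ht)
  have hWne : W ≠ 0 := fun h => by rw [h, Polynomial.natDegree_zero] at hWdeg; exact zero_ne_one hWdeg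
  set w : PowerSeries 𝔽 := Polynomial.aeval u W with hw
  have hR2 : R ^ 2 = Q ^ 3 * w := by
    have h3 : w = 1 - PowerSeries.C t * u := by
      rw [hw, hW, map_add, map_mul, Polynomial.aeval_C, Polynomial.aeval_C, Polynomial.aeval_X,
        map_neg, map_one]
      simp only [PowerSeries.algebraMap_eq]
      ring
    rw [h3, mul_sub, mul_one, mul_left_comm, hxu, ← hrel]
    ring
  -- the two representations
  set G : PowerSeries 𝔽 := Polynomial.aeval u g with hG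
  set G' : PowerSeries 𝔽 := Polynomial.aeval u g' with hG'
  rw [sd_hom_eq (Q ^ 3) D xinv hx g m hg] at h1
  rw [sd_hom_eq (Q ^ 3) D xinv hx g' m' hg'] at h2
  -- `g, g' ≠ 0`
  have hCc : PowerSeries.C c ≠ 0 := by
    rw [Ne, ← map_zero (PowerSeries.C (R := 𝔽))]
    exact fun h => hc (PowerSeries.C_injective h)
  have hCc' : PowerSeries.C c' ≠ 0 := by
    rw [Ne, ← map_zero (PowerSeries.C (R := 𝔽))]
    exact fun h => hc' (PowerSeries.C_injective h)
  have hgne : g ≠ 0 := by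
    intro h
    rw [h, map_zero, mul_zero, mul_zero] at h1
    exact hCc h1
  have hgne' : g' ≠ 0 := by
    intro h
    rw [h, map_zero, mul_zero, mul_zero] at h2
    exact hCc' h2
  -- halves of the weights
  set e₂ : ℕ := 6 * m' + 2 * a' + 3 * b' with he₂
  set k₂ : ℕ := 6 * m + 2 * a + 3 * b with hk₂
  have hR : ∀ r : ℕ, R ^ (2 * r) = (Q ^ 3 * w) ^ r := fun r => by rw [pow_mul, hR2]
  have key1 : PowerSeries.C c ^ (2 * e₂) =
      Q ^ (e₂ * k₂) * (w ^ (b * e₂) * G ^ (2 * e₂)) := by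
    have hRb : R ^ (b * (2 * e₂)) = (Q ^ 3 * w) ^ (b * e₂) := by
      rw [← hR]; congr 1; ring
    calc PowerSeries.C c ^ (2 * e₂)
        = (Q ^ a * R ^ b * ((Q ^ 3) ^ m * G)) ^ (2 * e₂) := by rw [h1]
      _ = Q ^ (a * (2 * e₂)) * R ^ (b * (2 * e₂)) * (Q ^ 3) ^ (m * (2 * e₂)) * G ^ (2 * e₂) := by
          ring
      _ = Q ^ (a * (2 * e₂)) * (Q ^ 3 * w) ^ (b * e₂) * (Q ^ 3) ^ (m * (2 * e₂)) *
          G ^ (2 * e₂) := by rw [hRb]
      _ = Q ^ (e₂ * k₂) * (w ^ (b * e₂) * G ^ (2 * e₂)) := by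
          rw [hk₂]; ring
  have key2 : PowerSeries.C c' ^ (2 * k₂) =
      Q ^ (e₂ * k₂) * (w ^ (b' * k₂) * G' ^ (2 * k₂)) := by
    have hRb : R ^ (b' * (2 * k₂)) = (Q ^ 3 * w) ^ (b' * k₂) := by
      rw [← hR]; congr 1; ring
    calc PowerSeries.C c' ^ (2 * k₂)
        = (Q ^ a' * R ^ b' * ((Q ^ 3) ^ m' * G')) ^ (2 * k₂) := by rw [h2]
      _ = Q ^ (a' * (2 * k₂)) * R ^ (b' * (2 * k₂)) * (Q ^ 3) ^ (m' * (2 * k₂)) *
          G' ^ (2 * k₂) := by ring
      _ = Q ^ (a' * (2 * k₂)) * (Q ^ 3 * w) ^ (b' * k₂) * (Q ^ 3) ^ (m' * (2 * k₂)) *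
          G' ^ (2 * k₂) := by rw [hRb]
      _ = Q ^ (e₂ * k₂) * (w ^ (b' * k₂) * G' ^ (2 * k₂)) := by
          rw [he₂]; ring
  -- the polynomial identity
  have hpoly : C (c' ^ (2 * k₂)) * (W ^ (b * e₂) * g ^ (2 * e₂)) =
      C (c ^ (2 * e₂)) * (W ^ (b' * k₂) * g' ^ (2 * k₂)) := by
    apply hinj
    have hQpow : Q ^ (e₂ * k₂) ≠ 0 := pow_ne_zero _ hQne
    apply mul_left_cancel₀ hQpow
    have e1 : Polynomial.aeval u (C (c' ^ (2 * k₂)) * (W ^ (b * e₂) * g ^ (2 * e₂))) =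
        PowerSeries.C c' ^ (2 * k₂) * (w ^ (b * e₂) * G ^ (2 * e₂)) := by
      simp only [map_mul, map_pow, Polynomial.aeval_C, PowerSeries.algebraMap_eq, hw, hG]
    have e2 : Polynomial.aeval u (C (c ^ (2 * e₂)) * (W ^ (b' * k₂) * g' ^ (2 * k₂))) =
        PowerSeries.C c ^ (2 * e₂) * (w ^ (b' * k₂) * G' ^ (2 * k₂)) := by
      simp only [map_mul, map_pow, Polynomial.aeval_C, PowerSeries.algebraMap_eq, hw, hG']
    rw [e1, e2]
    calc Q ^ (e₂ * k₂) * (PowerSeries.C c' ^ (2 * k₂) * (w ^ (b * e₂) * G ^ (2 * e₂)))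
        = PowerSeries.C c' ^ (2 * k₂) * (Q ^ (e₂ * k₂) * (w ^ (b * e₂) * G ^ (2 * e₂))) := by
          ring
      _ = PowerSeries.C c' ^ (2 * k₂) * PowerSeries.C c ^ (2 * e₂) := by rw [← key1]
      _ = PowerSeries.C c ^ (2 * e₂) * (Q ^ (e₂ * k₂) * (w ^ (b' * k₂) * G' ^ (2 * k₂))) := by
          rw [← key2]; ring
      _ = _ := by ring
  -- degrees
  have hdeg := congrArg Polynomial.natDegree hpoly
  have hcne : c ^ (2 * e₂) ≠ 0 := pow_ne_zero _ hc
  have hcne' : c' ^ (2 * k₂) ≠ 0 := pow_ne_zero _ hc'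
  rw [Polynomial.natDegree_C_mul hcne', Polynomial.natDegree_C_mul hcne,
    Polynomial.natDegree_mul (pow_ne_zero _ hWne) (pow_ne_zero _ hgne),
    Polynomial.natDegree_mul (pow_ne_zero _ hWne) (pow_ne_zero _ hgne'),
    Polynomial.natDegree_pow, Polynomial.natDegree_pow, Polynomial.natDegree_pow,
    Polynomial.natDegree_pow, hWdeg] at hdeg
  refine sd_arith m a b m' a' b' n g.natDegree g'.natDegree hb hb' hg' harith1 harith2 ?_
  rw [← he₂, ← hk₂]
  linarith

end Core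

end Fermat.Agent.S16lib
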