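/-
S16 library (item 16), piece S (helper11): Swinnerton-Dyer / Serre at level one.

* `swd_min` : a level-one form of weight `k ≡ 2 mod (ℓ - 1)` with integral `q`-expansion is not
  congruent to a nonzero constant modulo `ℓ ≥ 5`;
* `levelOne_mod_three` : level-one forms with integral `q`-expansion are polynomials in `Δ` mod `3`.

Exact signatures of NOTES/S16_signatures.lean.txt.   No sorry.
-/
import Mathlib
import Fermat.Agent.S16lib.SwDBasis
import Fermat.Agent.S16lib.SwDBern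
import Fermat.Agent.S16lib.SwDCore

set_option autoImplicit false

noncomputable section

namespace Fermat.Agent.S16lib

open ModularFormClass UpperHalfPlane ModularForm EisensteinSeries
open scoped MatrixGroups ModularForm

/-- weights of level one: `k = 12 m + 4 a + 6 b` -/
theorem sd_decomp (k : ℕ) (hk : Even k) (hk2 : k ≠ 2) :
    ∃ m a b : ℕ, a ≤ 2 ∧ b ≤ 1 ∧ k = 12 * m + 4 * a + 6 * b := by
  obtain ⟨r, hr⟩ := hk
  have h : k % 12 = 0 ∨ k % 12 = 2 ∨ k % 12 = 4 ∨ k % 12 = 6 ∨ k % 12 = 8 ∨ k % 12 = 10 := by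
    omega
  rcases h with h | h | h | h | h | h
  · exact ⟨k / 12, 0, 0, by omega, by omega, by omega⟩
  · exact ⟨k / 12 - 1, 2, 1, by omega, by omega, by omega⟩
  · exact ⟨k / 12, 1, 0, by omega, by omega, by omega⟩
  · exact ⟨k / 12, 0, 1, by omega, by omega, by omega⟩
  · exact ⟨k / 12, 2, 0, by omega, by omega, by omega⟩
  · exact ⟨k / 12, 1, 1, by omega, by omega, by omega⟩

/-- reduction modulo `N` of integral power series -/
abbrev sdRed (N : ℕ) : PowerSeries ℤ →+* PowerSeries (ZMod N) :=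
  PowerSeries.map (Int.castRingHom (ZMod N))

theorem sdRed_eq_C (N : ℕ) (φ : PowerSeries ℤ)
    (h : ∀ n, 0 < n → (N : ℤ) ∣ PowerSeries.coeff n φ) :
    sdRed N φ = PowerSeries.C ((PowerSeries.constantCoeff φ : ℤ) : ZMod N) := by
  ext n
  rw [PowerSeries.coeff_map, PowerSeries.coeff_C]
  by_cases hn : n = 0
  · rw [if_pos hn, hn, PowerSeries.coeff_zero_eq_constantCoeff_apply]
    rfl
  · rw [if_neg hn]
    exact (ZMod.intCast_zmod_eq_zero_iff_dvd _ _).mpr (h n (Nat.pos_of_ne_zero hn))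

/-- reduction of the basis representation -/
theorem sdRed_basis (N : ℕ) (φ : PowerSeries ℤ) (a b m : ℕ) (g : Polynomial ℤ)
    (hg : φ = sdE4 ^ a * sdE6 ^ b * ∑ j ∈ Finset.range (m + 1),
        PowerSeries.C (g.coeff j) * sdDelta ^ j * (sdE4 ^ 3) ^ (m - j)) :
    sdRed N φ = sdRed N sdE4 ^ a * sdRed N sdE6 ^ b * ∑ j ∈ Finset.range (m + 1),
        PowerSeries.C ((g.map (Int.castRingHom (ZMod N))).coeff j) * sdRed N sdDelta ^ j *
          (sdRed N sdE4 ^ 3) ^ (m - j) := by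
  rw [hg, map_mul, map_mul, map_pow, map_pow, map_sum]
  congr 1
  refine Finset.sum_congr rfl fun j _ => ?_
  rw [map_mul, map_mul, map_pow, map_pow, map_pow, PowerSeries.map_C, Polynomial.coeff_map]

theorem sd_qExpansion_of_coeff {k : ℤ} (F : ModularForm 𝒮ℒ k) (a : ℕ → ℤ)
    (hF : ∀ n : ℕ, qCoeff F n = (a n : ℂ)) : qExpansion 1 F = sdι (PowerSeries.mk a) := by
  ext n
  rw [PowerSeries.coeff_map, PowerSeries.coeff_mk]
  exact hF n

theorem sdRed_delta_constantCoeff (N : ℕ) : PowerSeries.constantCoeff (sdRed N sdDelta) = 0 := by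
  rw [← PowerSeries.coeff_zero_eq_constantCoeff_apply, PowerSeries.coeff_map, sdDelta]
  simp

theorem sdRed_delta_ne_zero (N : ℕ) [Fact (1 < N)] : sdRed N sdDelta ≠ 0 := by
  intro h
  have h1 := congrArg (PowerSeries.coeff 1) h
  rw [PowerSeries.coeff_map, sdDelta] at h1
  have h3 : PowerSeries.coeff 1 (PowerSeries.X * ModularCurve.dedekindEtaUnit) = 1 := by
    rw [show (1 : ℕ) = 0 + 1 from rfl, PowerSeries.coeff_succ_X_mul,
      PowerSeries.coeff_zero_eq_constantCoeff_apply, ModularCurve.constantCoeff_dedekindEtaUnit]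
  rw [h3] at h1
  simp at h1

theorem sdRed_E4_constantCoeff (N : ℕ) : PowerSeries.constantCoeff (sdRed N sdE4) = 1 := by
  rw [← PowerSeries.coeff_zero_eq_constantCoeff_apply, PowerSeries.coeff_map,
    PowerSeries.coeff_zero_eq_constantCoeff_apply, sd_coeff_zero_E4]
  simp

theorem sdRed_relation (N : ℕ) :
    sdRed N sdE4 ^ 3 - sdRed N sdE6 ^ 2 = PowerSeries.C (1728 : ZMod N) * sdRed N sdDelta := by
  have h := congrArg (sdRed N) sd_relation
  rw [map_sub, map_pow, map_pow, map_mul] at h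
  rw [h]
  congr 1
  rw [map_ofNat]
  exact (map_ofNat (PowerSeries.C (R := ZMod N)) 1728).symm

theorem sd_1728_ne_zero (ℓ : ℕ) [Fact ℓ.Prime] (hℓ : 5 ≤ ℓ) : (1728 : ZMod ℓ) ≠ 0 := by
  have hprime : ℓ.Prime := Fact.out
  intro h
  have h1 : ((1728 : ℕ) : ZMod ℓ) = 0 := by exact_mod_cast h
  rw [ZMod.natCast_eq_zero_iff] at h1
  have h2 : ℓ ∣ 2 ^ 6 * 3 ^ 3 := by norm_num; exact h1
  rcases (Nat.Prime.dvd_mul hprime).mp h2 with h3 | h3
  · have := Nat.le_of_dvd (by norm_num) (hprime.dvd_of_dvd_pow h3)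
    omega
  · have := Nat.le_of_dvd (by norm_num) (hprime.dvd_of_dvd_pow h3)
    omega

/-- A level-one form of weight `k ≡ 2 mod (ℓ - 1)` with integral `q`-expansion is not congruent to a
nonzero constant modulo `ℓ ≥ 5`. -/
theorem swd_min (ℓ k : ℕ) [Fact ℓ.Prime] (hℓ : 5 ≤ ℓ) (hk2 : 2 ≤ k) (hk : (ℓ - 1) ∣ k - 2)
    (F : ModularForm 𝒮ℒ (k : ℤ)) (a : ℕ → ℤ) (hF : ∀ n : ℕ, qCoeff F n = (a n : ℂ))
    (h0 : ¬ (ℓ : ℤ) ∣ a 0) : ∃ n : ℕ, 0 < n ∧ ¬ (ℓ : ℤ) ∣ a n := by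
  classical
  by_contra hcon
  push Not at hcon
  have hprime : ℓ.Prime := Fact.out
  have hFφ := sd_qExpansion_of_coeff F a hF
  obtain ⟨n, hn⟩ := hk
  have hℓeven : Even (ℓ - 1) := by
    rcases hprime.eq_two_or_odd with h2 | hodd
    · omega
    · exact ⟨(ℓ - 1) / 2, by omega⟩
  have hkeven : Even k := by
    obtain ⟨r, hr⟩ := hℓeven
    refine ⟨1 + r * n, ?_⟩
    have : k = 2 + (ℓ - 1) * n := by omega
    rw [this, hr]
    ring
  -- the case `k = 2`
  by_cases hk2' : k = 2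
  · subst hk2'
    have hF0 : (⇑F : ℍ → ℂ) = 0 := sd_eq_zero_of_weight (Or.inr rfl) F
    have h1 := hF 0
    rw [qCoeff, hF0, qExpansion_zero, map_zero] at h1
    have h2 : a 0 = 0 := by exact_mod_cast h1.symm
    exact h0 (by rw [h2]; exact dvd_zero _)
  -- decompositions
  obtain ⟨m, a₁, b₁, ha₁, hb₁, hkdec⟩ := sd_decomp k hkeven hk2'
  obtain ⟨m', a', b', ha', hb', hedec⟩ := sd_decomp (ℓ - 1) hℓeven (by omega)
  obtain ⟨g, hgdeg, hg⟩ := sd_basis m a₁ b₁ (k : ℤ) (by rw [hkdec]; push_cast; ring) ha₁ hb₁ F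
    (PowerSeries.mk a) hFφ
  obtain ⟨A, α, hA, hα0, hαn⟩ := sd_exists_Eform ℓ hℓ
  obtain ⟨g', hgdeg', hg'⟩ := sd_basis m' a' b' ((ℓ - 1 : ℕ) : ℤ)
    (by rw [hedec]; push_cast; ring) ha' hb' A α hA
  -- reduce modulo `ℓ`
  have hφC : sdRed ℓ (PowerSeries.mk a) = PowerSeries.C ((a 0 : ℤ) : ZMod ℓ) := by
    rw [sdRed_eq_C ℓ _ (fun n hn => by rw [PowerSeries.coeff_mk]; exact hcon n hn)]
    rw [← PowerSeries.coeff_zero_eq_constantCoeff_apply, PowerSeries.coeff_mk]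
  have hαC := sdRed_eq_C ℓ α hαn
  have h1 := sdRed_basis ℓ _ a₁ b₁ m g hg
  have h2 := sdRed_basis ℓ _ a' b' m' g' hg'
  rw [hφC] at h1
  rw [hαC] at h2
  have hc : ((a 0 : ℤ) : ZMod ℓ) ≠ 0 := fun h =>
    h0 ((ZMod.intCast_zmod_eq_zero_iff_dvd _ _).mp h)
  have hc' : ((PowerSeries.constantCoeff α : ℤ) : ZMod ℓ) ≠ 0 := fun h =>
    hα0 ((ZMod.intCast_zmod_eq_zero_iff_dvd _ _).mp h)
  have : Fact (1 < ℓ) := ⟨hprime.one_lt⟩
  refine sd_core (𝔽 := ZMod ℓ) (sdRed ℓ sdE4) (sdRed ℓ sdE6) (sdRed ℓ sdDelta) 1728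
    (sd_1728_ne_zero ℓ hℓ) (sdRed_E4_constantCoeff ℓ) (sdRed_delta_constantCoeff ℓ)
    (sdRed_delta_ne_zero ℓ) (sdRed_relation ℓ) m a₁ b₁ m' a' b' hb₁ hb'
    (g.map (Int.castRingHom (ZMod ℓ))) (g'.map (Int.castRingHom (ZMod ℓ)))
    ((Polynomial.natDegree_map_le).trans hgdeg) ((Polynomial.natDegree_map_le).trans hgdeg')
    _ _ hc hc' h1 h2 n ?_ ?_
  · rw [← hkdec, ← hedec, mul_comm n]
    omega
  · omega

/-! ### Modulo `3` -/

theorem sdRed3_E4 : sdRed 3 sdE4 = 1 := by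
  ext n
  rw [PowerSeries.coeff_map, sdE4, ModularCurve.eisenstein4, PowerSeries.coeff_mk,
    PowerSeries.coeff_one]
  by_cases hn : n = 0
  · rw [if_pos hn, if_pos hn]
    simp
  · rw [if_neg hn, if_neg hn]
    have h : ((240 : ℤ) : ZMod 3) = 0 := by decide
    rw [eq_intCast, Int.cast_mul, h, zero_mul]

theorem sdRed3_E6 : sdRed 3 sdE6 = 1 := by
  ext n
  rw [PowerSeries.coeff_map, sdE6, PowerSeries.coeff_mk, PowerSeries.coeff_one]
  by_cases hn : n = 0
  · rw [if_pos hn, if_pos hn]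
    simp
  · rw [if_neg hn, if_neg hn]
    have h : ((-504 : ℤ) : ZMod 3) = 0 := by decide
    rw [eq_intCast, Int.cast_mul, h, zero_mul]

/-- Level-one forms with integral `q`-expansion are polynomials in `Δ` modulo `3`
(`E₄ ≡ E₆ ≡ 1`); `τ` = coefficients of `Δ`. -/
theorem levelOne_mod_three (k : ℕ) (F : ModularForm 𝒮ℒ (k : ℤ)) (a τ : ℕ → ℤ)
    (hF : ∀ n : ℕ, qCoeff F n = (a n : ℂ))
    (hτ : ∀ n : ℕ, qCoeff ModularForm.discriminant n = (τ n : ℂ)) :
    ∃ R : Polynomial (ZMod 3),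
      PowerSeries.mk (fun n => ((a n : ℤ) : ZMod 3)) =
        Polynomial.aeval (PowerSeries.mk fun n => ((τ n : ℤ) : ZMod 3)) R := by
  classical
  have hFφ := sd_qExpansion_of_coeff F a hF
  have hτ' : PowerSeries.mk τ = sdDelta := by
    apply sdι_injective
    rw [← sd_qExpansion_Delta]
    ext n
    rw [PowerSeries.coeff_map, PowerSeries.coeff_mk]
    exact (hτ n).symm
  have e1 : PowerSeries.mk (fun n => ((a n : ℤ) : ZMod 3)) = sdRed 3 (PowerSeries.mk a) := by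
    ext n
    simp
  have e2 : PowerSeries.mk (fun n => ((τ n : ℤ) : ZMod 3)) = sdRed 3 sdDelta := by
    rw [← hτ']
    ext n
    simp
  rw [e1, e2]
  by_cases hzero : (⇑F : ℍ → ℂ) = 0
  · refine ⟨0, ?_⟩
    have h : PowerSeries.mk a = 0 :=
      sdι_injective (by rw [← hFφ, hzero, qExpansion_zero, map_zero])
    rw [h, map_zero, map_zero]
  · have hkeven : Even k := by
      by_contra hodd
      rw [Nat.not_even_iff_odd] at hodd
      have hodd' : Odd (k : ℤ) := (Int.odd_coe_nat k).mpr hodd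
      have := ModularForm.levelOne_odd_weight_eq_zero hodd' F
      exact hzero (by rw [this]; rfl)
    have hk2 : k ≠ 2 := by
      intro h
      subst h
      exact hzero (sd_eq_zero_of_weight (Or.inr rfl) F)
    obtain ⟨m, a₁, b₁, ha₁, hb₁, hkdec⟩ := sd_decomp k hkeven hk2
    obtain ⟨g, hgdeg, hg⟩ := sd_basis m a₁ b₁ (k : ℤ) (by rw [hkdec]; push_cast; ring) ha₁ hb₁ F
      (PowerSeries.mk a) hFφ
    have h1 := sdRed_basis 3 _ a₁ b₁ m g hg
    rw [sdRed3_E4, sdRed3_E6] at h1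
    simp only [one_pow, one_mul, mul_one] at h1
    refine ⟨g.map (Int.castRingHom (ZMod 3)), ?_⟩
    rw [h1, Polynomial.aeval_eq_sum_range'
      (Nat.lt_succ_of_le ((Polynomial.natDegree_map_le).trans hgdeg))]
    refine Finset.sum_congr rfl fun j _ => ?_
    rw [PowerSeries.smul_eq_C_mul]

end Fermat.Agent.S16lib

end
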