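/-
Item 16 (S16), block U, common part (helper1): power series congruent to a constant, the operator
`U_p` on power series, and the trace of `G ^ i` in terms of `q`-expansions.
-/
import Mathlib
import Fermat.Agent.S16lib.Defs
import Fermat.Agent.S16lib.Fricke

set_option autoImplicit false

noncomputable section

namespace Fermat.Agent.S16lib

open ModularCurve CuspForm CongruenceSubgroup ModularFormClass UpperHalfPlane
open scoped MatrixGroups ModularForm

/-! ### power series congruent to a constant -/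

/-- a power series over `ℂ` with integer coefficients which is congruent to the constant `c`
modulo `M`. -/
def IsCongConst (M c : ℤ) (φ : PowerSeries ℂ) : Prop :=
  PowerSeries.coeff 0 φ = (c : ℂ) ∧
    ∀ k : ℕ, 0 < k → ∃ a : ℤ, PowerSeries.coeff k φ = (M : ℂ) * (a : ℂ)

theorem IsCongConst.exists_int {M c : ℤ} {φ : PowerSeries ℂ} (h : IsCongConst M c φ) (k : ℕ) :
    ∃ z : ℤ, PowerSeries.coeff k φ = (z : ℂ) := by
  rcases Nat.eq_zero_or_pos k with rfl | hk
  · exact ⟨c, h.1⟩
  · obtain ⟨a, ha⟩ := h.2 k hk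
    exact ⟨M * a, by rw [ha]; push_cast; ring⟩

theorem ucong_sum_mem {ι : Type*} (s : Finset ι) (M : ℤ) (f : ι → ℂ)
    (h : ∀ i ∈ s, ∃ a : ℤ, f i = (M : ℂ) * (a : ℂ)) :
    ∃ a : ℤ, ∑ i ∈ s, f i = (M : ℂ) * (a : ℂ) := by
  classical
  induction s using Finset.induction_on with
  | empty => exact ⟨0, by simp⟩
  | insert i s hi ih =>
    obtain ⟨a, ha⟩ := h i (Finset.mem_insert_self i s)
    obtain ⟨b, hb⟩ := ih fun j hj => h j (Finset.mem_insert_of_mem hj)
    exact ⟨a + b, by rw [Finset.sum_insert hi, ha, hb]; push_cast; ring⟩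

theorem IsCongConst.mul {M c d : ℤ} {φ ψ : PowerSeries ℂ} (h : IsCongConst M c φ)
    (h' : IsCongConst M d ψ) : IsCongConst M (c * d) (φ * ψ) := by
  refine ⟨?_, fun k hk => ?_⟩
  · rw [PowerSeries.coeff_mul, Finset.Nat.antidiagonal_zero, Finset.sum_singleton, h.1, h'.1]
    push_cast
    ring
  · rw [PowerSeries.coeff_mul]
    apply ucong_sum_mem
    rintro ⟨i, j⟩ hij
    rw [Finset.HasAntidiagonal.mem_antidiagonal] at hij
    simp only at hij ⊢
    rcases Nat.eq_zero_or_pos i with hi | hi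
    · have hj : 0 < j := by omega
      obtain ⟨z, hz⟩ := h.exists_int i
      obtain ⟨a, ha⟩ := h'.2 j hj
      exact ⟨z * a, by rw [hz, ha]; push_cast; ring⟩
    · obtain ⟨a, ha⟩ := h.2 i hi
      obtain ⟨z, hz⟩ := h'.exists_int j
      exact ⟨a * z, by rw [hz, ha]; push_cast; ring⟩

theorem isCongConst_one (M : ℤ) : IsCongConst M 1 (1 : PowerSeries ℂ) := by
  refine ⟨by simp, fun k hk => ⟨0, ?_⟩⟩
  rw [PowerSeries.coeff_one, if_neg hk.ne']
  simp

theorem IsCongConst.pow {M c : ℤ} {φ : PowerSeries ℂ} (h : IsCongConst M c φ) (n : ℕ) :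
    IsCongConst M (c ^ n) (φ ^ n) := by
  induction n with
  | zero => simpa using isCongConst_one M
  | succ n ih =>
    rw [pow_succ, pow_succ]
    exact ih.mul h

/-- the operator `U_p` on power series -/
def upSeries (p : ℕ) (φ : PowerSeries ℂ) : PowerSeries ℂ :=
  PowerSeries.mk fun n => PowerSeries.coeff (p * n) φ

@[simp] theorem coeff_upSeries (p : ℕ) (φ : PowerSeries ℂ) (n : ℕ) :
    PowerSeries.coeff n (upSeries p φ) = PowerSeries.coeff (p * n) φ := by
  rw [upSeries, PowerSeries.coeff_mk]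

theorem IsCongConst.upSeries {M c : ℤ} {φ : PowerSeries ℂ} (h : IsCongConst M c φ) {p : ℕ}
    (hp : 0 < p) : IsCongConst M c (upSeries p φ) := by
  refine ⟨by rw [coeff_upSeries, mul_zero, h.1], fun k hk => ?_⟩
  rw [coeff_upSeries]
  exact h.2 _ (Nat.mul_pos hp hk)

/-! ### the `T`-block as a hypothesis -/

/-- the statements of block `T` (Fricke involution and trace), as a hypothesis. -/
structure TBlock (p : ℕ) [Fact p.Prime] : Prop where
  dual : ∀ (k : ℤ) (F : ModularForm (Gamma0 p) k),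
    ∃ F' : ModularForm (Gamma0 p) k, FrickeDual p k F F'
  trace : ∀ (k : ℤ) (F F' : ModularForm (Gamma0 p) k), FrickeDual p k F F' →
    ∃ T : ModularForm 𝒮ℒ k, ∀ n : ℕ,
      qCoeff T n = qCoeff F n + (p : ℂ) ^ (1 - k) * qCoeff F' (p * n)
  weight_two : ∀ (G G' : ModularForm (Gamma0 p) 2), FrickeDual p 2 G G' →
    ∀ n : ℕ, qCoeff G' n = -(p : ℂ) * qCoeff G (p * n)

theorem ucong_one_mem_strictPeriods (N : ℕ) :
    (1 : ℝ) ∈ (Gamma0 N : Subgroup (GL (Fin 2) ℝ)).strictPeriods := by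
  simp [CongruenceSubgroup.strictPeriods_Gamma0]

/-- the trace of `G ^ i`: a level-one form of weight `2 i` with
`a_n = a_n(G ^ i) + (-1)^i p^(1 - i) a_{p n}((U_p G) ^ i)`. -/
theorem ucong_exists_trace_pow (p : ℕ) [Fact p.Prime] (hT : TBlock p)
    (G : ModularForm (Gamma0 p) 2) (i : ℕ) (k : ℤ) (hk : (i : ℤ) * 2 = k) :
    ∃ T : ModularForm 𝒮ℒ k, ∀ n : ℕ,
      qCoeff T n = PowerSeries.coeff n (qExpansion 1 G ^ i) +
        (p : ℂ) ^ (1 - k) * (-(p : ℂ)) ^ i *
          PowerSeries.coeff (p * n) (upSeries p (qExpansion 1 G) ^ i) := by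
  obtain ⟨G', hG'⟩ := hT.dual 2 G
  have hcoef := hT.weight_two G G' hG'
  have hq' : qExpansion 1 G' = (-(p : ℂ)) • upSeries p (qExpansion 1 G) := by
    ext n
    rw [PowerSeries.coeff_smul, coeff_upSeries, smul_eq_mul]
    exact hcoef n
  -- the powers
  let F : ModularForm (Gamma0 p) k := ModularForm.mcast hk (G.pow i)
  let F' : ModularForm (Gamma0 p) k := ModularForm.mcast hk (G'.pow i)
  have hF : ∀ z : ℍ, F z = G z ^ i := fun z => by
    show (G.pow i) z = G z ^ i
    rw [ModularForm.coe_pow]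
    rfl
  have hF' : ∀ z : ℍ, F' z = G' z ^ i := fun z => by
    show (G'.pow i) z = G' z ^ i
    rw [ModularForm.coe_pow]
    rfl
  have hdual : FrickeDual p k F F' := by
    intro z
    rw [hF', hF, hG' z, mul_pow, ← hk, ← zpow_natCast, ← zpow_mul]
    congr 2
    ring
  obtain ⟨T, hTn⟩ := hT.trace k F F' hdual
  refine ⟨T, fun n => ?_⟩
  rw [hTn n]
  have h1 : qExpansion 1 F = qExpansion 1 G ^ i :=
    ModularForm.qExpansion_pow one_pos (ucong_one_mem_strictPeriods p) G i
  have h2 : qExpansion 1 F' = qExpansion 1 G' ^ i :=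
    ModularForm.qExpansion_pow one_pos (ucong_one_mem_strictPeriods p) G' i
  show PowerSeries.coeff n (qExpansion 1 F) + _ * PowerSeries.coeff (p * n) (qExpansion 1 F') = _
  rw [h1, h2, hq', smul_pow, PowerSeries.coeff_smul, smul_eq_mul]
  ring

end Fermat.Agent.S16lib

end
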