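/-
Item 16 (S16), piece U-A (helper1): a modular form of weight `2` on `Γ₀(p)` with integral
`q`-expansion is not congruent to a unit constant modulo a prime `ℓ ≥ 5`, `ℓ ≠ p`.
(Trace of `G ^ (ℓ ^ w)` to level one + Swinnerton-Dyer.)
-/
import Mathlib
import Fermat.Agent.S16lib.UCong

set_option autoImplicit false

noncomputable section

namespace Fermat.Agent.S16lib

open ModularCurve CuspForm CongruenceSubgroup ModularFormClass UpperHalfPlane ModularForm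
open scoped MatrixGroups ModularForm

/-! ### arithmetic -/

/-- `v_ℓ (p ^ (ℓ ^ w - 1) - 1) = w` for `w = v_ℓ (p ^ (ℓ - 1) - 1) ≥ 1`. -/
theorem ua_exists_exponent (p ℓ : ℕ) (hp : p.Prime) (hℓ : ℓ.Prime) (hne : ℓ ≠ p) :
    ∃ (w : ℕ) (s : ℤ), 0 < w ∧ ¬ (ℓ : ℤ) ∣ s ∧ (p : ℤ) ^ (ℓ ^ w - 1) - 1 = (ℓ : ℤ) ^ w * s := by
  have hℓZ : Prime (ℓ : ℤ) := Nat.prime_iff_prime_int.mp hℓ
  have hℓ2 := hℓ.two_le
  have hp2 := hp.two_le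
  -- Fermat
  have hcop : IsCoprime (p : ℤ) (ℓ : ℤ) := by
    rw [Int.isCoprime_iff_gcd_eq_one]
    have : Nat.Coprime p ℓ := (Nat.coprime_primes hp hℓ).mpr (Ne.symm hne)
    simpa [Int.gcd_natCast_natCast] using this
  have hF : (ℓ : ℤ) ∣ (p : ℤ) ^ (ℓ - 1) - 1 :=
    (Int.modEq_iff_dvd.mp (Int.ModEq.pow_card_sub_one_eq_one hℓ hcop).symm)
  have hpow1 : 1 < p ^ (ℓ - 1) := Nat.one_lt_pow (by omega) (by omega)
  have hN0 : p ^ (ℓ - 1) - 1 ≠ 0 := by omega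
  obtain ⟨w, t, ht, hN⟩ := Nat.exists_eq_pow_mul_and_not_dvd hN0 ℓ (by omega)
  have hA : (p : ℤ) ^ (ℓ - 1) = 1 + (ℓ : ℤ) ^ w * t := by
    have h1 : ((p ^ (ℓ - 1) - 1 : ℕ) : ℤ) = ((ℓ ^ w * t : ℕ) : ℤ) := by rw [hN]
    rw [Nat.cast_sub hpow1.le] at h1
    push_cast at h1
    linarith
  have hw : 0 < w := by
    rcases Nat.eq_zero_or_pos w with h0 | h0
    · exfalso
      rw [h0, pow_zero, one_mul] at hA
      apply ht
      have : (ℓ : ℤ) ∣ (t : ℤ) := by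
        have h2 : (p : ℤ) ^ (ℓ - 1) - 1 = t := by rw [hA]; ring
        rw [← h2]; exact hF
      exact_mod_cast this
    · exact h0
  -- the exponent
  set m : ℕ := ∑ j ∈ Finset.range w, ℓ ^ j with hm
  have hexp : ℓ ^ w - 1 = (ℓ - 1) * m := by
    have h1 : ((ℓ : ℤ) - 1) * ∑ j ∈ Finset.range w, (ℓ : ℤ) ^ j = (ℓ : ℤ) ^ w - 1 :=
      mul_geom_sum _ _
    have h2 : 1 ≤ ℓ ^ w := Nat.one_le_pow _ _ (by omega)
    zify [h2, show 1 ≤ ℓ by omega]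
    rw [hm]
    push_cast
    rw [h1]
  set S : ℤ := ∑ j ∈ Finset.range m, ((p : ℤ) ^ (ℓ - 1)) ^ j with hS
  have hfact : (p : ℤ) ^ (ℓ ^ w - 1) - 1 = (ℓ : ℤ) ^ w * (t * S) := by
    rw [hexp, pow_mul, ← mul_geom_sum, ← hS]
    have : (p : ℤ) ^ (ℓ - 1) - 1 = (ℓ : ℤ) ^ w * t := by rw [hA]; ring
    rw [this]
    ring
  refine ⟨w, t * S, hw, ?_, hfact⟩
  -- `S ≡ m ≡ 1 mod ℓ`
  have hSmod : ((S : ℤ) : ZMod ℓ) = 1 := by
    have hA' : (((p : ℤ) ^ (ℓ - 1) : ℤ) : ZMod ℓ) = 1 := by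
      rw [hA]
      push_cast
      rw [ZMod.natCast_self, zero_pow hw.ne', zero_mul, add_zero]
    rw [hS]
    push_cast at hA' ⊢
    simp only [hA', one_pow, Finset.sum_const, Finset.card_range, nsmul_eq_mul, mul_one]
    rw [hm]
    push_cast
    obtain ⟨w', rfl⟩ : ∃ w', w = w' + 1 := ⟨w - 1, by omega⟩
    rw [Finset.sum_range_succ']
    simp
  intro hdiv
  rcases hℓZ.dvd_or_dvd hdiv with h | h
  · exact ht (by exact_mod_cast h)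
  · have hz : ((S : ℤ) : ZMod ℓ) = 0 := (ZMod.intCast_zmod_eq_zero_iff_dvd S ℓ).mpr h
    rw [hSmod] at hz
    have : Fact ℓ.Prime := ⟨hℓ⟩
    exact one_ne_zero hz

/-! ### powers of power series congruent to a constant -/

theorem IsCongConst.pow_prime_pow {ℓ : ℕ} {c : ℤ} {φ : PowerSeries ℂ}
    (h : IsCongConst (ℓ : ℤ) c φ) (w : ℕ) :
    IsCongConst ((ℓ : ℤ) ^ (w + 1)) (c ^ (ℓ ^ w)) (φ ^ (ℓ ^ w)) := by
  classical
  choose zc hzc using h.exists_int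
  have hz0 : zc 0 = c := by
    have := hzc 0
    rw [h.1] at this
    exact_mod_cast this.symm
  have hzk : ∀ k, 0 < k → (ℓ : ℤ) ∣ zc k := by
    intro k hk
    obtain ⟨a, ha⟩ := h.2 k hk
    rw [hzc k] at ha
    exact ⟨a, by exact_mod_cast ha⟩
  let Z : PowerSeries ℤ := PowerSeries.mk zc
  have hφ : φ = PowerSeries.map (Int.castRingHom ℂ) Z := by
    ext k
    rw [PowerSeries.coeff_map, PowerSeries.coeff_mk, hzc k]
    rfl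
  have hdvd : ((ℓ : ℕ) : PowerSeries ℤ) ∣ Z - PowerSeries.C c := by
    refine ⟨PowerSeries.mk fun k => (zc k - (if k = 0 then c else 0)) / (ℓ : ℤ), ?_⟩
    ext k
    have hcast : ((ℓ : ℕ) : PowerSeries ℤ) = PowerSeries.C ((ℓ : ℕ) : ℤ) := by
      rw [map_natCast]
    rw [hcast, PowerSeries.coeff_C_mul, PowerSeries.coeff_mk, map_sub, PowerSeries.coeff_mk,
      PowerSeries.coeff_C]
    rcases Nat.eq_zero_or_pos k with rfl | hk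
    · simp [hz0]
    · rw [if_neg hk.ne', sub_zero, Int.mul_ediv_cancel' (hzk k hk)]
  obtain ⟨Q, hQ⟩ := dvd_sub_pow_of_dvd_sub hdvd w
  refine ⟨(h.pow (ℓ ^ w)).1, fun k hk => ⟨PowerSeries.coeff k Q, ?_⟩⟩
  have h1 : Z ^ ℓ ^ w = PowerSeries.C (c ^ ℓ ^ w) +
      PowerSeries.C (((ℓ : ℕ) : ℤ) ^ (w + 1)) * Q := by
    have hcast : ((ℓ : ℕ) : PowerSeries ℤ) ^ (w + 1) = PowerSeries.C (((ℓ : ℕ) : ℤ) ^ (w + 1)) := by
      rw [map_pow, map_natCast]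
    rw [← hcast, ← hQ, map_pow]
    ring
  rw [hφ, ← map_pow, PowerSeries.coeff_map, h1, map_add, PowerSeries.coeff_C, if_neg hk.ne',
    zero_add, PowerSeries.coeff_C_mul]
  simp

/-! ### U-A -/

/-- the statement of block `S` (`swd_min`), as a hypothesis. -/
def SwdMin (ℓ : ℕ) : Prop :=
  ∀ (k : ℕ), 2 ≤ k → (ℓ - 1) ∣ k - 2 → ∀ (F : ModularForm 𝒮ℒ (k : ℤ)) (a : ℕ → ℤ),
    (∀ n : ℕ, qCoeff F n = (a n : ℂ)) → ¬ (ℓ : ℤ) ∣ a 0 → ∃ n : ℕ, 0 < n ∧ ¬ (ℓ : ℤ) ∣ a n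

/-- U-A, with blocks `T` and `S` as hypotheses. -/
theorem not_constCong_of_five_le_of (p ℓ : ℕ) [Fact p.Prime] [Fact ℓ.Prime] (hT : TBlock p)
    (hS : SwdMin ℓ) (hℓ : 5 ≤ ℓ) (hℓp : ℓ ≠ p) : ¬ ConstCong p ℓ := by
  rintro ⟨G, c, hc, h0, hk⟩
  have hpp : p.Prime := Fact.out
  have hℓp' : ℓ.Prime := Fact.out
  have hℓZ : Prime (ℓ : ℤ) := Nat.prime_iff_prime_int.mp hℓp'
  have hp0 : (p : ℂ) ≠ 0 := Nat.cast_ne_zero.mpr hpp.ne_zero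
  have hℓ0 : (ℓ : ℂ) ≠ 0 := Nat.cast_ne_zero.mpr hℓp'.ne_zero
  have hg : IsCongConst (ℓ : ℤ) c (qExpansion 1 G) := by
    refine ⟨h0, fun k hk0 => ?_⟩
    obtain ⟨a, ha⟩ := hk k hk0
    exact ⟨a, by rw [Int.cast_natCast]; exact ha⟩
  obtain ⟨w, s, hw, hs, hws⟩ := ua_exists_exponent p ℓ hpp hℓp' hℓp
  -- `i = ℓ ^ w = j + 1`, odd
  obtain ⟨j, hj⟩ : ∃ j, ℓ ^ w = j + 1 := ⟨ℓ ^ w - 1, by
    have : 1 ≤ ℓ ^ w := Nat.one_le_pow _ _ hℓp'.pos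
    omega⟩
  have hodd : Odd (ℓ ^ w) := by
    apply Odd.pow
    rcases hℓp'.eq_two_or_odd' with h | h
    · omega
    · exact h
  have hws' : (p : ℤ) ^ j - 1 = (ℓ : ℤ) ^ w * s := by
    have : ℓ ^ w - 1 = j := by omega
    rw [← this]; exact hws
  -- the trace
  obtain ⟨T, hTn⟩ := ucong_exists_trace_pow p hT G (ℓ ^ w) ((2 * ℓ ^ w : ℕ) : ℤ) (by
    push_cast; ring)
  have hgi := hg.pow_prime_pow w
  have hui := (hg.upSeries hpp.pos).pow_prime_pow w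
  -- coefficients
  choose x hx using hgi.2
  choose y hy using hui.2
  let a : ℕ → ℤ := fun n =>
    if hn : 0 < n then (ℓ : ℤ) * ((p : ℤ) ^ j * x n hn - y (p * n) (Nat.mul_pos hpp.pos hn))
    else c ^ (ℓ ^ w) * s
  -- the rescaled form
  let F : ModularForm 𝒮ℒ ((2 * ℓ ^ w : ℕ) : ℤ) := ((p : ℂ) ^ j / (ℓ : ℂ) ^ w) • T
  have hFq : ∀ n, qCoeff F n = (p : ℂ) ^ j / (ℓ : ℂ) ^ w * qCoeff T n := by
    intro n
    have := ModularForm.qExpansion_smul one_pos one_mem_strictPeriods_SL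
      ((p : ℂ) ^ j / (ℓ : ℂ) ^ w) T
    show PowerSeries.coeff n (qExpansion 1 (((p : ℂ) ^ j / (ℓ : ℂ) ^ w) • (T : ℍ → ℂ))) = _
    rw [this, PowerSeries.coeff_smul, smul_eq_mul]
    rfl
  -- the scalar identity
  have hscal : (p : ℂ) ^ j * ((p : ℂ) ^ ((1 : ℤ) - ((2 * ℓ ^ w : ℕ) : ℤ)) * (-(p : ℂ)) ^ (ℓ ^ w))
      = -1 := by
    rw [hodd.neg_pow, hj]
    have e : ((1 : ℤ) - ((2 * (j + 1) : ℕ) : ℤ)) = -((2 * j + 1 : ℕ) : ℤ) := by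
      push_cast; ring
    rw [e, zpow_neg, zpow_natCast]
    field_simp
    ring
  have hwsC : (p : ℂ) ^ j - 1 = (ℓ : ℂ) ^ w * (s : ℂ) := by
    exact_mod_cast congrArg (Int.cast : ℤ → ℂ) hws'
  have hFa : ∀ n : ℕ, qCoeff F n = (a n : ℂ) := by
    intro n
    rw [hFq, hTn]
    rcases Nat.eq_zero_or_pos n with rfl | hn
    · have ha0 : a 0 = c ^ (ℓ ^ w) * s := by simp [a]
      rw [ha0, mul_zero, hgi.1, hui.1]
      push_cast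
      have h1 : (p : ℂ) ^ j / (ℓ : ℂ) ^ w *
          ((c : ℂ) ^ ℓ ^ w + (p : ℂ) ^ ((1 : ℤ) - ((2 * ℓ ^ w : ℕ) : ℤ)) * (-(p : ℂ)) ^ ℓ ^ w *
            (c : ℂ) ^ ℓ ^ w) =
          ((p : ℂ) ^ j + (p : ℂ) ^ j * ((p : ℂ) ^ ((1 : ℤ) - ((2 * ℓ ^ w : ℕ) : ℤ)) *
            (-(p : ℂ)) ^ ℓ ^ w)) * (c : ℂ) ^ ℓ ^ w / (ℓ : ℂ) ^ w := by
        ring
      push_cast at h1 hscal
      rw [h1, hscal]
      have h2 : (p : ℂ) ^ j + -1 = (ℓ : ℂ) ^ w * (s : ℂ) := by rw [← hwsC]; ring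
      rw [h2]
      field_simp
    · have han : a n = (ℓ : ℤ) * ((p : ℤ) ^ j * x n hn - y (p * n) (Nat.mul_pos hpp.pos hn)) := by
        simp [a, hn]
      rw [han, hx n hn, hy (p * n) (Nat.mul_pos hpp.pos hn)]
      push_cast
      have h1 : (p : ℂ) ^ j / (ℓ : ℂ) ^ w *
          ((ℓ : ℂ) ^ (w + 1) * (x n hn : ℂ) +
            (p : ℂ) ^ ((1 : ℤ) - ((2 * ℓ ^ w : ℕ) : ℤ)) * (-(p : ℂ)) ^ ℓ ^ w *
              ((ℓ : ℂ) ^ (w + 1) * (y (p * n) (Nat.mul_pos hpp.pos hn) : ℂ))) =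
          ((p : ℂ) ^ j * (x n hn : ℂ) + (p : ℂ) ^ j * ((p : ℂ) ^ ((1 : ℤ) - ((2 * ℓ ^ w : ℕ) : ℤ)) *
            (-(p : ℂ)) ^ ℓ ^ w) * (y (p * n) (Nat.mul_pos hpp.pos hn) : ℂ)) *
            ((ℓ : ℂ) ^ (w + 1) / (ℓ : ℂ) ^ w) := by
        ring
      have h3 : (ℓ : ℂ) ^ (w + 1) / (ℓ : ℂ) ^ w = ℓ := by
        rw [pow_succ]
        field_simp
      push_cast at h1 hscal
      rw [h1, hscal, h3]
      ring
  -- Swinnerton-Dyer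
  have hpc : ¬ (ℓ : ℤ) ∣ c := by
    intro hd
    have : IsUnit (ℓ : ℤ) := hc.symm.isUnit_of_dvd' dvd_rfl hd
    exact hℓZ.not_isUnit this
  have ha0 : ¬ (ℓ : ℤ) ∣ a 0 := by
    have : a 0 = c ^ (ℓ ^ w) * s := by simp [a]
    rw [this]
    intro hd
    rcases hℓZ.dvd_or_dvd hd with h | h
    · exact hpc (hℓZ.dvd_of_dvd_pow h)
    · exact hs h
  have hk2 : 2 ≤ 2 * ℓ ^ w := by
    have : 1 ≤ ℓ ^ w := Nat.one_le_pow _ _ hℓp'.pos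
    omega
  have hkd : (ℓ - 1) ∣ 2 * ℓ ^ w - 2 := by
    have h1 : (ℓ - 1) ∣ ℓ ^ w - 1 := by
      have := Nat.sub_dvd_pow_sub_pow ℓ 1 w
      rwa [one_pow] at this
    have h2 : 2 * ℓ ^ w - 2 = 2 * (ℓ ^ w - 1) := by omega
    rw [h2]
    exact Dvd.dvd.mul_left h1 2
  obtain ⟨n, hn, hnd⟩ := hS (2 * ℓ ^ w) hk2 hkd F a hFa ha0
  apply hnd
  have : a n = (ℓ : ℤ) * ((p : ℤ) ^ j * x n hn - y (p * n) (Nat.mul_pos hpp.pos hn)) := by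
    simp [a, hn]
  rw [this]
  exact Dvd.intro _ rfl

end Fermat.Agent.S16lib

end
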