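/-
Item 16 (S16), piece U-B (helper1): a modular form of weight `2` on `Γ₀(p)`, `p ≥ 5`, with integral
`q`-expansion is not congruent to a unit constant modulo `p`.
(Traces of `G²` and `G³` to level one, `M₄ = ℂ E₄`, `M₆ = ℂ E₆`.)
-/
import Mathlib
import Fermat.Agent.S16lib.UCong

set_option autoImplicit false

noncomputable section

namespace Fermat.Agent.S16lib

open ModularCurve CuspForm CongruenceSubgroup ModularFormClass UpperHalfPlane ModularForm
  EisensteinSeries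
open scoped MatrixGroups ModularForm

theorem ub_levelOne_four (T : ModularForm 𝒮ℒ 4) : qCoeff T 1 = 240 * qCoeff T 0 := by
  have h0 : (qExpansion 1 E₄).coeff 0 = 1 := E_qExpansion_coeff_zero _ ⟨2, rfl⟩
  have hE : (E₄ : ModularForm 𝒮ℒ 4) ≠ 0 := by
    intro h
    rw [h] at h0
    simp [qExpansion_zero] at h0
  have hrank : Module.finrank ℂ (ModularForm 𝒮ℒ 4) = 1 :=
    Module.finrank_eq_of_rank_eq levelOne_weight_four_rank_one
  obtain ⟨c, hc⟩ := (finrank_eq_one_iff_of_nonzero' _ hE).mp hrank T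
  have hq : qExpansion 1 T = c • qExpansion 1 E₄ := by
    rw [← hc]
    exact ModularForm.qExpansion_smul one_pos one_mem_strictPeriods_SL c E₄
  simp only [qCoeff, hq, PowerSeries.coeff_smul, h0, E₄_qExpansion_coeff_one, smul_eq_mul]
  ring

theorem ub_levelOne_six (T : ModularForm 𝒮ℒ 6) : qCoeff T 1 = -504 * qCoeff T 0 := by
  have h0 : (qExpansion 1 E₆).coeff 0 = 1 := E_qExpansion_coeff_zero _ ⟨3, rfl⟩
  have hE : (E₆ : ModularForm 𝒮ℒ 6) ≠ 0 := by
    intro h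
    rw [h] at h0
    simp [qExpansion_zero] at h0
  have hrank : Module.finrank ℂ (ModularForm 𝒮ℒ 6) = 1 :=
    Module.finrank_eq_of_rank_eq levelOne_weight_six_rank_one
  obtain ⟨c, hc⟩ := (finrank_eq_one_iff_of_nonzero' _ hE).mp hrank T
  have hq : qExpansion 1 T = c • qExpansion 1 E₆ := by
    rw [← hc]
    exact ModularForm.qExpansion_smul one_pos one_mem_strictPeriods_SL c E₆
  simp only [qCoeff, hq, PowerSeries.coeff_smul, h0, E₆_qExpansion_coeff_one, smul_eq_mul]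
  ring

theorem ub_isCongConst_of_constCong {p M : ℕ} {G : ModularForm (Gamma0 p) 2} {c : ℤ}
    (h0 : qCoeff G 0 = (c : ℂ))
    (hk : ∀ k : ℕ, 0 < k → ∃ a : ℤ, qCoeff G k = (M : ℂ) * (a : ℂ)) :
    IsCongConst (M : ℤ) c (qExpansion 1 G) := by
  refine ⟨h0, fun k hk0 => ?_⟩
  obtain ⟨a, ha⟩ := hk k hk0
  exact ⟨a, by rw [Int.cast_natCast]; exact ha⟩

/-- the integer relation coming from weight `4`. -/
theorem ub_dvd_four (p : ℕ) [Fact p.Prime] (hT : TBlock p) (G : ModularForm (Gamma0 p) 2)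
    (c : ℤ) (hg : IsCongConst (p : ℤ) c (qExpansion 1 G)) :
    (p : ℤ) ∣ 240 * c ^ 2 * (p + 1) := by
  have hp0 : (p : ℂ) ≠ 0 := Nat.cast_ne_zero.mpr (Fact.out : p.Prime).ne_zero
  have hppos : 0 < p := (Fact.out : p.Prime).pos
  obtain ⟨T, hTn⟩ := ucong_exists_trace_pow p hT G 2 4 (by norm_num)
  have hg2 := hg.pow 2
  have hu2 := (hg.upSeries hppos).pow 2
  obtain ⟨x, hx⟩ := hg2.2 1 one_pos
  obtain ⟨y, hy⟩ := hu2.2 (p * 1) (by omega)
  have e0 := hTn 0
  have e1 := hTn 1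
  rw [mul_zero, hg2.1, hu2.1] at e0
  rw [hx, hy] at e1
  have key := ub_levelOne_four T
  rw [e0, e1] at key
  have hpow : (p : ℂ) ^ ((1 : ℤ) - 4) = ((p : ℂ) ^ 3)⁻¹ := by
    rw [show ((1 : ℤ) - 4) = -3 by norm_num, zpow_neg]
    norm_cast
  rw [hpow] at key
  have key2 : ((p : ℤ) : ℂ) * (((p : ℤ) * x + y : ℤ) : ℂ) = ((240 * c ^ 2 * (p + 1) : ℤ) : ℂ) := by
    push_cast
    push_cast at key
    field_simp at key
    linear_combination key
  exact ⟨(p : ℤ) * x + y, by exact_mod_cast key2.symm⟩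

/-- the integer relation coming from weight `6`. -/
theorem ub_dvd_six (p : ℕ) [Fact p.Prime] (hT : TBlock p) (G : ModularForm (Gamma0 p) 2)
    (c : ℤ) (hg : IsCongConst (p : ℤ) c (qExpansion 1 G)) :
    (p : ℤ) ∣ 504 * c ^ 3 * ((p : ℤ) ^ 2 - 1) := by
  have hp0 : (p : ℂ) ≠ 0 := Nat.cast_ne_zero.mpr (Fact.out : p.Prime).ne_zero
  have hppos : 0 < p := (Fact.out : p.Prime).pos
  obtain ⟨T, hTn⟩ := ucong_exists_trace_pow p hT G 3 6 (by norm_num)
  have hg3 := hg.pow 3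
  have hu3 := (hg.upSeries hppos).pow 3
  obtain ⟨x, hx⟩ := hg3.2 1 one_pos
  obtain ⟨y, hy⟩ := hu3.2 (p * 1) (by omega)
  have e0 := hTn 0
  have e1 := hTn 1
  rw [mul_zero, hg3.1, hu3.1] at e0
  rw [hx, hy] at e1
  have key := ub_levelOne_six T
  rw [e0, e1] at key
  have hpow : (p : ℂ) ^ ((1 : ℤ) - 6) = ((p : ℂ) ^ 5)⁻¹ := by
    rw [show ((1 : ℤ) - 6) = -5 by norm_num, zpow_neg]
    norm_cast
  rw [hpow] at key
  have key2 : ((p : ℤ) : ℂ) * ((y - (p : ℤ) ^ 2 * x : ℤ) : ℂ) =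
      ((504 * c ^ 3 * ((p : ℤ) ^ 2 - 1) : ℤ) : ℂ) := by
    push_cast
    push_cast at key
    field_simp at key
    linear_combination (-1 : ℂ) * key
  exact ⟨y - (p : ℤ) ^ 2 * x, by exact_mod_cast key2.symm⟩

theorem ub_arith (p : ℕ) (hpp : p.Prime) (hp : 5 ≤ p) (h : p ∣ 24) : False := by
  have hle : p ≤ 24 := Nat.le_of_dvd (by norm_num) h
  interval_cases p <;> first | omega | exact absurd hpp (by norm_num)

/-- U-B, with block `T` as a hypothesis. -/
theorem not_constCong_self_of (p : ℕ) [Fact p.Prime] (hT : TBlock p) (hp : 5 ≤ p) :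
    ¬ ConstCong p p := by
  rintro ⟨G, c, hc, h0, hk⟩
  have hpp : p.Prime := Fact.out
  have hpZ : Prime (p : ℤ) := Nat.prime_iff_prime_int.mp hpp
  have hg := ub_isCongConst_of_constCong h0 hk
  have h4 := ub_dvd_four p hT G c hg
  have h6 := ub_dvd_six p hT G c hg
  have hpc : ¬ (p : ℤ) ∣ c := by
    intro hd
    have : IsUnit (p : ℤ) := hc.symm.isUnit_of_dvd' dvd_rfl hd
    exact hpZ.not_isUnit this
  have hpc2 : ¬ (p : ℤ) ∣ c ^ 2 := fun h => hpc (hpZ.dvd_of_dvd_pow h)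
  have hpc3 : ¬ (p : ℤ) ∣ c ^ 3 := fun h => hpc (hpZ.dvd_of_dvd_pow h)
  have hp1 : ¬ (p : ℤ) ∣ (p : ℤ) + 1 := by
    intro h
    have h1 : (p : ℤ) ∣ 1 := (dvd_add_right dvd_rfl).mp h
    exact hpZ.not_isUnit (isUnit_of_dvd_one h1)
  have hp2 : ¬ (p : ℤ) ∣ (p : ℤ) ^ 2 - 1 := by
    intro h
    have h1 : (p : ℤ) ∣ 1 := by
      have h2 : (p : ℤ) ∣ (p : ℤ) ^ 2 := dvd_pow_self _ (by norm_num)
      have := dvd_sub h2 h
      simpa using this
    exact hpZ.not_isUnit (isUnit_of_dvd_one h1)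
  have d240 : (p : ℤ) ∣ 240 := by
    rcases hpZ.dvd_or_dvd h4 with h | h
    · rcases hpZ.dvd_or_dvd h with h | h
      · exact h
      · exact absurd h hpc2
    · exact absurd h hp1
  have d504 : (p : ℤ) ∣ 504 := by
    rcases hpZ.dvd_or_dvd h6 with h | h
    · rcases hpZ.dvd_or_dvd h with h | h
      · exact h
      · exact absurd h hpc3
    · exact absurd h hp2
  have d24 : p ∣ 24 := by
    have h1 : p ∣ 240 := by exact_mod_cast d240
    have h2 : p ∣ 504 := by exact_mod_cast d504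
    exact Nat.dvd_gcd h1 h2
  exact ub_arith p hpp hp d24

end Fermat.Agent.S16lib

end
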