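/-
Item 16 (S16), pieces U-A and U-B, unconditional (helper1): the blocks `T` (helper13,
`S16lib/Trace.lean`) and `S` (helper11, `S16lib/SwD.lean`) discharge the hypotheses of
`S16lib/UA.lean` and `S16lib/UB.lean`.
-/
import Mathlib
import Fermat.Agent.S16lib.UA
import Fermat.Agent.S16lib.UB
import Fermat.Agent.S16lib.Trace
import Fermat.Agent.S16lib.SwD

set_option autoImplicit false

noncomputable section

namespace Fermat.Agent.S16lib

open ModularCurve CuspForm CongruenceSubgroup ModularFormClass UpperHalfPlane ModularForm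
open scoped MatrixGroups ModularForm

/-- block `T`, packaged. -/
theorem tBlock (p : ℕ) [Fact p.Prime] : TBlock p where
  dual := exists_frickeDual p
  trace := exists_trace p
  weight_two := frickeDual_weight_two p

/-- block `S`, packaged. -/
theorem swdMin (ℓ : ℕ) [Fact ℓ.Prime] (hℓ : 5 ≤ ℓ) : SwdMin ℓ :=
  fun k hk2 hk F a hF h0 => swd_min ℓ k hℓ hk2 hk F a hF h0

/-- U-A (Swinnerton-Dyer + trace of `G ^ (ℓ ^ w)`) -/
theorem not_constCong_of_five_le (p ℓ : ℕ) [Fact p.Prime] [Fact ℓ.Prime] (hℓ : 5 ≤ ℓ)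
    (hℓp : ℓ ≠ p) : ¬ ConstCong p ℓ :=
  not_constCong_of_five_le_of p ℓ (tBlock p) (swdMin ℓ hℓ) hℓ hℓp

/-- U-B (trace of `G ^ 2`, weight `4`; `G ^ 3`, weight `6` for `p = 5`) -/
theorem not_constCong_self (p : ℕ) [Fact p.Prime] (hp : 5 ≤ p) : ¬ ConstCong p p :=
  not_constCong_self_of p (tBlock p) hp

end Fermat.Agent.S16lib
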