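/-
S16 piece U-C (helper17): the `Δ` trick.  If a weight-two form `G` on `Γ₀(p)` with integral
`q`-expansion is congruent to a constant prime to `M` modulo `M`, and `M` is prime to `p`, then
`M ∣ p + 1`.

The Fricke/trace block T (helper13) enters only through the four statements of
NOTES/S16_signatures.lean.txt, taken here as hypotheses (`dvd_succ_of_constCong_of`); so does the
integrality of the Ramanujan `τ` function.
-/
import Mathlib
import Fermat.Agent.S16lib.Defs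
import Fermat.Agent.S16lib.Fricke

set_option autoImplicit false

noncomputable section

namespace Fermat.Agent.S16lib

open ModularCurve CuspForm CongruenceSubgroup ModularFormClass UpperHalfPlane
open scoped MatrixGroups ModularForm

/-! ### Elementary lemmas -/

/-- A convolution sum with `M ∣ g k` for `k > 0` is congruent to its first term. -/
theorem uc_sum_antidiag (M : ℤ) (g X : ℕ → ℤ) (hg : ∀ k, 0 < k → M ∣ g k) (n : ℕ) :
    M ∣ (∑ ij ∈ Finset.HasAntidiagonal.antidiagonal n, g ij.1 * X ij.2) - g 0 * X n := by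
  have hmem : ((0, n) : ℕ × ℕ) ∈ Finset.HasAntidiagonal.antidiagonal n := by simp
  rw [← Finset.add_sum_erase _ _ hmem]
  simp only [add_sub_cancel_left]
  apply Finset.dvd_sum
  intro ij hij
  rw [Finset.mem_erase, Finset.HasAntidiagonal.mem_antidiagonal] at hij
  have h1 : 0 < ij.1 := by
    rcases Nat.eq_zero_or_pos ij.1 with h | h
    · exfalso
      apply hij.1
      ext
      · simpa using h
      · simp only
        omega
    · exact h
  exact Dvd.dvd.mul_right (hg _ h1) _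

/-- Fricke duality is multiplicative. -/
theorem frickeDual_mul {p : ℕ} [NeZero p] {k l : ℤ} {F F' G G' : ℍ → ℂ}
    (hF : FrickeDual p k F F') (hG : FrickeDual p l G G') :
    FrickeDual p (k + l) (F * G) (F' * G') := by
  intro z
  have hz : (z : ℂ) ≠ 0 := z.ne_zero
  simp only [Pi.mul_apply]
  rw [hF z, hG z, neg_add, zpow_add₀ hz]
  ring

/-- `qCoeff` of a product of modular forms of level `Γ₀(p)`. -/
theorem uc_qCoeff_mul (p : ℕ) {k l : ℤ} (F : ModularForm (Gamma0 p) k)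
    (G : ModularForm (Gamma0 p) l) (n : ℕ) :
    qCoeff (F.mul G) n = ∑ ij ∈ Finset.HasAntidiagonal.antidiagonal n, qCoeff F ij.1 * qCoeff G ij.2 := by
  unfold qCoeff
  rw [ModularForm.qExpansion_mul one_pos (CongruenceSubgroup.one_mem_strictPeriods_Gamma0 p),
    PowerSeries.coeff_mul]

/-! ### Level one, weights `12` and `14` -/

theorem uc_levelOne_weight_two (k : ℤ) (hk : k = 2) (f : ModularForm 𝒮ℒ k) : f = 0 := by
  subst hk
  exact rank_zero_iff_forall_zero.mp ModularForm.levelOne_weight_two_rank_zero f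

/-- A level-one form of weight `14` with vanishing constant term has zero `q`-expansion. -/
theorem uc_levelOne_weight_fourteen (k : ℤ) (hk : k = 14) (T : ModularForm 𝒮ℒ k)
    (h0 : qCoeff T 0 = 0) (n : ℕ) : qCoeff T n = 0 := by
  have h0' : (qExpansion 1 T).coeff 0 = 0 := h0
  have h1 := ModularForm.qExpansion_eq_qExpansion_discriminant_mul T h0'
  have h2 : CuspForm.discriminantEquiv (ModularForm.toCuspForm T h0') = 0 :=
    uc_levelOne_weight_two (k - 12) (by omega) _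
  unfold qCoeff
  rw [h1, h2]
  simp [UpperHalfPlane.qExpansion_zero]

/-- A level-one form of weight `12` with vanishing constant term is a multiple of `Δ`. -/
theorem uc_levelOne_weight_twelve (T : ModularForm 𝒮ℒ 12) (h0 : qCoeff T 0 = 0) :
    ∃ c : ℂ, ∀ n : ℕ, qCoeff T n = c * qCoeff ModularForm.discriminant n := by
  have h0' : (qExpansion 1 T).coeff 0 = 0 := h0
  obtain ⟨c, hc⟩ := CuspForm.exists_smul_discriminant_of_weight_eq_twelve
    (ModularForm.toCuspForm T h0')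
  refine ⟨c, fun n => ?_⟩
  have h1 : (⇑T : ℍ → ℂ) = c • (⇑CuspForm.discriminant : ℍ → ℂ) := by
    funext z
    have := congrArg (fun f : CuspForm 𝒮ℒ 12 => f z) hc
    simpa using this.symm
  unfold qCoeff
  rw [h1, ModularForm.qExpansion_smul one_pos one_mem_strictPeriods_SL]
  simp [CuspForm.coe_discriminant]

/-! ### `Δ` as a modular form of level one -/

/-- `Δ` as a modular form of level one. -/
def ucDelta : ModularForm 𝒮ℒ 12 := CuspForm.toModularFormₗ CuspForm.discriminant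

theorem coe_ucDelta : (⇑ucDelta : ℍ → ℂ) = ModularForm.discriminant := rfl

theorem uc_qCoeff_discriminant_zero : qCoeff ModularForm.discriminant 0 = 0 := by
  have := CuspFormClass.qExpansion_coeff_zero CuspForm.discriminant one_pos
    one_mem_strictPeriods_SL
  simpa [qCoeff, CuspForm.coe_discriminant] using this

theorem uc_qCoeff_discriminant_one : qCoeff ModularForm.discriminant 1 = 1 :=
  ModularForm.discriminant_qExpansion_coeff_one

theorem uc_qCoeff_congr {f g : ℍ → ℂ} (h : ∀ z, f z = g z) (n : ℕ) : qCoeff f n = qCoeff g n := by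
  rw [show f = g from funext h]

/-! ### The Hecke relation `τ(p)² = p¹¹ + τ(p²)` -/

theorem uc_hecke_sq (p : ℕ) [Fact p.Prime] (τ : ℕ → ℤ)
    (hτ : ∀ n : ℕ, qCoeff ModularForm.discriminant n = (τ n : ℂ))
    (htrace : ∀ (k : ℤ) (F F' : ModularForm (Gamma0 p) k), FrickeDual p k F F' →
      ∃ T : ModularForm 𝒮ℒ k, ∀ n : ℕ,
        qCoeff T n = qCoeff F n + (p : ℂ) ^ (1 - k) * qCoeff F' (p * n))
    (hraise : ∀ (k : ℤ) (B : ModularForm 𝒮ℒ k),
      ∃ B₁ Bp : ModularForm (Gamma0 p) k, (∀ z : ℍ, B₁ z = B z) ∧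
        (∀ n : ℕ, qCoeff Bp n = if p ∣ n then qCoeff B (n / p) else 0) ∧
        FrickeDual p k Bp B₁ ∧ FrickeDual p k B₁ (((p : ℂ) ^ k) • ⇑Bp)) :
    τ p ^ 2 = (p : ℤ) ^ 11 + τ (p * p) := by
  have hp : p.Prime := Fact.out
  have hp0 : (p : ℂ) ≠ 0 := by exact_mod_cast hp.ne_zero
  have hτ0 : (τ 0 : ℂ) = 0 := by rw [← hτ 0]; exact uc_qCoeff_discriminant_zero
  have hτ1 : (τ 1 : ℂ) = 1 := by rw [← hτ 1]; exact uc_qCoeff_discriminant_one
  obtain ⟨B₁, Bp, hB₁, hBp, hd1, -⟩ := hraise 12 ucDelta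
  obtain ⟨T, hT⟩ := htrace 12 Bp B₁ hd1
  have hB₁' : ∀ n : ℕ, qCoeff B₁ n = (τ n : ℂ) := fun n => by
    rw [uc_qCoeff_congr hB₁ n, coe_ucDelta, hτ n]
  have hBp' : ∀ n : ℕ, qCoeff Bp n = if p ∣ n then (τ (n / p) : ℂ) else 0 := fun n => by
    rw [hBp n, coe_ucDelta, hτ]
  have hpow : (p : ℂ) ^ (11 : ℕ) * (p : ℂ) ^ (1 - 12 : ℤ) = 1 := by
    rw [← zpow_natCast, ← zpow_add₀ hp0]
    norm_num
  have hT0 : qCoeff T 0 = 0 := by
    rw [hT 0, hBp' 0, hB₁' (p * 0)]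
    simp [hτ0]
  obtain ⟨c, hc⟩ := uc_levelOne_weight_twelve T hT0
  have e1 := hc 1
  rw [hT 1, hBp' 1, hB₁' (p * 1), hτ 1, hτ1, if_neg (by simpa using hp.one_lt.ne'), mul_one,
    mul_one, zero_add] at e1
  have e2 := hc p
  rw [hT p, hBp' p, hB₁' (p * p), hτ p, if_pos dvd_rfl, Nat.div_self hp.pos, hτ1] at e2
  have e3 : (τ p : ℂ) = (p : ℂ) ^ (11 : ℕ) * c := by
    rw [← e1, ← mul_assoc, hpow, one_mul]
  have e4 : ((τ p : ℂ)) ^ 2 = (p : ℂ) ^ 11 + (τ (p * p) : ℂ) := by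
    calc ((τ p : ℂ)) ^ 2 = (p : ℂ) ^ (11 : ℕ) * (c * (τ p : ℂ)) := by rw [e3]; ring
      _ = (p : ℂ) ^ (11 : ℕ) * (1 + (p : ℂ) ^ (1 - 12 : ℤ) * (τ (p * p) : ℂ)) := by rw [← e2]
      _ = (p : ℂ) ^ 11 + ((p : ℂ) ^ (11 : ℕ) * (p : ℂ) ^ (1 - 12 : ℤ)) * (τ (p * p) : ℂ) := by ring
      _ = (p : ℂ) ^ 11 + (τ (p * p) : ℂ) := by rw [hpow, one_mul]
  exact_mod_cast e4

/-! ### The `Δ` trick -/

/-- The integral coefficients of a `ConstCong` form. -/
theorem uc_exists_coeffs {p M : ℕ} (G : ModularForm (Gamma0 p) 2) (c : ℤ)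
    (h0 : qCoeff G 0 = (c : ℂ))
    (hk : ∀ k : ℕ, 0 < k → ∃ a : ℤ, qCoeff G k = (M : ℂ) * (a : ℂ)) :
    ∃ g : ℕ → ℤ, g 0 = c ∧ (∀ k : ℕ, 0 < k → (M : ℤ) ∣ g k) ∧
      ∀ k : ℕ, qCoeff G k = (g k : ℂ) := by
  classical
  choose a ha using hk
  refine ⟨fun k => if h : 0 < k then (M : ℤ) * a k h else c, by simp, fun k hk0 => ?_, fun k => ?_⟩
  · simp only [dif_pos hk0]
    exact dvd_mul_right _ _
  · rcases Nat.eq_zero_or_pos k with h | h
    · subst h
      simpa using h0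
    · simp only [dif_pos h]
      rw [ha k h]
      push_cast
      rfl

/-- U-C, with block T and the integrality of `τ` as hypotheses. -/
theorem dvd_succ_of_constCong_of (p M : ℕ) [Fact p.Prime] (_hM : 0 < M) (hMp : Nat.Coprime M p)
    (hdual : ∀ (k : ℤ) (F : ModularForm (Gamma0 p) k),
      ∃ F' : ModularForm (Gamma0 p) k, FrickeDual p k F F')
    (htrace : ∀ (k : ℤ) (F F' : ModularForm (Gamma0 p) k), FrickeDual p k F F' →
      ∃ T : ModularForm 𝒮ℒ k, ∀ n : ℕ,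
        qCoeff T n = qCoeff F n + (p : ℂ) ^ (1 - k) * qCoeff F' (p * n))
    (hraise : ∀ (k : ℤ) (B : ModularForm 𝒮ℒ k),
      ∃ B₁ Bp : ModularForm (Gamma0 p) k, (∀ z : ℍ, B₁ z = B z) ∧
        (∀ n : ℕ, qCoeff Bp n = if p ∣ n then qCoeff B (n / p) else 0) ∧
        FrickeDual p k Bp B₁ ∧ FrickeDual p k B₁ (((p : ℂ) ^ k) • ⇑Bp))
    (hw2 : ∀ (G G' : ModularForm (Gamma0 p) 2), FrickeDual p 2 G G' →
      ∀ n : ℕ, qCoeff G' n = -(p : ℂ) * qCoeff G (p * n))
    (τ : ℕ → ℤ) (hτ : ∀ n : ℕ, qCoeff ModularForm.discriminant n = (τ n : ℂ))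
    (h : ConstCong p M) : M ∣ p + 1 := by
  have hp : p.Prime := Fact.out
  have hp0 : (p : ℂ) ≠ 0 := by exact_mod_cast hp.ne_zero
  have hτ0 : τ 0 = 0 := by
    have : (τ 0 : ℂ) = 0 := by rw [← hτ 0]; exact uc_qCoeff_discriminant_zero
    exact_mod_cast this
  have hτ1 : τ 1 = 1 := by
    have : (τ 1 : ℂ) = 1 := by rw [← hτ 1]; exact uc_qCoeff_discriminant_one
    exact_mod_cast this
  have hhecke := uc_hecke_sq p τ hτ htrace hraise
  obtain ⟨G, c, hc, hG0, hGk⟩ := h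
  obtain ⟨g, hg0, hgM, hg⟩ := uc_exists_coeffs G c hG0 hGk
  obtain ⟨G', hGG'⟩ := hdual 2 G
  -- the coefficients of `G'`
  set g' : ℕ → ℤ := fun i => -(p : ℤ) * g (p * i) with hg'def
  have hg' : ∀ i : ℕ, qCoeff G' i = (g' i : ℂ) := fun i => by
    rw [hw2 G G' hGG' i, hg]
    simp [hg'def]
  have hg'M : ∀ k : ℕ, 0 < k → (M : ℤ) ∣ g' k := fun k hk0 =>
    Dvd.dvd.mul_left (hgM _ (Nat.mul_pos hp.pos hk0)) _
  have hg'0 : g' 0 = -(p : ℤ) * c := by simp [hg'def, hg0]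
  -- `Δ(z)` and `Δ(pz)`
  obtain ⟨B₁, Bp, hB₁, hBp, hd1, -⟩ := hraise 12 ucDelta
  set X : ℕ → ℤ := fun j => if p ∣ j then τ (j / p) else 0 with hXdef
  have hB₁' : ∀ n : ℕ, qCoeff B₁ n = (τ n : ℂ) := fun n => by
    rw [uc_qCoeff_congr hB₁ n, coe_ucDelta, hτ n]
  have hBp' : ∀ n : ℕ, qCoeff Bp n = (X n : ℂ) := fun n => by
    rw [hBp n, coe_ucDelta, hτ]
    simp only [hXdef]
    split_ifs <;> simp
  -- the products
  have hHH' : FrickeDual p (2 + 12) (G.mul Bp) (G'.mul B₁) := frickeDual_mul hGG' hd1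
  obtain ⟨T, hT⟩ := htrace (2 + 12) (G.mul Bp) (G'.mul B₁) hHH'
  have hH : ∀ n : ℕ, qCoeff (G.mul Bp) n =
      ((∑ ij ∈ Finset.HasAntidiagonal.antidiagonal n, g ij.1 * X ij.2 : ℤ) : ℂ) := fun n => by
    rw [uc_qCoeff_mul]
    push_cast
    exact Finset.sum_congr rfl fun ij _ => by rw [hg, hBp']
  have hH' : ∀ n : ℕ, qCoeff (G'.mul B₁) n =
      ((∑ ij ∈ Finset.HasAntidiagonal.antidiagonal n, g' ij.1 * τ ij.2 : ℤ) : ℂ) := fun n => by
    rw [uc_qCoeff_mul]
    push_cast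
    exact Finset.sum_congr rfl fun ij _ => by rw [hg', hB₁']
  have hX0 : X 0 = 0 := by simp [hXdef, hτ0]
  have hT0 : qCoeff T 0 = 0 := by
    rw [hT 0, hH 0, hH' (p * 0)]
    simp [hX0, hτ0]
  have hTn := uc_levelOne_weight_fourteen (2 + 12) (by norm_num) T hT0
  have hpow : (p : ℂ) ^ (13 : ℕ) * (p : ℂ) ^ (1 - (2 + 12) : ℤ) = 1 := by
    rw [← zpow_natCast, ← zpow_add₀ hp0]
    norm_num
  -- the integral identity
  have hid : ∀ n : ℕ, (p : ℤ) ^ 13 *
      (∑ ij ∈ Finset.HasAntidiagonal.antidiagonal n, g ij.1 * X ij.2) +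
      ∑ ij ∈ Finset.HasAntidiagonal.antidiagonal (p * n), g' ij.1 * τ ij.2 = 0 := fun n => by
    have e := hTn n
    rw [hT n, hH n, hH' (p * n)] at e
    have e' : ((p : ℂ) ^ (13 : ℕ)) *
        ((∑ ij ∈ Finset.HasAntidiagonal.antidiagonal n, g ij.1 * X ij.2 : ℤ) : ℂ) +
        ((∑ ij ∈ Finset.HasAntidiagonal.antidiagonal (p * n), g' ij.1 * τ ij.2 : ℤ) : ℂ) = 0 := by
      have := congrArg (fun x => (p : ℂ) ^ (13 : ℕ) * x) e
      simp only [mul_add, mul_zero, ← mul_assoc, hpow, one_mul] at this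
      exact this
    exact_mod_cast e'
  -- the congruence
  have hcong : ∀ n : ℕ, (M : ℤ) ∣ (p : ℤ) ^ 12 * X n - τ (p * n) := fun n => by
    have h1 := uc_sum_antidiag (M : ℤ) g X hgM n
    have h2 := uc_sum_antidiag (M : ℤ) g' τ hg'M (p * n)
    have h3 : (M : ℤ) ∣ ((p : ℤ) * c) * ((p : ℤ) ^ 12 * X n - τ (p * n)) := by
      have h4 := dvd_add (Dvd.dvd.mul_left h1 ((p : ℤ) ^ 13)) h2
      have h5 : (p : ℤ) ^ 13 * (∑ ij ∈ Finset.HasAntidiagonal.antidiagonal n, g ij.1 * X ij.2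
            - g 0 * X n) +
          (∑ ij ∈ Finset.HasAntidiagonal.antidiagonal (p * n), g' ij.1 * τ ij.2
            - g' 0 * τ (p * n)) =
          -(((p : ℤ) * c) * ((p : ℤ) ^ 12 * X n - τ (p * n))) := by
        have := hid n
        rw [hg0, hg'0]
        linear_combination this
      rw [h5] at h4
      exact (dvd_neg.mp h4)
    have hcop : IsCoprime (M : ℤ) ((p : ℤ) * c) := by
      apply IsCoprime.mul_right
      · exact_mod_cast (Nat.isCoprime_iff_coprime.mpr hMp)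
      · exact hc.symm
    exact hcop.dvd_of_dvd_mul_left h3
  have c1 : (M : ℤ) ∣ τ p := by
    have := hcong 1
    have hX1 : X 1 = 0 := by
      simp only [hXdef]
      rw [if_neg]
      simpa using hp.one_lt.ne'
    rw [hX1, mul_zero, zero_sub, mul_one] at this
    exact (dvd_neg.mp this)
  have c2 : (M : ℤ) ∣ (p : ℤ) ^ 12 - τ (p * p) := by
    have := hcong p
    have hXp : X p = 1 := by
      simp only [hXdef]
      rw [if_pos dvd_rfl, Nat.div_self hp.pos, hτ1]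
    rwa [hXp, mul_one] at this
  have c3 : (M : ℤ) ∣ (p : ℤ) ^ 11 * ((p : ℤ) + 1) := by
    have e : (p : ℤ) ^ 11 * ((p : ℤ) + 1) = ((p : ℤ) ^ 12 - τ (p * p)) + τ p * τ p := by
      linear_combination (-1 : ℤ) * hhecke
    rw [e]
    exact dvd_add c2 (Dvd.dvd.mul_right c1 _)
  have hcop2 : IsCoprime (M : ℤ) ((p : ℤ) ^ 11) := by
    apply IsCoprime.pow_right
    exact_mod_cast (Nat.isCoprime_iff_coprime.mpr hMp)
  have c4 : (M : ℤ) ∣ (p : ℤ) + 1 := hcop2.dvd_of_dvd_mul_left c3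
  exact_mod_cast c4

end Fermat.Agent.S16lib

end
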