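/-
S16 piece U-C (helper17), final form: `dvd_succ_of_constCong` with the exact signature of
NOTES/S16_signatures.lean.txt.  Wiring of `dvd_succ_of_constCong_of` (S16lib/UC.lean) with block T
(helper13, S16lib/Trace.lean) and the integrality of `τ` (S28lib/UnitExp.lean).
-/
import Mathlib
import Fermat.Agent.S16lib.UC
import Fermat.Agent.S16lib.Trace
import Fermat.Agent.S28lib.UnitExp

set_option autoImplicit false

noncomputable section

namespace Fermat.Agent.S16lib

open ModularCurve CuspForm CongruenceSubgroup ModularFormClass UpperHalfPlane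
open scoped MatrixGroups ModularForm

/-- U-C (`Δ` trick: trace of `G · Δ(p z)`, weight `14`) -/
theorem dvd_succ_of_constCong (p M : ℕ) [Fact p.Prime] (hM : 0 < M) (hMp : Nat.Coprime M p)
    (h : ConstCong p M) : M ∣ p + 1 :=
  dvd_succ_of_constCong_of p M hM hMp (exists_frickeDual p) (exists_trace p)
    (exists_levelRaise p) (frickeDual_weight_two p) Fermat.Agent.S28lib.tauZ
    (fun n => Fermat.Agent.S28lib.qExpansion_discriminant_coeff n) h

end Fermat.Agent.S16lib

end
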