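/-
Item 16 (S16), piece U-F (helper1): arithmetic assembly of the upper bounds U-A … U-E.
-/
import Mathlib
import Fermat.Agent.S16lib.Defs

set_option autoImplicit false

namespace Fermat.Agent.S16lib

open ModularCurve

/-- a number all of whose prime factors are `2` or `3` divides `T` as soon as its `2`-part and its
`3`-part do. -/
theorem uf_dvd_of_two_three (M T : ℕ) (hM : 0 < M) (hT : 0 < T)
    (hprime : ∀ q : ℕ, q.Prime → q ∣ M → q = 2 ∨ q = 3)
    (h2 : ∀ k, 2 ^ k ∣ M → 2 ^ k ∣ T) (h3 : ∀ k, 3 ^ k ∣ M → 3 ^ k ∣ T) : M ∣ T := by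
  rw [← Nat.factorization_le_iff_dvd hM.ne' hT.ne']
  intro q
  by_cases hq : q.Prime
  · by_cases hqM : q ∣ M
    · have key : q ^ (M.factorization q) ∣ T := by
        rcases hprime q hq hqM with rfl | rfl
        · exact h2 _ (Nat.ordProj_dvd M 2)
        · exact h3 _ (Nat.ordProj_dvd M 3)
      exact (hq.pow_dvd_iff_le_factorization hT.ne').mp key
    · rw [Nat.factorization_eq_zero_of_not_dvd hqM]
      exact Nat.zero_le _
  · rw [Nat.factorization_eq_zero_of_not_prime M hq]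
    exact Nat.zero_le _

/-- `2 ^ k ∣ M` and `¬ 2 ^ (A + 1) ∣ M` give `2 ^ k ∣ 2 ^ A`. -/
theorem uf_pow_dvd_of_not (q M A k : ℕ) (h : q ^ k ∣ M) (hA : ¬ q ^ (A + 1) ∣ M) :
    q ^ k ∣ q ^ A := by
  apply pow_dvd_pow
  by_contra hk
  exact hA ((pow_dvd_pow q (by omega)).trans h)

/-- U-F, with the upper bounds U-A … U-E as hypotheses. -/
theorem upperBoundForm_of (p : ℕ) [Fact p.Prime] (hp : 5 ≤ p)
    (hA : ∀ ℓ : ℕ, ℓ.Prime → 5 ≤ ℓ → ℓ ≠ p → ¬ ConstCong p ℓ)
    (hB : ¬ ConstCong p p)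
    (hC : ∀ M : ℕ, 0 < M → Nat.Coprime M p → ConstCong p M → M ∣ p + 1)
    (hD : p % 9 = 8 → ¬ ConstCong p 9)
    (hE : p % 8 = 7 → ¬ ConstCong p 8) : UpperBoundForm p := by
  intro M hM hMc
  have hpp : p.Prime := Fact.out
  -- the prime factors of `M` are `2` and `3`
  have hprime : ∀ q : ℕ, q.Prime → q ∣ M → q = 2 ∨ q = 3 := by
    intro q hq hqM
    have hcq : ConstCong p q := hMc.of_dvd hqM
    have hq5 : q < 5 := by
      by_contra h5
      have h5' : 5 ≤ q := not_lt.mp h5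
      by_cases hqp : q = p
      · subst hqp
        exact hB hcq
      · exact hA q hq h5' hqp hcq
    have h2 := hq.two_le
    interval_cases q
    · exact Or.inl rfl
    · exact Or.inr rfl
    · exact absurd hq (by decide)
  have hcop : Nat.Coprime M p := by
    rw [Nat.coprime_comm, Nat.Prime.coprime_iff_not_dvd hpp]
    intro hpM
    rcases hprime p hpp hpM with h | h <;> omega
  have hMp : M ∣ p + 1 := hC M hM hcop hMc
  -- `p` is prime to `6`
  have hp2 : p % 2 = 1 := by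
    rcases hpp.eq_two_or_odd with h | h
    · omega
    · exact h
  have hp3 : p % 3 ≠ 0 := by
    intro h
    have h3 : 3 ∣ p := Nat.dvd_of_mod_eq_zero h
    have := (Nat.prime_dvd_prime_iff_eq Nat.prime_three hpp).mp h3
    omega
  have h9 : ¬ 9 ∣ M := by
    intro h
    have h9p : 9 ∣ p + 1 := h.trans hMp
    exact hD (by omega) (hMc.of_dvd h)
  have h8 : ¬ 8 ∣ M := by
    intro h
    have h8p : 8 ∣ p + 1 := h.trans hMp
    exact hE (by omega) (hMc.of_dvd h)
  have hgcd : Nat.gcd (p - 1) 12 = Nat.gcd ((p - 1) % 12) 12 := by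
    rw [Nat.gcd_comm, Nat.gcd_rec 12 (p - 1), Nat.gcd_comm]
  have hmod : p % 12 = 1 ∨ p % 12 = 5 ∨ p % 12 = 7 ∨ p % 12 = 11 := by omega
  rcases hmod with h | h | h | h
  · -- `p ≡ 1 mod 12`: `T = 2`
    have h1 : (p - 1) % 12 = 0 := by omega
    rw [hgcd, h1]
    have hT : 24 / Nat.gcd 0 12 = 2 ^ 1 * 3 ^ 0 := by decide
    rw [hT]
    have h4 : ¬ 2 ^ (1 + 1) ∣ M := fun hd => by
      have : 2 ^ (1 + 1) ∣ p + 1 := hd.trans hMp
      omega
    have h3' : ¬ 3 ^ (0 + 1) ∣ M := fun hd => by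
      have : 3 ^ (0 + 1) ∣ p + 1 := hd.trans hMp
      omega
    exact uf_dvd_of_two_three M _ hM (by norm_num) hprime
      (fun k hk => (uf_pow_dvd_of_not 2 M 1 k hk h4).trans (Dvd.intro _ rfl))
      (fun k hk => (uf_pow_dvd_of_not 3 M 0 k hk h3').trans (Dvd.intro_left _ rfl))
  · -- `p ≡ 5 mod 12`: `T = 6`
    have h1 : (p - 1) % 12 = 4 := by omega
    rw [hgcd, h1]
    have hT : 24 / Nat.gcd 4 12 = 2 ^ 1 * 3 ^ 1 := by decide
    rw [hT]
    have h4 : ¬ 2 ^ (1 + 1) ∣ M := fun hd => by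
      have : 2 ^ (1 + 1) ∣ p + 1 := hd.trans hMp
      omega
    exact uf_dvd_of_two_three M _ hM (by norm_num) hprime
      (fun k hk => (uf_pow_dvd_of_not 2 M 1 k hk h4).trans (Dvd.intro _ rfl))
      (fun k hk => (uf_pow_dvd_of_not 3 M 1 k hk h9).trans (Dvd.intro_left _ rfl))
  · -- `p ≡ 7 mod 12`: `T = 4`
    have h1 : (p - 1) % 12 = 6 := by omega
    rw [hgcd, h1]
    have hT : 24 / Nat.gcd 6 12 = 2 ^ 2 * 3 ^ 0 := by decide
    rw [hT]
    have h3' : ¬ 3 ^ (0 + 1) ∣ M := fun hd => by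
      have : 3 ^ (0 + 1) ∣ p + 1 := hd.trans hMp
      omega
    exact uf_dvd_of_two_three M _ hM (by norm_num) hprime
      (fun k hk => (uf_pow_dvd_of_not 2 M 2 k hk h8).trans (Dvd.intro _ rfl))
      (fun k hk => (uf_pow_dvd_of_not 3 M 0 k hk h3').trans (Dvd.intro_left _ rfl))
  · -- `p ≡ 11 mod 12`: `T = 12`
    have h1 : (p - 1) % 12 = 10 := by omega
    rw [hgcd, h1]
    have hT : 24 / Nat.gcd 10 12 = 2 ^ 2 * 3 ^ 1 := by decide
    rw [hT]
    exact uf_dvd_of_two_three M _ hM (by norm_num) hprime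
      (fun k hk => (uf_pow_dvd_of_not 2 M 2 k hk h8).trans (Dvd.intro _ rfl))
      (fun k hk => (uf_pow_dvd_of_not 3 M 1 k hk h9).trans (Dvd.intro_left _ rfl))

end Fermat.Agent.S16lib
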