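/-
S16 block U, final wiring (helper17): everything except the geometric case U-E
(`p ≡ 7 mod 8 ⇒ ¬ ConstCong p 8`) is unconditional.

* `upperBoundForm_of_eight` : `UpperBoundForm p` from U-E alone;
* `s16_of_eight` : the S16 statement from U-E alone;
* `s16_of_mod_eight_ne` : the S16 statement for every prime `p ≢ 7 mod 8`, unconditional.
-/
import Mathlib
import Fermat.Agent.S16lib.Main
import Fermat.Agent.S16lib.Lower
import Fermat.Agent.S16lib.UF
import Fermat.Agent.S16lib.UAB
import Fermat.Agent.S16lib.UCFinal
import Fermat.Agent.S16lib.UD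

set_option autoImplicit false

noncomputable section

namespace Fermat.Agent.S16lib

open ModularCurve CuspForm CongruenceSubgroup

/-- Block U from U-E alone (U-A, U-B, U-C, U-D are unconditional). -/
theorem upperBoundForm_of_eight (p : ℕ) [Fact p.Prime] (hp : 5 ≤ p)
    (hE : p % 8 = 7 → ¬ ConstCong p 8) : UpperBoundForm p :=
  upperBoundForm_of p hp
    (fun ℓ hℓ h5 hne => by
      have : Fact ℓ.Prime := ⟨hℓ⟩
      exact not_constCong_of_five_le p ℓ h5 hne)
    (not_constCong_self p hp)
    (fun M hM hMp h => dvd_succ_of_constCong p M hM hMp h)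
    (not_constCong_nine p) hE

/-- The S16 statement from U-E alone. -/
theorem s16_of_eight (p : ℕ) [Fact p.Prime] (hE : 5 ≤ p → p % 8 = 7 → ¬ ConstCong p 8) :
    Nat.card (↥(heckeLatticeAlgebra p ∅) ⧸
        Ideal.map ((latticeRestrictHom p ∅).toRingHom.comp (heckeEvalForms p 2))
          (eisensteinIdeal p)) = eisensteinNumerator p :=
  s16_of p (lowerBound p) (fun hp => upperBoundForm_of_eight p hp (hE hp))

/-- The S16 statement for every prime `p ≢ 7 mod 8`, unconditional. -/
theorem s16_of_mod_eight_ne (p : ℕ) [Fact p.Prime] (h : p % 8 ≠ 7) :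
    Nat.card (↥(heckeLatticeAlgebra p ∅) ⧸
        Ideal.map ((latticeRestrictHom p ∅).toRingHom.comp (heckeEvalForms p 2))
          (eisensteinIdeal p)) = eisensteinNumerator p :=
  s16_of_eight p (fun _ h7 => absurd h7 h)

end Fermat.Agent.S16lib

end
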