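/-
S16 library (item 16), piece S (helper11), part 3: the Eisenstein series `E_{ℓ-1}` is `≡ 1 mod ℓ`.

`sd_exists_Eform`: for a prime `ℓ ≥ 5` there is a modular form of level one and weight `ℓ - 1`
(an integer multiple `I • E_{ℓ-1}`) with integer `q`-expansion, constant term prime to `ℓ` and all
other coefficients divisible by `ℓ`.  (von Staudt–Clausen: `Bernoulli.vonStaudt_clausen`.)  No sorry.
-/
import Mathlib
import Fermat.Agent.S16lib.SwDInt

set_option autoImplicit false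

open UpperHalfPlane ModularForm ModularFormClass EisensteinSeries
open scoped MatrixGroups ModularForm Topology

namespace Fermat.Agent.S16lib

noncomputable section

/-- von Staudt–Clausen at `k = ℓ - 1`: a multiple `P · B_{ℓ-1}` with `ℓ ∣ P` is an integer prime
to `ℓ`. -/
theorem sd_bernoulli_mul (ℓ : ℕ) [Fact ℓ.Prime] (hℓ : 5 ≤ ℓ) :
    ∃ (P : ℕ) (I : ℤ), ℓ ∣ P ∧ ¬ (ℓ : ℤ) ∣ I ∧ (P : ℚ) * bernoulli (ℓ - 1) = I := by
  have hprime : ℓ.Prime := Fact.out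
  obtain ⟨k', hk'⟩ : ∃ k', ℓ - 1 = 2 * k' := by
    rcases hprime.eq_two_or_odd with h2 | hodd
    · omega
    · exact ⟨(ℓ - 1) / 2, by omega⟩
  obtain ⟨z, hz⟩ := Bernoulli.vonStaudt_clausen k'
  set S := (Finset.range (2 * k' + 2)).filter (fun p => p.Prime ∧ (p - 1) ∣ 2 * k') with hS
  have hℓS : ℓ ∈ S := by
    rw [hS, Finset.mem_filter, Finset.mem_range]
    refine ⟨by omega, hprime, ?_⟩
    rw [← hk']
  have hSprime : ∀ p ∈ S, p.Prime := fun p hp => (Finset.mem_filter.mp hp).2.1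
  -- the products
  set e : ℕ → ℕ := fun p => ∏ q ∈ S.erase p, q with he
  set P : ℕ := ∏ q ∈ S, q with hP
  have hPe : ∀ p ∈ S, P = p * e p := fun p hp => (Finset.mul_prod_erase S (fun q => q) hp).symm
  refine ⟨P, (P : ℤ) * z - ∑ p ∈ S, (e p : ℤ), Finset.dvd_prod_of_mem _ hℓS, ?_, ?_⟩
  · intro hdvd
    have h1 : (ℓ : ℤ) ∣ (P : ℤ) * z :=
      Dvd.dvd.mul_right (Int.natCast_dvd_natCast.mpr (Finset.dvd_prod_of_mem _ hℓS)) z
    have h2 : (ℓ : ℤ) ∣ ∑ p ∈ S, (e p : ℤ) := by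
      have := dvd_sub h1 hdvd
      rwa [sub_sub_cancel] at this
    rw [← Finset.add_sum_erase S _ hℓS] at h2
    have h3 : (ℓ : ℤ) ∣ ∑ p ∈ S.erase ℓ, (e p : ℤ) := by
      refine Finset.dvd_sum fun p hp => ?_
      rw [Finset.mem_erase] at hp
      refine Int.natCast_dvd_natCast.mpr ?_
      rw [he]
      exact Finset.dvd_prod_of_mem _ (Finset.mem_erase.mpr ⟨fun h => hp.1 h.symm, hℓS⟩)
    have h4 : (ℓ : ℤ) ∣ (e ℓ : ℤ) := (dvd_add_left h3).mp h2
    have h5 : ℓ ∣ e ℓ := Int.natCast_dvd_natCast.mp h4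
    rw [he] at h5
    obtain ⟨q, hq, hqd⟩ := (Prime.dvd_finsetProd_iff (Nat.prime_iff.mp hprime) _).mp h5
    rw [Finset.mem_erase] at hq
    exact hq.1 ((Nat.prime_dvd_prime_iff_eq hprime (hSprime q hq.2)).mp hqd).symm
  · have hB : bernoulli (ℓ - 1) = (z : ℚ) - ∑ p ∈ S, (1 : ℚ) / p := by
      rw [hk', hz, hS]
      ring
    rw [hB, mul_sub, Finset.mul_sum]
    push_cast
    congr 1
    refine Finset.sum_congr rfl fun p hp => ?_
    have hp0 : (p : ℚ) ≠ 0 := by exact_mod_cast (hSprime p hp).ne_zero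
    have := hPe p hp
    have h' : (P : ℚ) = (p : ℚ) * (e p : ℚ) := by exact_mod_cast this
    rw [h']
    field_simp

/-- **`E_{ℓ-1} ≡ 1 mod ℓ`**, in integral form. -/
theorem sd_exists_Eform (ℓ : ℕ) [Fact ℓ.Prime] (hℓ : 5 ≤ ℓ) :
    ∃ (A : ModularForm 𝒮ℒ ((ℓ - 1 : ℕ) : ℤ)) (α : PowerSeries ℤ), qExpansion 1 A = sdι α ∧
      ¬ (ℓ : ℤ) ∣ PowerSeries.constantCoeff α ∧
      ∀ n, 0 < n → (ℓ : ℤ) ∣ PowerSeries.coeff n α := by
  have hprime : ℓ.Prime := Fact.out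
  obtain ⟨P, I, hP, hI, hPB⟩ := sd_bernoulli_mul ℓ hℓ
  have hk : 3 ≤ ℓ - 1 := by omega
  have hk2 : Even (ℓ - 1) := by
    rcases hprime.eq_two_or_odd with h2 | hodd
    · omega
    · exact ⟨(ℓ - 1) / 2, by omega⟩
  have hI0 : I ≠ 0 := fun h => hI (by rw [h]; exact dvd_zero _)
  have hB0 : bernoulli (ℓ - 1) ≠ 0 := by
    intro h
    rw [h, mul_zero] at hPB
    exact hI0 (by exact_mod_cast hPB.symm)
  refine ⟨(I : ℂ) • E hk, PowerSeries.mk (fun m => if m = 0 then I else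
    -(2 * ((ℓ - 1 : ℕ) : ℤ) * (P : ℤ) * (ArithmeticFunction.sigma (ℓ - 1 - 1) m : ℤ))),
    ?_, ?_, ?_⟩
  · have h2 : (⇑((I : ℂ) • E hk) : ℍ → ℂ) = (I : ℂ) • ⇑(E hk) := rfl
    rw [h2, ModularForm.qExpansion_smul one_pos one_mem_strictPeriods_SL]
    ext m
    rw [PowerSeries.coeff_smul, EisensteinSeries.E_qExpansion_coeff hk hk2 m,
      PowerSeries.coeff_map, PowerSeries.coeff_mk]
    by_cases hm : m = 0
    · rw [if_pos hm, if_pos hm]
      simp
    · rw [if_neg hm, if_neg hm]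
      have hBC : ((bernoulli (ℓ - 1) : ℚ) : ℂ) ≠ 0 := by exact_mod_cast hB0
      have hPBC : (P : ℂ) * ((bernoulli (ℓ - 1) : ℚ) : ℂ) = (I : ℂ) := by exact_mod_cast hPB
      rw [smul_eq_mul, ← hPBC]
      simp only [eq_intCast]
      push_cast
      field_simp
  · rw [← PowerSeries.coeff_zero_eq_constantCoeff_apply, PowerSeries.coeff_mk, if_pos rfl]
    exact hI
  · intro n hn
    rw [PowerSeries.coeff_mk, if_neg hn.ne']
    refine Dvd.dvd.neg_right ?_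
    refine Dvd.dvd.mul_right (Dvd.dvd.mul_left (Int.natCast_dvd_natCast.mpr hP) _) _

end

end Fermat.Agent.S16lib
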