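import Mathlib

/-!
# Item 16 (S16), block U-D: the formal core

Pure algebra in `𝔽₃⟦X⟧`.  Let `D` have zero constant term, `D ≠ 0`, `θ D = D` (`θ = X d/dX`;
e.g. `D = X · H(X³)`, as for `Δ mod 3 = X ∏ (1 - X^{3n})^8`), and let `S` satisfy
`coeff (3 m) S = coeff m S` (e.g. `S = ∑ σ(n) Xⁿ mod 3`) with `coeff 1 S ≠ 0`.  Then no power
`S ^ (3 ^ v)` is a polynomial in `D` (`ud_formal`).

Ingredients: Frobenius `f ^ 3 = f(X³)` (`ud_pow_three`), `θ (f(X³)) = 0`, the chain rule
`θ (R(D)) = (X R')(D)` (`ud_theta_aeval`), injectivity of `R ↦ R(D)` (`ud_aeval_injective`),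
descent `f(X³) = R(D) ⇒ f = R₁(D)` (`ud_descent`), and `S(X³) = S - θ² S`.
-/

set_option autoImplicit false

noncomputable section

namespace Fermat.Agent.S16lib

open PowerSeries

local notation "K3" => ZMod 3

/-- expansion `f(X) ↦ f(X³)` on `𝔽₃⟦X⟧`. -/
def ud_ex : K3⟦X⟧ →ₐ[K3] K3⟦X⟧ := PowerSeries.expand 3 (by norm_num)

theorem ud_coeff_ex (f : K3⟦X⟧) (n : ℕ) :
    coeff n (ud_ex f) = if 3 ∣ n then coeff (n / 3) f else 0 :=
  PowerSeries.coeff_expand 3 (by norm_num) f

theorem ud_ex_injective : Function.Injective ud_ex := by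
  intro f g h
  ext n
  have := congrArg (coeff (3 * n)) h
  rwa [ud_coeff_ex, ud_coeff_ex, if_pos (dvd_mul_right 3 n), if_pos (dvd_mul_right 3 n),
    Nat.mul_div_cancel_left n (by norm_num : 0 < 3)] at this

/-- Frobenius on `𝔽₃⟦X⟧`. -/
theorem ud_pow_three (f : K3⟦X⟧) : f ^ 3 = ud_ex f := by
  have h := MvPowerSeries.map_frobenius_expand (σ := Unit) (R := K3) 3 (by norm_num) (f := f)
  rw [← h]
  have hfr : frobenius K3 3 = RingHom.id K3 := by
    ext x
    simp
  rw [hfr, MvPowerSeries.map_id]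
  rfl

theorem ud_pow_three_pow (f : K3⟦X⟧) (v : ℕ) : f ^ 3 ^ v = (ud_ex^[v]) f := by
  induction v generalizing f with
  | zero => simp
  | succ k ih =>
    rw [pow_succ, pow_mul, Function.iterate_succ_apply', ← ih, ud_pow_three]

theorem ud_derivative_ex (f : K3⟦X⟧) : d⁄dX K3 (ud_ex f) = 0 := by
  ext n
  rw [PowerSeries.coeff_derivative, ud_coeff_ex, map_zero]
  split_ifs with h
  · have : ((n : K3) + 1) = 0 := by
      have h3 : ((n + 1 : ℕ) : K3) = 0 := (ZMod.natCast_eq_zero_iff (n + 1) 3).mpr h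
      exact_mod_cast h3
    rw [this, mul_zero]
  · rw [zero_mul]

/-- `θ = X d/dX`. -/
def ud_theta (f : K3⟦X⟧) : K3⟦X⟧ := X * d⁄dX K3 f

theorem ud_coeff_theta (f : K3⟦X⟧) (n : ℕ) : coeff n (ud_theta f) = n * coeff n f := by
  unfold ud_theta
  rcases n with _ | n
  · simp
  · rw [PowerSeries.coeff_succ_X_mul, PowerSeries.coeff_derivative]
    push_cast
    ring

theorem ud_theta_ex (f : K3⟦X⟧) : ud_theta (ud_ex f) = 0 := by
  rw [ud_theta, ud_derivative_ex, mul_zero]

theorem ud_constantCoeff_aeval (D : K3⟦X⟧) (hD0 : constantCoeff D = 0) (P : Polynomial K3) :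
    constantCoeff (Polynomial.aeval D P) = P.coeff 0 := by
  induction P using Polynomial.induction_on with
  | C a => simp
  | add p q hp hq => simp [hp, hq]
  | monomial n a _ =>
    simp [hD0, pow_succ]

theorem ud_aeval_injective (D : K3⟦X⟧) (hD0 : constantCoeff D = 0) (hD : D ≠ 0) :
    Function.Injective (Polynomial.aeval D : Polynomial K3 → K3⟦X⟧) := by
  rw [injective_iff_map_eq_zero]
  intro R hR
  by_contra hne
  obtain ⟨R', hRR', hnd⟩ := Polynomial.exists_eq_pow_rootMultiplicity_mul_and_not_dvd R hne 0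
  rw [hRR', map_mul, map_pow, map_sub, Polynomial.aeval_X, Polynomial.aeval_C, map_zero,
    sub_zero] at hR
  have h2 : Polynomial.aeval D R' = 0 := by
    rcases mul_eq_zero.mp hR with h | h
    · exact absurd (pow_eq_zero_iff'.mp h).1 hD
    · exact h
  have h3 := ud_constantCoeff_aeval D hD0 R'
  rw [h2, map_zero] at h3
  apply hnd
  rw [Polynomial.C_0, sub_zero, Polynomial.X_dvd_iff]
  exact h3.symm

theorem ud_theta_aeval (D : K3⟦X⟧) (hθ : ud_theta D = D) (R : Polynomial K3) :
    ud_theta (Polynomial.aeval D R)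
      = Polynomial.aeval D (Polynomial.X * Polynomial.derivative R) := by
  unfold ud_theta at hθ ⊢
  rw [Derivation.map_aeval, smul_eq_mul, map_mul, Polynomial.aeval_X]
  calc X * (Polynomial.aeval D (Polynomial.derivative R) * d⁄dX K3 D)
      = Polynomial.aeval D (Polynomial.derivative R) * (X * d⁄dX K3 D) := by ring
    _ = D * Polynomial.aeval D (Polynomial.derivative R) := by rw [hθ]; ring


theorem ud_ex_aeval (D : K3⟦X⟧) (R : Polynomial K3) :
    ud_ex (Polynomial.aeval D R) = Polynomial.aeval D (Polynomial.expand K3 3 R) := by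
  rw [Polynomial.expand_aeval, ud_pow_three, Polynomial.aeval_algHom_apply]

/-- descent: if `f(X³)` is a polynomial in `D`, so is `f`. -/
theorem ud_descent (D : K3⟦X⟧) (hD0 : constantCoeff D = 0) (hD : D ≠ 0) (hθ : ud_theta D = D)
    (f : K3⟦X⟧) (R : Polynomial K3) (h : ud_ex f = Polynomial.aeval D R) :
    ∃ R' : Polynomial K3, f = Polynomial.aeval D R' := by
  have h1 : Polynomial.aeval D (Polynomial.X * Polynomial.derivative R) = 0 := by
    rw [← ud_theta_aeval D hθ, ← h, ud_theta_ex]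
  have h2 : Polynomial.X * Polynomial.derivative R = 0 :=
    ud_aeval_injective D hD0 hD (by rw [h1, map_zero])
  have h3 : Polynomial.derivative R = 0 := by
    rcases mul_eq_zero.mp h2 with h | h
    · exact absurd h Polynomial.X_ne_zero
    · exact h
  have h4 : Polynomial.expand K3 3 (Polynomial.contract 3 R) = R :=
    Polynomial.expand_contract 3 h3 (by norm_num)
  refine ⟨Polynomial.contract 3 R, ud_ex_injective ?_⟩
  rw [h, ud_ex_aeval, h4]

theorem ud_descent_iterate (D : K3⟦X⟧) (hD0 : constantCoeff D = 0) (hD : D ≠ 0)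
    (hθ : ud_theta D = D) (v : ℕ) (f : K3⟦X⟧) (R : Polynomial K3)
    (h : (ud_ex^[v]) f = Polynomial.aeval D R) :
    ∃ R' : Polynomial K3, f = Polynomial.aeval D R' := by
  induction v generalizing R with
  | zero => exact ⟨R, h⟩
  | succ k ih =>
    rw [Function.iterate_succ_apply'] at h
    obtain ⟨R₁, hR₁⟩ := ud_descent D hD0 hD hθ _ R h
    exact ih R₁ hR₁

theorem ud_natCast_sq (n : ℕ) (h : ¬ 3 ∣ n) : ((n : K3)) ^ 2 = 1 := by
  have h1 : n % 3 = 1 ∨ n % 3 = 2 := by omega
  have h2 : (n : K3) = ((n % 3 : ℕ) : K3) := by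
    rw [ZMod.natCast_mod]
  rw [h2]
  rcases h1 with h | h <;> rw [h] <;> decide

/-- **The formal core of U-D.**  Let `D = X · H(X³)` (so `θ D = D`) and let `S` satisfy
`S(X)|_{3 ∣ n} = S(X³)`.  Then no `3^v`-th power of `S` is a polynomial in `D`, unless `S` is
constant. -/
theorem ud_formal (D S : K3⟦X⟧) (hD0 : constantCoeff D = 0) (hD : D ≠ 0)
    (hθ : ud_theta D = D) (hS3 : ∀ m, coeff (3 * m) S = coeff m S) (hS1 : coeff 1 S ≠ 0)
    (v : ℕ) (R₀ : Polynomial K3) (h : S ^ 3 ^ v = Polynomial.aeval D R₀) : False := by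
  rw [ud_pow_three_pow] at h
  obtain ⟨R, hR⟩ := ud_descent_iterate D hD0 hD hθ v S R₀ h
  -- `S(X³) = S - θ² S`
  have hex : ud_ex S = S - ud_theta (ud_theta S) := by
    ext n
    rw [ud_coeff_ex, map_sub, ud_coeff_theta, ud_coeff_theta]
    split_ifs with h3
    · obtain ⟨m, rfl⟩ := h3
      rw [Nat.mul_div_cancel_left m (by norm_num : 0 < 3), hS3]
      have : ((3 * m : ℕ) : K3) = 0 := (ZMod.natCast_eq_zero_iff _ 3).mpr (dvd_mul_right 3 m)
      rw [this]
      ring
    · have := ud_natCast_sq n h3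
      linear_combination (coeff n S) * this
  have h5 : Polynomial.aeval D (Polynomial.expand K3 3 R)
      = Polynomial.aeval D (R - Polynomial.X * Polynomial.derivative
          (Polynomial.X * Polynomial.derivative R)) := by
    rw [← ud_ex_aeval, ← hR, hex, map_sub, ← ud_theta_aeval D hθ, ← ud_theta_aeval D hθ, ← hR]
  have h6 := ud_aeval_injective D hD0 hD h5
  have h7 : ∀ m : ℕ, R.coeff m = R.coeff (3 * m) := by
    intro m
    have := congrArg (fun P : Polynomial K3 => P.coeff (3 * m)) h6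
    simp only [Polynomial.coeff_sub] at this
    rw [Polynomial.coeff_expand_mul' (by norm_num : 0 < 3)] at this
    rw [this]
    rcases m with _ | m
    · simp
    · rw [show 3 * (m + 1) = (3 * m + 2) + 1 by ring, Polynomial.coeff_X_mul,
        Polynomial.coeff_derivative, Polynomial.coeff_X_mul, Polynomial.coeff_derivative]
      have h0 : ((3 * m + 2 : ℕ) : K3) + 1 = 0 := by
        have : ((3 * (m + 1) : ℕ) : K3) = 0 :=
          (ZMod.natCast_eq_zero_iff _ 3).mpr (dvd_mul_right 3 _)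
        rw [← this]
        push_cast
        ring
      rw [h0]
      ring
  have h8 : ∀ (k m : ℕ), R.coeff m = R.coeff (3 ^ k * m) := by
    intro k
    induction k with
    | zero => intro m; simp
    | succ k ih =>
      intro m
      rw [ih m, h7 (3 ^ k * m), pow_succ]
      congr 1
      ring
  have h9 : ∀ m : ℕ, 0 < m → R.coeff m = 0 := by
    intro m hm
    rw [h8 (R.natDegree + 1) m]
    apply Polynomial.coeff_eq_zero_of_natDegree_lt
    calc R.natDegree < R.natDegree + 1 := Nat.lt_succ_self _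
      _ < 3 ^ (R.natDegree + 1) := Nat.lt_pow_self (by norm_num)
      _ ≤ 3 ^ (R.natDegree + 1) * m := Nat.le_mul_of_pos_right _ hm
  have h10 : R = Polynomial.C (R.coeff 0) := by
    ext n
    rcases n with _ | n
    · simp
    · rw [h9 _ (Nat.succ_pos n), Polynomial.coeff_C_succ]
  apply hS1
  rw [hR, h10, Polynomial.aeval_C]
  simp

end Fermat.Agent.S16lib

end
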