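/-
Item 16 (S16), block U-D (helper10): the level-one end.

`ud_core`: no level-one modular form with integral `q`-expansion is congruent modulo `3` to a unit
times `(∑ σ(n) qⁿ) ^ (3 ^ v)`.  Proof: `levelOne_mod_three` (helper11) + the formal core
`ud_formal` (`UDFormal.lean`) with `D = Δ mod 3 = X · (η⁸)(X³)` and `S = ∑ σ(n) qⁿ mod 3`
(`σ(3m) ≡ σ(m) mod 3`).
-/
import Mathlib
import Fermat.Agent.S16lib.SwD
import Fermat.Agent.S16lib.UDFormal

set_option autoImplicit false

noncomputable section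

namespace Fermat.Agent.S16lib

open ModularCurve CuspForm CongruenceSubgroup ModularFormClass UpperHalfPlane PowerSeries
open scoped MatrixGroups ModularForm

/-- `Δ mod 3` -/
def udD : (ZMod 3)⟦X⟧ := PowerSeries.map (Int.castRingHom (ZMod 3)) sdDelta

/-- `∑ σ(n) qⁿ mod 3` -/
def udS : (ZMod 3)⟦X⟧ := PowerSeries.mk fun n => ((ArithmeticFunction.sigma 1 n : ℕ) : ZMod 3)

/-- `η mod 3` -/
def udEta : (ZMod 3)⟦X⟧ := PowerSeries.map (Int.castRingHom (ZMod 3)) ModularCurve.etaProd

theorem udD_eq : udD = X * ud_ex (udEta ^ 8) := by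
  rw [← ud_pow_three, ← pow_mul, udD, sdDelta, map_mul, PowerSeries.map_X,
    ModularCurve.dedekindEtaUnit, map_pow, udEta]

theorem udD_constantCoeff : constantCoeff udD = 0 := by
  rw [udD_eq, map_mul, PowerSeries.constantCoeff_X, zero_mul]

theorem udD_coeff_one : coeff 1 udD = 1 := by
  rw [udD, PowerSeries.coeff_map, sdDelta, show (1 : ℕ) = 0 + 1 from rfl,
    PowerSeries.coeff_succ_X_mul, PowerSeries.coeff_zero_eq_constantCoeff_apply,
    ModularCurve.constantCoeff_dedekindEtaUnit]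
  simp

theorem udD_ne_zero : udD ≠ 0 := by
  intro h
  have := udD_coeff_one
  rw [h, map_zero] at this
  exact zero_ne_one this

theorem udD_theta : ud_theta udD = udD := by
  rw [udD_eq, ud_theta, Derivation.leibniz, ud_derivative_ex, smul_zero, zero_add,
    PowerSeries.derivative_X, smul_eq_mul, mul_one]

theorem udS_coeff_one : coeff 1 udS ≠ 0 := by
  rw [udS, PowerSeries.coeff_mk]
  simp

theorem ud_sigma_mod_three (n : ℕ) :
    ((ArithmeticFunction.sigma 1 n : ℕ) : ZMod 3)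
      = ∑ d ∈ n.divisors.filter (fun d => ¬ 3 ∣ d), (d : ZMod 3) := by
  rw [ArithmeticFunction.sigma_one_apply, Nat.cast_sum, Finset.sum_filter]
  refine Finset.sum_congr rfl fun d _ => ?_
  split_ifs with h
  · exact (ZMod.natCast_eq_zero_iff d 3).mpr h
  · rfl

theorem udS_coeff_three_mul (m : ℕ) : coeff (3 * m) udS = coeff m udS := by
  rw [udS, PowerSeries.coeff_mk, PowerSeries.coeff_mk]
  rcases Nat.eq_zero_or_pos m with rfl | hm
  · simp
  rw [ud_sigma_mod_three, ud_sigma_mod_three]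
  refine Finset.sum_congr ?_ fun _ _ => rfl
  ext d
  simp only [Finset.mem_filter, Nat.mem_divisors]
  constructor
  · rintro ⟨⟨h1, _⟩, h2⟩
    refine ⟨⟨?_, hm.ne'⟩, h2⟩
    have hcop : Nat.Coprime d 3 := by
      rw [Nat.coprime_comm]
      exact (Nat.Prime.coprime_iff_not_dvd Nat.prime_three).mpr h2
    exact hcop.dvd_of_dvd_mul_left h1
  · rintro ⟨⟨h1, _⟩, h2⟩
    exact ⟨⟨Dvd.dvd.mul_left h1 3, by omega⟩, h2⟩

/-- **The level-one end of U-D**: no level-one form with integral `q`-expansion is congruent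
modulo `3` to a unit times `(∑ σ(n) qⁿ) ^ (3 ^ v)`. -/
theorem ud_core (k v : ℕ) (F : ModularForm 𝒮ℒ (k : ℤ)) (a : ℕ → ℤ)
    (hF : ∀ n : ℕ, qCoeff F n = (a n : ℂ)) (w : ℤ) (hw : ¬ (3 : ℤ) ∣ w)
    (h : PowerSeries.mk (fun n => ((a n : ℤ) : ZMod 3))
      = (w : ZMod 3) • (PowerSeries.mk fun n => ((ArithmeticFunction.sigma 1 n : ℕ) : ZMod 3))
          ^ 3 ^ v) : False := by
  have hτ : ∀ n : ℕ, qCoeff ModularForm.discriminant n
      = ((PowerSeries.coeff n sdDelta : ℤ) : ℂ) := by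
    intro n
    show (qExpansion 1 ModularForm.discriminant).coeff n = _
    rw [sd_qExpansion_Delta, PowerSeries.coeff_map]
    rfl
  obtain ⟨R, hR⟩ := levelOne_mod_three k F a (fun n => PowerSeries.coeff n sdDelta) hF hτ
  have hD : (PowerSeries.mk fun n => (((PowerSeries.coeff n sdDelta : ℤ)) : ZMod 3)) = udD := by
    ext n
    rw [PowerSeries.coeff_mk, udD, PowerSeries.coeff_map]
    rfl
  rw [hD, h] at hR
  have hw0 : (w : ZMod 3) ≠ 0 := by
    intro h0
    exact hw ((ZMod.intCast_zmod_eq_zero_iff_dvd w 3).mp h0)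
  have h2 : udS ^ 3 ^ v = Polynomial.aeval udD (Polynomial.C ((w : ZMod 3))⁻¹ * R) := by
    rw [map_mul, Polynomial.aeval_C, ← hR, udS, Algebra.algebraMap_eq_smul_one, smul_mul_assoc,
      one_mul, smul_smul, inv_mul_cancel₀ hw0, one_smul]
  exact ud_formal udD udS udD_constantCoeff udD_ne_zero udD_theta udS_coeff_three_mul
    udS_coeff_one v _ h2

end Fermat.Agent.S16lib

end
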