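/-
Item 16 (S16), piece U-D, MODULAR part (helper11; split with helper10): the `Y` trick.
`p ≡ 8 mod 9`, `G ∈ M₂(Γ₀(p))` integral, `G ≡ c mod 9` (`3 ∤ c`).  With
`Y = (c³ E₆ - G³)/9 ≡ c³ S mod 3` (`S = Σ σ(n) qⁿ`) and its Fricke dual
`Y' = (c³ p⁶ E₆(pz) + p³ (U_p G)³)/9 ≡ c³ S(q^p) mod 3`, `v = v₃(p + 1)`, `j = 3^v`:
`F := p^(6j-1) Tr(Y^j) / 3^v` is of level one, integral, and `F ≡ w · S^j mod 3`, `3 ∤ w`.

The forms `Y`, `Y'` (helper10, `S16lib/UDForms.lean` `udm_exists_Y`) enter as a hypothesis in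
`ud_exists_levelOne_of`.   No sorry.
-/
import Mathlib
import Fermat.Agent.S16lib.UCong
import Fermat.Agent.S16lib.SwDInt

set_option autoImplicit false

noncomputable section

namespace Fermat.Agent.S16lib

open ModularCurve CuspForm CongruenceSubgroup ModularFormClass UpperHalfPlane ModularForm
open scoped MatrixGroups ModularForm

/-! ### arithmetic -/

/-- `d^5 ≡ d mod 3`. -/
theorem udm_pow_five (d : ℤ) : (3 : ℤ) ∣ d ^ 5 - d := by
  have h : ((d ^ 5 - d : ℤ) : ZMod 3) = 0 := by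
    push_cast
    generalize (d : ZMod 3) = x
    revert x
    decide
  exact (ZMod.intCast_zmod_eq_zero_iff_dvd _ 3).mp h

/-- `σ₅ ≡ σ₁ mod 3`. -/
theorem udm_sigma_five (n : ℕ) :
    (3 : ℤ) ∣ (∑ d ∈ n.divisors, (d : ℤ) ^ 5) - (ArithmeticFunction.sigma 1 n : ℤ) := by
  rw [ArithmeticFunction.sigma_apply]
  push_cast
  rw [← Finset.sum_sub_distrib]
  apply Finset.dvd_sum
  intro d _
  simpa using udm_pow_five (d : ℤ)

/-- `p ≡ 8 mod 9`: `p³ ≡ -1 mod 27`. -/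
theorem udm_cube (p : ℕ) (hp : p % 9 = 8) : ∃ P : ℤ, (p : ℤ) ^ 3 = 27 * P - 1 := by
  obtain ⟨m, hm⟩ : ∃ m : ℕ, p = 9 * m + 8 := ⟨p / 9, by omega⟩
  refine ⟨27 * m ^ 3 + 72 * m ^ 2 + 64 * m + 19, ?_⟩
  rw [hm]
  push_cast
  ring

/-- the valuation: `p^(6·3^v - 1) + 1 = 3^v u`, `3 ∤ u`, for `v = v₃(p + 1)`. -/
theorem udm_val (p : ℕ) (hp : p % 9 = 8) :
    ∃ v u : ℕ, ¬ 3 ∣ u ∧ p ^ (6 * 3 ^ v - 1) + 1 = 3 ^ v * u := by
  have : Fact (Nat.Prime 3) := ⟨Nat.prime_three⟩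
  set v := padicValNat 3 (p + 1) with hv
  have hj : 1 ≤ 3 ^ v := Nat.one_le_pow _ _ (by norm_num)
  have hodd : Odd (6 * 3 ^ v - 1) := by
    rw [Nat.odd_iff]
    omega
  have h3 : ¬ 3 ∣ 6 * 3 ^ v - 1 := by
    omega
  have hval : padicValNat 3 (p ^ (6 * 3 ^ v - 1) + 1 ^ (6 * 3 ^ v - 1)) =
      padicValNat 3 (p + 1) + padicValNat 3 (6 * 3 ^ v - 1) :=
    padicValNat.pow_add_pow (by decide) (by omega) (by omega) hodd
  rw [one_pow, padicValNat.eq_zero_of_not_dvd h3, add_zero, ← hv] at hval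
  have hN0 : p ^ (6 * 3 ^ v - 1) + 1 ≠ 0 := by omega
  have hd : 3 ^ v ∣ p ^ (6 * 3 ^ v - 1) + 1 := by
    have := pow_padicValNat_dvd (p := 3) (n := p ^ (6 * 3 ^ v - 1) + 1)
    rwa [hval] at this
  obtain ⟨u, hu⟩ := hd
  refine ⟨v, u, fun h => ?_, hu⟩
  have hnd := pow_succ_padicValNat_not_dvd (p := 3) hN0
  rw [hval] at hnd
  apply hnd
  rw [hu, pow_succ]
  exact Nat.mul_dvd_mul_left _ h

/-! ### integer power series -/

/-- the integer series `Σ σ(n) qⁿ` -/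
def udmS : PowerSeries ℤ := PowerSeries.mk fun n => (ArithmeticFunction.sigma 1 n : ℤ)

theorem udm_coeff_ofNat_mul (a : ℕ) (x : PowerSeries ℤ) (n : ℕ) :
    PowerSeries.coeff n ((a : PowerSeries ℤ) * x) = (a : ℤ) * PowerSeries.coeff n x := by
  rw [← map_natCast (PowerSeries.C (R := ℤ)), PowerSeries.coeff_C_mul]

/-- `E₆ = 1 - 504 (S + 3 D)` in `ℤ[[q]]`. -/
theorem udm_E6 : ∃ D : PowerSeries ℤ, sdE6 = 1 - 504 * (udmS + 3 * D) := by
  choose d hd using udm_sigma_five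
  refine ⟨PowerSeries.mk d, ?_⟩
  ext n
  have e504 : (504 : PowerSeries ℤ) = ((504 : ℕ) : PowerSeries ℤ) := by norm_num
  have e3 : (3 : PowerSeries ℤ) = ((3 : ℕ) : PowerSeries ℤ) := by norm_num
  rw [map_sub, e504, udm_coeff_ofNat_mul, map_add, e3, udm_coeff_ofNat_mul, sdE6, udmS,
    PowerSeries.coeff_mk, PowerSeries.coeff_mk, PowerSeries.coeff_mk, PowerSeries.coeff_one]
  have := hd n
  by_cases hn : n = 0
  · subst hn
    have h0 : d 0 = 0 := by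
      have h1 := hd 0
      simp at h1
      omega
    simp [h0]
  · rw [if_neg hn, if_neg hn]
    push_cast
    linarith

/-- the operator `U_p` on integer power series -/
def udmU (p : ℕ) (φ : PowerSeries ℤ) : PowerSeries ℤ :=
  PowerSeries.mk fun n => PowerSeries.coeff (p * n) φ

theorem udmU_eq (p : ℕ) (hp : p ≠ 0) (c : ℤ) (h : PowerSeries ℤ) :
    udmU p (PowerSeries.C c + 9 * h) = PowerSeries.C c + 9 * udmU p h := by
  ext n
  have e9 : (9 : PowerSeries ℤ) = ((9 : ℕ) : PowerSeries ℤ) := by norm_num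
  rw [udmU, PowerSeries.coeff_mk, map_add, map_add, e9, udm_coeff_ofNat_mul, udm_coeff_ofNat_mul,
    udmU, PowerSeries.coeff_mk, PowerSeries.coeff_C, PowerSeries.coeff_C]
  congr 1
  by_cases hn : n = 0
  · simp [hn]
  · rw [if_neg hn, if_neg (Nat.mul_ne_zero hp hn)]

theorem sdι_udmU (p : ℕ) (φ : PowerSeries ℤ) : sdι (udmU p φ) = upSeries p (sdι φ) := by
  ext n
  simp [udmU]

/-- the integer algebra for `Y`. -/
theorem udm_alg_Y (cc h s D E : PowerSeries ℤ) (hE : E = 1 - 504 * (s + 3 * D)) :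
    ∃ Z : PowerSeries ℤ, cc ^ 3 * E - (cc + 9 * h) ^ 3 = 9 * (cc ^ 3 * s + 3 * Z) :=
  ⟨-19 * cc ^ 3 * s - 56 * cc ^ 3 * D - (cc ^ 2 * h + 9 * cc * h ^ 2 + 27 * h ^ 3), by
    rw [hE]; ring⟩

/-- the integer algebra for `Y'`. -/
theorem udm_alg_Y' (cc h s D E ρ P : PowerSeries ℤ) (hE : E = 1 - 504 * (s + 3 * D))
    (hρ : ρ = 27 * P - 1) :
    ∃ Z : PowerSeries ℤ, cc ^ 3 * ρ ^ 2 * E + ρ * (cc + 9 * h) ^ 3 = 9 * (cc ^ 3 * s + 3 * Z) :=
  ⟨cc ^ 3 * (27 * P - 1) * P + (27 * P - 1) * (cc ^ 2 * h + 9 * cc * h ^ 2 + 27 * h ^ 3)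
      - 19 * cc ^ 3 * s - 504 * cc ^ 3 * s * (27 * P ^ 2 - 2 * P)
      - 56 * cc ^ 3 * (27 * P - 1) ^ 2 * D, by
    rw [hE, hρ]; ring⟩

/-! ### the trace of a power -/

/-- the trace of `Y ^ i` (any weight). -/
theorem udm_exists_trace_pow (p : ℕ) [Fact p.Prime] (hT : TBlock p) (k₀ : ℤ)
    (Y Y' : ModularForm (Gamma0 p) k₀) (hd : FrickeDual p k₀ Y Y') (i : ℕ) (k : ℤ)
    (hk : (i : ℤ) * k₀ = k) :
    ∃ T : ModularForm 𝒮ℒ k, ∀ n : ℕ,
      qCoeff T n = PowerSeries.coeff n (qExpansion 1 Y ^ i) +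
        (p : ℂ) ^ (1 - k) * PowerSeries.coeff (p * n) (qExpansion 1 Y' ^ i) := by
  let F : ModularForm (Gamma0 p) k := ModularForm.mcast hk (Y.pow i)
  let F' : ModularForm (Gamma0 p) k := ModularForm.mcast hk (Y'.pow i)
  have hF : ∀ z : ℍ, F z = Y z ^ i := fun z => by
    show (Y.pow i) z = Y z ^ i
    rw [ModularForm.coe_pow]
    rfl
  have hF' : ∀ z : ℍ, F' z = Y' z ^ i := fun z => by
    show (Y'.pow i) z = Y' z ^ i
    rw [ModularForm.coe_pow]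
    rfl
  have hdual : FrickeDual p k F F' := by
    intro z
    rw [hF', hF, hd z, mul_pow, ← hk, ← zpow_natCast, ← zpow_mul]
    congr 2
    ring
  obtain ⟨T, hTn⟩ := hT.trace k F F' hdual
  refine ⟨T, fun n => ?_⟩
  rw [hTn n]
  have h1 : qExpansion 1 F = qExpansion 1 Y ^ i :=
    ModularForm.qExpansion_pow one_pos (ucong_one_mem_strictPeriods p) Y i
  have h2 : qExpansion 1 F' = qExpansion 1 Y' ^ i :=
    ModularForm.qExpansion_pow one_pos (ucong_one_mem_strictPeriods p) Y' i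
  show PowerSeries.coeff n (qExpansion 1 F) + _ * PowerSeries.coeff (p * n) (qExpansion 1 F') = _
  rw [h1, h2]

/-! ### the assembly -/

/-- the integer `q`-expansion of `G`. -/
theorem udm_exists_series {p : ℕ} (G : ModularForm (Gamma0 p) 2) (c : ℤ)
    (h0 : qCoeff G 0 = (c : ℂ))
    (hk : ∀ k : ℕ, 0 < k → ∃ a : ℤ, qCoeff G k = ((9 : ℕ) : ℂ) * (a : ℂ)) :
    ∃ h : PowerSeries ℤ, qExpansion 1 G = sdι (PowerSeries.C c + 9 * h) := by
  classical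
  have hk' : ∀ k : ℕ, ∃ a : ℤ, 0 < k → qCoeff G k = ((9 : ℕ) : ℂ) * (a : ℂ) := by
    intro k
    by_cases hk0 : 0 < k
    · obtain ⟨a, ha⟩ := hk k hk0
      exact ⟨a, fun _ => ha⟩
    · exact ⟨0, fun h => absurd h hk0⟩
  choose a ha using hk'
  refine ⟨PowerSeries.mk fun n => if n = 0 then 0 else a n, ?_⟩
  ext n
  have e9 : (9 : PowerSeries ℤ) = ((9 : ℕ) : PowerSeries ℤ) := by norm_num
  rw [PowerSeries.coeff_map, map_add, e9, udm_coeff_ofNat_mul, PowerSeries.coeff_mk,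
    PowerSeries.coeff_C]
  by_cases hn : n = 0
  · subst hn
    have h1 := h0
    rw [qCoeff] at h1
    rw [h1]
    simp
  · rw [if_neg hn, if_neg hn]
    have := ha n (Nat.pos_of_ne_zero hn)
    rw [qCoeff] at this
    rw [this]
    simp

theorem udm_smul_sdι (a : ℤ) (x : PowerSeries ℤ) :
    (a : ℂ) • sdι x = sdι (PowerSeries.C a * x) := by
  ext n
  rw [PowerSeries.coeff_smul, map_mul, PowerSeries.map_C, PowerSeries.coeff_C_mul, smul_eq_mul]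
  rfl

theorem udm_ninth (x : PowerSeries ℂ) : (1 / 9 : ℂ) • (9 * x) = x := by
  ext n
  rw [PowerSeries.coeff_smul, show (9 : PowerSeries ℂ) = PowerSeries.C (9 : ℂ) from
    (map_ofNat _ 9).symm, PowerSeries.coeff_C_mul, smul_eq_mul]
  ring

theorem udm_three_not_dvd {c : ℤ} (hc : IsCoprime c ((9 : ℕ) : ℤ)) : ¬ (3 : ℤ) ∣ c := by
  intro hd
  have h3 : (3 : ℤ) ∣ ((9 : ℕ) : ℤ) := ⟨3, by norm_num⟩
  have : IsUnit (3 : ℤ) := hc.isUnit_of_dvd' hd h3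
  rw [Int.isUnit_iff] at this
  omega

/-- The modular part of U-D, with the forms `Y`, `Y'` as a hypothesis: from `G ≡ c mod 9` on `Γ₀(p)`,
`p ≡ 8 mod 9`, a level-one form with integral `q`-expansion `≡ w · (Σ σ(n) qⁿ)^(3^v) mod 3`,
`3 ∤ w`. -/
theorem ud_exists_levelOne_of (p : ℕ) [Fact p.Prime] (hp : p % 9 = 8) (hT : TBlock p)
    (hYY : ∀ (G : ModularForm (Gamma0 p) 2) (c : ℤ),
      ∃ Y Y' : ModularForm (Gamma0 p) 6, FrickeDual p 6 Y Y' ∧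
        qExpansion 1 Y = (1 / 9 : ℂ) • (((c : ℂ) ^ 3) • sdι sdE6 - qExpansion 1 G ^ 3) ∧
        qExpansion 1 Y' = (1 / 9 : ℂ) • ((((c : ℂ) ^ 3 * (p : ℂ) ^ 6)) •
            sdι (PowerSeries.expand p (Fact.out : p.Prime).ne_zero sdE6)
          + ((p : ℂ) ^ 3) • (upSeries p (qExpansion 1 G)) ^ 3))
    (h : ConstCong p 9) :
    ∃ (k v : ℕ) (F : ModularForm 𝒮ℒ (k : ℤ)) (a : ℕ → ℤ) (w : ℤ), ¬ (3 : ℤ) ∣ w ∧
      (∀ n, qCoeff F n = (a n : ℂ)) ∧
      PowerSeries.mk (fun n => ((a n : ℤ) : ZMod 3))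
        = (w : ZMod 3) • (PowerSeries.mk fun n => ((ArithmeticFunction.sigma 1 n : ℕ) : ZMod 3)) ^ 3 ^ v := by
  classical
  obtain ⟨G, c, hc, h0, hk⟩ := h
  have hpp : p.Prime := Fact.out
  have hp0 : p ≠ 0 := hpp.ne_zero
  have hpC : (p : ℂ) ≠ 0 := Nat.cast_ne_zero.mpr hp0
  have h3c : ¬ (3 : ℤ) ∣ c := udm_three_not_dvd hc
  -- integer `q`-expansion of `G`
  obtain ⟨hs, hγ⟩ := udm_exists_series G c h0 hk
  -- the forms
  obtain ⟨Y, Y', hdual, hY, hY'⟩ := hYY G c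
  -- the integer series
  obtain ⟨D, hD⟩ := udm_E6
  obtain ⟨P, hP⟩ := udm_cube p hp
  obtain ⟨Z, hZ⟩ := udm_alg_Y (PowerSeries.C c) hs udmS D sdE6 hD
  have hE' : PowerSeries.expand p hp0 sdE6 =
      1 - 504 * (PowerSeries.expand p hp0 udmS + 3 * PowerSeries.expand p hp0 D) := by
    rw [hD]
    simp only [map_sub, map_mul, map_add, map_one, map_ofNat]
  have hρ : (PowerSeries.C (p : ℤ)) ^ 3 = 27 * PowerSeries.C P - 1 := by
    rw [← map_pow, hP, map_sub, map_mul, map_one, map_ofNat]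
  obtain ⟨Z', hZ'⟩ := udm_alg_Y' (PowerSeries.C c) (udmU p hs) (PowerSeries.expand p hp0 udmS)
    (PowerSeries.expand p hp0 D) (PowerSeries.expand p hp0 sdE6) ((PowerSeries.C (p : ℤ)) ^ 3)
    (PowerSeries.C P) hE' hρ
  set y : PowerSeries ℤ := PowerSeries.C c ^ 3 * udmS + 3 * Z with hy
  set y' : PowerSeries ℤ := PowerSeries.C c ^ 3 * PowerSeries.expand p hp0 udmS + 3 * Z' with hy'
  have hYy : qExpansion 1 Y = sdι y := by
    rw [hY, hγ, ← map_pow]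
    have e1 : ((c : ℂ) ^ 3) • sdι sdE6 = sdι (PowerSeries.C c ^ 3 * sdE6) := by
      rw [← map_pow, ← udm_smul_sdι]
      push_cast
      rfl
    rw [e1, ← map_sub, hZ, map_mul, map_ofNat, udm_ninth]
  have hY'y : qExpansion 1 Y' = sdι y' := by
    rw [hY', hγ, ← sdι_udmU, udmU_eq p hp0, ← map_pow]
    have e1 : ((c : ℂ) ^ 3 * (p : ℂ) ^ 6) • sdι (PowerSeries.expand p hp0 sdE6) =
        sdι (PowerSeries.C c ^ 3 * (PowerSeries.C (p : ℤ) ^ 3) ^ 2 *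
          PowerSeries.expand p hp0 sdE6) := by
      have e : PowerSeries.C c ^ 3 * (PowerSeries.C (p : ℤ) ^ 3) ^ 2 =
          PowerSeries.C (c ^ 3 * ((p : ℤ) ^ 3) ^ 2) := by
        simp only [map_mul, map_pow]
      rw [e, ← udm_smul_sdι]
      push_cast
      congr 1
      ring
    have e2 : ((p : ℂ) ^ 3) • sdι ((PowerSeries.C c + 9 * udmU p hs) ^ 3) =
        sdι (PowerSeries.C (p : ℤ) ^ 3 * (PowerSeries.C c + 9 * udmU p hs) ^ 3) := by
      rw [← map_pow PowerSeries.C, ← udm_smul_sdι]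
      push_cast
      rfl
    rw [e1, e2, ← map_add, hZ', map_mul, map_ofNat, udm_ninth]
  -- congruences modulo `3`
  have hy3 : ((3 : ℕ) : PowerSeries ℤ) ∣ y - PowerSeries.C c ^ 3 * udmS :=
    ⟨Z, by rw [hy]; push_cast; ring⟩
  have hy'3 : ((3 : ℕ) : PowerSeries ℤ) ∣
      y' - PowerSeries.C c ^ 3 * PowerSeries.expand p hp0 udmS :=
    ⟨Z', by rw [hy']; push_cast; ring⟩
  -- the valuation
  obtain ⟨v, u, hu, hvu⟩ := udm_val p hp
  obtain ⟨r₁, hr₁⟩ := dvd_sub_pow_of_dvd_sub hy3 v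
  obtain ⟨r₂, hr₂⟩ := dvd_sub_pow_of_dvd_sub hy'3 v
  set j : ℕ := 3 ^ v with hj
  set t : PowerSeries ℤ := udmS ^ j with ht
  have hyj : y ^ j = PowerSeries.C (c ^ (3 * j)) * t +
      ((3 ^ (v + 1) : ℕ) : PowerSeries ℤ) * r₁ := by
    have h1 : y ^ j = (PowerSeries.C c ^ 3 * udmS) ^ j +
        ((3 : ℕ) : PowerSeries ℤ) ^ (v + 1) * r₁ := by
      rw [← hr₁]; ring
    rw [h1, mul_pow, ← pow_mul, ← map_pow]
    push_cast
    rfl
  have hy'j : y' ^ j = PowerSeries.C (c ^ (3 * j)) * PowerSeries.expand p hp0 t +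
      ((3 ^ (v + 1) : ℕ) : PowerSeries ℤ) * r₂ := by
    have h1 : y' ^ j = (PowerSeries.C c ^ 3 * PowerSeries.expand p hp0 udmS) ^ j +
        ((3 : ℕ) : PowerSeries ℤ) ^ (v + 1) * r₂ := by
      rw [← hr₂]; ring
    rw [h1, mul_pow, ← pow_mul, ← map_pow, ← map_pow]
    push_cast
    rfl
  have hcy : ∀ n, PowerSeries.coeff n (y ^ j) =
      c ^ (3 * j) * PowerSeries.coeff n t + (3 : ℤ) ^ (v + 1) * PowerSeries.coeff n r₁ := by
    intro n
    rw [hyj, map_add, PowerSeries.coeff_C_mul, udm_coeff_ofNat_mul]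
    push_cast
    rfl
  have hcy' : ∀ n, PowerSeries.coeff (p * n) (y' ^ j) =
      c ^ (3 * j) * PowerSeries.coeff n t +
        (3 : ℤ) ^ (v + 1) * PowerSeries.coeff (p * n) r₂ := by
    intro n
    rw [hy'j, map_add, PowerSeries.coeff_C_mul, udm_coeff_ofNat_mul,
      PowerSeries.coeff_expand_mul]
    push_cast
    rfl
  -- the trace
  obtain ⟨T, hTn⟩ := udm_exists_trace_pow p hT 6 Y Y' hdual j ((6 * j : ℕ) : ℤ) (by
    push_cast; ring)
  have hj1 : 1 ≤ j := Nat.one_le_pow _ _ (by norm_num)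
  obtain ⟨e, he⟩ : ∃ e, 6 * j = e + 1 := ⟨6 * j - 1, by omega⟩
  have hvu' : p ^ e + 1 = 3 ^ v * u := by
    have : 6 * 3 ^ v - 1 = e := by omega
    rw [← this]; exact hvu
  let F : ModularForm 𝒮ℒ ((6 * j : ℕ) : ℤ) := ((p : ℂ) ^ e / (3 : ℂ) ^ v) • T
  have hFq : ∀ n, qCoeff F n = (p : ℂ) ^ e / (3 : ℂ) ^ v * qCoeff T n := by
    intro n
    have := ModularForm.qExpansion_smul one_pos one_mem_strictPeriods_SL
      ((p : ℂ) ^ e / (3 : ℂ) ^ v) T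
    show PowerSeries.coeff n (qExpansion 1 (((p : ℂ) ^ e / (3 : ℂ) ^ v) • (T : ℍ → ℂ))) = _
    rw [this, PowerSeries.coeff_smul, smul_eq_mul]
    rfl
  let a : ℕ → ℤ := fun n => c ^ (3 * j) * (u : ℤ) * PowerSeries.coeff n t +
    3 * ((p : ℤ) ^ e * PowerSeries.coeff n r₁ + PowerSeries.coeff (p * n) r₂)
  refine ⟨6 * j, v, F, a, c ^ (3 * j) * (u : ℤ), ?_, ?_, ?_⟩
  · intro hd
    rcases Int.prime_three.dvd_or_dvd hd with h | h
    · exact h3c (Int.prime_three.dvd_of_dvd_pow h)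
    · exact hu (by exact_mod_cast h)
  · intro n
    rw [hFq, hTn, hYy, hY'y, ← map_pow, ← map_pow, PowerSeries.coeff_map, PowerSeries.coeff_map,
      hcy, hcy']
    have hscal : (p : ℂ) ^ e * (p : ℂ) ^ ((1 : ℤ) - ((6 * j : ℕ) : ℤ)) = 1 := by
      have e1 : ((1 : ℤ) - ((6 * j : ℕ) : ℤ)) = -((e : ℕ) : ℤ) := by
        rw [he]; push_cast; ring
      rw [e1, zpow_neg, zpow_natCast]
      exact mul_inv_cancel₀ (pow_ne_zero _ hpC)
    have hvuC : (p : ℂ) ^ e + 1 = (3 : ℂ) ^ v * (u : ℂ) := by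
      exact_mod_cast congrArg (Nat.cast : ℕ → ℂ) hvu'
    have h3v : (3 : ℂ) ^ v ≠ 0 := pow_ne_zero _ (by norm_num)
    generalize (p : ℂ) ^ ((1 : ℤ) - ((6 * j : ℕ) : ℤ)) = q' at hscal ⊢
    show _ = ((c ^ (3 * j) * (u : ℤ) * PowerSeries.coeff n t +
      3 * ((p : ℤ) ^ e * PowerSeries.coeff n r₁ + PowerSeries.coeff (p * n) r₂) : ℤ) : ℂ)
    rw [div_mul_eq_mul_div, div_eq_iff h3v]
    simp only [eq_intCast]
    push_cast
    linear_combination ((c : ℂ) ^ (3 * j) * ((PowerSeries.coeff n t : ℤ) : ℂ) +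
      (3 : ℂ) ^ (v + 1) * ((PowerSeries.coeff (p * n) r₂ : ℤ) : ℂ)) * hscal +
      (c : ℂ) ^ (3 * j) * ((PowerSeries.coeff n t : ℤ) : ℂ) * hvuC
  · have hS : (PowerSeries.mk fun n => ((ArithmeticFunction.sigma 1 n : ℕ) : ZMod 3)) =
        PowerSeries.map (Int.castRingHom (ZMod 3)) udmS := by
      ext n
      simp [udmS]
    rw [hS, ← map_pow]
    ext n
    rw [PowerSeries.coeff_mk, PowerSeries.coeff_smul, PowerSeries.coeff_map, smul_eq_mul]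
    show ((c ^ (3 * j) * (u : ℤ) * PowerSeries.coeff n t +
      3 * ((p : ℤ) ^ e * PowerSeries.coeff n r₁ + PowerSeries.coeff (p * n) r₂) : ℤ) : ZMod 3) = _
    have h3 : ((3 : ℤ) : ZMod 3) = 0 := by decide
    rw [Int.cast_add, Int.cast_mul 3, h3, zero_mul, add_zero, Int.cast_mul]
    rfl

end Fermat.Agent.S16lib

end
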