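/-
Item 16 (S16), block U-D (helper10 + helper11): `¬ ConstCong p 9` for `p ≡ 8 mod 9`.

The modular part `ud_exists_levelOne_of` (`UDMod.lean`, helper11; with the forms `Y`, `Y'` of
`UDForms.lean`) produces, from a form `G ≡ c mod 9` of level `p`, a level-one form with integral
`q`-expansion congruent modulo `3` to a unit times `(∑ σ(n) qⁿ) ^ (3 ^ v)`; the level-one end
`ud_core` (`UDCore.lean`) shows that there is none.
-/
import Mathlib
import Fermat.Agent.S16lib.UDCore
import Fermat.Agent.S16lib.UDMod
import Fermat.Agent.S16lib.UDForms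
import Fermat.Agent.S16lib.Trace

set_option autoImplicit false

noncomputable section

namespace Fermat.Agent.S16lib

open ModularCurve CuspForm CongruenceSubgroup ModularFormClass UpperHalfPlane
open scoped MatrixGroups ModularForm

/-- block `T` is a theorem. -/
theorem ud_tBlock (p : ℕ) [Fact p.Prime] : TBlock p :=
  ⟨exists_frickeDual p, exists_trace p, frickeDual_weight_two p⟩

/-- U-D with block `T` as a hypothesis. -/
theorem not_constCong_nine_of (p : ℕ) [Fact p.Prime] (hT : TBlock p) (hp : p % 9 = 8) :
    ¬ ConstCong p 9 := by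
  intro h
  obtain ⟨k, v, F, a, w, hw, hF, hmk⟩ := ud_exists_levelOne_of p hp hT (udm_exists_Y p hT) h
  exact ud_core k v F a hF w hw hmk

/-- **U-D** (`Y` trick) -/
theorem not_constCong_nine (p : ℕ) [Fact p.Prime] (hp : p % 9 = 8) : ¬ ConstCong p 9 :=
  not_constCong_nine_of p (ud_tBlock p) hp

end Fermat.Agent.S16lib

end
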