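/-
Item 16 (S16), block U-D, sub-piece `udm_exists_Y` (helper10, for helper11's UDMod.lean):
the forms `Y = (c³ E₆ - G³)/9` and its Fricke dual `Y'` of weight `6` and level `p`, with their
`q`-expansions.
-/
import Mathlib
import Fermat.Agent.S16lib.UCong
import Fermat.Agent.S16lib.Trace
import Fermat.Agent.S16lib.SwDInt

set_option autoImplicit false

noncomputable section

namespace Fermat.Agent.S16lib

open ModularCurve CuspForm CongruenceSubgroup ModularFormClass UpperHalfPlane EisensteinSeries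
open scoped MatrixGroups ModularForm

/-- the `q`-expansion only depends on the underlying function -/
theorem udf_qExpansion_congr {F G : Type*} [FunLike F ℍ ℂ] [FunLike G ℍ ℂ] (f : F) (g : G)
    (h : ∀ z : ℍ, f z = g z) : qExpansion 1 f = qExpansion 1 g := by
  have : (⇑f : ℍ → ℂ) = ⇑g := funext h
  rw [this]

theorem udm_exists_Y (p : ℕ) [Fact p.Prime] (hT : TBlock p) (G : ModularForm (Gamma0 p) 2) (c : ℤ) :
    ∃ Y Y' : ModularForm (Gamma0 p) 6, FrickeDual p 6 Y Y' ∧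
      qExpansion 1 Y = (1 / 9 : ℂ) • (((c : ℂ) ^ 3) • sdι sdE6 - qExpansion 1 G ^ 3) ∧
      qExpansion 1 Y' = (1 / 9 : ℂ) • ((((c : ℂ) ^ 3 * (p : ℂ) ^ 6)) • sdι (PowerSeries.expand p (Fact.out : p.Prime).ne_zero sdE6)
          + ((p : ℂ) ^ 3) • (upSeries p (qExpansion 1 G)) ^ 3) := by
  have hp0 : p ≠ 0 := (Fact.out : p.Prime).ne_zero
  obtain ⟨B₁, Bp, hB₁, hBp, -, hd2⟩ := exists_levelRaise p 6 ModularForm.E₆
  obtain ⟨G', hG'⟩ := hT.dual 2 G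
  have hcoef := hT.weight_two G G' hG'
  have hq' : qExpansion 1 G' = (-(p : ℂ)) • upSeries p (qExpansion 1 G) := by
    ext n
    rw [PowerSeries.coeff_smul, coeff_upSeries, smul_eq_mul]
    exact hcoef n
  have hk : ((3 : ℕ) : ℤ) * 2 = 6 := by norm_num
  let G3 : ModularForm (Gamma0 p) 6 := ModularForm.mcast hk (G.pow 3)
  let G3' : ModularForm (Gamma0 p) 6 := ModularForm.mcast hk (G'.pow 3)
  have hG3 : ∀ z : ℍ, G3 z = G z ^ 3 := fun z => by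
    show (G.pow 3) z = G z ^ 3
    rw [ModularForm.coe_pow]
    rfl
  have hG3' : ∀ z : ℍ, G3' z = G' z ^ 3 := fun z => by
    show (G'.pow 3) z = G' z ^ 3
    rw [ModularForm.coe_pow]
    rfl
  have hper := ucong_one_mem_strictPeriods p
  have hqG3 : qExpansion 1 G3 = qExpansion 1 G ^ 3 :=
    ModularForm.qExpansion_pow one_pos hper G 3
  have hqG3' : qExpansion 1 G3' = qExpansion 1 G' ^ 3 :=
    ModularForm.qExpansion_pow one_pos hper G' 3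
  have hqB₁ : qExpansion 1 B₁ = sdι sdE6 := by
    rw [← sd_qExpansion_E6]
    exact udf_qExpansion_congr B₁ ModularForm.E₆ hB₁
  have hqBp : qExpansion 1 Bp = sdι (PowerSeries.expand p hp0 sdE6) := by
    ext n
    have h1 : PowerSeries.coeff n (qExpansion 1 Bp) = qCoeff Bp n := rfl
    rw [h1, hBp n, PowerSeries.map_expand, PowerSeries.coeff_expand, ← sd_qExpansion_E6]
    rfl
  let Y : ModularForm (Gamma0 p) 6 := (1 / 9 : ℂ) • (((c : ℂ) ^ 3) • B₁ - G3)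
  let Y' : ModularForm (Gamma0 p) 6 := (1 / 9 : ℂ) • ((((c : ℂ) ^ 3 * (p : ℂ) ^ 6)) • Bp - G3')
  have hY : (⇑Y : ℍ → ℂ) = (1 / 9 : ℂ) • ⇑(((c : ℂ) ^ 3) • B₁ - G3) := rfl
  have hY1 : (⇑(((c : ℂ) ^ 3) • B₁ - G3) : ℍ → ℂ) = ⇑(((c : ℂ) ^ 3) • B₁) - ⇑G3 := rfl
  have hY2 : (⇑(((c : ℂ) ^ 3) • B₁) : ℍ → ℂ) = ((c : ℂ) ^ 3) • ⇑B₁ := rfl
  have hY' : (⇑Y' : ℍ → ℂ) = (1 / 9 : ℂ) • ⇑((((c : ℂ) ^ 3 * (p : ℂ) ^ 6)) • Bp - G3') := rfl
  have hY1' : (⇑((((c : ℂ) ^ 3 * (p : ℂ) ^ 6)) • Bp - G3') : ℍ → ℂ) =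
      ⇑((((c : ℂ) ^ 3 * (p : ℂ) ^ 6)) • Bp) - ⇑G3' := rfl
  have hY2' : (⇑((((c : ℂ) ^ 3 * (p : ℂ) ^ 6)) • Bp) : ℍ → ℂ) =
      (((c : ℂ) ^ 3 * (p : ℂ) ^ 6)) • ⇑Bp := rfl
  refine ⟨Y, Y', ?_, ?_, ?_⟩
  · intro z
    have h2 := hd2 z
    rw [Pi.smul_apply, smul_eq_mul] at h2
    have h2' : (p : ℂ) ^ (6 : ℕ) * Bp z = (z : ℂ) ^ (-(6 : ℤ)) * B₁ (frickeMap p z) := by
      rw [← h2]
      norm_cast
    have h3 := hG' z
    show (1 / 9 : ℂ) * (((c : ℂ) ^ 3 * (p : ℂ) ^ 6) * Bp z - G3' z) =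
      (z : ℂ) ^ (-(6 : ℤ)) * ((1 / 9 : ℂ) * ((c : ℂ) ^ 3 * B₁ (frickeMap p z) - G3 (frickeMap p z)))
    rw [hG3', hG3, h3, mul_pow, ← zpow_natCast ((z : ℂ) ^ (-(2 : ℤ))) 3, ← zpow_mul]
    have e : (-(2 : ℤ)) * ((3 : ℕ) : ℤ) = -6 := by norm_num
    rw [e]
    linear_combination ((1 / 9 : ℂ) * (c : ℂ) ^ 3) * h2'
  · rw [hY, ModularForm.qExpansion_smul one_pos hper, hY1,
      ModularForm.qExpansion_sub one_pos hper, hY2,
      ModularForm.qExpansion_smul one_pos hper, hqB₁, hqG3]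
  · rw [hY', ModularForm.qExpansion_smul one_pos hper, hY1',
      ModularForm.qExpansion_sub one_pos hper, hY2',
      ModularForm.qExpansion_smul one_pos hper, hqBp, hqG3', hq', smul_pow]
    congr 1
    ext n
    simp only [map_add, map_sub, PowerSeries.coeff_smul, smul_eq_mul]
    ring

end Fermat.Agent.S16lib

end
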