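/-
Item 16 (S16), piece U-E/UE3 (helper1), unconditional form: for an algebraically closed field `k`
of characteristic `2` and every level `M ≠ 0`, square roots exist in `F̄_M = Fk k M`, and
`Θ = χ₈ = ν̄^(-3p) ν̄(q^p)^3 ∈ F̄_M` for odd `p ∣ M`.
(`S16lib/UE3.lean` has the same statements with `FFSep k (jk k M)⁻¹` as an instance hypothesis.)
-/
import Mathlib
import Fermat.Agent.S16lib.UE3
import Fermat.Agent.GoodRed.ModRR

set_option autoImplicit false

noncomputable section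

namespace Fermat.Agent.S16lib

open IntermediateField ModularCurve Fermat.Agent.GM Fermat.Agent.FFlib Fermat.Agent.GoodRed HahnSeries

variable (k : Type) [Field k]

theorem ue3_not_sq_jqModC : ¬ ∃ y : LaurentSeries k, y ^ 2 = jqModC k := by
  rintro ⟨y, hy⟩
  have hj : jqModC k ≠ 0 := jqModC_ne_zero_of_nontrivial k
  have hy0 : y ≠ 0 := by
    rintro rfl
    rw [zero_pow two_ne_zero] at hy
    exact hj hy.symm
  have h2 := congrArg HahnSeries.order hy
  rw [sq, HahnSeries.order_mul hy0 hy0, ue3_order_jqModC] at h2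
  omega

variable [IsAlgClosed k] [CharP k 2] (M : ℕ) [NeZero M]

/-- **UE3a, unconditional**: an element of `F̄_M` which is a square in `k((q))` is a square in
`F̄_M`. -/
theorem ue3_exists_sqrt_algClosed (f : Fk k M) (g : LaurentSeries k)
    (hg : g ^ 2 = (f : LaurentSeries k)) : ∃ f' : Fk k M, (f' : LaurentSeries k) = g := by
  have h2k : (2 : k) = 0 := ue2_two_eq_zero k
  have h2 : (2 : Fk k M) = 0 := by
    have : (2 : Fk k M) = algebraMap k (Fk k M) 2 := (map_ofNat _ 2).symm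
    rw [this, h2k, map_zero]
  have hK : ∀ c : k, ∃ z : k, z ^ 2 = c := fun c =>
    IsAlgClosed.exists_pow_nat_eq c (by norm_num)
  have hsep : FFSep k (jbarC k M) := mr_ffSep k M
  have := hsep.sep
  refine ue3_sqrt_abstract (K := k) (algebraMap (Fk k M) (LaurentSeries k)) h2 hK (jbarC k M)
    ?_ f g hg
  rintro ⟨y, hy⟩
  exact ue3_not_sq_jqModC k ⟨y, hy⟩

/-- eighth roots, unconditional. -/
theorem ue3_exists_root_eight_algClosed (f : Fk k M) (g : LaurentSeries k)
    (hg : g ^ 8 = (f : LaurentSeries k)) : ∃ f' : Fk k M, (f' : LaurentSeries k) = g := by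
  obtain ⟨f1, h1⟩ := ue3_exists_sqrt_algClosed k M f (g ^ 4) (by rw [← hg]; ring)
  obtain ⟨f2, h2⟩ := ue3_exists_sqrt_algClosed k M f1 (g ^ 2) (by rw [h1]; ring)
  exact ue3_exists_sqrt_algClosed k M f2 g h2.symm

/-- **UE3, unconditional**: `Θ ∈ F̄_M` with `Θ = χ₈`, `Θ^8 · j̄(q^p) = j̄^p`, `θ Θ = S̄ Θ`
(`p` odd, `p ∣ M`, `k` algebraically closed of characteristic `2`). -/
theorem ue3_exists_theta_algClosed (p : ℕ) [NeZero p] (hp : Odd p) (hpM : p ∣ M) :
    ∃ Θ : Fk k M, (Θ : LaurentSeries k)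
        = HahnSeries.ofPowerSeries ℤ k
          ((ue2Chi k p (NeZero.ne p) (-3 * (p : ℤ)) 3 : (PowerSeries k)ˣ) : PowerSeries k) ∧
      (Θ : LaurentSeries k) ^ 8 * jqNModC k p = jqModC k ^ p ∧
      ue2ThetaL k (Θ : LaurentSeries k)
        = HahnSeries.ofPowerSeries ℤ k (ue2Sbar k p) * (Θ : LaurentSeries k) ∧
      Θ ≠ 0 := by
  have hmem : jqNModC k p ∈ modularFunctionFieldFullC k M := jqModCd_mem_full k M hpM
  have h1 := ue2_chi_pow_eight k p
  have hne : jqNModC k p ≠ 0 := by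
    intro h
    rw [h, mul_zero] at h1
    exact pow_ne_zero p (jqModC_ne_zero_of_nontrivial k) h1.symm
  have h2 : (((jk k M) ^ p * (⟨jqNModC k p, hmem⟩ : Fk k M)⁻¹ : Fk k M) : LaurentSeries k)
      = jqModC k ^ p * (jqNModC k p)⁻¹ := by
    push_cast
    rfl
  obtain ⟨Θ, hΘ⟩ := ue3_exists_root_eight_algClosed k M
    ((jk k M) ^ p * (⟨jqNModC k p, hmem⟩ : Fk k M)⁻¹)
    (HahnSeries.ofPowerSeries ℤ k
      ((ue2Chi k p (NeZero.ne p) (-3 * (p : ℤ)) 3 : (PowerSeries k)ˣ) : PowerSeries k))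
    (by rw [h2, ← h1, mul_assoc, mul_inv_cancel₀ hne, mul_one])
  refine ⟨Θ, hΘ, ?_, ?_, ?_⟩
  · rw [hΘ]
    exact h1
  · rw [hΘ]
    refine ue2ThetaL_chi k p hp (NeZero.ne p) _ _ ?_ (by decide)
    have : Odd (-3 : ℤ) := by decide
    exact this.mul (by exact_mod_cast hp)
  · rintro rfl
    rw [← hΘ] at h1
    simp only [ZeroMemClass.coe_zero, ne_eq, OfNat.ofNat_ne_zero, not_false_eq_true, zero_pow,
      zero_mul] at h1
    exact pow_ne_zero p (jqModC_ne_zero_of_nontrivial k) h1.symm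

end Fermat.Agent.S16lib
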