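/-
Item 16 (S16), block U-E, piece UE-A (helper7; sub-architect helper13).

Abstract good reduction (`GoodRed.ConstRed` with a place reduction `r` and genus equality):
for a place `x0` of the reduced function field and a place `Q0` of `F` with `r Q0 ≠ x0` there is
an integral function `t` whose reduction is a uniformizer at `x0`, with poles only at `Q0`, and
such that `t - c` is a uniformizer at every place `P` of the fibre `r⁻¹ x0` (`c = t(P)`).
-/
import Mathlib
import Fermat.Agent.GoodRed.Unique
import Fermat.Agent.GoodRed.DescZeros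
import Fermat.Agent.S24lib.FFBasic

set_option autoImplicit false

noncomputable section

namespace Fermat.Agent.S16lib

open AlgebraicCurve Fermat.Agent.RRlib Fermat.Agent.GoodRed Fermat.Agent.S24lib

variable {K F k Fk : Type*} [Field K] [Field F] [Algebra K F] [Field k] [Field Fk] [Algebra k Fk]

/-- the value of a function at a place where it is regular -/
theorem uea_exists_value [RRBase K F] (P : Place K F) {x : F} (hx : 0 ≤ P.ord x) :
    ∃ c : K, x - algebraMap K F c = 0 ∨ 0 < P.ord (x - algebraMap K F c) := by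
  have hmemx : x ∈ P.toValuationSubring := ffMem_of_ord_nonneg P hx
  obtain ⟨c, hc⟩ := RRBase.residue_surjective (K := K) P
    (IsLocalRing.residue P.toValuationSubring ⟨x, hmemx⟩)
  refine ⟨c, ?_⟩
  have hmem : (⟨x, hmemx⟩ - algebraMap K P.toValuationSubring c : P.toValuationSubring)
      ∈ IsLocalRing.maximalIdeal P.toValuationSubring := by
    rw [← Ideal.Quotient.eq_zero_iff_mem]
    have : (Ideal.Quotient.mk (IsLocalRing.maximalIdeal P.toValuationSubring))
        (⟨x, hmemx⟩ - algebraMap K P.toValuationSubring c)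
        = IsLocalRing.residue P.toValuationSubring ⟨x, hmemx⟩
          - algebraMap K P.ResidueField c := by
      rw [map_sub]; rfl
    rw [this, hc]
    exact sub_self _
  by_cases hz : x - algebraMap K F c = 0
  · exact Or.inl hz
  · right
    have hne : (⟨x, hmemx⟩ - algebraMap K P.toValuationSubring c : P.toValuationSubring) ≠ 0 := by
      intro h
      apply hz
      have := congrArg (fun a : P.toValuationSubring => (a : F)) h
      simpa using this
    have := ffOrd_pos_of_mem_maximalIdeal P hmem hne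
    simpa using this

variable {A : ValuationSubring K} {π : A →+* k} (R : ConstRed A π Fk F)

/-- **UE-A**, full form. -/
theorem uea_exists_lift [RRHyp K F] [RRHyp k Fk] {r : Place K F → Place k Fk}
    (hr : R.IsPlaceRed r) (hg : genusFF K F ≤ genusFF k Fk)
    (x0 : Place k Fk) (Q0 : Place K F) (hQ0 : r Q0 ≠ x0) :
    ∃ t : R.O, x0.ord (R.red t) = 1 ∧
      (∀ P : Place K F, P ≠ Q0 → 0 ≤ P.ord ((t : R.O) : F)) ∧
      (∀ Q : Place k Fk, Q ≠ r Q0 → 0 ≤ Q.ord (R.red t)) ∧
      ∀ P : Place K F, r P = x0 →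
        ∃ c : A, π c = 0 ∧ P.ord (((t : R.O) : F) - algebraMap K F (c : K)) = 1 := by
  classical
  have hgeq : genusFF k Fk = genusFF K F := le_antisymm hr.genus_le hg
  set n : ℕ := 2 * genusFF k Fk + 1 with hn
  set D : Divisor K F := n • Finsupp.single Q0 (1 : ℤ) with hD
  set X : Divisor k Fk := n • Finsupp.single (r Q0) (1 : ℤ) - Finsupp.single x0 (1 : ℤ) with hX
  have hdegX : Divisor.degree X = 2 * (genusFF k Fk : ℤ) := by
    rw [hX, map_sub, map_nsmul, degree_single_one, degree_single_one, hn]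
    ring
  have hdegD : Divisor.degree D = (n : ℤ) := by
    rw [hD, map_nsmul, degree_single_one, nsmul_eq_mul, mul_one]
  -- Step 1: a uniformizer at `x0` with poles only at `r Q0`
  obtain ⟨w, hwX, hw0, hwx0⟩ := exists_ord_eq_neg k Fk (X := X) (by rw [hdegX]) x0
  have hXx0 : X x0 = -1 := by
    rw [hX, Finsupp.sub_apply, Finsupp.smul_apply, Finsupp.single_apply, if_neg hQ0,
      Finsupp.single_apply, if_pos rfl]
    simp
  have hwx0' : x0.ord w = 1 := by rw [hwx0, hXx0]; rfl
  have hXle : X ≤ Finsupp.mapDomain r D := by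
    rw [hD, uq_mapDomain_nsmul_single, hX]
    intro v
    rw [Finsupp.sub_apply]
    have : (0 : ℤ) ≤ Finsupp.single x0 (1 : ℤ) v := by
      rw [Finsupp.single_apply]; split_ifs <;> simp
    omega
  have hwD : w ∈ riemannRochSpace (K := k) (Finsupp.mapDomain r D) :=
    riemannRochSpace_mono hXle hwX
  -- Step 2: lift
  have hWeq := hr.W_eq' hg (D := D) (by rw [hdegD, hn, ← hgeq]; push_cast; omega)
  rw [← hWeq] at hwD
  obtain ⟨t, htD, htw⟩ := (R.mem_W_iff D w).mp hwD
  have ht0 : ((t : R.O) : F) ≠ 0 := by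
    intro h
    apply hw0
    rw [← htw, show t = 0 from Subtype.ext h, map_zero]
  have hreg : ∀ P : Place K F, P ≠ Q0 → 0 ≤ P.ord ((t : R.O) : F) := by
    intro P hP
    have := (mem_riemannRochSpace_iff.mp htD P).resolve_left ht0
    rw [hD, Finsupp.smul_apply, Finsupp.single_apply, if_neg (Ne.symm hP)] at this
    simpa using this
  have hregk : ∀ Q : Place k Fk, Q ≠ r Q0 → 0 ≤ Q.ord w := by
    intro Q hQ
    have := (mem_riemannRochSpace_iff.mp hwX Q).resolve_left hw0
    rw [hX, Finsupp.sub_apply, Finsupp.smul_apply, Finsupp.single_apply, if_neg (Ne.symm hQ)]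
      at this
    have h2 : (0 : ℤ) ≤ Finsupp.single x0 (1 : ℤ) Q := by
      rw [Finsupp.single_apply]; split_ifs <;> simp
    simp only [smul_zero, zero_sub, neg_neg] at this
    omega
  have hwconst : w ∉ Set.range (algebraMap k Fk) := by
    rintro ⟨a, rfl⟩
    rw [dz_ord_const] at hwx0'
    exact zero_ne_one hwx0'
  refine ⟨t, by rw [htw]; exact hwx0', hreg, by rw [htw]; exact hregk, ?_⟩
  intro P hP
  have hPQ0 : P ≠ Q0 := fun h => hQ0 (h ▸ hP)
  obtain ⟨c, hc⟩ := uea_exists_value P (hreg P hPQ0)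
  -- `t - c ≠ 0`
  have htc0 : ((t : R.O) : F) - algebraMap K F c ≠ 0 := by
    intro h
    have h1 : ((t : R.O) : F) = algebraMap K F c := sub_eq_zero.mp h
    have hcA : c ∈ A := (R.algebraMap_mem_iff c).mp (h1 ▸ t.2)
    apply hwconst
    refine ⟨π ⟨c, hcA⟩, ?_⟩
    rw [← htw, ← R.red_algebraMap ⟨c, hcA⟩]
    congr 1
    exact Subtype.ext h1.symm
  have hcpos : 0 < P.ord (((t : R.O) : F) - algebraMap K F c) := hc.resolve_left htc0
  -- Step 4: `c ∈ A`
  have hcA : c ∈ A := by
    by_contra hcA
    have hc0 : c ≠ 0 := fun h => hcA (h ▸ A.zero_mem)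
    have hcinv : c⁻¹ ∈ A := (A.mem_or_inv_mem c).resolve_left hcA
    have hπ0 : π ⟨c⁻¹, hcinv⟩ = 0 := by
      rw [R.π_eq_zero_iff]
      show c⁻¹ ∈ A.nonunits
      rw [ValuationSubring.mem_nonunits_iff]
      have h1 : ¬ A.valuation c ≤ 1 := fun h => hcA ((A.valuation_le_one_iff c).mp h)
      rw [map_inv₀]
      exact inv_lt_one_of_one_lt₀ (not_le.mp h1)
    set y : R.O := ⟨algebraMap K F c⁻¹, R.algebraMap_mem ⟨c⁻¹, hcinv⟩⟩ * t - 1 with hy
    have hredy : R.red y = -1 := by
      rw [hy, map_sub, map_mul, map_one, R.red_algebraMap ⟨c⁻¹, hcinv⟩, hπ0, map_zero, zero_mul,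
        zero_sub]
    have hredy0 : R.red y ≠ 0 := by rw [hredy]; exact neg_ne_zero.mpr one_ne_zero
    have hyF : ((y : R.O) : F) = algebraMap K F c⁻¹ * (((t : R.O) : F) - algebraMap K F c) := by
      have h0 : ((y : R.O) : F) = algebraMap K F c⁻¹ * ((t : R.O) : F) - 1 := rfl
      rw [h0, mul_sub, ← map_mul, inv_mul_cancel₀ hc0, map_one]
    have hcF : algebraMap K F c⁻¹ ≠ 0 := by
      rw [Ne, map_eq_zero_iff _ (algebraMap K F).injective]
      exact inv_ne_zero hc0
    have hordy : ∀ P' : Place K F, P'.ord ((y : R.O) : F)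
        = P'.ord (((t : R.O) : F) - algebraMap K F c) := by
      intro P'
      rw [hyF, P'.ord_mul hcF htc0, dz_ord_const, zero_add]
    have hpos := hr.ord_red_pos' y hredy0 P (fun P' hP' => by
      rw [hordy]
      have hP'Q0 : P' ≠ Q0 := fun h => hQ0 (by rw [← hP, ← hP', h])
      have h1 := dz_ord_sub_const P' ((t : R.O) : F) c
      have h2 := hreg P' hP'Q0
      rw [h1, max_eq_left (by omega : -(P'.ord ((t : R.O) : F)) ≤ 0), sub_zero]
      exact le_max_left _ _) (by rw [hordy]; exact hcpos)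
    rw [hredy, dz_ord_neg, Place.ord_one] at hpos
    exact lt_irrefl _ hpos
  -- Step 5
  set cA : A := ⟨c, hcA⟩ with hcAdef
  set y : R.O := R.subConst t cA with hy
  have hyF : ((y : R.O) : F) = ((t : R.O) : F) - algebraMap K F c := R.coe_subConst t cA
  have hredy : R.red y = w - algebraMap k Fk (π cA) := by rw [hy, R.red_subConst, htw]
  have hredy0 : R.red y ≠ 0 := by
    rw [hy]
    exact R.red_subConst_ne_zero t (by rw [htw]; exact hwconst) cA
  have hnn : ∀ P' : Place K F, r P' = x0 → 0 ≤ P'.ord ((y : R.O) : F) := by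
    intro P' hP'
    rw [hyF]
    have hP'Q0 : P' ≠ Q0 := fun h => hQ0 (h ▸ hP')
    have h1 := dz_ord_sub_const P' ((t : R.O) : F) c
    have h2 := hreg P' hP'Q0
    rw [h1, max_eq_left (by omega : -(P'.ord ((t : R.O) : F)) ≤ 0), sub_zero]
    exact le_max_left _ _
  have hAx := hr.2 y hredy0 x0
  rw [dz_mapDomain_apply] at hAx
  -- lower bound of the sum by the `P`-term
  have hPs : P ∈ (divOf (K := K) ((y : R.O) : F)).support := by
    rw [Finsupp.mem_support_iff, divOf_apply', hyF]
    omega
  have hterm : ∀ a ∈ (divOf (K := K) ((y : R.O) : F)).support,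
      0 ≤ (if r a = x0 then divOf (K := K) ((y : R.O) : F) a else 0) := by
    intro a _
    split_ifs with h
    · rw [divOf_apply']; exact hnn a h
    · exact le_rfl
  have hle := Finset.single_le_sum hterm hPs
  rw [if_pos hP, divOf_apply', hyF] at hle
  have hsumpos : 0 < x0.ord (R.red y) := by
    rw [← hAx]
    exact lt_of_lt_of_le hcpos hle
  -- `π c = 0`
  have hπc : π cA = 0 := by
    by_contra hne
    have hane : algebraMap k Fk (π cA) ≠ 0 := by
      rw [Ne, map_eq_zero_iff _ (algebraMap k Fk).injective]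
      exact hne
    have h1 : algebraMap k Fk (π cA) = w + -(R.red y) := by rw [hredy]; ring
    have h2 : (1 : ℤ) ≤ x0.ord (w + -(R.red y)) :=
      pol_ord_add_ge (by rw [← h1]; exact hane) (Or.inr (by omega))
        (Or.inr (by rw [dz_ord_neg]; omega))
    rw [← h1, dz_ord_const] at h2
    omega
  refine ⟨cA, hπc, ?_⟩
  have hredy' : R.red y = w := by rw [hredy, hπc, map_zero, sub_zero]
  rw [hredy', hwx0'] at hAx
  have : P.ord (((t : R.O) : F) - algebraMap K F c) ≤ 1 := by
    calc P.ord (((t : R.O) : F) - algebraMap K F c)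
        ≤ ∑ a ∈ (divOf (K := K) ((y : R.O) : F)).support,
          (if r a = x0 then divOf (K := K) ((y : R.O) : F) a else 0) := hle
      _ = 1 := hAx
  show P.ord (((t : R.O) : F) - algebraMap K F c) = 1
  omega

/-- **UE-A** (blueprint form): an integral function whose reduction is a uniformizer at `x0`
and which is a local coordinate at every place of the fibre `r⁻¹ x0`. -/
theorem uea_exists_uniformizer [RRHyp K F] [RRHyp k Fk] {r : Place K F → Place k Fk}
    (hr : R.IsPlaceRed r) (hg : genusFF K F ≤ genusFF k Fk)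
    (x0 : Place k Fk) (Q0 : Place K F) (hQ0 : r Q0 ≠ x0) :
    ∃ t : R.O, x0.ord (R.red t) = 1 ∧
      ∀ P : Place K F, r P = x0 → ∃ c : K, P.ord (((t : R.O) : F) - algebraMap K F c) = 1 := by
  obtain ⟨t, h1, -, -, h2⟩ := uea_exists_lift R hr hg x0 Q0 hQ0
  refine ⟨t, h1, fun P hP => ?_⟩
  obtain ⟨c, -, hc⟩ := h2 P hP
  exact ⟨(c : K), hc⟩

end Fermat.Agent.S16lib

end
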