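/-
S16 piece U-E (helper17), analytic core, part 1: the level-one residue lemma.

`ue_levelOne`: for `T ∈ M_{12 m + 2}(SL₂(ℤ))` the coefficient of `q^m` in `qExp(T) · (Δ/q)^{-m}`
vanishes, i.e. the weakly holomorphic form `T / Δ^m` of weight `2` has constant term `0`.
Proof: induction on `m`, subtracting a multiple of `E₄^{3(m-1)} E₄² E₆` and dividing by `Δ`; for
`E₄^{3(m-1)} E₄² E₆ / Δ^m = κ⁻¹ (j^m)' / m` the statement is formal (`θ` kills constant terms), the
analytic input being `j' = κ E₄² E₆ / Δ` (S24lib `deriv_jFun`).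
-/
import Mathlib
import Fermat.Agent.S24lib.JqAnalytic
import Fermat.Agent.S24lib.JDeriv
import Fermat.Agent.S28lib.UnitExp
import Fermat.Agent.S16lib.UC

set_option autoImplicit false

noncomputable section

namespace Fermat.Agent.S16lib

open ModularCurve CuspForm CongruenceSubgroup ModularFormClass UpperHalfPlane
open ModularForm EisensteinSeries Filter Topology Function
open scoped MatrixGroups ModularForm Manifold Real

open Fermat.Agent.S24lib

local notation "𝕢" => Periodic.qParam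

/-! ### Taylor series and derivatives -/

/-- The Taylor series of the derivative is the derivative of the Taylor series. -/
theorem ue_taylorPS_deriv (f : ℂ → ℂ) :
    taylorPS (deriv f) = PowerSeries.derivative ℂ (taylorPS f) := by
  ext n
  rw [taylorPS_coeff, PowerSeries.coeff_derivative, taylorPS_coeff, iteratedDeriv_succ',
    Nat.factorial_succ]
  have h1 : ((n + 1 : ℕ) : ℂ) ≠ 0 := by exact_mod_cast Nat.succ_ne_zero n
  have h2 : ((n.factorial : ℕ) : ℂ) ≠ 0 := by exact_mod_cast Nat.factorial_ne_zero n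
  push_cast
  field_simp

theorem ue_taylorPS_const_mul (c : ℂ) (f : ℂ → ℂ) :
    taylorPS (fun q => c * f q) = PowerSeries.C c * taylorPS f := by
  ext n
  rw [taylorPS_coeff, PowerSeries.coeff_C_mul, taylorPS_coeff, iteratedDeriv_const_mul_field]
  ring

theorem ue_taylorPS_id : taylorPS (fun q : ℂ => q) = PowerSeries.X := by
  have := taylorPS_pow_id 1
  simpa using this

theorem ue_hasDerivAt_qParam (z : ℂ) :
    HasDerivAt (𝕢 1) (2 * π * Complex.I * 𝕢 1 z) z := by
  unfold Periodic.qParam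
  have h1 : HasDerivAt (fun w : ℂ => 2 * π * Complex.I * w / ((1 : ℝ) : ℂ)) (2 * π * Complex.I) z := by
    have := ((hasDerivAt_id z).const_mul (2 * π * Complex.I)).div_const (((1 : ℝ) : ℂ))
    simpa using this
  exact h1.cexp.congr_deriv (mul_comm _ _)

/-- Chain rule: the `z`-derivative of a level-one form in terms of its cusp function. -/
theorem ue_deriv_comp_ofComplex {F : Type*} [FunLike F ℍ ℂ] {k : ℤ} [ModularFormClass F 𝒮ℒ k]
    (f : F) (z : ℍ) :
    deriv (⇑f ∘ ofComplex) (z : ℂ) =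
      deriv (cuspFunction 1 f) (𝕢 1 z) * (2 * π * Complex.I * 𝕢 1 z) := by
  have hq : ‖𝕢 1 (z : ℂ)‖ < 1 := Periodic.norm_qParam_lt_one one_pos z.im_pos
  have hd : DifferentiableAt ℂ (cuspFunction 1 f) (𝕢 1 z) :=
    ModularFormClass.differentiableAt_cuspFunction f one_pos one_mem_strictPeriods_SL hq
  have heq : (⇑f ∘ ofComplex) =ᶠ[𝓝 (z : ℂ)] (cuspFunction 1 f) ∘ (𝕢 1) := by
    have hopen : IsOpen {w : ℂ | 0 < w.im} := isOpen_lt continuous_const Complex.continuous_im
    filter_upwards [hopen.mem_nhds (show (z : ℂ) ∈ {w : ℂ | 0 < w.im} from z.im_pos)] with w hw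
    have := SlashInvariantFormClass.eq_cuspFunction (h := 1) f ⟨w, hw⟩ one_mem_strictPeriods_SL
      one_ne_zero
    simp only [Function.comp_apply, ofComplex_apply_of_im_pos hw]
    rw [← this]
  rw [heq.deriv_eq]
  exact ((hd.hasDerivAt.comp (z : ℂ) (ue_hasDerivAt_qParam z)).deriv)

/-! ### The identity `q (d(E₄³) Δ - E₄³ dΔ) = c E₄² E₆ Δ` -/

/-- The pointwise identity `3 E₄² E₄' Δ - E₄³ Δ' = κ E₄² E₆ Δ` (derivatives in `z`). -/
theorem ue_ramanujan_z : ∃ κ : ℂ, κ ≠ 0 ∧ ∀ z : ℍ,
    3 * E₄ z ^ 2 * deriv (⇑E₄ ∘ ofComplex) (z : ℂ) * ModularForm.discriminant z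
        - E₄ z ^ 3 * deriv ((ModularForm.discriminant : ℍ → ℂ) ∘ ofComplex) (z : ℂ)
      = κ * (E₄ z ^ 2 * E₆ z * ModularForm.discriminant z) := by
  obtain ⟨κ, hκ, hder⟩ := deriv_jFun
  refine ⟨κ, hκ, fun z => ?_⟩
  have h4 := (jd_analyticAt_E₄ z).differentiableAt.hasDerivAt
  have hΔ := (jd_analyticAt_discriminant z).differentiableAt.hasDerivAt
  have hne := jd_discriminant_comp_ne_zero z
  have hd : HasDerivAt jFun
      ((((3 : ℕ) : ℂ) * (⇑E₄ ∘ ofComplex) (z : ℂ) ^ (3 - 1) * deriv (⇑E₄ ∘ ofComplex) (z : ℂ)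
          * ((ModularForm.discriminant : ℍ → ℂ) ∘ ofComplex) (z : ℂ)
        - (⇑E₄ ∘ ofComplex) (z : ℂ) ^ 3 * deriv ((ModularForm.discriminant : ℍ → ℂ) ∘ ofComplex) (z : ℂ))
        / ((ModularForm.discriminant : ℍ → ℂ) ∘ ofComplex) (z : ℂ) ^ 2) (z : ℂ) :=
    (h4.pow 3).div hΔ hne
  have e := hd.deriv
  rw [hder z] at e
  have hΔ0 := ModularForm.discriminant_ne_zero z
  simp only [Function.comp_apply, ofComplex_apply] at hne e ⊢
  field_simp at e
  push_cast at e
  linear_combination -e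

theorem ue_differentiableOn_cusp {F : Type*} [FunLike F ℍ ℂ] {k : ℤ} [ModularFormClass F 𝒮ℒ k]
    (f : F) : DifferentiableOn ℂ (cuspFunction 1 f) (Metric.ball 0 1) := fun _ hq =>
  (ModularFormClass.differentiableAt_cuspFunction f one_pos one_mem_strictPeriods_SL
    (mem_ball_zero_iff.mp hq)).differentiableWithinAt

theorem ue_analyticAt_cusp {F : Type*} [FunLike F ℍ ℂ] {k : ℤ} [ModularFormClass F 𝒮ℒ k]
    (f : F) {q : ℂ} (hq : q ∈ Metric.ball (0 : ℂ) 1) : AnalyticAt ℂ (cuspFunction 1 f) q :=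
  (ue_differentiableOn_cusp f).analyticAt (Metric.isOpen_ball.mem_nhds hq)

/-- The identity on the unit disc. -/
theorem ue_base_disc : ∃ c : ℂ, c ≠ 0 ∧ ∀ q ∈ Metric.ball (0 : ℂ) 1,
    q * (deriv (cuspFunction 1 E₄ ^ 3) q * cuspFunction 1 CuspForm.discriminant q
        - cuspFunction 1 E₄ q ^ 3 * deriv (cuspFunction 1 CuspForm.discriminant) q)
      = c * (cuspFunction 1 E₄ q ^ 2 * cuspFunction 1 E₆ q
          * cuspFunction 1 CuspForm.discriminant q) := by
  obtain ⟨κ, hκ, hz⟩ := ue_ramanujan_z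
  have h2pi : (2 * π * Complex.I : ℂ) ≠ 0 := Complex.two_pi_I_ne_zero
  refine ⟨κ / (2 * π * Complex.I), div_ne_zero hκ h2pi, fun q hq => ?_⟩
  have hq1 : ‖q‖ < 1 := mem_ball_zero_iff.mp hq
  rcases eq_or_ne q 0 with rfl | hq0
  · have h0 : cuspFunction 1 CuspForm.discriminant 0 = 0 :=
      CuspFormClass.cuspFunction_apply_zero CuspForm.discriminant one_pos one_mem_strictPeriods_SL
    rw [h0]
    ring
  · -- `q = 𝕢 z`
    have him : 0 < (Periodic.invQParam 1 q).im :=
      Periodic.im_invQParam_pos_of_norm_lt_one one_pos hq1 hq0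
    set z : ℍ := ⟨Periodic.invQParam 1 q, him⟩ with hzdef
    have hqz : 𝕢 1 (z : ℂ) = q := Periodic.qParam_right_inv one_ne_zero hq0
    have e4 : cuspFunction 1 E₄ q = E₄ z := by
      rw [← hqz]
      exact SlashInvariantFormClass.eq_cuspFunction (h := 1) E₄ z one_mem_strictPeriods_SL
        one_ne_zero
    have e6 : cuspFunction 1 E₆ q = E₆ z := by
      rw [← hqz]
      exact SlashInvariantFormClass.eq_cuspFunction (h := 1) E₆ z one_mem_strictPeriods_SL
        one_ne_zero
    have eΔ : cuspFunction 1 CuspForm.discriminant q = ModularForm.discriminant z := by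
      rw [← hqz]
      exact SlashInvariantFormClass.eq_cuspFunction (h := 1) CuspForm.discriminant z
        one_mem_strictPeriods_SL one_ne_zero
    have d4 := ue_deriv_comp_ofComplex E₄ z
    have dΔ := ue_deriv_comp_ofComplex CuspForm.discriminant z
    rw [hqz] at d4 dΔ
    have hd4 : DifferentiableAt ℂ (cuspFunction 1 E₄) q :=
      ModularFormClass.differentiableAt_cuspFunction E₄ one_pos one_mem_strictPeriods_SL hq1
    have hpow : deriv (cuspFunction 1 E₄ ^ 3) q
        = 3 * cuspFunction 1 E₄ q ^ 2 * deriv (cuspFunction 1 E₄) q := by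
      have := (hd4.hasDerivAt.pow 3).deriv
      simpa using this
    have hzz := hz z
    have dΔ' : deriv ((ModularForm.discriminant : ℍ → ℂ) ∘ ofComplex) (z : ℂ)
        = deriv (cuspFunction 1 CuspForm.discriminant) q * (2 * π * Complex.I * q) := dΔ
    rw [d4, dΔ'] at hzz
    rw [hpow, e4, e6, eΔ]
    field_simp
    linear_combination hzz

/-- The formal identity `X (d(E₄³) Δ - E₄³ dΔ) = c E₄² E₆ Δ`. -/
theorem ue_base_identity : ∃ c : ℂ, c ≠ 0 ∧
    PowerSeries.X * (PowerSeries.derivative ℂ (qExpansion 1 E₄ ^ 3)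
          * qExpansion 1 ModularForm.discriminant
        - qExpansion 1 E₄ ^ 3 * PowerSeries.derivative ℂ (qExpansion 1 ModularForm.discriminant))
      = PowerSeries.C c * (qExpansion 1 E₄ ^ 2 * qExpansion 1 E₆
          * qExpansion 1 ModularForm.discriminant) := by
  obtain ⟨c, hc, hdisc⟩ := ue_base_disc
  refine ⟨c, hc, ?_⟩
  have h0 : (0 : ℂ) ∈ Metric.ball (0 : ℂ) 1 := Metric.mem_ball_self one_pos
  have hnhds : Metric.ball (0 : ℂ) 1 ∈ 𝓝 (0 : ℂ) := Metric.isOpen_ball.mem_nhds h0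
  have ha : AnalyticAt ℂ (cuspFunction 1 E₄) 0 := ue_analyticAt_cusp E₄ h0
  have hb : AnalyticAt ℂ (cuspFunction 1 E₆) 0 := ue_analyticAt_cusp E₆ h0
  have hd : AnalyticAt ℂ (cuspFunction 1 CuspForm.discriminant) 0 :=
    ue_analyticAt_cusp CuspForm.discriminant h0
  have ha3 : AnalyticAt ℂ (cuspFunction 1 E₄ ^ 3) 0 := ha.pow 3
  have hL : taylorPS ((fun q : ℂ => q) * (deriv (cuspFunction 1 E₄ ^ 3)
        * cuspFunction 1 CuspForm.discriminant
      - cuspFunction 1 E₄ ^ 3 * deriv (cuspFunction 1 CuspForm.discriminant)))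
      = taylorPS (fun q : ℂ => c * ((cuspFunction 1 E₄ ^ 2 * cuspFunction 1 E₆
          * cuspFunction 1 CuspForm.discriminant) q)) := by
    apply taylorPS_congr
    filter_upwards [hnhds] with q hq
    simpa using hdisc q hq
  have hid : AnalyticAt ℂ (fun q : ℂ => q) 0 := analyticAt_id
  rw [taylorPS_mul hid ((ha3.deriv.mul hd).sub (ha3.mul hd.deriv)), ue_taylorPS_id,
    taylorPS_sub (ha3.deriv.mul hd) (ha3.mul hd.deriv), taylorPS_mul ha3.deriv hd,
    taylorPS_mul ha3 hd.deriv, ue_taylorPS_deriv, ue_taylorPS_deriv, taylorPS_pow ha,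
    ue_taylorPS_const_mul, taylorPS_mul ((ha.pow 2).mul hb) hd, taylorPS_mul (ha.pow 2) hb,
    taylorPS_pow ha] at hL
  exact hL

/-! ### The formal part -/

/-- `Δ / q = ∏ (1 - qⁿ)²⁴` as a power series over `ℂ`. -/
def ueD : PowerSeries ℂ := dedekindEtaUnit.map (Int.castRingHom ℂ)

/-- `(Δ / q)⁻¹` as a power series over `ℂ` (integer coefficients). -/
def ueDinv : PowerSeries ℂ := dedekindEtaUnitInv.map (Int.castRingHom ℂ)

theorem ueD_mul_ueDinv : ueD * ueDinv = 1 := by
  rw [ueD, ueDinv, ← map_mul, dedekindEtaUnit_mul_inv, map_one]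

theorem qExpansion_discriminant_eq_X_mul :
    qExpansion 1 ModularForm.discriminant = PowerSeries.X * ueD := by
  rw [Fermat.Agent.S28lib.qExpansion_discriminant_eq, Fermat.Agent.S28lib.deltaPS, map_mul,
    PowerSeries.map_X, ueD]

/-- The key formal computation: if `X (dΦ · XD - Φ · d(XD)) = c E · XD` and `D · D' = 1`, then the
coefficient of `X^(n+1)` in `Φⁿ E D'^(n+1)` vanishes. -/
theorem ue_formal (Φ E D D' : PowerSeries ℂ) (c : ℂ) (hc : c ≠ 0) (hD : D * D' = 1)
    (h : PowerSeries.X * (PowerSeries.derivative ℂ Φ * (PowerSeries.X * D)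
        - Φ * PowerSeries.derivative ℂ (PowerSeries.X * D))
      = PowerSeries.C c * (E * (PowerSeries.X * D))) (n : ℕ) :
    PowerSeries.coeff (n + 1) (Φ ^ n * E * D' ^ (n + 1)) = 0 := by
  set d := PowerSeries.derivative ℂ with hd
  have hdX : d (PowerSeries.X * D) = D + PowerSeries.X * d D := by
    rw [Derivation.leibniz, hd, PowerSeries.derivative_X]
    simp only [smul_eq_mul]
    ring
  -- cancel `X`
  have h1 : d Φ * (PowerSeries.X * D) - Φ * (D + PowerSeries.X * d D)
      = PowerSeries.C c * (E * D) := by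
    have hX : (PowerSeries.X : PowerSeries ℂ) ≠ 0 := PowerSeries.X_ne_zero
    apply mul_left_cancel₀ hX
    rw [← hdX, h]
    ring
  -- `d D'`
  have hdD' : d D' = -(D' ^ 2 * d D) := by
    have e := congrArg d hD
    rw [Derivation.leibniz, Derivation.map_one_eq_zero] at e
    simp only [smul_eq_mul] at e
    linear_combination D' * e - d D' * hD
  -- `u = Φ D'`
  set u := Φ * D' with hu
  have hu1 : PowerSeries.X * d u - u = PowerSeries.C c * (E * D') := by
    have e1 : d u = d Φ * D' + Φ * d D' := by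
      rw [hu, Derivation.leibniz]
      simp only [smul_eq_mul]
      ring
    rw [e1, hdD']
    linear_combination D' ^ 2 * h1
      - (PowerSeries.X * d Φ * D' - Φ * D' - PowerSeries.C c * E * D') * hD
  have key : PowerSeries.X * d (u ^ (n + 1)) - ((n + 1 : ℕ) : PowerSeries ℂ) * u ^ (n + 1)
      = PowerSeries.C (((n + 1 : ℕ) : ℂ) * c) * (Φ ^ n * E * D' ^ (n + 1)) := by
    have hC : (PowerSeries.C (((n + 1 : ℕ) : ℂ) * c) : PowerSeries ℂ)
        = ((n + 1 : ℕ) : PowerSeries ℂ) * PowerSeries.C c := by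
      rw [map_mul]
      simp
    have hun : u ^ n = Φ ^ n * D' ^ n := by rw [hu, mul_pow]
    rw [Derivation.leibniz_pow, Nat.add_sub_cancel, nsmul_eq_mul, smul_eq_mul, hC]
    linear_combination ((n + 1 : ℕ) : PowerSeries ℂ) * u ^ n * hu1
      + ((n + 1 : ℕ) : PowerSeries ℂ) * PowerSeries.C c * E * D' * hun
  have hco := congrArg (PowerSeries.coeff (n + 1)) key
  rw [map_sub, PowerSeries.coeff_succ_X_mul, PowerSeries.coeff_derivative, PowerSeries.coeff_C_mul,
    ← nsmul_eq_mul, map_nsmul, nsmul_eq_mul] at hco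
  have h0 : ((n + 1 : ℕ) : ℂ) * c * PowerSeries.coeff (n + 1) (Φ ^ n * E * D' ^ (n + 1)) = 0 := by
    rw [← hco]
    push_cast
    ring
  have hne : ((n + 1 : ℕ) : ℂ) * c ≠ 0 :=
    mul_ne_zero (by exact_mod_cast Nat.succ_ne_zero n) hc
  exact (mul_eq_zero.mp h0).resolve_left hne

/-- The coefficient of `q^(n+1)` of `E₄^(3n) E₄² E₆ / (Δ/q)^(n+1)` vanishes. -/
theorem ue_key (n : ℕ) :
    PowerSeries.coeff (n + 1) ((qExpansion 1 E₄ ^ 3) ^ n * (qExpansion 1 E₄ ^ 2 * qExpansion 1 E₆)
      * ueDinv ^ (n + 1)) = 0 := by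
  obtain ⟨c, hc, h⟩ := ue_base_identity
  rw [qExpansion_discriminant_eq_X_mul] at h
  exact ue_formal _ _ ueD ueDinv c hc ueD_mul_ueDinv h n

/-! ### The level-one residue lemma -/

theorem ue_coeff_zero_E₄ : PowerSeries.coeff 0 (qExpansion 1 E₄) = 1 :=
  E_qExpansion_coeff_zero (by norm_num) ⟨2, rfl⟩

theorem ue_coeff_zero_E₆ : PowerSeries.coeff 0 (qExpansion 1 E₆) = 1 :=
  E_qExpansion_coeff_zero (by norm_num) ⟨3, rfl⟩

/-- **Level-one residue lemma**: for `T ∈ M_{12 m + 2}(SL₂(ℤ))` the weakly holomorphic form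
`T / Δ^m` of weight `2` has constant term `0`. -/
theorem ue_levelOne (m : ℕ) : ∀ (k : ℤ) (_ : k = 12 * (m : ℤ) + 2) (T : ModularForm 𝒮ℒ k),
    PowerSeries.coeff m (qExpansion 1 T * ueDinv ^ m) = 0 := by
  induction m with
  | zero =>
    intro k hk T
    have hT : T = 0 := uc_levelOne_weight_two k (by simpa using hk) T
    have : (⇑T : ℍ → ℂ) = 0 := by rw [hT]; rfl
    rw [this, UpperHalfPlane.qExpansion_zero]
    simp
  | succ n ih =>
    intro k hk T
    have hkE : ((n : ℤ) * (((3 : ℕ) : ℤ) * 4) + (((2 : ℕ) : ℤ) * 4 + 6)) = k := by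
      rw [hk]; push_cast; ring
    let E : ModularForm 𝒮ℒ k :=
      ModularForm.mcast hkE (((E₄.pow 3).pow n).mul ((E₄.pow 2).mul E₆))
    have hE : qExpansion 1 E
        = (qExpansion 1 E₄ ^ 3) ^ n * (qExpansion 1 E₄ ^ 2 * qExpansion 1 E₆) := by
      show qExpansion 1 (((E₄.pow 3).pow n).mul ((E₄.pow 2).mul E₆)) = _
      rw [ModularForm.qExpansion_mul one_pos one_mem_strictPeriods_SL,
        ModularForm.qExpansion_mul one_pos one_mem_strictPeriods_SL,
        ModularForm.qExpansion_pow one_pos one_mem_strictPeriods_SL,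
        ModularForm.qExpansion_pow one_pos one_mem_strictPeriods_SL,
        ModularForm.qExpansion_pow one_pos one_mem_strictPeriods_SL]
    have hE0 : PowerSeries.coeff 0 (qExpansion 1 E) = 1 := by
      rw [hE]
      simp only [PowerSeries.coeff_zero_eq_constantCoeff, map_mul, map_pow]
      rw [← PowerSeries.coeff_zero_eq_constantCoeff_apply,
        ← PowerSeries.coeff_zero_eq_constantCoeff_apply, ue_coeff_zero_E₄, ue_coeff_zero_E₆]
      simp
    set a₀ : ℂ := PowerSeries.coeff 0 (qExpansion 1 T) with ha₀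
    let T₁ : ModularForm 𝒮ℒ k := T - a₀ • E
    have hT₁ : qExpansion 1 T₁ = qExpansion 1 T - a₀ • qExpansion 1 E := by
      show qExpansion 1 (⇑T - ⇑(a₀ • E)) = _
      rw [ModularForm.qExpansion_sub one_pos one_mem_strictPeriods_SL T (a₀ • E)]
      congr 1
      exact ModularForm.qExpansion_smul one_pos one_mem_strictPeriods_SL a₀ E
    have h0 : PowerSeries.coeff 0 (qExpansion 1 T₁) = 0 := by
      rw [hT₁, map_sub, PowerSeries.coeff_smul, hE0]
      simp [ha₀]
    have hdiv := ModularForm.qExpansion_eq_qExpansion_discriminant_mul T₁ h0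
    have ih' := ih (k - 12) (by rw [hk]; push_cast; ring)
      (CuspForm.discriminantEquiv (ModularForm.toCuspForm T₁ h0))
    have hT : qExpansion 1 T = qExpansion 1 T₁ + a₀ • qExpansion 1 E := by
      rw [hT₁]; ring
    rw [hT, add_mul, map_add, smul_mul_assoc, PowerSeries.coeff_smul, hE, ue_key n, smul_zero,
      add_zero, hdiv, qExpansion_discriminant_eq_X_mul]
    have e : PowerSeries.X * ueD *
          qExpansion 1 (CuspForm.discriminantEquiv (ModularForm.toCuspForm T₁ h0))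
          * ueDinv ^ (n + 1)
        = PowerSeries.X *
          (qExpansion 1 (CuspForm.discriminantEquiv (ModularForm.toCuspForm T₁ h0))
            * ueDinv ^ n) := by
      rw [pow_succ]
      linear_combination (PowerSeries.X *
          qExpansion 1 (CuspForm.discriminantEquiv (ModularForm.toCuspForm T₁ h0))
            * ueDinv ^ n) * ueD_mul_ueDinv
    rw [e, PowerSeries.coeff_succ_X_mul]
    exact ih'

end Fermat.Agent.S16lib

end
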