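/-
S16 library, U-E / UE-R (helper11): two small algebraic inputs for `uer_exists_phi`.
* `uer_isIntegral_toFF` : integrality over `ℚ[j]` in `modularFunctionFieldFull N` is transported by
  `toFF N` to integrality over `ℚ̄[j]` in `FF N`;
* `uer_D_jF_ne_zero` : `D j ≠ 0` in `Ω[FF N / ℚ̄]`.
No sorry.
-/
import Mathlib
import Fermat.Prelude.Def_ModularCurve_IgusaScheme
import Fermat.Agent.S28lib.Sig
import Fermat.Agent.S28lib.IntAlg
import Fermat.Agent.RRlib.Modular

set_option autoImplicit false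

open Fermat.Agent.S24lib Fermat.Agent.S28lib ModularCurve ModularCurve.IgusaScheme

namespace Fermat.Agent.S16lib

/-- `toFF` sends rational constants to constants. -/
theorem uer_toFF_algebraMap (N : ℕ) [NeZero N] (c : ℚ) :
    toFF N (algebraMap ℚ ↥(modularFunctionFieldFull N) c) =
      algebraMap Kbar (FF N) (algebraMap ℚ Kbar c) := by
  rw [eq_ratCast (algebraMap ℚ ↥(modularFunctionFieldFull N)) c, eq_ratCast (algebraMap ℚ Kbar) c,
    map_ratCast, map_ratCast]

/-- `toFF` sends `j` to `j`. -/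
theorem uer_toFF_jFull (N : ℕ) [NeZero N] : toFF N (jFull N) = jF N :=
  Subtype.ext rfl

/-- The two ring homomorphisms `ℚ[X] → FF N` agree. -/
theorem uer_toFF_comp_aeval (N : ℕ) [NeZero N] :
    (toFF N).comp (Polynomial.aeval (R := ℚ) (jFull N)).toRingHom =
      ((Polynomial.aeval (R := Kbar) (jF N)).toRingHom).comp
        (Polynomial.mapRingHom (algebraMap ℚ Kbar)) := by
  apply Polynomial.ringHom_ext
  · intro c
    simp only [RingHom.comp_apply, AlgHom.toRingHom_eq_coe, RingHom.coe_coe,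
      Polynomial.aeval_C, Polynomial.coe_mapRingHom, Polynomial.map_C]
    exact uer_toFF_algebraMap N c
  · simp only [RingHom.comp_apply, AlgHom.toRingHom_eq_coe, RingHom.coe_coe,
      Polynomial.aeval_X, Polynomial.coe_mapRingHom, Polynomial.map_X]
    exact uer_toFF_jFull N

/-- Integrality over `ℚ[j]` is transported by `toFF` to integrality over `ℚ̄[j]`. -/
theorem uer_isIntegral_toFF (N : ℕ) [NeZero N] (x : ↥(modularFunctionFieldFull N))
    (h : IsIntegral ↥(Algebra.adjoin ℚ ({jFull N} : Set ↥(modularFunctionFieldFull N))) x) :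
    IsIntegral ↥(Algebra.adjoin Kbar ({jF N} : Set (FF N))) (toFF N x) := by
  rw [isIntegral_adjoin_singleton_iff] at h ⊢
  have h1 := isIntegralElem_map_of (toFF N) h
  rw [uer_toFF_comp_aeval] at h1
  obtain ⟨p, hp, hpx⟩ := h1
  refine ⟨p.map (Polynomial.mapRingHom (algebraMap ℚ Kbar)), hp.map _, ?_⟩
  rw [Polynomial.eval₂_map]
  exact hpx

set_option synthInstance.maxHeartbeats 400000 in
/-- `D j ≠ 0` in `Ω[FF N / ℚ̄]`. -/
theorem uer_D_jF_ne_zero (N : ℕ) [NeZero N] : KaehlerDifferential.D Kbar (FF N) (jF N) ≠ 0 := by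
  intro h0
  have := fin_ffData N
  have hspan : Submodule.span (FF N) {KaehlerDifferential.D Kbar (FF N) (jF N)} = ⊤ :=
    ffSpan_D_eq_top_of_transcendental (x := jF N) (fin_ffData N).trans
  rw [h0] at hspan
  have hnt := Fermat.Agent.RRlib.mod_nontrivial_kaehler N
  obtain ⟨ω, ω', hω⟩ := hnt
  have h1 : ω ∈ Submodule.span (FF N) {(0 : Ω[FF N⁄Kbar])} := by rw [hspan]; trivial
  have h2 : ω' ∈ Submodule.span (FF N) {(0 : Ω[FF N⁄Kbar])} := by rw [hspan]; trivial
  rw [Submodule.span_zero_singleton, Submodule.mem_bot] at h1 h2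
  exact hω (h1.trans h2.symm)

end Fermat.Agent.S16lib
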